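import Mathlib
import Fermat.Agent.S24.LevelOnePoly
import Fermat.Agent.S24.LevelOneUnit
import Fermat.Agent.S24.LevelForms
import Fermat.Agent.S24.CombNumerics

/-!
# S28, block A, step (A1.a+b) (coset method): the pointwise modular equation of prime level

For a prime `p` there is a monic `Φ ∈ ℂ[Y][X]` of degree `p + 1` in `X` with
`Φ(X, j z) = (X - j(p z)) ∏_{b < p} (X - j((z + b)/p))` for all `z ∈ ℍ`.

Method: `j(p ·) = A / B` with `A B` modular forms on `Γ₀(p)`; S24 `CosetPoly.exists_poly_coeff`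
shows that the coefficients of `∏_{q ∈ SL₂(ℤ)/Γ₀(p)} (X - (A/B)(q⁻¹ z))` are polynomials in `j z`;
the `p + 1` cosets are enumerated explicitly by `1` and `(S T^b)⁻¹`, `b < p`
(injective by the lower left entry mod `p`, and `[SL₂(ℤ) : Γ₀(p)] = ψ(p) = p + 1`).

The export `exists_modPoly_pointwise` is exactly the hypothesis shape of
`ModPolyTransfer.modEq_of_pointwise`.
-/

set_option autoImplicit false

open UpperHalfPlane ModularForm MatrixGroups CongruenceSubgroup Polynomial SlashInvariantForm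
open Fermat.Agent.S24 Fermat.Agent.S24.CosetPoly Fermat.Agent.S24.LevelForms

namespace Fermat.Agent.S28.ModPolyCoset

/-- the element of `𝒮ℒ` attached to `g : SL(2,ℤ)` -/
noncomputable def toSL (g : SL(2, ℤ)) : 𝒮ℒ := ⟨Matrix.SpecialLinearGroup.mapGL ℝ g, ⟨g, rfl⟩⟩

lemma toSL_inv_mul (g g' : SL(2, ℤ)) : (toSL g)⁻¹ * toSL g' = toSL (g⁻¹ * g') := by
  apply Subtype.ext
  simp [toSL]

lemma gq_mk {𝒢 : Subgroup (GL (Fin 2) ℝ)} {k : ℤ} (A B : ModularForm 𝒢 k) (g : SL(2, ℤ)) (z : ℍ) :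
    gq A B (QuotientGroup.mk (toSL g) : 𝒮ℒ ⧸ (𝒢.subgroupOf 𝒮ℒ)) z
      = A (g⁻¹ • z) / B (g⁻¹ • z) := by
  show quotientFunc A ⟦toSL g⟧ z / quotientFunc B ⟦toSL g⟧ z = _
  rw [quotientFunc_mk, quotientFunc_mk]
  have h1 : ((toSL g : 𝒮ℒ) : GL (Fin 2) ℝ)⁻¹ = Matrix.SpecialLinearGroup.mapGL ℝ g⁻¹ := by
    rw [map_inv]; rfl
  rw [h1]
  show ((⇑A : ℍ → ℂ) ∣[k] (g⁻¹ : SL(2, ℤ))) z / ((⇑B : ℍ → ℂ) ∣[k] (g⁻¹ : SL(2, ℤ))) z = _
  rw [ModularForm.SL_slash_apply, ModularForm.SL_slash_apply]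
  have hd : denom (g⁻¹ : SL(2, ℤ)) z ^ (-k) ≠ 0 := zpow_ne_zero _ (denom_ne_zero _ z)
  rw [mul_div_mul_right _ _ hd]

/-- membership in the image of `Γ` in `𝒮ℒ`. -/
lemma toSL_mem_subgroupOf (Γ : Subgroup SL(2, ℤ)) (g : SL(2, ℤ)) :
    toSL g ∈ ((Γ : Subgroup (GL (Fin 2) ℝ)).subgroupOf 𝒮ℒ) ↔ g ∈ Γ := by
  rw [Subgroup.mem_subgroupOf]
  constructor
  · rintro ⟨γ, hγ, hγg⟩
    have : γ = g := Matrix.SpecialLinearGroup.mapGL_injective hγg
    rwa [← this]
  · intro hg
    exact ⟨g, hg, rfl⟩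

lemma mk_toSL_eq_iff (Γ : Subgroup SL(2, ℤ)) (g g' : SL(2, ℤ)) :
    (QuotientGroup.mk (toSL g) : 𝒮ℒ ⧸ ((Γ : Subgroup (GL (Fin 2) ℝ)).subgroupOf 𝒮ℒ))
      = QuotientGroup.mk (toSL g') ↔ g⁻¹ * g' ∈ Γ := by
  rw [QuotientGroup.eq, toSL_inv_mul, toSL_mem_subgroupOf]

/-- inverse coset representatives: `1` and `S T^b`. -/
noncomputable def repInv (p : ℕ) : Option (Fin p) → SL(2, ℤ)
  | none => 1
  | some b => ModularGroup.S * ModularGroup.T ^ ((b : ℕ) : ℤ)

lemma S_mul_T_zpow_coe (n : ℤ) :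
    ((ModularGroup.S * ModularGroup.T ^ n : SL(2, ℤ)) : Matrix (Fin 2) (Fin 2) ℤ)
      = !![0, -1; 1, n] := by
  rw [Matrix.SpecialLinearGroup.coe_mul, ModularGroup.coe_S, ModularGroup.coe_T_zpow]
  ext i j
  fin_cases i <;> fin_cases j <;> simp [Matrix.mul_apply, Fin.sum_univ_two]

lemma S_mul_T_zpow_mul_inv_entry (m n : ℤ) :
    ((ModularGroup.S * ModularGroup.T ^ m) * (ModularGroup.S * ModularGroup.T ^ n)⁻¹ : SL(2, ℤ)) 1 0
      = n - m := by
  have h : ((ModularGroup.S * ModularGroup.T ^ m) * (ModularGroup.S * ModularGroup.T ^ n)⁻¹ : SL(2, ℤ))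
      = ModularGroup.S * ModularGroup.T ^ (m - n) * ModularGroup.S⁻¹ := by
    rw [zpow_sub]; group
  rw [h]
  show ((ModularGroup.S * ModularGroup.T ^ (m - n) * ModularGroup.S⁻¹ : SL(2, ℤ)) :
    Matrix (Fin 2) (Fin 2) ℤ) 1 0 = _
  rw [Matrix.SpecialLinearGroup.coe_mul, S_mul_T_zpow_coe, Matrix.SpecialLinearGroup.coe_inv,
    ModularGroup.coe_S, Matrix.adjugate_fin_two_of]
  simp [Matrix.mul_apply, Fin.sum_univ_two]

lemma dedekindPsi_prime {p : ℕ} (hp : p.Prime) : ModularCurve.dedekindPsi p = p + 1 := by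
  rw [ModularCurve.dedekindPsi, hp.divisors]
  have h1 : (1 : ℕ) ≠ p := hp.one_lt.ne
  rw [Finset.filter_true_of_mem, Finset.sum_pair h1, Nat.div_one, Nat.div_self hp.pos]
  intro d hd
  rcases Finset.mem_insert.mp hd with rfl | hd
  · exact squarefree_one
  · rw [Finset.mem_singleton] at hd
    rw [hd]; exact hp.prime.squarefree

variable (p : ℕ)

/-- the image of `Γ₀(p)` in `GL₂(ℝ)`. -/
abbrev GammaP (p : ℕ) : Subgroup (GL (Fin 2) ℝ) :=
  ((Gamma0 p : Subgroup SL(2, ℤ)) : Subgroup (GL (Fin 2) ℝ))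

/-- the coset space `𝒮ℒ ⧸ Γ₀(p)`. -/
abbrev Quo (p : ℕ) : Type := 𝒮ℒ ⧸ ((GammaP p).subgroupOf 𝒮ℒ)

local notation "𝒬p" => Quo p

lemma card_quot [Fact p.Prime] : Nat.card 𝒬p = p + 1 := by
  have hp : p.Prime := Fact.out
  have : NeZero p := ⟨hp.ne_zero⟩
  rw [card_quotient_eq_index, ← dedekindPsi_prime hp]
  exact Comb.card_X0 p

/-- the enumeration of the cosets. -/
noncomputable def cosetOf (o : Option (Fin p)) : 𝒬p :=
  QuotientGroup.mk (toSL (repInv p o)⁻¹)

lemma not_mem_Gamma0_S_mul_T [Fact p.Prime] (n : ℤ) :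
    ModularGroup.S * ModularGroup.T ^ n ∉ Gamma0 p := by
  have hp : p.Prime := Fact.out
  rw [Gamma0_mem]
  show (((ModularGroup.S * ModularGroup.T ^ n : SL(2, ℤ)) : Matrix (Fin 2) (Fin 2) ℤ) 1 0 : ZMod p) ≠ 0
  rw [S_mul_T_zpow_coe]
  simp only [Matrix.of_apply, Matrix.cons_val', Matrix.cons_val_zero, Matrix.cons_val_one,
    Matrix.cons_val_fin_one, Int.cast_one]
  have : Fact (1 < p) := ⟨hp.one_lt⟩
  exact one_ne_zero

lemma cosetOf_injective [Fact p.Prime] : Function.Injective (cosetOf p) := by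
  have hp : p.Prime := Fact.out
  intro o o' h
  unfold cosetOf at h
  rw [mk_toSL_eq_iff, inv_inv] at h
  rcases o with _ | b <;> rcases o' with _ | b'
  · rfl
  · exfalso
    simp only [repInv, one_mul] at h
    exact not_mem_Gamma0_S_mul_T p _ (inv_mem_iff.mp h)
  · exfalso
    simp only [repInv, inv_one, mul_one] at h
    exact not_mem_Gamma0_S_mul_T p _ h
  · simp only [repInv] at h
    rw [Gamma0_mem, S_mul_T_zpow_mul_inv_entry, ZMod.intCast_zmod_eq_zero_iff_dvd] at h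
    have hb : ((b' : ℕ) : ℤ) = ((b : ℕ) : ℤ) := by
      have h1 : ((b' : ℕ) : ℤ) < p := by exact_mod_cast b'.2
      have h2 : ((b : ℕ) : ℤ) < p := by exact_mod_cast b.2
      have h3 : (0 : ℤ) ≤ ((b' : ℕ) : ℤ) := Int.natCast_nonneg _
      have h4 : (0 : ℤ) ≤ ((b : ℕ) : ℤ) := Int.natCast_nonneg _
      obtain ⟨c, hc⟩ := h
      have hp0 : (0 : ℤ) < p := by exact_mod_cast hp.pos
      have hc0 : c = 0 := by
        by_contra hne
        rcases lt_or_gt_of_ne hne with hlt | hgt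
        · have : (p : ℤ) * c ≤ (p : ℤ) * (-1) := by
            apply mul_le_mul_of_nonneg_left _ hp0.le
            omega
          omega
        · have : (p : ℤ) * 1 ≤ (p : ℤ) * c := by
            apply mul_le_mul_of_nonneg_left _ hp0.le
            omega
          omega
      rw [hc0, mul_zero] at hc
      omega
    have : (b : ℕ) = (b' : ℕ) := by exact_mod_cast hb.symm
    rw [Fin.ext this]

lemma cosetOf_bijective [Fact p.Prime] : Function.Bijective (cosetOf p) := by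
  apply (cosetOf_injective p).bijective_of_nat_card_le
  rw [card_quot, Nat.card_eq_fintype_card, Fintype.card_option, Fintype.card_fin]

/-- the enumeration as an equivalence. -/
noncomputable def cosetEquiv [Fact p.Prime] : Option (Fin p) ≃ 𝒬p :=
  Equiv.ofBijective (cosetOf p) (cosetOf_bijective p)

theorem polyInput' : CosetPoly.PolyInput := fun r X => LevelOnePoly.exists_poly_jFun r X

theorem unitInput' : CosetPoly.UnitInput := fun Y hY =>
  LevelOneUnit.eq_const_mul_discriminant_pow Y hY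

/-- `j(p · (S T^b z)) = j((z+b)/p)`. -/
lemma jD_S_mul_T_smul {p : ℕ} (hp : 0 < p) (b : ℕ) (z w : ℍ)
    (hw : (w : ℂ) = ((z : ℂ) + b) / p) :
    jD p ((ModularGroup.S * ModularGroup.T ^ ((b : ℕ) : ℤ)) • z) = jFun w := by
  have hp0 : (p : ℂ) ≠ 0 := by exact_mod_cast hp.ne'
  have hzb : (z : ℂ) + b ≠ 0 := by
    intro h
    have := congrArg Complex.im h
    simp only [Complex.add_im, Complex.natCast_im, add_zero, Complex.zero_im] at this
    exact z.im_pos.ne' this
  rw [← jFun_smul ModularGroup.S w]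
  apply jD_eq hp
  rw [mul_smul, UpperHalfPlane.modular_S_smul, UpperHalfPlane.modular_S_smul]
  show (-(w : ℂ))⁻¹ = (p : ℂ) * (-((ModularGroup.T ^ ((b : ℕ) : ℤ) • z : ℍ) : ℂ))⁻¹
  rw [ModularGroup.coe_T_zpow_smul_eq, hw]
  push_cast
  field_simp


variable (p : ℕ) [Fact p.Prime]

/-- **Pointwise modular equation of prime level `p`** (step (A1.a+b) of block A). -/
theorem exists_modPoly_pointwise_jFun :
    ∃ Φ : Polynomial (Polynomial ℂ), Φ.Monic ∧ Φ.natDegree = p + 1 ∧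
      ∀ (z w : ℍ) (wb : ℕ → ℍ), (w : ℂ) = p * z →
        (∀ b < p, (wb b : ℂ) = ((z : ℂ) + b) / p) →
        Φ.map (Polynomial.evalRingHom (jFun z)) =
          (X - C (jFun w)) * ∏ b ∈ Finset.range p, (X - C (jFun (wb b))) := by
  classical
  have hp : p.Prime := Fact.out
  have : NeZero p := ⟨hp.ne_zero⟩
  obtain ⟨k, A, B, hB, hAB⟩ := (jD_mem_ratioAlg (N := p) hp.pos dvd_rfl : IsRatio p (jD p))
  choose E hE using exists_poly_coeff A B polyInput' unitInput' hB
  set n := p + 1 with hn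
  set R : Polynomial (Polynomial ℂ) := ∑ m ∈ Finset.range n, C (E m) * X ^ m with hR
  have hRdeg : R.degree < n := by
    refine (degree_sum_le _ _).trans_lt ?_
    rw [Finset.sup_lt_iff (by exact_mod_cast WithBot.bot_lt_coe n)]
    intro m hm
    refine (degree_C_mul_X_pow_le m (E m)).trans_lt ?_
    exact_mod_cast Finset.mem_range.mp hm
  refine ⟨X ^ n + R, monic_X_pow_add hRdeg, ?_, fun z w wb hw hwb => ?_⟩
  · rw [natDegree_add_eq_left_of_degree_lt (by rwa [degree_X_pow]), natDegree_X_pow]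
  · have hmon := cosetPolyAt_monic A B z
    have hdeg : (cosetPolyAt A B z).natDegree = n := by
      rw [cosetPolyAt_natDegree]; exact card_quot p
    have h1 : (X ^ n + R).map (Polynomial.evalRingHom (jFun z)) = cosetPolyAt A B z := by
      conv_rhs => rw [hmon.as_sum, hdeg]
      rw [hR, Polynomial.map_add, Polynomial.map_pow, Polynomial.map_X, Polynomial.map_sum]
      congr 1
      refine Finset.sum_congr rfl fun m _ => ?_
      rw [Polynomial.map_mul, Polynomial.map_pow, Polynomial.map_X, Polynomial.map_C,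
        coe_evalRingHom, hE]
    rw [h1]
    have h2 : cosetPolyAt A B z =
        ∏ o : Option (Fin p), (X - C (gq A B (cosetEquiv p o) z)) := by
      unfold cosetPolyAt
      let : Fintype (Quo p) := Fintype.ofFinite _
      exact (Fintype.prod_equiv (cosetEquiv p) _ _ (fun _ => rfl)).symm
    rw [h2, Fintype.prod_option]
    have hval : ∀ o : Option (Fin p), gq A B (cosetEquiv p o) z = jD p (repInv p o • z) := by
      intro o
      show gq A B (QuotientGroup.mk (toSL (repInv p o)⁻¹)) z = _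
      rw [gq_mk, inv_inv, ← hAB]
    congr 1
    · rw [hval none]
      show X - C (jD p ((1 : SL(2, ℤ)) • z)) = _
      rw [one_smul, jD_eq hp.pos hw]
    · rw [← Fin.prod_univ_eq_prod_range (fun b => X - C (jFun (wb b))) p]
      refine Finset.prod_congr rfl fun b _ => ?_
      rw [hval (some b)]
      show X - C (jD p ((ModularGroup.S * ModularGroup.T ^ ((b : ℕ) : ℤ)) • z)) = _
      rw [jD_S_mul_T_smul hp.pos (b : ℕ) z (wb b) (hwb b b.2)]

/-- The same, in the exact shape consumed by `ModPolyTransfer.modEq_of_pointwise`. -/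
theorem exists_modPoly_pointwise :
    ∃ Φ : Polynomial (Polynomial ℂ), Φ.Monic ∧ Φ.natDegree = p + 1 ∧
      ∀ (z w : ℍ) (wb : ℕ → ℍ), (w : ℂ) = p * z →
        (∀ b < p, (wb b : ℂ) = ((z : ℂ) + b) / p) →
        Φ.map (Polynomial.evalRingHom (E₄ z ^ 3 / ModularForm.discriminant z)) =
          (X - C (E₄ w ^ 3 / ModularForm.discriminant w)) *
            ∏ b ∈ Finset.range p, (X - C (E₄ (wb b) ^ 3 / ModularForm.discriminant (wb b))) :=
  exists_modPoly_pointwise_jFun p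

end Fermat.Agent.S28.ModPolyCoset
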