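import Mathlib
import Fermat.Prelude.Def_ModularCurve_X0

/-!
# S28, block H (m = 2), computational part (helper9)

First `13` coefficients of the two "Hauptmodul" identities at level `2`, as identities between
formal power series over `ℤ`.  With `E = eisenstein4`, `P = etaProd`, `P₂ = P(X²)`, `E₂ = E(X²)`:

* `coeff_D1 : n < 13 → coeff n (E ^ 3 * P₂ ^ 24 * P ^ 24) = coeff n ((P ^ 24 + 256 * X * P₂ ^ 24) ^ 3)`
* `coeff_D2 : n < 13 → coeff n (E₂ ^ 3 * P₂ ^ 24 * P ^ 24) = coeff n ((P ^ 24 + 16 * X * P₂ ^ 24) ^ 3)`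

The computation is done on lists of length `13` (truncated arithmetic), certified against
`PowerSeries` arithmetic by the predicate `Approx`, and evaluated by the kernel.
-/

set_option autoImplicit false

namespace Fermat.Agent.S28.Haupt2Coeff

open PowerSeries

/-- The list of the first `13` values of a function. -/
def ofFn13 (F : ℕ → ℤ) : List ℤ := (List.range 13).map F

lemma getD_ofFn13 (F : ℕ → ℤ) {n : ℕ} (hn : n < 13) : (ofFn13 F).getD n 0 = F n := by
  unfold ofFn13
  rw [List.getD_eq_getElem _ _ (by simpa using hn)]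
  simp

/-- `Approx f a`: the first `13` coefficients of `f` are the entries of the list `a`. -/
def Approx (f : PowerSeries ℤ) (a : List ℤ) : Prop := ∀ n < 13, coeff n f = a.getD n 0

lemma Approx.congr_list {f : PowerSeries ℤ} {a b : List ℤ} (h : Approx f a) (e : a = b) :
    Approx f b := e ▸ h

lemma Approx.coeff_eq {f g : PowerSeries ℤ} {a : List ℤ} (hf : Approx f a) (hg : Approx g a)
    {n : ℕ} (hn : n < 13) : coeff n f = coeff n g := by
  rw [hf n hn, hg n hn]

/-! ### Truncated operations -/

/-- Truncated product. -/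
def mulT (a b : List ℤ) : List ℤ :=
  ofFn13 fun n => ((List.range (n + 1)).map fun i => a.getD i 0 * b.getD (n - i) 0).sum

/-- Truncated sum. -/
def addT (a b : List ℤ) : List ℤ := ofFn13 fun n => a.getD n 0 + b.getD n 0

/-- Constant series. -/
def constT (c : ℤ) : List ℤ := ofFn13 fun n => if n = 0 then c else 0

/-- The series `X`. -/
def XT : List ℤ := ofFn13 fun n => if n = 1 then 1 else 0

/-- Truncated power. -/
def powT (a : List ℤ) : ℕ → List ℤ
  | 0 => constT 1
  | k + 1 => mulT (powT a k) a

/-- Truncated substitution `X ↦ X²`. -/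
def expand2T (a : List ℤ) : List ℤ := ofFn13 fun n => if 2 ∣ n then a.getD (n / 2) 0 else 0

/-- The series `1 - X ^ k`. -/
def oneSubXPowT (k : ℕ) : List ℤ :=
  ofFn13 fun n => (if n = 0 then 1 else 0) - (if n = k then 1 else 0)

lemma list_sum_map_range (F : ℕ → ℤ) (n : ℕ) :
    ((List.range n).map F).sum = ∑ i ∈ Finset.range n, F i := by
  induction n with
  | zero => simp
  | succ n ih =>
    rw [List.range_succ, List.map_append, List.sum_append, ih, Finset.sum_range_succ]; simp

lemma Approx.mul {f g : PowerSeries ℤ} {a b : List ℤ} (hf : Approx f a) (hg : Approx g b) :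
    Approx (f * g) (mulT a b) := by
  intro n hn
  rw [mulT, getD_ofFn13 _ hn, list_sum_map_range, coeff_mul,
    Finset.Nat.sum_antidiagonal_eq_sum_range_succ_mk]
  refine Finset.sum_congr rfl fun i hi => ?_
  have hi' : i < n + 1 := Finset.mem_range.mp hi
  rw [hf i (by omega), hg (n - i) (by omega)]

lemma Approx.add {f g : PowerSeries ℤ} {a b : List ℤ} (hf : Approx f a) (hg : Approx g b) :
    Approx (f + g) (addT a b) := by
  intro n hn
  rw [addT, getD_ofFn13 _ hn, map_add, hf n hn, hg n hn]

lemma approx_C (c : ℤ) : Approx (C c) (constT c) := by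
  intro n hn
  rw [constT, getD_ofFn13 _ hn, coeff_C]

lemma approx_one : Approx 1 (constT 1) := by
  have := approx_C 1
  rwa [map_one] at this

lemma approx_X : Approx X XT := by
  intro n hn
  rw [XT, getD_ofFn13 _ hn, coeff_X]

lemma Approx.pow {f : PowerSeries ℤ} {a : List ℤ} (hf : Approx f a) (k : ℕ) :
    Approx (f ^ k) (powT a k) := by
  induction k with
  | zero => rw [pow_zero]; exact approx_one
  | succ k ih => rw [pow_succ]; exact ih.mul hf

lemma Approx.expand2 {f : PowerSeries ℤ} {a : List ℤ} (hf : Approx f a) :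
    Approx (expand 2 two_ne_zero f) (expand2T a) := by
  intro n hn
  rw [expand2T, getD_ofFn13 _ hn, coeff_expand]
  split_ifs with h
  · exact hf _ (by omega)
  · rfl

lemma approx_oneSubXPow (k : ℕ) : Approx (1 - X ^ k) (oneSubXPowT k) := by
  intro n hn
  rw [oneSubXPowT, getD_ofFn13 _ hn, map_sub, coeff_one, coeff_X_pow]

/-! ### The base series -/

/-- The first `13` coefficients of `E₄`. -/
def LE : List ℤ :=
  [1, 240, 2160, 6720, 17520, 30240, 60480, 82560, 140400, 181680, 272160, 319680, 490560]

lemma approx_E : Approx ModularCurve.eisenstein4 LE := by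
  have h : Approx ModularCurve.eisenstein4
      (ofFn13 fun n => if n = 0 then 1 else 240 * ∑ d ∈ n.divisors, (d : ℤ) ^ 3) := by
    intro n hn
    rw [getD_ofFn13 _ hn, ModularCurve.eisenstein4, coeff_mk]
  exact h.congr_list (by decide +kernel)

/-- Truncation of the finite product `∏_{i < k} (1 - X^(i+1))`. -/
def prodT : ℕ → List ℤ
  | 0 => constT 1
  | k + 1 => mulT (prodT k) (oneSubXPowT (k + 1))

lemma approx_prod (k : ℕ) :
    Approx (∏ i ∈ Finset.range k, ((1 : PowerSeries ℤ) - X ^ (i + 1))) (prodT k) := by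
  induction k with
  | zero => rw [Finset.prod_range_zero]; exact approx_one
  | succ k ih => rw [Finset.prod_range_succ]; exact ih.mul (approx_oneSubXPow _)

lemma coeff_prod_range_eq {n k : ℕ} (hn : n < 13) (hk : 12 ≤ k) :
    coeff n (∏ i ∈ Finset.range k, ((1 : PowerSeries ℤ) - X ^ (i + 1))) =
      coeff n (∏ i ∈ Finset.range 12, ((1 : PowerSeries ℤ) - X ^ (i + 1))) := by
  induction k, hk using Nat.le_induction with
  | base => rfl
  | succ k hk ih =>
    rw [Finset.prod_range_succ, mul_sub, mul_one, map_sub, ih, coeff_mul_X_pow',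
      if_neg (by omega), sub_zero]

open scoped PowerSeries.WithPiTopology in
lemma coeff_etaProd {n : ℕ} (hn : n < 13) :
    coeff n ModularCurve.etaProd =
      coeff n (∏ i ∈ Finset.range 12, ((1 : PowerSeries ℤ) - X ^ (i + 1))) := by
  have h1 := (PowerSeries.WithPiTopology.multipliable_one_sub_X_pow ℤ).hasProd.tendsto_prod_nat
  have h2 := ((PowerSeries.WithPiTopology.continuous_coeff ℤ n).tendsto _).comp h1
  have h3 : Filter.Tendsto (fun k : ℕ =>
      coeff n (∏ i ∈ Finset.range k, ((1 : PowerSeries ℤ) - X ^ (i + 1)))) Filter.atTop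
      (nhds (coeff n (∏ i ∈ Finset.range 12, ((1 : PowerSeries ℤ) - X ^ (i + 1))))) := by
    refine tendsto_atTop_of_eventually_const (i₀ := 12) fun k hk => ?_
    exact coeff_prod_range_eq hn hk
  exact tendsto_nhds_unique h2 h3

/-- The first `13` coefficients of `∏ (1 - Xⁿ)`. -/
def LP : List ℤ := [1, -1, -1, 0, 0, 1, 0, 1, 0, 0, 0, 0, -1]

lemma approx_P : Approx ModularCurve.etaProd LP := by
  have h : Approx ModularCurve.etaProd (prodT 12) := by
    intro n hn
    rw [coeff_etaProd hn]
    exact approx_prod 12 n hn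
  exact h.congr_list (by decide +kernel)

/-! ### The two identities, truncated -/

def LP24 : List ℤ :=
  [1, -24, 252, -1472, 4830, -6048, -16744, 84480, -113643, -115920, 534612, -370944, -577738]

def LQ24 : List ℤ := [1, 0, -24, 0, 252, 0, -1472, 0, 4830, 0, -6048, 0, -16744]

def LE3 : List ℤ :=
  [1, 720, 179280, 16954560, 396974160, 4632858720, 34413301440, 187477879680, 814940600400,
    2975469665040, 9486467837280, 27053330840640, 70485969919680]

def LE23 : List ℤ :=
  [1, 0, 720, 0, 179280, 0, 16954560, 0, 396974160, 0, 4632858720, 0, 34413301440]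

def LD1 : List ℤ :=
  [1, 696, 162228, 12815104, 30294474, -1190188608, -1613013192, 49897552896, 8336028459,
    -1141020749792, 655881703668, 15704496582144, -11700122581074]

def LD2 : List ℤ :=
  [1, -24, 948, -18176, 342474, -4924608, 57064248, -550923264, 4039713579, -20631557792,
    66915367668, -93128295936, -290992074834]

local notation "E" => ModularCurve.eisenstein4
local notation "P" => ModularCurve.etaProd
local notation "P₂" => expand 2 two_ne_zero ModularCurve.etaProd
local notation "E₂" => expand 2 two_ne_zero ModularCurve.eisenstein4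

lemma approx_P24 : Approx (P ^ 24) LP24 := (approx_P.pow 24).congr_list (by decide +kernel)

lemma approx_Q24 : Approx (P₂ ^ 24) LQ24 :=
  (approx_P.expand2.pow 24).congr_list (by decide +kernel)

lemma approx_E3 : Approx (E ^ 3) LE3 := (approx_E.pow 3).congr_list (by decide +kernel)

lemma approx_E23 : Approx (E₂ ^ 3) LE23 :=
  (approx_E.expand2.pow 3).congr_list (by decide +kernel)

lemma approx_L1 : Approx (E ^ 3 * P₂ ^ 24 * P ^ 24) LD1 :=
  ((approx_E3.mul approx_Q24).mul approx_P24).congr_list (by decide +kernel)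

lemma approx_R1 : Approx ((P ^ 24 + C 256 * X * P₂ ^ 24) ^ 3) LD1 :=
  ((approx_P24.add (((approx_C 256).mul approx_X).mul approx_Q24)).pow 3).congr_list
    (by decide +kernel)

lemma approx_L2 : Approx (E₂ ^ 3 * P₂ ^ 24 * P ^ 24) LD2 :=
  ((approx_E23.mul approx_Q24).mul approx_P24).congr_list (by decide +kernel)

lemma approx_R2 : Approx ((P ^ 24 + C 16 * X * P₂ ^ 24) ^ 3) LD2 :=
  ((approx_P24.add (((approx_C 16).mul approx_X).mul approx_Q24)).pow 3).congr_list
    (by decide +kernel)

/-- First Hauptmodul identity at level `2`, first `13` coefficients. -/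
theorem coeff_D1 {n : ℕ} (hn : n < 13) :
    coeff n (E ^ 3 * P₂ ^ 24 * P ^ 24) = coeff n ((P ^ 24 + C 256 * X * P₂ ^ 24) ^ 3) :=
  approx_L1.coeff_eq approx_R1 hn

/-- Second Hauptmodul identity at level `2`, first `13` coefficients. -/
theorem coeff_D2 {n : ℕ} (hn : n < 13) :
    coeff n (E₂ ^ 3 * P₂ ^ 24 * P ^ 24) = coeff n ((P ^ 24 + C 16 * X * P₂ ^ 24) ^ 3) :=
  approx_L2.coeff_eq approx_R2 hn

end Fermat.Agent.S28.Haupt2Coeff
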