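import Mathlib
import Fermat.Prelude.Thm_ModularForm_sturm_bound_Gamma0
import Fermat.Prelude.Thm_CongruenceSubgroup_one_mem_strictPeriods_Gamma0
import Fermat.Agent.S07
import Fermat.Agent.S24.JQExpansion
import Fermat.Agent.S24.LevelForms
import Fermat.Agent.S28.Haupt2Coeff

/-!
# S28, block H (m = 2), modular part (helper9)

The two "Hauptmodul" identities at level `2` as identities of formal power series over `ℤ`:
with `E = eisenstein4`, `P = etaProd`, `P₂ = P(X²)`, `E₂ = E(X²)`:

* `main1 : E ^ 3 * P₂ ^ 24 * P ^ 24 = (P ^ 24 + C 256 * X * P₂ ^ 24) ^ 3`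
* `main2 : E₂ ^ 3 * P₂ ^ 24 * P ^ 24 = (P ^ 24 + C 16 * X * P₂ ^ 24) ^ 3`

Proof: both sides (times `X ^ 3`) are `q`-expansions of modular forms of weight `36` on `Γ₀(2)`;
the Prelude's Sturm bound reduces the identity to the first `13` coefficients (`Haupt2Coeff`).
-/

set_option autoImplicit false
set_option maxHeartbeats 400000

namespace Fermat.Agent.S28.Haupt2Sturm

open UpperHalfPlane ModularForm MatrixGroups CongruenceSubgroup PowerSeries
open Fermat.Agent.S24.LevelForms Fermat.Agent.S24.JQExpansion Fermat.Agent.S24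

local notation "Γ₂" => ((Gamma0 2 : Subgroup SL(2, ℤ)) : Subgroup (GL (Fin 2) ℝ))
local notation "ι" => Int.castRingHom ℂ
local notation "𝕢" => Function.Periodic.qParam

lemma one_mem_strictPeriods : (1 : ℝ) ∈ (Γ₂).strictPeriods :=
  CongruenceSubgroup.one_mem_strictPeriods_Gamma0 2

section scale

variable {F : Type*} [FunLike F ℍ ℂ] {k : ℤ} [ModularFormClass F 𝒮ℒ k]

/-- The `q`-expansion of `f(d z)` is the `q`-expansion of `f` with `X` replaced by `X ^ d`. -/
theorem qExpansion_scaleForm (d : ℕ) [NeZero d] (hd : d ∣ 2) (f : F) :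
    qExpansion 1 (scaleForm 2 d hd f) = expand d (NeZero.ne d) (qExpansion 1 f) := by
  have hdpos : 0 < d := Nat.pos_of_ne_zero (NeZero.ne d)
  ext n
  rw [coeff_expand]
  refine (ModularFormClass.qExpansion_coeff_unique (f := scaleForm 2 d hd f) one_pos
    one_mem_strictPeriods (c := fun n => if d ∣ n then (qExpansion 1 f).coeff (n / d) else 0)
    ?_ n).symm
  intro τ
  have h1 := ModularForm.hasSum_qExpansion (f := f) one_pos one_mem_strictPeriods_SL (scaleH d τ)
  have hq : 𝕢 1 ((scaleH d τ : ℍ) : ℂ) = 𝕢 1 (τ : ℂ) ^ d := by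
    rw [coe_scaleH hdpos, qParam_natCast_mul]
  rw [hq, ← scaleForm_apply 2 d hd f τ] at h1
  have hinj : Function.Injective (fun m : ℕ => d * m) :=
    fun a b h => Nat.eq_of_mul_eq_mul_left hdpos h
  rw [← hinj.hasSum_iff]
  · convert h1 using 2 with m
    simp only [Function.comp_apply, dvd_mul_right, if_true, Nat.mul_div_cancel_left _ hdpos,
      smul_eq_mul, pow_mul]
  · intro n hn
    have : ¬ d ∣ n := by
      rintro ⟨m, rfl⟩
      exact hn ⟨m, rfl⟩
    simp [this]

end scale

/-! ### The forms -/

/-- `E₄(z)` on `Γ₀(2)`. -/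
noncomputable def e4 : ModularForm Γ₂ 4 := scaleForm 2 1 (one_dvd 2) E₄

/-- `E₄(2z)` on `Γ₀(2)`. -/
noncomputable def e4' : ModularForm Γ₂ 4 := scaleForm 2 2 dvd_rfl E₄

/-- `Δ(z)` on `Γ₀(2)`. -/
noncomputable def d1 : ModularForm Γ₂ 12 := scaleForm 2 1 (one_dvd 2) CuspForm.discriminant

/-- `Δ(2z)` on `Γ₀(2)`. -/
noncomputable def d2 : ModularForm Γ₂ 12 := scaleForm 2 2 dvd_rfl CuspForm.discriminant

local notation "E" => PowerSeries.map ι ModularCurve.eisenstein4
local notation "P" => PowerSeries.map ι ModularCurve.etaProd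
local notation "P₂" => PowerSeries.map ι (expand 2 two_ne_zero ModularCurve.etaProd)
local notation "E₂" => PowerSeries.map ι (expand 2 two_ne_zero ModularCurve.eisenstein4)

lemma qExpansion_e4 : qExpansion 1 e4 = E := by
  rw [e4, qExpansion_scaleForm, expand_one_apply, qExpansion_E4]

lemma qExpansion_e4' : qExpansion 1 e4' = E₂ := by
  rw [e4', qExpansion_scaleForm, qExpansion_E4, map_expand]

lemma qExpansion_d1 : qExpansion 1 d1 = X * P ^ 24 := by
  rw [d1, qExpansion_scaleForm, expand_one_apply]
  show qExpansion 1 ModularForm.discriminant = _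
  rw [qExpansion_discriminant, ModularCurve.dedekindEtaUnit, map_pow]

lemma qExpansion_d2 : qExpansion 1 d2 = X ^ 2 * P₂ ^ 24 := by
  rw [d2, qExpansion_scaleForm]
  show expand 2 _ (qExpansion 1 ModularForm.discriminant) = _
  rw [qExpansion_discriminant, ModularCurve.dedekindEtaUnit, map_pow, map_mul, map_pow,
    expand_X, map_expand]

/-! ### Sturm bound at level 2, weight 36 -/

/-- A modular form of weight `36` on `Γ₀(2)` whose first `13` coefficients vanish is zero. -/
lemma eq_zero_of_coeff (f : ModularForm Γ₂ 36)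
    (h : ∀ n : ℕ, n < 13 → (qExpansion 1 f).coeff n = 0) : f = 0 := by
  refine ModularForm.sturm_bound_Gamma0 2 f fun n hn => h n ?_
  have hidx := Fermat.Agent.S07.index_Gamma0_two_le
  have : ((36 : ℤ) * ((Gamma0 2).index : ℤ)).toNat / 12 ≤ 12 := by omega
  omega

/-- Sturm + injectivity of `ℤ → ℂ`: two integral power series `L`, `R` such that
`X ^ 3 * L` and `X ^ 3 * R` are the `q`-expansions of weight-`36` forms on `Γ₀(2)` and whose
first `13` coefficients agree are equal. -/
lemma eq_of_forms (A B : ModularForm Γ₂ 36) (L R : PowerSeries ℤ)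
    (hA : qExpansion 1 A = X ^ 3 * PowerSeries.map ι L)
    (hB : qExpansion 1 B = X ^ 3 * PowerSeries.map ι R)
    (h : ∀ n : ℕ, n < 13 → coeff n L = coeff n R) : L = R := by
  have h0 : A - B = 0 := by
    refine eq_zero_of_coeff _ fun n hn => ?_
    rw [FunLike.coe_sub, ModularForm.qExpansion_sub one_pos one_mem_strictPeriods, hA, hB,
      map_sub,
      coeff_X_pow_mul', coeff_X_pow_mul']
    split_ifs with h3
    · rw [coeff_map, coeff_map, h (n - 3) (by omega), sub_self]
    · rw [sub_self]
  have h1 : qExpansion 1 A = qExpansion 1 B := by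
    rw [sub_eq_zero.mp h0]
  ext n
  have h2 := congrArg (coeff (n + 3)) h1
  rw [hA, hB, coeff_X_pow_mul', coeff_X_pow_mul', if_pos (by omega), Nat.add_sub_cancel,
    coeff_map, coeff_map] at h2
  exact Int.cast_injective h2

/-! ### The two identities -/

/-- First Hauptmodul identity at level `2` (`j · h = (1 + 256 h)³` in disguise). -/
theorem main1 :
    ModularCurve.eisenstein4 ^ 3 * (expand 2 two_ne_zero ModularCurve.etaProd) ^ 24 *
        ModularCurve.etaProd ^ 24 =
      (ModularCurve.etaProd ^ 24 +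
        C 256 * X * (expand 2 two_ne_zero ModularCurve.etaProd) ^ 24) ^ 3 := by
  refine eq_of_forms
    (ModularForm.mcast (by norm_num) (((e4.pow 3).mul d2).mul d1))
    (ModularForm.mcast (by norm_num) ((d1 + (256 : ℂ) • d2).pow 3)) _ _ ?_ ?_
    (fun n hn => Haupt2Coeff.coeff_D1 hn)
  · rw [ModularForm.qExpansion_mcast, ModularForm.qExpansion_mul one_pos one_mem_strictPeriods,
      ModularForm.qExpansion_mul one_pos one_mem_strictPeriods,
      ModularForm.qExpansion_pow one_pos one_mem_strictPeriods, qExpansion_e4, qExpansion_d1,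
      qExpansion_d2]
    simp only [map_mul, map_pow]
    ring
  · rw [ModularForm.qExpansion_mcast, ModularForm.qExpansion_pow one_pos one_mem_strictPeriods,
      FunLike.coe_add, ModularForm.qExpansion_add one_pos one_mem_strictPeriods,
      FunLike.coe_smul, ModularForm.qExpansion_smul one_pos one_mem_strictPeriods,
      qExpansion_d1, qExpansion_d2]
    simp only [map_mul, map_pow, map_add, map_X, map_C, smul_eq_C_mul]
    simp
    ring

/-- Second Hauptmodul identity at level `2` (`j(q²) · h² = (1 + 16 h)³` in disguise). -/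
theorem main2 :
    (expand 2 two_ne_zero ModularCurve.eisenstein4) ^ 3 *
        (expand 2 two_ne_zero ModularCurve.etaProd) ^ 24 * ModularCurve.etaProd ^ 24 =
      (ModularCurve.etaProd ^ 24 +
        C 16 * X * (expand 2 two_ne_zero ModularCurve.etaProd) ^ 24) ^ 3 := by
  refine eq_of_forms
    (ModularForm.mcast (by norm_num) (((e4'.pow 3).mul d2).mul d1))
    (ModularForm.mcast (by norm_num) ((d1 + (16 : ℂ) • d2).pow 3)) _ _ ?_ ?_
    (fun n hn => Haupt2Coeff.coeff_D2 hn)
  · rw [ModularForm.qExpansion_mcast, ModularForm.qExpansion_mul one_pos one_mem_strictPeriods,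
      ModularForm.qExpansion_mul one_pos one_mem_strictPeriods,
      ModularForm.qExpansion_pow one_pos one_mem_strictPeriods, qExpansion_e4', qExpansion_d1,
      qExpansion_d2]
    simp only [map_mul, map_pow]
    ring
  · rw [ModularForm.qExpansion_mcast, ModularForm.qExpansion_pow one_pos one_mem_strictPeriods,
      FunLike.coe_add, ModularForm.qExpansion_add one_pos one_mem_strictPeriods,
      FunLike.coe_smul, ModularForm.qExpansion_smul one_pos one_mem_strictPeriods,
      qExpansion_d1, qExpansion_d2]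
    simp only [map_mul, map_pow, map_add, map_X, map_C, smul_eq_C_mul]
    simp
    ring

end Fermat.Agent.S28.Haupt2Sturm
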