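import Mathlib
import Fermat.Agent.S24.DegreeFinal
import Fermat.Agent.S20.LinIndepBaseChange
import Fermat.Prelude.Def_ModularCurve_IgusaScheme

/-!
# S28, connector between S24 and block D: `[F : ℚ(j)] ≤ ψ(N)` over `ℚ`

`F = modularFunctionFieldFull N = ℚ(j(q^d) : d ∣ N) ⊆ ℚ((q))`.  S24 computes the degree of the
base change `FBar N = ℚ̄ · F` over `ℚ̄(j)`.  Here we descend the upper bound to `ℚ` by linear
disjointness of `ℚ((q))` and `ℚ̄` over `ℚ` (coefficientwise): a `ℚ(j)`-linearly independent family
in `F` stays `ℚ̄(j)`-linearly independent in `FBar N`.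
-/

set_option autoImplicit false

open IntermediateField Polynomial ModularCurve

namespace Fermat.Agent.S28.DegreeQ

open scoped IntermediateField.algebraAdjoinAdjoin

/-! ### Generic: independence over `k[t]` versus independence of the `tᵃ xᵢ` over `k` -/

section Generic

variable {k E : Type*} [Field k] [Field E] [Algebra k E] {ι : Type*}

/-- If the products `tᵃ xᵢ` are `k`-linearly independent, the `xᵢ` are linearly independent over
the subalgebra `k[t]`. -/
theorem linearIndependent_adjoin_of_pow_mul (t : E) (x : ι → E)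
    (h : LinearIndependent k (fun p : ℕ × ι => t ^ p.1 * x p.2)) :
    LinearIndependent (Algebra.adjoin k {t}) x := by
  classical
  rw [linearIndependent_iff']
  intro s g hg i hi
  have hmem : ∀ j, ∃ P : k[X], aeval t P = (g j : E) := by
    intro j
    have : (g j : E) ∈ (aeval (R := k) t).range := by
      rw [← Algebra.adjoin_singleton_eq_range_aeval]
      exact (g j).2
    exact this
  choose P hP using hmem
  set d : ℕ := (s.sup fun j => (P j).natDegree) + 1 with hd
  have hdeg : ∀ j ∈ s, (P j).natDegree < d := fun j hj =>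
    Nat.lt_succ_of_le (Finset.le_sup (f := fun j => (P j).natDegree) hj)
  have hexp : ∀ j ∈ s, (g j : E) = ∑ a ∈ Finset.range d, (P j).coeff a • t ^ a := by
    intro j hj
    rw [← hP j, aeval_eq_sum_range' (hdeg j hj)]
  have hsum : ∑ p ∈ Finset.range d ×ˢ s, (P p.2).coeff p.1 • (t ^ p.1 * x p.2) = 0 := by
    rw [Finset.sum_product_right]
    rw [← hg]
    refine Finset.sum_congr rfl fun j hj => ?_
    rw [Subalgebra.smul_def, hexp j hj, smul_eq_mul, Finset.sum_mul]
    refine Finset.sum_congr rfl fun a _ => ?_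
    rw [smul_mul_assoc]
  have hzero := (linearIndependent_iff'.mp h) (Finset.range d ×ˢ s)
    (fun p => (P p.2).coeff p.1) hsum
  have hPi : P i = 0 := by
    ext a
    by_cases ha : a < d
    · simpa using hzero (a, i) (Finset.mem_product.mpr ⟨Finset.mem_range.mpr ha, hi⟩)
    · rw [coeff_eq_zero_of_natDegree_lt (lt_of_lt_of_le (hdeg i hi) (not_lt.mp ha)), coeff_zero]
  apply Subtype.ext
  rw [← hP i, hPi, map_zero]
  rfl

/-- If `t` is transcendental over `k` and the `xᵢ` are linearly independent over `k[t]`, the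
products `tᵃ xᵢ` are `k`-linearly independent. -/
theorem linearIndependent_pow_mul_of_adjoin {t : E} (ht : Transcendental k t) (x : ι → E)
    (h : LinearIndependent (Algebra.adjoin k {t}) x) :
    LinearIndependent k (fun p : ℕ × ι => t ^ p.1 * x p.2) := by
  set T : Algebra.adjoin k {t} := ⟨t, Algebra.self_mem_adjoin_singleton k t⟩ with hT
  have hb : LinearIndependent k (fun a : ℕ => T ^ a) := by
    have hinj : Function.Injective (aeval (R := k) T) := by
      intro P Q hPQ
      have h1 : aeval t P = aeval t Q := by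
        have := congrArg (Subalgebra.val (Algebra.adjoin k {t})) hPQ
        rwa [← aeval_algHom_apply, ← aeval_algHom_apply] at this
      exact (transcendental_iff_injective.mp ht) h1
    have h2 : LinearIndependent k (fun a : ℕ =>
        (aeval (R := k) T).toLinearMap ((Polynomial.basisMonomials k) a)) :=
      (Polynomial.basisMonomials k).linearIndependent.map' _ (LinearMap.ker_eq_bot.mpr hinj)
    have h3 : (fun a : ℕ => (aeval (R := k) T).toLinearMap ((Polynomial.basisMonomials k) a))
        = fun a => T ^ a := by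
      funext a
      simp [Polynomial.coe_basisMonomials]
    rw [h3] at h2
    exact h2
  have := linearIndependent_smul hb h
  have h4 : (fun p : ℕ × ι => t ^ p.1 * x p.2) = fun p : ℕ × ι => T ^ p.1 • x p.2 := by
    funext p
    rw [Subalgebra.smul_def, smul_eq_mul, SubmonoidClass.coe_pow]
  rw [h4]
  exact this

end Generic

/-! ### The modular function field over `ℚ` -/

section Modular

open Fermat.Agent.S24

/-- Coefficientwise base change commutes with evaluating a rational polynomial. -/
theorem coeffEmb_aeval (y : LaurentSeries ℚ) (P : ℚ[X]) :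
    coeffEmb Kbar (aeval y P) = aeval (coeffEmb Kbar y) (P.map (algebraMap ℚ Kbar)) := by
  rw [aeval_def, aeval_def, hom_eval₂, eval₂_map]
  congr 1
  exact RingHom.ext_rat _ _

/-- `j` is transcendental over `ℚ` (as a Laurent series). -/
theorem transcendental_jq : Transcendental ℚ (jq : LaurentSeries ℚ) := by
  intro halg
  obtain ⟨P, hP0, hP⟩ := halg
  apply DegreeFinal.transcendental 1
  refine ⟨P.map (algebraMap ℚ Kbar), (Polynomial.map_ne_zero_iff
    (algebraMap ℚ Kbar).injective).mpr hP0, ?_⟩
  apply Subtype.ext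
  rw [← IntermediateField.aeval_coe]
  show aeval (coeffEmb Kbar jq) (P.map (algebraMap ℚ Kbar)) = 0
  rw [← coeffEmb_aeval, hP, map_zero]

variable (N : ℕ) [NeZero N]

/-- The function field of `X₀(N)` over `ℚ`, as a type. -/
abbrev FQ : Type := ↥(modularFunctionFieldFull N)

/-- The embedding `F → FBar N`, `x ↦ x` with coefficients viewed in `ℚ̄`. -/
noncomputable def toBar (x : FQ N) : FBar N :=
  ⟨coeffEmb Kbar (x : LaurentSeries ℚ), coeffEmb_mem_laurentBaseChange Kbar x.2⟩

omit [NeZero N] in
theorem coe_toBar (x : FQ N) : ((toBar N x : FBar N) : LaurentSeries Kbar)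
    = coeffEmb Kbar (x : LaurentSeries ℚ) := rfl

theorem toBar_jFull : toBar N (IgusaScheme.jFull N) = jBar N := rfl

/-- `j` is transcendental over `ℚ` (as an element of `F`). -/
theorem transcendental_jFull : Transcendental ℚ (IgusaScheme.jFull N) := by
  intro halg
  obtain ⟨P, hP0, hP⟩ := halg
  apply transcendental_jq
  refine ⟨P, hP0, ?_⟩
  have h := congrArg (algebraMap (FQ N) (LaurentSeries ℚ)) hP
  rw [aeval_def, hom_eval₂, map_zero] at h
  rw [aeval_def]
  have h2 : (algebraMap (FQ N) (LaurentSeries ℚ)).comp (algebraMap ℚ (FQ N))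
      = algebraMap ℚ (LaurentSeries ℚ) := RingHom.ext_rat _ _
  rw [h2] at h
  exact h

/-- The inclusion `F → ℚ((q))` as a `ℚ`-linear map (for the canonical `ℚ`-module structures). -/
noncomputable def valQ : FQ N →ₗ[ℚ] LaurentSeries ℚ :=
  (algebraMap (FQ N) (LaurentSeries ℚ)).toAddMonoidHom.toRatLinearMap

omit [NeZero N] in
theorem valQ_apply (x : FQ N) : valQ N x = (x : LaurentSeries ℚ) := rfl

omit [NeZero N] in
theorem valQ_injective : Function.Injective (valQ N) := fun _ _ h => Subtype.ext h

/-- The inclusion `FBar N → ℚ̄((q))` as a `ℚ̄`-linear map (for the coefficientwise module structure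
on Laurent series). -/
noncomputable def valBar : FBar N →ₗ[Kbar] LaurentSeries Kbar where
  toFun x := (x : LaurentSeries Kbar)
  map_add' _ _ := rfl
  map_smul' c x := by
    show ((c • x : FBar N) : LaurentSeries Kbar) = c • (x : LaurentSeries Kbar)
    rw [Algebra.smul_def, MulMemClass.coe_mul]
    show algebraMap Kbar (LaurentSeries Kbar) c * (x : LaurentSeries Kbar) = _
    rw [algebraMap_laurentSeries_eq_single, ← HahnSeries.C_apply, HahnSeries.C_mul_eq_smul]

omit [NeZero N] in
theorem valBar_apply (x : FBar N) : valBar N x = (x : LaurentSeries Kbar) := rfl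

/-- **Linear disjointness.**  A `ℚ(j)`-linearly independent family in `F` has a
`ℚ̄(j)`-linearly independent image in `FBar N`. -/
theorem linearIndependent_toBar {ι : Type*} (x : ι → FQ N)
    (hx : LinearIndependent ℚ⟮IgusaScheme.jFull N⟯ x) :
    LinearIndependent Kbar⟮jBar N⟯ (fun i => toBar N (x i)) := by
  -- down to `ℚ[j]`
  have hx' : LinearIndependent (Algebra.adjoin ℚ {IgusaScheme.jFull N}) x :=
    (LinearIndependent.iff_fractionRing (R := Algebra.adjoin ℚ {IgusaScheme.jFull N})
      (K := ℚ⟮IgusaScheme.jFull N⟯)).mpr hx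
  -- to `ℚ`-independence of the products `jᵃ xᵢ`
  have h1 := linearIndependent_pow_mul_of_adjoin (transcendental_jFull N) x hx'
  -- into `ℚ((q))`
  have h2 := h1.map' (valQ N) (LinearMap.ker_eq_bot.mpr (valQ_injective N))
  -- coefficientwise base change to `ℚ̄((q))`
  have h3 := Fermat.Agent.S20.LinIndepBaseChange.laurent (algebraMap ℚ Kbar) _ h2
  -- back into `FBar N`
  have h4 : LinearIndependent Kbar (fun p : ℕ × ι => jBar N ^ p.1 * toBar N (x p.2)) := by
    refine LinearIndependent.of_comp (valBar N) ?_
    have heq : (⇑(valBar N) ∘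
        fun p : ℕ × ι => jBar N ^ p.1 * toBar N (x p.2))
        = fun p : ℕ × ι => coeffMap (algebraMap ℚ Kbar)
            ((⇑(valQ N) ∘ fun p : ℕ × ι => IgusaScheme.jFull N ^ p.1 * x p.2) p) := by
      funext p
      show ((jBar N ^ p.1 * toBar N (x p.2) : FBar N) : LaurentSeries Kbar) =
        coeffEmb Kbar ((IgusaScheme.jFull N ^ p.1 * x p.2 : FQ N) : LaurentSeries ℚ)
      rw [MulMemClass.coe_mul, SubmonoidClass.coe_pow, coe_toBar, MulMemClass.coe_mul,
        SubmonoidClass.coe_pow, map_mul, map_pow]
      rfl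
    rw [heq]
    exact h3
  -- up to `ℚ̄[j]` and then `ℚ̄(j)`
  have h5 := linearIndependent_adjoin_of_pow_mul (jBar N) (fun i => toBar N (x i)) h4
  exact (LinearIndependent.iff_fractionRing (R := Algebra.adjoin Kbar {jBar N})
    (K := Kbar⟮jBar N⟯)).mp h5

/-- **The degree over `ℚ`.**  `F` is finite over `ℚ(j)` of degree at most `ψ(N)`. -/
theorem finrank_le : FiniteDimensional ℚ⟮IgusaScheme.jFull N⟯ (FQ N) ∧
    Module.finrank ℚ⟮IgusaScheme.jFull N⟯ (FQ N) ≤ dedekindPsi N := by
  have hfd := DegreeFinal.finiteDimensional N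
  have hrank : Module.rank ℚ⟮IgusaScheme.jFull N⟯ (FQ N) ≤ (dedekindPsi N : ℕ) := by
    apply rank_le
    intro s hs
    have h := linearIndependent_toBar N (fun i : s => (i : FQ N)) hs
    have h' := h.fintype_card_le_finrank
    rw [DegreeFinal.finrank_eq N, Fintype.card_coe] at h'
    exact h'
  have hfin : FiniteDimensional ℚ⟮IgusaScheme.jFull N⟯ (FQ N) :=
    Module.rank_lt_aleph0_iff.mp (lt_of_le_of_lt hrank Cardinal.natCast_lt_aleph0)
  refine ⟨hfin, ?_⟩
  have := Module.finrank_eq_rank ℚ⟮IgusaScheme.jFull N⟯ (FQ N)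
  rw [← this] at hrank
  exact_mod_cast hrank

/-- Any `ℚ(j)`-linearly independent finite family in `F` has at most `ψ(N)` elements. -/
theorem card_le_of_linearIndependent {ι : Type*} [Fintype ι] (x : ι → FQ N)
    (hx : LinearIndependent ℚ⟮IgusaScheme.jFull N⟯ x) : Fintype.card ι ≤ dedekindPsi N := by
  have hfd := DegreeFinal.finiteDimensional N
  have h' := (linearIndependent_toBar N x hx).fintype_card_le_finrank
  rwa [DegreeFinal.finrank_eq N] at h'

/-- A `ℚ(j)`-linearly independent family of exactly `ψ(N)` elements of `F` spans `F`. -/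
theorem span_eq_top_of_card {ι : Type*} [Fintype ι] (x : ι → FQ N)
    (hx : LinearIndependent ℚ⟮IgusaScheme.jFull N⟯ x) (hcard : Fintype.card ι = dedekindPsi N) :
    Submodule.span ℚ⟮IgusaScheme.jFull N⟯ (Set.range x) = ⊤ := by
  obtain ⟨hfin, hle⟩ := finrank_le N
  have hge := hx.fintype_card_le_finrank
  apply hx.span_eq_top_of_card_eq_finrank'
  omega

/-- If some `ℚ(j)`-linearly independent family of `ψ(N)` elements exists, the degree is exactly
`ψ(N)`. -/
theorem finrank_eq_of_linearIndependent {ι : Type*} [Fintype ι] (x : ι → FQ N)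
    (hx : LinearIndependent ℚ⟮IgusaScheme.jFull N⟯ x) (hcard : Fintype.card ι = dedekindPsi N) :
    Module.finrank ℚ⟮IgusaScheme.jFull N⟯ (FQ N) = dedekindPsi N := by
  obtain ⟨hfin, hle⟩ := finrank_le N
  have hge := hx.fintype_card_le_finrank
  omega

end Modular

end Fermat.Agent.S28.DegreeQ
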