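import Mathlib
import Fermat.Prelude.Def_ModularCurve_X0ModL

/-!
# S28, connector between block C (tower, over an algebraically closed `k`) and block D
(q-expansion principle, over `ZMod ℓ` and `ℚ`)

* `coeffMap_mem_adjoin`: `coeffMap φ` maps `K⟮S⟯` into `L⟮T⟯` as soon as it maps `S` into `L⟮T⟯`.
* `linearIndependent_of_coeffMap`: linear independence over `L⟮jbar_L⟯` of the images under
  `coeffMap φ` implies linear independence over `K⟮jbar_K⟯` (descent `k̄ → 𝔽_ℓ`).
* `transcendental_jqModC`: `jqModC k` is transcendental over a field `k`.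
* `linearIndependent_rat_of_zmod`: a family of Laurent series with INTEGER coefficients whose
  reductions mod `ℓ` are independent over `𝔽_ℓ(jbar)` is independent over `ℚ(j)` (lifting).
-/

set_option autoImplicit false

open ModularCurve IntermediateField Polynomial

namespace Fermat.Agent.S28.DescendIndep

/-! ### `coeffMap` and adjoined fields -/

section Adjoin

variable {K L : Type*} [Field K] [Field L] (φ : K →+* L)

theorem coeffMap_algebraMap' (c : K) :
    coeffMap φ (algebraMap K (LaurentSeries K) c) = algebraMap L (LaurentSeries L) (φ c) := by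
  rw [algebraMap_laurentSeries_eq_single, algebraMap_laurentSeries_eq_single, coeffMap_single]

theorem coeffMap_injective : Function.Injective (coeffMap φ) := by
  intro x y h
  ext k
  have := congrArg (fun z => z.coeff k) h
  simp only [coeffMap_coeff] at this
  exact φ.injective this

/-- `coeffMap φ` maps `K⟮S⟯` into `F₂` as soon as it maps `S` into `F₂`. -/
theorem coeffMap_mem_of_mem_adjoin {S : Set (LaurentSeries K)}
    (F₂ : IntermediateField L (LaurentSeries L))
    (hS : ∀ x ∈ S, coeffMap φ x ∈ F₂) {x : LaurentSeries K}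
    (hx : x ∈ IntermediateField.adjoin K S) : coeffMap φ x ∈ F₂ := by
  have key : ∀ y ∈ Subfield.closure (Set.range (algebraMap K (LaurentSeries K)) ∪ S),
      coeffMap φ y ∈ F₂ := by
    intro y hy
    induction hy using Subfield.closure_induction with
    | mem y hy =>
        rcases hy with ⟨a, rfl⟩ | hy
        · rw [coeffMap_algebraMap']
          exact F₂.algebraMap_mem _
        · exact hS y hy
    | one => rw [map_one]; exact one_mem _
    | add x y _ _ hx hy => rw [map_add]; exact add_mem hx hy
    | neg x _ hx => rw [map_neg]; exact neg_mem hx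
    | inv x _ hx => rw [map_inv₀]; exact inv_mem hx
    | mul x y _ _ hx hy => rw [map_mul]; exact mul_mem hx hy
  exact key x hx

theorem coeffMap_mem_adjoin_jqModC {x : LaurentSeries K} (hx : x ∈ K⟮jqModC K⟯) :
    coeffMap φ x ∈ L⟮jqModC L⟯ := by
  refine coeffMap_mem_of_mem_adjoin φ _ ?_ hx
  intro y hy
  rw [Set.mem_singleton_iff] at hy
  rw [hy, coeffMap_jqModC]
  exact mem_adjoin_simple_self L _

/-- **Descent of linear independence** along `coeffMap φ`, for intermediate fields `F₁`, `F₂`
with `coeffMap φ '' F₁ ⊆ F₂`. -/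
theorem linearIndependent_of_coeffMap_of_le
    (F₁ : IntermediateField K (LaurentSeries K)) (F₂ : IntermediateField L (LaurentSeries L))
    (hF : ∀ x ∈ F₁, coeffMap φ x ∈ F₂) {ι : Type*} (m : ι → LaurentSeries K)
    (h : LinearIndependent ↥F₂ (fun i => coeffMap φ (m i))) : LinearIndependent ↥F₁ m := by
  rw [linearIndependent_iff'] at h ⊢
  intro s c hc i hi
  have h1 : ∑ j ∈ s, (⟨coeffMap φ (c j : LaurentSeries K), hF _ (c j).2⟩ : ↥F₂) •
      coeffMap φ (m j) = 0 := by
    have h2 := congrArg (coeffMap φ) hc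
    rw [map_sum, map_zero] at h2
    rw [← h2]
    refine Finset.sum_congr rfl fun j _ => ?_
    rw [IntermediateField.smul_def, IntermediateField.smul_def, smul_eq_mul, smul_eq_mul, map_mul]
  have h3 := h s _ h1 i hi
  have h4 : coeffMap φ (c i : LaurentSeries K) = 0 := congrArg Subtype.val h3
  have h5 : (c i : LaurentSeries K) = 0 := coeffMap_injective φ (by rw [h4, map_zero])
  exact Subtype.ext h5

/-- **Descent of linear independence over `k(jbar)`** along a field extension `K → L`
(e.g. `ZMod ℓ → AlgebraicClosure (ZMod ℓ)`). -/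
theorem linearIndependent_of_coeffMap {ι : Type*} (m : ι → LaurentSeries K)
    (h : LinearIndependent ↥(L⟮jqModC L⟯) (fun i => coeffMap φ (m i))) :
    LinearIndependent ↥(K⟮jqModC K⟯) m :=
  linearIndependent_of_coeffMap_of_le φ _ _ (fun _ hx => coeffMap_mem_adjoin_jqModC φ hx) m h

end Adjoin

/-! ### Polynomials in `j` -/

section PolyJ

variable {R S : Type*} [CommRing R] [CommRing S]

/-- `eval₂`-form of a polynomial in `jqModC R` (avoids all `Algebra` instance questions). -/
noncomputable def evalJ (P : R[X]) : LaurentSeries R :=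
  Polynomial.eval₂ (HahnSeries.C : R →+* LaurentSeries R) (jqModC R) P

theorem coeffMap_C (f : R →+* S) (c : R) :
    coeffMap f (HahnSeries.C c : LaurentSeries R) = HahnSeries.C (f c) := by
  rw [HahnSeries.C_apply, HahnSeries.C_apply, coeffMap_single]

theorem coeffMap_injective' (f : R →+* S) (hf : Function.Injective f) :
    Function.Injective (coeffMap f) := by
  intro x y h
  ext k
  have := congrArg (fun z => z.coeff k) h
  simp only [coeffMap_coeff] at this
  exact hf this

theorem coeffMap_evalJ (f : R →+* S) (P : R[X]) :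
    coeffMap f (evalJ P) = evalJ (P.map f) := by
  unfold evalJ
  rw [Polynomial.hom_eval₂, Polynomial.eval₂_map, coeffMap_jqModC]
  congr 1
  ext c : 1
  simp only [RingHom.comp_apply, coeffMap_C]

theorem evalJ_add (P Q : R[X]) : evalJ (P + Q) = evalJ P + evalJ Q := Polynomial.eval₂_add _ _

theorem evalJ_mul (P Q : R[X]) : evalJ (P * Q) = evalJ P * evalJ Q := Polynomial.eval₂_mul _ _

theorem evalJ_C (c : R) : evalJ (Polynomial.C c) = HahnSeries.C c := Polynomial.eval₂_C _ _

@[simp] theorem evalJ_zero : evalJ (0 : R[X]) = 0 := Polynomial.eval₂_zero _ _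

/-- The coefficient of `q ^ (-deg P)` in `P(j)` is the leading coefficient of `P`. -/
theorem coeff_evalJ_neg_natDegree (P : R[X]) :
    (evalJ P).coeff (-(P.natDegree : ℤ)) = P.leadingCoeff := by
  unfold evalJ
  rw [Polynomial.eval₂_eq_sum_range]
  have hcoeff : ∀ (n : ℕ) (c : R) (m : ℤ),
      ((HahnSeries.C c : LaurentSeries R) * jqModC R ^ n).coeff m = c * (jqModC R ^ n).coeff m := by
    intro n c m
    rw [HahnSeries.C_mul_eq_smul, HahnSeries.coeff_smul, smul_eq_mul]
  have hsum : ∀ (t : Finset ℕ) (g : ℕ → LaurentSeries R) (m : ℤ),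
      (∑ i ∈ t, g i).coeff m = ∑ i ∈ t, (g i).coeff m := by
    intro t g m
    induction t using Finset.induction_on with
    | empty => simp
    | insert a t ha ih => rw [Finset.sum_insert ha, Finset.sum_insert ha, HahnSeries.coeff_add, ih]
  rw [hsum, Finset.sum_eq_single P.natDegree]
  · rw [hcoeff, coeff_jqModC_pow_self, mul_one]
    rfl
  · intro n hn hne
    rw [hcoeff, coeff_jqModC_pow_of_lt, mul_zero]
    have : n < P.natDegree := lt_of_le_of_ne (Nat.lt_succ_iff.mp (Finset.mem_range.mp hn)) hne
    omega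
  · intro h
    exact absurd (Finset.mem_range.mpr (Nat.lt_succ_self _)) h

/-- `jqModC R` is "transcendental" over `R`: `P(j) = 0` forces `P = 0`. -/
theorem eq_zero_of_evalJ_eq_zero {P : R[X]} (h : evalJ P = 0) : P = 0 := by
  have := coeff_evalJ_neg_natDegree P
  rw [h, HahnSeries.coeff_zero] at this
  exact Polynomial.leadingCoeff_eq_zero.mp this.symm

end PolyJ

/-! ### Polynomial form of linear independence over `k(jbar)` -/

section PolyIndep

/-- Polynomial form of "linearly independent over `R(j)`": no nontrivial relation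
`∑ Pᵢ(j) mᵢ = 0` with polynomial coefficients. -/
def PolyIndep {R : Type*} [CommRing R] {ι : Type*} (m : ι → LaurentSeries R) : Prop :=
  ∀ (s : Finset ι) (P : ι → R[X]), ∑ i ∈ s, evalJ (P i) * m i = 0 → ∀ i ∈ s, P i = 0

variable {k : Type*} [Field k]

theorem evalJ_eq_aeval (P : k[X]) : evalJ P = Polynomial.aeval (jqModC k) P := by
  unfold evalJ
  rw [Polynomial.aeval_def]
  congr 1
  ext c : 1
  rw [algebraMap_laurentSeries_eq_single, HahnSeries.C_apply]

theorem evalJ_mem_adjoin (P : k[X]) : evalJ P ∈ k⟮jqModC k⟯ := by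
  rw [evalJ_eq_aeval]
  exact IntermediateField.algebra_adjoin_le_adjoin k _
    (Polynomial.aeval_mem_adjoin_singleton k (jqModC k))

theorem polyIndep_of_linearIndependent {ι : Type*} {m : ι → LaurentSeries k}
    (h : LinearIndependent ↥(k⟮jqModC k⟯) m) : PolyIndep m := by
  intro s P hP i hi
  rw [linearIndependent_iff'] at h
  have h1 := h s (fun j => ⟨evalJ (P j), evalJ_mem_adjoin (P j)⟩) (by
    rw [← hP]
    refine Finset.sum_congr rfl fun j _ => ?_
    rw [IntermediateField.smul_def, smul_eq_mul]) i hi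
  exact eq_zero_of_evalJ_eq_zero (congrArg Subtype.val h1)

open scoped IntermediateField.algebraAdjoinAdjoin in
theorem linearIndependent_of_polyIndep {ι : Type*} {m : ι → LaurentSeries k}
    (h : PolyIndep m) : LinearIndependent ↥(k⟮jqModC k⟯) m := by
  rw [← LinearIndependent.iff_fractionRing (Algebra.adjoin k {jqModC k}) ↥(k⟮jqModC k⟯)]
  rw [linearIndependent_iff']
  intro s c hc i hi
  have hmem : ∀ j, ∃ P : k[X], Polynomial.aeval (jqModC k) P = (c j : LaurentSeries k) := by
    intro j
    have hj : (c j : LaurentSeries k) ∈ (Polynomial.aeval (R := k) (jqModC k)).range := by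
      rw [← Algebra.adjoin_singleton_eq_range_aeval]
      exact (c j).2
    exact hj
  choose P hP using hmem
  have h1 : ∑ j ∈ s, evalJ (P j) * m j = 0 := by
    rw [← hc]
    refine Finset.sum_congr rfl fun j _ => ?_
    rw [evalJ_eq_aeval, hP, Subalgebra.smul_def, smul_eq_mul]
  have h2 := h s P h1 i hi
  apply Subtype.ext
  rw [← hP i, h2, map_zero]
  rfl

theorem linearIndependent_iff_polyIndep {ι : Type*} {m : ι → LaurentSeries k} :
    LinearIndependent ↥(k⟮jqModC k⟯) m ↔ PolyIndep m :=
  ⟨polyIndep_of_linearIndependent, linearIndependent_of_polyIndep⟩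

end PolyIndep

/-! ### Lifting independence from `ZMod ℓ` to `ℤ` and to `ℚ` -/

section Lift

variable {ι : Type*}

/-- (a) If the reductions mod `ℓ` of integral Laurent series satisfy no polynomial relation over
`𝔽_ℓ[jbar]`, then the series satisfy no polynomial relation over `ℤ[j]`
(`ℓ`-adic descent: a relation is divisible by `ℓ ^ n` for every `n`). -/
theorem polyIndep_int_of_zmod (ℓ : ℕ) [Fact ℓ.Prime] (X : ι → LaurentSeries ℤ)
    (h : PolyIndep (fun i => coeffMap (Int.castRingHom (ZMod ℓ)) (X i))) : PolyIndep X := by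
  classical
  intro s
  have hℓ0 : (HahnSeries.C ((ℓ : ℤ)) : LaurentSeries ℤ) ≠ 0 := by
    intro h0
    have := congrArg (fun z => z.coeff 0) h0
    simp only [HahnSeries.C_apply, HahnSeries.coeff_single_same, HahnSeries.coeff_zero] at this
    exact (Fact.out : ℓ.Prime).ne_zero (by exact_mod_cast this)
  have claim : ∀ n : ℕ, ∀ Q : ι → ℤ[X], ∑ i ∈ s, evalJ (Q i) * X i = 0 →
      ∀ i ∈ s, Polynomial.C ((ℓ : ℤ) ^ n) ∣ Q i := by
    intro n
    induction n with
    | zero =>
        intro Q _ i _
        rw [pow_zero, map_one]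
        exact one_dvd _
    | succ n ih =>
        intro Q hQ i hi
        have hred : ∑ j ∈ s, evalJ ((Q j).map (Int.castRingHom (ZMod ℓ))) *
            coeffMap (Int.castRingHom (ZMod ℓ)) (X j) = 0 := by
          have h1 := congrArg (coeffMap (Int.castRingHom (ZMod ℓ))) hQ
          rw [map_sum, map_zero] at h1
          rw [← h1]
          refine Finset.sum_congr rfl fun j _ => ?_
          rw [map_mul, coeffMap_evalJ]
        have hzero := h s _ hred
        have hdiv : ∀ j ∈ s, Polynomial.C (ℓ : ℤ) ∣ Q j := by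
          intro j hj
          rw [Polynomial.C_dvd_iff_dvd_coeff]
          intro m
          have h2 := congrArg (fun p => p.coeff m) (hzero j hj)
          simp only [Polynomial.coeff_map, Polynomial.coeff_zero, eq_intCast] at h2
          exact (ZMod.intCast_zmod_eq_zero_iff_dvd _ _).mp h2
        let Q' : ι → ℤ[X] := fun j => if hj : j ∈ s then (hdiv j hj).choose else 0
        have hQ' : ∀ j ∈ s, Q j = Polynomial.C (ℓ : ℤ) * Q' j := fun j hj => by
          simp only [Q', dif_pos hj]
          exact (hdiv j hj).choose_spec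
        have hrel' : ∑ j ∈ s, evalJ (Q' j) * X j = 0 := by
          have h3 : (HahnSeries.C (ℓ : ℤ) : LaurentSeries ℤ) * ∑ j ∈ s, evalJ (Q' j) * X j = 0 := by
            rw [Finset.mul_sum, ← hQ]
            refine Finset.sum_congr rfl fun j hj => ?_
            rw [hQ' j hj, evalJ_mul, evalJ_C, mul_assoc]
          exact (mul_eq_zero.mp h3).resolve_left hℓ0
        obtain ⟨T, hT⟩ := ih Q' hrel' i hi
        refine ⟨T, ?_⟩
        rw [hQ' i hi, hT, pow_succ, map_mul]
        ring
  intro P hP i hi
  ext m
  rw [Polynomial.coeff_zero]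
  set a : ℤ := (P i).coeff m with ha
  have hdvd : ((ℓ : ℤ) ^ a.natAbs) ∣ a := by
    have := claim a.natAbs P hP i hi
    rw [Polynomial.C_dvd_iff_dvd_coeff] at this
    exact this m
  apply Int.eq_zero_of_abs_lt_dvd hdvd
  have h2 : 2 ≤ ℓ := (Fact.out : ℓ.Prime).two_le
  have h3 : a.natAbs < ℓ ^ a.natAbs := Nat.lt_pow_self h2
  rw [Int.abs_eq_natAbs]
  exact_mod_cast h3

attribute [local instance] Polynomial.algebra in
/-- (b) No polynomial relation over `ℤ[j]` implies no polynomial relation over `ℚ[j]` for the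
images in `ℚ((q))` (clear denominators). -/
theorem polyIndep_rat_of_int (X : ι → LaurentSeries ℤ) (h : PolyIndep X) :
    PolyIndep (fun i => coeffMap (Int.castRingHom ℚ) (X i)) := by
  classical
  intro s P hP i hi
  haveI : IsLocalization ((nonZeroDivisors ℤ).map (Polynomial.C : ℤ →+* ℤ[X])) ℚ[X] :=
    Polynomial.isLocalization (nonZeroDivisors ℤ) ℚ
  obtain ⟨b, hb⟩ := IsLocalization.exist_integer_multiples
    ((nonZeroDivisors ℤ).map (Polynomial.C : ℤ →+* ℤ[X])) s P
  obtain ⟨d, hd, hbd⟩ := b.2
  have hd0 : d ≠ 0 := nonZeroDivisors.ne_zero hd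
  -- integral polynomials
  have hex : ∀ j, ∃ Q : ℤ[X], j ∈ s →
      Q.map (Int.castRingHom ℚ) = Polynomial.C (d : ℚ) * P j := by
    intro j
    by_cases hj : j ∈ s
    · obtain ⟨Q, hQ⟩ := hb j hj
      refine ⟨Q, fun _ => ?_⟩
      rw [Polynomial.algebraMap_def, Polynomial.coe_mapRingHom] at hQ
      rw [show (algebraMap ℤ ℚ) = Int.castRingHom ℚ from rfl] at hQ
      rw [hQ, Algebra.smul_def, Polynomial.algebraMap_def, Polynomial.coe_mapRingHom, ← hbd,
        Polynomial.map_C]
      rfl
    · exact ⟨0, fun hj' => absurd hj' hj⟩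
  choose Q hQ using hex
  have hrel : ∑ j ∈ s, evalJ (Q j) * X j = 0 := by
    apply coeffMap_injective' (Int.castRingHom ℚ) Int.cast_injective
    rw [map_sum, map_zero]
    have h1 : ∑ j ∈ s, coeffMap (Int.castRingHom ℚ) (evalJ (Q j) * X j)
        = HahnSeries.C (d : ℚ) * ∑ j ∈ s, evalJ (P j) * coeffMap (Int.castRingHom ℚ) (X j) := by
      rw [Finset.mul_sum]
      refine Finset.sum_congr rfl fun j hj => ?_
      rw [map_mul, coeffMap_evalJ, hQ j hj, evalJ_mul, evalJ_C, mul_assoc]
    rw [h1, hP, mul_zero]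
  have hQi := h s Q hrel i hi
  have h2 := hQ i hi
  rw [hQi, Polynomial.map_zero] at h2
  rcases mul_eq_zero.mp h2.symm with h3 | h3
  · exact absurd (Polynomial.C_eq_zero.mp h3) (by exact_mod_cast hd0)
  · exact h3

/-- **Lifting**: a family of Laurent series with integer coefficients whose reductions mod `ℓ`
are linearly independent over `𝔽_ℓ(jbar)` is linearly independent over `ℚ(j)` (after
`ℤ → ℚ`). -/
theorem linearIndependent_rat_of_zmod (ℓ : ℕ) [Fact ℓ.Prime] (X : ι → LaurentSeries ℤ)
    (h : LinearIndependent ↥((ZMod ℓ)⟮jqModC (ZMod ℓ)⟯)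
      (fun i => coeffMap (Int.castRingHom (ZMod ℓ)) (X i))) :
    LinearIndependent ↥(ℚ⟮jqModC ℚ⟯) (fun i => coeffMap (Int.castRingHom ℚ) (X i)) :=
  linearIndependent_of_polyIndep
    (polyIndep_rat_of_int X (polyIndep_int_of_zmod ℓ X (polyIndep_of_linearIndependent h)))

end Lift

end Fermat.Agent.S28.DescendIndep
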