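import Mathlib
import Fermat.Prelude.Def_ModularCurve_IgusaScheme
import Fermat.Prelude.Def_ModularCurve_X0ModL
import Fermat.Agent.S20.LaurentTools

/-!
# S28 (Igusa): the interface statements between the blocks of the elementary route

Every block of the route (report 890) proves ONE closed `Prop` of this file (or an implication
between two of them).  `Fermat/Agent/S28/Reduction.lean` chains them into the frozen statement.

Chain:
`Haupt2, Haupt3 (H) + ModEq (A) ⟹ PrimeCase (B)`;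
`ModEq (A) + PrimeCase (B) ⟹ CoreDegree (C) ⟹ CoreIndep (C, consumer form)`;
`CoreIndep (C) + DegreeQ ⟹ ChartDomain (D)`;
`ChartDomain (D) + Glue (E) ⟹ S28`.
-/

set_option autoImplicit false

open AlgebraicGeometry CategoryTheory CategoryTheory.Limits ModularCurve ModularCurve.IgusaScheme
open Polynomial
open scoped TensorProduct

namespace Fermat.Agent.S28.Interfaces

open Fermat.Agent.S20.LaurentTools

/-! ### Basic objects -/

/-- `j(q ^ d)` over an arbitrary commutative ring, total in `d` (junk value `0` at `d = 0`). -/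
noncomputable def jD (R : Type*) [CommRing R] (d : ℕ) : LaurentSeries R :=
  if h : d = 0 then 0 else @qExpand R _ d ⟨h⟩ (jqModC R)

theorem jD_eq (R : Type*) [CommRing R] (d : ℕ) [hd : NeZero d] :
    jD R d = qExpand R d (jqModC R) := by
  unfold jD
  rw [dif_neg (NeZero.ne d)]

theorem jD_one (R : Type*) [CommRing R] : jD R 1 = jqModC R := by
  rw [jD_eq, qExpand_one_apply]

/-- The monomial `∏_{d ∣ N} j(q ^ d) ^ (e d)`. -/
noncomputable def mono (R : Type*) [CommRing R] (N : ℕ) (e : ℕ → ℕ) : LaurentSeries R :=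
  ∏ d ∈ N.divisors, jD R d ^ e d

/-- The subfield `k(j̄)` of `k((q))`. -/
noncomputable abbrev kj (k : Type*) [Field k] : IntermediateField k (LaurentSeries k) :=
  IntermediateField.adjoin k {jqModC k}

/-! ### Block A: modular equation of prime level -/

/-- `Φ ∈ k[Y][X]` monic of degree `p + 1` with
`Φ(X, j(v ^ p)) = (X - j(v ^ (p ^ 2))) * ∏_{b < p} (X - j(ζ ^ b v))` in `k((v))[X]`. -/
def HasModEq (k : Type*) [Field k] (p : ℕ) (ζ : kˣ) : Prop :=
  ∃ Φ : Polynomial (Polynomial k), Φ.Monic ∧ Φ.natDegree = p + 1 ∧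
    Φ.map ((aeval (jD k p) : Polynomial k →ₐ[k] LaurentSeries k) :
        Polynomial k →+* LaurentSeries k) =
      (X - C (jD k (p ^ 2))) * ∏ b ∈ Finset.range p, (X - C (rot (ζ ^ b) (jqModC k)))

/-- **(A)** For every field `k`, prime `p` and primitive `p`-th root of unity `ζ ∈ k`. -/
def ModEqStatement : Prop :=
  ∀ (k : Type) [Field k] (p : ℕ), p.Prime → ∀ ζ : kˣ, IsPrimitiveRoot (ζ : k) p → HasModEq k p ζ

/-! ### Block H: Hauptmodul packages -/

/-- A Hauptmodul package of level `m` over `k`: `h = q f`, `f ∈ 1 + q k[[q]]`, `f ≠ 1`,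
`j h = a(h)`, `j(q ^ m) h ^ m = b(h)`, `deg a = deg b = m + 1`, `a(0) = b(0) = 1`. -/
def HauptPackage (k : Type*) [Field k] (m : ℕ) : Prop :=
  ∃ (f : PowerSeries k) (a b : Polynomial k),
    PowerSeries.constantCoeff f = 1 ∧ f ≠ 1 ∧
    a.natDegree = m + 1 ∧ b.natDegree = m + 1 ∧ a.coeff 0 = 1 ∧ b.coeff 0 = 1 ∧
    jqModC k * (HahnSeries.single 1 1 * HahnSeries.ofPowerSeries ℤ k f) =
      aeval (HahnSeries.single 1 (1 : k) * HahnSeries.ofPowerSeries ℤ k f) a ∧
    jD k m * (HahnSeries.single 1 1 * HahnSeries.ofPowerSeries ℤ k f) ^ m =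
      aeval (HahnSeries.single 1 (1 : k) * HahnSeries.ofPowerSeries ℤ k f) b

/-- **(H, m = 2)** serves every odd characteristic (and characteristic `0`). -/
def Haupt2Statement : Prop :=
  ∀ (k : Type) [Field k], (2 : k) ≠ 0 → HauptPackage k 2

/-- **(H, m = 3)** serves characteristic `2` (stated for every characteristic `≠ 3`). -/
def Haupt3Statement : Prop :=
  ∀ (k : Type) [Field k], (3 : k) ≠ 0 → HauptPackage k 3

/-! ### Block B: the prime case -/

/-- **(B)** `j(q ^ p) ∉ k(j(q))` for `p` prime, `p ≠ char k`, `k` algebraically closed. -/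
def PrimeCaseStatement : Prop :=
  ∀ (k : Type) [Field k] [IsAlgClosed k] (p : ℕ), p.Prime → (p : k) ≠ 0 → jD k p ∉ kj k

/-! ### Block C: the core degree bound -/

/-- **(C, degree form)** `ψ(N) ≤ [k(j(q ^ d) : d ∣ N) : k(j̄)]` for `k` algebraically closed with
`N` invertible in `k`.  (A positive lower bound on `relfinrank` also forces finiteness.) -/
def CoreDegreeStatement : Prop :=
  ∀ (N : ℕ) [NeZero N] (k : Type) [Field k] [IsAlgClosed k], (N : k) ≠ 0 →
    dedekindPsi N ≤ IntermediateField.relfinrank (kj k) (modularFunctionFieldFullC k N)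

/-- **(C)** `ψ(N)` monomials in the `j(q ^ d)`, `d ∣ N`, linearly independent over `k(j̄)`,
for `k` algebraically closed with `N` invertible in `k`. -/
def CoreIndepStatement : Prop :=
  ∀ (N : ℕ) [NeZero N] (k : Type) [Field k] [IsAlgClosed k], (N : k) ≠ 0 →
    ∃ e : Fin (dedekindPsi N) → ℕ → ℕ,
      LinearIndependent (kj k) (fun i => mono k N (e i))

/-! ### Characteristic zero input (from S24) -/

/-- `[F : ℚ(j)] ≤ ψ(N)` for `F = modularFunctionFieldFull N`. -/
def DegreeQStatement : Prop :=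
  ∀ (N : ℕ) [NeZero N],
    FiniteDimensional (IntermediateField.adjoin ℚ {jFull N}) ↥(modularFunctionFieldFull N) ∧
    Module.finrank (IntermediateField.adjoin ℚ {jFull N}) ↥(modularFunctionFieldFull N) ≤
      dedekindPsi N

/-! ### Block D: the three charts are domains after base change -/

/-- **(D)** -/
def ChartDomainStatement : Prop :=
  ∀ (N : ℕ) [NeZero N] (ℓ : ℕ) [Fact ℓ.Prime], ¬ ℓ ∣ N →
    ∀ (K : Type) [Field K] [CharP K ℓ] [Algebra ↥(GaloisRep.ratLocalizedAt ℓ) K],
      IsDomain (↥(chartAlgFin N ℓ) ⊗[↥(GaloisRep.ratLocalizedAt ℓ)] K) ∧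
      IsDomain (↥(chartAlgInf N ℓ) ⊗[↥(GaloisRep.ratLocalizedAt ℓ)] K) ∧
      IsDomain (↥(chartAlgMid N ℓ) ⊗[↥(GaloisRep.ratLocalizedAt ℓ)] K)

/-! ### Block E: scheme glue -/

/-- **(E)** -/
def GlueStatement : Prop :=
  ∀ (N : ℕ) [NeZero N] (ℓ : ℕ) [Fact ℓ.Prime]
    (K : Type) [Field K] [Algebra ↥(GaloisRep.ratLocalizedAt ℓ) K],
    IsDomain (↥(chartAlgFin N ℓ) ⊗[↥(GaloisRep.ratLocalizedAt ℓ)] K) →
    IsDomain (↥(chartAlgInf N ℓ) ⊗[↥(GaloisRep.ratLocalizedAt ℓ)] K) →
    Nontrivial (↥(chartAlgMid N ℓ) ⊗[↥(GaloisRep.ratLocalizedAt ℓ)] K) →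
    IsIntegral (pullback (igusaTo N ℓ)
      (Spec.map (CommRingCat.ofHom (algebraMap ↥(GaloisRep.ratLocalizedAt ℓ) K))))

end Fermat.Agent.S28.Interfaces
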