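import Mathlib
import Fermat.Agent.S28.Interfaces
import Fermat.Agent.S28.DescendIndep
import Fermat.Agent.S28.DegreeQ

/-!
# S28, connector C → D: from `CoreIndepStatement` to integral lifts in `F`

From block C (`CoreIndepStatement`: over an algebraically closed `k` with `N` invertible there are
`ψ(N)` monomials `mono k N (e i)` linearly independent over `k(j̄)`) we produce, for a prime
`ℓ ∤ N`, exponents `e : Fin (ψ N) → ℕ → ℕ` such that

* the monomials `mono (ZMod ℓ) N (e i)` are linearly independent over `𝔽_ℓ(j̄)` (descent along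
  `ZMod ℓ → AlgebraicClosure (ZMod ℓ)`);
* the monomials `mono ℚ N (e i)` have integer coefficients (`= coeffMap (Int.castRingHom ℚ)
  (mono ℤ N (e i))`), reduce coefficientwise to `mono (ZMod ℓ) N (e i)`, lie in
  `F = modularFunctionFieldFull N`, are linearly independent over `ℚ(j)` and span `F` over `ℚ(j)`
  (helper13's `DegreeQ.span_eq_top_of_card`).

This is the hypothesis `HD` of block D (helper23, report 1005) up to the definition of his
reduction map `redInt` on integral series.
-/

set_option autoImplicit false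

open ModularCurve IntermediateField Polynomial

namespace Fermat.Agent.S28.CoreLifts

open Fermat.Agent.S28.Interfaces Fermat.Agent.S28.DescendIndep

/-! ### Base change of the monomials -/

section Mono

variable {R S : Type*} [CommRing R] [CommRing S]

theorem coeffMap_jD (f : R →+* S) (d : ℕ) : coeffMap f (jD R d) = jD S d := by
  unfold jD
  by_cases h : d = 0
  · rw [dif_pos h, dif_pos h, map_zero]
  · rw [dif_neg h, dif_neg h]
    haveI : NeZero d := ⟨h⟩
    rw [coeffMap_qExpand, coeffMap_jqModC]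

theorem coeffMap_mono (f : R →+* S) (N : ℕ) (e : ℕ → ℕ) :
    coeffMap f (mono R N e) = mono S N e := by
  unfold mono
  rw [map_prod]
  refine Finset.prod_congr rfl fun d _ => ?_
  rw [map_pow, coeffMap_jD]

end Mono

/-! ### The monomials as elements of `F` -/

section InF

variable (N : ℕ) [NeZero N]

theorem jD_mem_full {d : ℕ} (hd : d ∈ N.divisors) :
    jD ℚ d ∈ modularFunctionFieldFull N := by
  have hd0 : d ≠ 0 := Nat.pos_iff_ne_zero.mp (Nat.pos_of_mem_divisors hd)
  haveI : NeZero d := ⟨hd0⟩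
  rw [jD_eq]
  exact jqModCd_mem_full ℚ N (Nat.dvd_of_mem_divisors hd)

theorem mono_mem_full (e : ℕ → ℕ) : mono ℚ N e ∈ modularFunctionFieldFull N := by
  unfold mono
  exact prod_mem fun d hd => pow_mem (jD_mem_full N hd) _

/-- The monomial as an element of `F`. -/
noncomputable def monoF (e : ℕ → ℕ) : ↥(modularFunctionFieldFull N) :=
  ⟨mono ℚ N e, mono_mem_full N e⟩

@[simp] theorem coe_monoF (e : ℕ → ℕ) : (monoF N e : LaurentSeries ℚ) = mono ℚ N e := rfl

/-- Integrality: the monomial has integer coefficients. -/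
theorem mono_rat_eq_coeffMap (e : ℕ → ℕ) :
    mono ℚ N e = coeffMap (Int.castRingHom ℚ) (mono ℤ N e) :=
  (coeffMap_mono _ N e).symm

theorem coeff_mono_rat (e : ℕ → ℕ) (m : ℤ) :
    (mono ℚ N e).coeff m = (((mono ℤ N e).coeff m : ℤ) : ℚ) := by
  rw [mono_rat_eq_coeffMap, coeffMap_coeff]
  rfl

/-- Transfer of linear independence from `ℚ(j) ⊆ ℚ((q))` to `ℚ(jFull) ⊆ F`. -/
theorem linearIndependent_jFull_of_jq {ι : Type*} (x : ι → ↥(modularFunctionFieldFull N))
    (h : LinearIndependent ↥(ℚ⟮jqModC ℚ⟯) (fun i => (x i : LaurentSeries ℚ))) :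
    LinearIndependent ↥(ℚ⟮IgusaScheme.jFull N⟯) x := by
  have key : ∀ y ∈ Subfield.closure (Set.range (algebraMap ℚ ↥(modularFunctionFieldFull N)) ∪
      {IgusaScheme.jFull N}), ((y : ↥(modularFunctionFieldFull N)) : LaurentSeries ℚ) ∈
        ℚ⟮jqModC ℚ⟯ := by
    intro y hy
    induction hy using Subfield.closure_induction with
    | mem y hy =>
        rcases hy with ⟨a, rfl⟩ | hy
        · have : ((algebraMap ℚ ↥(modularFunctionFieldFull N) a :
              ↥(modularFunctionFieldFull N)) : LaurentSeries ℚ) = algebraMap ℚ (LaurentSeries ℚ) a :=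
            RingHom.map_rat_algebraMap (SubringClass.subtype (modularFunctionFieldFull N)) a
          rw [this]
          exact IntermediateField.algebraMap_mem _ a
        · rw [Set.mem_singleton_iff] at hy
          rw [hy]
          exact mem_adjoin_simple_self ℚ _
    | one => exact one_mem _
    | add x y _ _ hx hy => exact add_mem hx hy
    | neg x _ hx => exact neg_mem hx
    | inv x _ hx => exact inv_mem hx
    | mul x y _ _ hx hy => exact mul_mem hx hy
  have hmem : ∀ c : ↥(ℚ⟮IgusaScheme.jFull N⟯),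
      (((c : ↥(modularFunctionFieldFull N)) : LaurentSeries ℚ)) ∈ ℚ⟮jqModC ℚ⟯ :=
    fun c => key _ c.2
  rw [linearIndependent_iff'] at h ⊢
  intro s c hc i hi
  have h1 : ∑ j ∈ s, (⟨_, hmem (c j)⟩ : ↥(ℚ⟮jqModC ℚ⟯)) • (x j : LaurentSeries ℚ) = 0 := by
    have h2 := congrArg (fun y : ↥(modularFunctionFieldFull N) => (y : LaurentSeries ℚ)) hc
    simp only [ZeroMemClass.coe_zero] at h2
    rw [← h2, AddSubmonoidClass.coe_finsetSum]
    refine Finset.sum_congr rfl fun j _ => ?_
    rw [IntermediateField.smul_def, IntermediateField.smul_def, smul_eq_mul, smul_eq_mul]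
    rfl
  have h3 := h s _ h1 i hi
  have h4 : (((c i : ↥(modularFunctionFieldFull N)) : LaurentSeries ℚ)) = 0 :=
    congrArg Subtype.val h3
  apply Subtype.ext
  apply Subtype.ext
  exact h4

end InF

/-! ### The connector -/

section Connector

variable (N : ℕ) [NeZero N] (ℓ : ℕ) [Fact ℓ.Prime]

/-- Descent `k̄ → 𝔽_ℓ` of block C's output. -/
theorem exists_indep_zmod (hC : CoreIndepStatement) (hℓN : ¬ ℓ ∣ N) :
    ∃ e : Fin (dedekindPsi N) → ℕ → ℕ,
      LinearIndependent ↥(kj (ZMod ℓ)) (fun i => mono (ZMod ℓ) N (e i)) := by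
  have hN : ((N : ℕ) : AlgebraicClosure (ZMod ℓ)) ≠ 0 := by
    intro h0
    have hchar : CharP (AlgebraicClosure (ZMod ℓ)) ℓ :=
      charP_of_injective_algebraMap (algebraMap (ZMod ℓ) (AlgebraicClosure (ZMod ℓ))).injective ℓ
    exact hℓN ((CharP.cast_eq_zero_iff (AlgebraicClosure (ZMod ℓ)) ℓ N).mp h0)
  obtain ⟨e, he⟩ := hC N (AlgebraicClosure (ZMod ℓ)) hN
  refine ⟨e, ?_⟩
  apply linearIndependent_of_coeffMap (algebraMap (ZMod ℓ) (AlgebraicClosure (ZMod ℓ)))
  have : (fun i => coeffMap (algebraMap (ZMod ℓ) (AlgebraicClosure (ZMod ℓ)))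
      (mono (ZMod ℓ) N (e i))) = fun i => mono (AlgebraicClosure (ZMod ℓ)) N (e i) :=
    funext fun i => coeffMap_mono _ N (e i)
  rw [this]
  exact he

/-- **Connector C → D.**  Exponents `e` such that the monomials over `ZMod ℓ` are independent over
`𝔽_ℓ(j̄)`, and the integral lifts `monoF N (e i) ∈ F` are independent over `ℚ(j)` and span `F`. -/
theorem exists_lifts (hC : CoreIndepStatement) (hℓN : ¬ ℓ ∣ N) :
    ∃ e : Fin (dedekindPsi N) → ℕ → ℕ,
      LinearIndependent ↥(kj (ZMod ℓ)) (fun i => mono (ZMod ℓ) N (e i)) ∧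
      LinearIndependent ↥(ℚ⟮IgusaScheme.jFull N⟯) (fun i => monoF N (e i)) ∧
      Submodule.span ↥(ℚ⟮IgusaScheme.jFull N⟯) (Set.range fun i => monoF N (e i)) = ⊤ := by
  obtain ⟨e, he⟩ := exists_indep_zmod N ℓ hC hℓN
  have h1 : LinearIndependent ↥(ℚ⟮jqModC ℚ⟯)
      (fun i => coeffMap (Int.castRingHom ℚ) (mono ℤ N (e i))) := by
    apply linearIndependent_rat_of_zmod ℓ
    have : (fun i => coeffMap (Int.castRingHom (ZMod ℓ)) (mono ℤ N (e i)))
        = fun i => mono (ZMod ℓ) N (e i) := funext fun i => coeffMap_mono _ N (e i)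
    rw [this]
    exact he
  have h2 : LinearIndependent ↥(ℚ⟮IgusaScheme.jFull N⟯) (fun i => monoF N (e i)) := by
    apply linearIndependent_jFull_of_jq
    have : (fun i => ((monoF N (e i) : ↥(modularFunctionFieldFull N)) : LaurentSeries ℚ))
        = fun i => coeffMap (Int.castRingHom ℚ) (mono ℤ N (e i)) :=
      funext fun i => mono_rat_eq_coeffMap N (e i)
    rw [this]
    exact h1
  refine ⟨e, he, h2, ?_⟩
  exact Fermat.Agent.S28.DegreeQ.span_eq_top_of_card N _ h2 (Fintype.card_fin _)

end Connector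

end Fermat.Agent.S28.CoreLifts
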