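/-
S28 block D (helper23): the residue map `ℤ_(ℓ) → ZMod ℓ` for `GaloisRep.ratLocalizedAt ℓ`,
its kernel and units, and normalisation of rationals.
-/
import Mathlib
import Fermat.Prelude.Def_GaloisRep_Flat

set_option autoImplicit false
set_option linter.unusedSectionVars false

namespace Fermat.Agent.S28.ZlRes

variable (ℓ : ℕ) [hℓ : Fact ℓ.Prime]

set_option quotPrecheck false in
local notation "Zl" => ↥(GaloisRep.ratLocalizedAt ℓ)

lemma mem_iff (q : ℚ) : q ∈ GaloisRep.ratLocalizedAt ℓ ↔ q.den.Coprime ℓ := Iff.rfl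

variable {ℓ}

lemma den_ne_zero {q : ℚ} (hq : q ∈ GaloisRep.ratLocalizedAt ℓ) : ((q.den : ℕ) : ZMod ℓ) ≠ 0 := by
  rw [Ne, ZMod.natCast_eq_zero_iff]
  intro h
  have h1 : ℓ ∣ Nat.gcd q.den ℓ := Nat.dvd_gcd h dvd_rfl
  rw [(mem_iff ℓ q).mp hq] at h1
  exact hℓ.out.one_lt.ne' (Nat.dvd_one.mp h1)

lemma intCast_mem (n : ℤ) : (n : ℚ) ∈ GaloisRep.ratLocalizedAt ℓ := by
  rw [mem_iff]; simp

lemma natCast_mem (n : ℕ) : (n : ℚ) ∈ GaloisRep.ratLocalizedAt ℓ := by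
  rw [mem_iff]; simp

variable (ℓ)

/-- The residue map `ℤ_(ℓ) → 𝔽_ℓ`. -/
def res : Zl →+* ZMod ℓ where
  toFun a := ((a : ℚ) : ZMod ℓ)
  map_one' := by simp
  map_zero' := by simp
  map_mul' a b := by
    show (((a : ℚ) * (b : ℚ) : ℚ) : ZMod ℓ) = _
    exact Rat.cast_mul_of_ne_zero (den_ne_zero a.2) (den_ne_zero b.2)
  map_add' a b := by
    show (((a : ℚ) + (b : ℚ) : ℚ) : ZMod ℓ) = _
    exact Rat.cast_add_of_ne_zero (den_ne_zero a.2) (den_ne_zero b.2)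

variable {ℓ}

@[simp] lemma res_apply (a : Zl) : res ℓ a = ((a : ℚ) : ZMod ℓ) := rfl

lemma res_intCast (n : ℤ) : res ℓ ⟨(n : ℚ), intCast_mem n⟩ = (n : ZMod ℓ) := by
  simp

/-- Kernel of the residue map, numerator form. -/
lemma res_eq_zero_iff_dvd_num (a : Zl) : res ℓ a = 0 ↔ (ℓ : ℤ) ∣ (a : ℚ).num := by
  rw [res_apply, Rat.cast_def, div_eq_zero_iff]
  constructor
  · rintro (h | h)
    · exact (ZMod.intCast_zmod_eq_zero_iff_dvd _ _).mp h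
    · exact absurd h (den_ne_zero a.2)
  · intro h
    exact Or.inl ((ZMod.intCast_zmod_eq_zero_iff_dvd _ _).mpr h)

/-- Kernel of the residue map: multiples of `ℓ`. -/
lemma res_eq_zero_iff (a : Zl) :
    res ℓ a = 0 ↔ ∃ b ∈ GaloisRep.ratLocalizedAt ℓ, (a : ℚ) = (ℓ : ℚ) * b := by
  constructor
  · intro h
    obtain ⟨m, hm⟩ := (res_eq_zero_iff_dvd_num a).mp h
    refine ⟨Rat.divInt m (a : ℚ).den, ?_, ?_⟩
    · rw [mem_iff]
      have hd : (Rat.divInt m (a : ℚ).den).den ∣ (a : ℚ).den := by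
        have := Rat.den_dvd m ((a : ℚ).den : ℤ)
        exact_mod_cast this
      exact Nat.Coprime.coprime_dvd_left hd a.2
    · have hden : ((a : ℚ).den : ℚ) ≠ 0 := by exact_mod_cast (a : ℚ).den_ne_zero
      rw [Rat.divInt_eq_div]
      conv_lhs => rw [← Rat.num_div_den (a : ℚ), hm]
      push_cast
      field_simp
  · rintro ⟨b, hb, hab⟩
    have : a = (⟨(ℓ : ℚ), natCast_mem ℓ⟩ : Zl) * ⟨b, hb⟩ := Subtype.ext hab
    rw [this, map_mul]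
    have : res ℓ ⟨(ℓ : ℚ), natCast_mem ℓ⟩ = 0 := by simp
    rw [this, zero_mul]

/-- Units: an element with nonzero residue has its inverse in `ℤ_(ℓ)`. -/
lemma inv_mem_of_res_ne_zero (a : Zl) (h : res ℓ a ≠ 0) :
    ((a : ℚ))⁻¹ ∈ GaloisRep.ratLocalizedAt ℓ := by
  have hnd : ¬ (ℓ : ℤ) ∣ (a : ℚ).num := fun hd => h ((res_eq_zero_iff_dvd_num a).mpr hd)
  rw [mem_iff]
  have hinv : ((a : ℚ))⁻¹ = Rat.divInt ((a : ℚ).den : ℤ) (a : ℚ).num := Rat.inv_def _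
  have hd : (((a : ℚ))⁻¹).den ∣ (a : ℚ).num.natAbs := by
    rw [hinv]
    have := Rat.den_dvd ((a : ℚ).den : ℤ) (a : ℚ).num
    exact Int.natCast_dvd.mp this
  refine Nat.Coprime.coprime_dvd_left hd ?_
  rw [Nat.coprime_comm, Nat.Prime.coprime_iff_not_dvd hℓ.out]
  intro hdvd
  exact hnd (Int.natCast_dvd.mpr hdvd)


/-- A quotient of two integers prime to `ℓ` is a unit of `ℤ_(ℓ)`. -/
lemma divInt_mem {n d : ℤ} (hd : ¬ (ℓ : ℤ) ∣ d) :
    (n : ℚ) / (d : ℚ) ∈ GaloisRep.ratLocalizedAt ℓ := by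
  rw [mem_iff, ← Rat.divInt_eq_div]
  have h1 : ((Rat.divInt n d).den : ℤ) ∣ d := Rat.den_dvd n d
  rw [Nat.coprime_comm, Nat.Prime.coprime_iff_not_dvd hℓ.out]
  intro h
  exact hd (dvd_trans (Int.natCast_dvd_natCast.mpr h) h1)

/-- Normalisation of a nonzero rational: `a = ℓ ^ e * u` with `u` a unit of `ℤ_(ℓ)`. -/
lemma exists_normalize (a : ℚ) (ha : a ≠ 0) :
    ∃ (e : ℤ) (u : ℚ), u ∈ GaloisRep.ratLocalizedAt ℓ ∧ u⁻¹ ∈ GaloisRep.ratLocalizedAt ℓ ∧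
      a = (ℓ : ℚ) ^ e * u := by
  have hℓ1 : ℓ ≠ 1 := hℓ.out.one_lt.ne'
  have hℓ0 : (ℓ : ℚ) ≠ 0 := by exact_mod_cast hℓ.out.ne_zero
  have hn0 : a.num.natAbs ≠ 0 := by
    rw [Ne, Int.natAbs_eq_zero, Rat.num_eq_zero]; exact ha
  obtain ⟨α, n', hn', hn⟩ := Nat.exists_eq_pow_mul_and_not_dvd hn0 ℓ hℓ1
  obtain ⟨β, d', hd', hd⟩ := Nat.exists_eq_pow_mul_and_not_dvd a.den_ne_zero ℓ hℓ1
  have hn'z : ¬ (ℓ : ℤ) ∣ (a.num.sign * (n' : ℤ)) := by
    intro h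
    have hs : IsUnit a.num.sign := by
      rw [Int.isUnit_iff]
      rcases lt_trichotomy a.num 0 with h0 | h0 | h0
      · right; exact Int.sign_eq_neg_one_of_neg h0
      · exact absurd (Rat.num_eq_zero.mp h0) ha
      · left; exact Int.sign_eq_one_of_pos h0
    have h2 : (ℓ : ℤ) ∣ (n' : ℤ) := (hs.dvd_mul_left).mp h
    exact hn' (Int.natCast_dvd_natCast.mp h2)
  have hd'z : ¬ (ℓ : ℤ) ∣ (d' : ℤ) := fun h => hd' (Int.natCast_dvd_natCast.mp h)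
  refine ⟨(α : ℤ) - β, ((a.num.sign * (n' : ℤ) : ℤ) : ℚ) / ((d' : ℤ) : ℚ), divInt_mem hd'z, ?_, ?_⟩
  · rw [inv_div]
    exact divInt_mem hn'z
  · have hd'0 : (d' : ℚ) ≠ 0 := by
      intro h
      apply hd'
      have : d' = 0 := by exact_mod_cast h
      rw [this]; exact dvd_zero _
    have hnum : (a.num : ℚ) = (a.num.sign : ℚ) * ((ℓ : ℚ) ^ α * (n' : ℚ)) := by
      have : a.num = a.num.sign * (a.num.natAbs : ℤ) := (Int.sign_mul_natAbs a.num).symm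
      conv_lhs => rw [this, hn]
      push_cast
      ring
    have hden : (a.den : ℚ) = (ℓ : ℚ) ^ β * (d' : ℚ) := by
      conv_lhs => rw [hd]
      push_cast
      ring
    conv_lhs => rw [← Rat.num_div_den a, hnum, hden]
    rw [zpow_sub₀ hℓ0, zpow_natCast, zpow_natCast]
    push_cast
    field_simp

end Fermat.Agent.S28.ZlRes
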