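/-
S28 block D (helper23): Laurent series over `ℚ` with `ℤ_(ℓ)`-integral coefficients, and their
coefficientwise reduction to `LaurentSeries (ZMod ℓ)`.
-/
import Mathlib
import Fermat.Prelude.Def_ModularCurve_LaurentCoeff
import Fermat.Agent.S28.ZlRes

set_option autoImplicit false
set_option linter.unusedSectionVars false

namespace Fermat.Agent.S28.IntLaurent

open ModularCurve Fermat.Agent.S28.ZlRes

variable (ℓ : ℕ) [hℓ : Fact ℓ.Prime]

set_option quotPrecheck false in
local notation "Zl" => ↥(GaloisRep.ratLocalizedAt ℓ)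

/-- The inclusion `ℤ_(ℓ)((q)) → ℚ((q))`. -/
noncomputable def incl : LaurentSeries Zl →+* LaurentSeries ℚ := coeffMap (GaloisRep.ratLocalizedAt ℓ).subtype

lemma incl_coeff (g : LaurentSeries Zl) (k : ℤ) : (incl ℓ g).coeff k = (g.coeff k : ℚ) := rfl

lemma incl_injective : Function.Injective (incl ℓ) := by
  intro g h hgh
  ext k
  have := congrArg (fun f => f.coeff k) hgh
  simpa [incl_coeff] using this

/-- The subring of `ℓ`-integral Laurent series. -/
noncomputable def IntSub : Subring (LaurentSeries ℚ) := (incl ℓ).range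

variable {ℓ}

lemma mem_IntSub_iff {f : LaurentSeries ℚ} :
    f ∈ IntSub ℓ ↔ ∀ k, f.coeff k ∈ GaloisRep.ratLocalizedAt ℓ := by
  constructor
  · rintro ⟨g, rfl⟩ k
    rw [incl_coeff]
    exact (g.coeff k).2
  · intro h
    refine ⟨⟨fun k => ⟨f.coeff k, h k⟩, ?_⟩, ?_⟩
    · have : Function.support (fun k => (⟨f.coeff k, h k⟩ : Zl)) = f.support := by
        ext k
        simp only [Function.mem_support, HahnSeries.mem_support, ne_eq]
        rw [not_iff_not]
        constructor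
        · intro hk; exact congrArg Subtype.val hk
        · intro hk; exact Subtype.ext hk
      rw [this]
      exact f.isPWO_support
    · ext k
      rfl

variable (ℓ)

/-- `ℤ_(ℓ)((q)) ≃ IntSub`. -/
noncomputable def equivIntSub : LaurentSeries Zl ≃+* ↥(IntSub ℓ) :=
  RingEquiv.ofBijective (incl ℓ).rangeRestrict
    ⟨fun _ _ h => incl_injective ℓ (congrArg Subtype.val h), (incl ℓ).rangeRestrict_surjective⟩

/-- Coefficientwise reduction mod `ℓ` of an `ℓ`-integral Laurent series. -/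
noncomputable def redInt : ↥(IntSub ℓ) →+* LaurentSeries (ZMod ℓ) :=
  (coeffMap (res ℓ)).comp (equivIntSub ℓ).symm.toRingHom

variable {ℓ}

lemma equivIntSub_symm_coeff (f : ↥(IntSub ℓ)) (k : ℤ) :
    ((((equivIntSub ℓ).symm f).coeff k : Zl) : ℚ) = (f : LaurentSeries ℚ).coeff k := by
  have h : (equivIntSub ℓ) ((equivIntSub ℓ).symm f) = f := (equivIntSub ℓ).apply_symm_apply f
  have h2 := congrArg (fun z : ↥(IntSub ℓ) => (z : LaurentSeries ℚ).coeff k) h
  have h3 : ((equivIntSub ℓ) ((equivIntSub ℓ).symm f) : LaurentSeries ℚ) =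
      incl ℓ ((equivIntSub ℓ).symm f) := rfl
  simp only [h3, incl_coeff] at h2
  exact h2

lemma redInt_coeff (f : ↥(IntSub ℓ)) (k : ℤ) :
    (redInt ℓ f).coeff k = (((f : LaurentSeries ℚ).coeff k : ℚ) : ZMod ℓ) := by
  show (coeffMap (res ℓ) ((equivIntSub ℓ).symm f)).coeff k = _
  rw [coeffMap_coeff, res_apply, equivIntSub_symm_coeff]

/-- the constant `ℓ` times a series, coefficientwise -/
lemma coeff_natCast_mul (n : ℕ) (g : LaurentSeries ℚ) (k : ℤ) :
    ((n : LaurentSeries ℚ) * g).coeff k = (n : ℚ) * g.coeff k := by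
  have : (n : LaurentSeries ℚ) = HahnSeries.C (n : ℚ) := by simp
  rw [this, HahnSeries.C_mul_eq_smul, HahnSeries.coeff_smul, smul_eq_mul]

/-- kernel of the reduction -/
lemma redInt_eq_zero_iff (f : ↥(IntSub ℓ)) :
    redInt ℓ f = 0 ↔ ∃ g ∈ IntSub ℓ, (f : LaurentSeries ℚ) = (ℓ : LaurentSeries ℚ) * g := by
  have hℓ0 : (ℓ : ℚ) ≠ 0 := by exact_mod_cast hℓ.out.ne_zero
  have hℓL : (ℓ : LaurentSeries ℚ) ≠ 0 := by
    have : (ℓ : LaurentSeries ℚ) = HahnSeries.C (ℓ : ℚ) := by simp
    rw [this]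
    exact fun h => hℓ0 (HahnSeries.C_injective (by simpa using h))
  constructor
  · intro h
    have hk : ∀ k, ∃ b ∈ GaloisRep.ratLocalizedAt ℓ,
        (f : LaurentSeries ℚ).coeff k = (ℓ : ℚ) * b := by
      intro k
      have h1 := congrArg (fun z => z.coeff k) h
      simp only [redInt_coeff, HahnSeries.coeff_zero] at h1
      have hm := mem_IntSub_iff.mp f.2 k
      exact (res_eq_zero_iff ⟨_, hm⟩).mp h1
    refine ⟨((ℓ : LaurentSeries ℚ))⁻¹ * (f : LaurentSeries ℚ), ?_, ?_⟩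
    · rw [mem_IntSub_iff]
      intro k
      obtain ⟨b, hb, hbk⟩ := hk k
      have e : ((ℓ : LaurentSeries ℚ))⁻¹ * (f : LaurentSeries ℚ) =
          HahnSeries.C ((ℓ : ℚ))⁻¹ * (f : LaurentSeries ℚ) := by
        congr 1
        have : (ℓ : LaurentSeries ℚ) = HahnSeries.C (ℓ : ℚ) := by simp
        rw [this, ← map_inv₀]
      rw [e, HahnSeries.C_mul_eq_smul, HahnSeries.coeff_smul, hbk, smul_eq_mul,
        inv_mul_cancel_left₀ hℓ0]
      exact hb
    · rw [mul_inv_cancel_left₀ hℓL]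
  · rintro ⟨g, hg, hfg⟩
    ext k
    rw [redInt_coeff, hfg, coeff_natCast_mul, HahnSeries.coeff_zero]
    have hm := mem_IntSub_iff.mp hg k
    have : res ℓ (⟨(ℓ : ℚ), natCast_mem ℓ⟩ * ⟨g.coeff k, hm⟩) = 0 := by
      rw [map_mul]
      have : res ℓ ⟨(ℓ : ℚ), natCast_mem ℓ⟩ = 0 := by simp
      rw [this, zero_mul]
    simpa using this

end Fermat.Agent.S28.IntLaurent
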