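import Mathlib
import Fermat.Agent.S28.CoreLifts
import Fermat.Agent.S28.IntLaurent

/-!
# S28, block D bridge: the hypothesis package `HD` of the q-expansion principle

From block C (`CoreIndepStatement`) and the degree over `ℚ` (`DegreeQ`), for `ℓ ∤ N`: a family
`x : Fin (ψ N) → F` (`F = modularFunctionFieldFull N`) with `ℓ`-integral `q`-expansions, spanning
`F` over `ℚ(j)`, whose reductions mod `ℓ` are linearly independent over `𝔽_ℓ(j̄)`.  This is
literally the hypothesis consumed by helper23's `QExpPrinciple.main` (report 1005).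
-/

set_option autoImplicit false

open IntermediateField ModularCurve

namespace Fermat.Agent.S28.HDPackage

open Fermat.Agent.S28.Interfaces Fermat.Agent.S28.CoreLifts Fermat.Agent.S28.IntLaurent
  Fermat.Agent.S28.ZlRes

variable (N : ℕ) [NeZero N] (ℓ : ℕ) [Fact ℓ.Prime]

/-- A Laurent series over `ℚ` with integer coefficients is `ℓ`-integral. -/
theorem coeffMap_int_mem_IntSub (X : LaurentSeries ℤ) :
    coeffMap (Int.castRingHom ℚ) X ∈ IntSub ℓ := by
  rw [mem_IntSub_iff]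
  intro k
  rw [coeffMap_coeff]
  exact intCast_mem _

/-- Its reduction mod `ℓ` is the coefficientwise reduction of the integral series. -/
theorem redInt_coeffMap_int (X : LaurentSeries ℤ) :
    redInt ℓ ⟨coeffMap (Int.castRingHom ℚ) X, coeffMap_int_mem_IntSub ℓ X⟩
      = coeffMap (Int.castRingHom (ZMod ℓ)) X := by
  ext k
  rw [redInt_coeff, coeffMap_coeff, coeffMap_coeff]
  simp

/-- The monomials have `ℓ`-integral `q`-expansions. -/
theorem monoF_mem_IntSub (e : ℕ → ℕ) :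
    ((monoF N e : ↥(modularFunctionFieldFull N)) : LaurentSeries ℚ) ∈ IntSub ℓ := by
  rw [coe_monoF, mono_rat_eq_coeffMap]
  exact coeffMap_int_mem_IntSub ℓ _

/-- The reduction mod `ℓ` of a monomial is the same monomial over `𝔽_ℓ`. -/
theorem redInt_monoF (e : ℕ → ℕ) :
    redInt ℓ ⟨((monoF N e : ↥(modularFunctionFieldFull N)) : LaurentSeries ℚ),
      monoF_mem_IntSub N ℓ e⟩ = mono (ZMod ℓ) N e := by
  have h : (⟨((monoF N e : ↥(modularFunctionFieldFull N)) : LaurentSeries ℚ),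
      monoF_mem_IntSub N ℓ e⟩ : ↥(IntSub ℓ))
      = ⟨coeffMap (Int.castRingHom ℚ) (mono ℤ N e), coeffMap_int_mem_IntSub ℓ _⟩ := by
    apply Subtype.ext
    exact (coe_monoF N e).trans (mono_rat_eq_coeffMap N e)
  rw [h, redInt_coeffMap_int, coeffMap_mono]

/-- `j` has an `ℓ`-integral `q`-expansion. -/
theorem jq_mem_IntSub : (jqModC ℚ : LaurentSeries ℚ) ∈ IntSub ℓ := by
  rw [← coeffMap_jqModC (Int.castRingHom ℚ)]
  exact coeffMap_int_mem_IntSub ℓ _

/-- The reduction of `j` mod `ℓ` is `j̄`. -/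
theorem redInt_jq :
    redInt ℓ ⟨(jqModC ℚ : LaurentSeries ℚ), jq_mem_IntSub ℓ⟩ = jqModC (ZMod ℓ) := by
  have h : (⟨(jqModC ℚ : LaurentSeries ℚ), jq_mem_IntSub ℓ⟩ : ↥(IntSub ℓ))
      = ⟨coeffMap (Int.castRingHom ℚ) (jqModC ℤ), coeffMap_int_mem_IntSub ℓ _⟩ := by
    apply Subtype.ext
    exact (coeffMap_jqModC (Int.castRingHom ℚ)).symm
  rw [h, redInt_coeffMap_int, coeffMap_jqModC]

/-- **The hypothesis package `HD` of block D** (helper23, report 1005). -/
theorem exists_HD (hC : CoreIndepStatement) (hℓN : ¬ ℓ ∣ N) :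
    ∃ (x : Fin (dedekindPsi N) → ↥(modularFunctionFieldFull N))
      (hint : ∀ i, ((x i : ↥(modularFunctionFieldFull N)) : LaurentSeries ℚ) ∈ IntSub ℓ),
      Submodule.span ↥(ℚ⟮IgusaScheme.jFull N⟯) (Set.range x) = ⊤ ∧
      LinearIndependent ↥((ZMod ℓ)⟮jqModC (ZMod ℓ)⟯)
        (fun i => redInt ℓ ⟨((x i : ↥(modularFunctionFieldFull N)) : LaurentSeries ℚ), hint i⟩) := by
  obtain ⟨e, he, -, hspan⟩ := exists_lifts N ℓ hC hℓN
  refine ⟨fun i => monoF N (e i), fun i => monoF_mem_IntSub N ℓ (e i), hspan, ?_⟩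
  have : (fun i => redInt ℓ ⟨((monoF N (e i) : ↥(modularFunctionFieldFull N)) : LaurentSeries ℚ),
      monoF_mem_IntSub N ℓ (e i)⟩) = fun i => mono (ZMod ℓ) N (e i) :=
    funext fun i => redInt_monoF N ℓ (e i)
  rw [this]
  exact he

end Fermat.Agent.S28.HDPackage
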