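/-
S28 / block D, last step (helper97): the "tensor domain" lemma.

`A` a commutative `ℤ_(ℓ)`-algebra together with a bare ring homomorphism
`red : A →+* LaurentSeries (ZMod ℓ)` whose kernel is contained in `ℓ A`; then for every field `K`
of characteristic `ℓ` (with its `ℤ_(ℓ)`-algebra structure) the ring `A ⊗[ℤ_(ℓ)] K` embeds into
`LaurentSeries K`, hence is a domain.
-/
import Mathlib
import Fermat.Prelude.Def_ModularCurve_LaurentCoeff
import Fermat.Prelude.Def_GaloisRep_Flat

set_option autoImplicit false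

noncomputable section

open TensorProduct ModularCurve

namespace Fermat.Agent.S28.TensorDomain

/-- The inverse of the denominator of a rational number lies in `ℤ_(ℓ)` if the number does. -/
theorem den_inv_mem {ℓ : ℕ} {x : ℚ} (hx : x ∈ GaloisRep.ratLocalizedAt ℓ) :
    ((x.den : ℚ))⁻¹ ∈ GaloisRep.ratLocalizedAt ℓ := by
  show (((x.den : ℚ))⁻¹).den.Coprime ℓ
  have hd : (((x.den : ℚ))⁻¹).den = x.den := by
    simp [x.den_ne_zero]
  rw [hd]
  exact hx

/-- Ring homomorphisms out of `ℤ_(ℓ)` are unique. -/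
theorem ringHom_ext_Zl {ℓ : ℕ} {B : Type*} [Ring B]
    (f g : (GaloisRep.ratLocalizedAt ℓ) →+* B) : f = g := by
  ext ⟨x, hx⟩
  set dinv : (GaloisRep.ratLocalizedAt ℓ) := ⟨((x.den : ℚ))⁻¹, den_inv_mem hx⟩ with hdinv
  have hdne : (x.den : ℚ) ≠ 0 := by exact_mod_cast x.den_ne_zero
  have h1 : dinv * (x.den : (GaloisRep.ratLocalizedAt ℓ)) = 1 := Subtype.ext (by
    simp [hdinv, hdne])
  have h1' : (x.den : (GaloisRep.ratLocalizedAt ℓ)) * dinv = 1 := by rw [mul_comm]; exact h1
  have h2 : (⟨x, hx⟩ : (GaloisRep.ratLocalizedAt ℓ)) =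
      dinv * (x.num : (GaloisRep.ratLocalizedAt ℓ)) := Subtype.ext (by
    simp only [hdinv, Subring.coe_mul, Subring.coe_intCast]
    rw [inv_mul_eq_div]
    exact (Rat.num_div_den x).symm)
  have hfg : f dinv = g dinv := by
    calc f dinv = f dinv * (g (x.den : (GaloisRep.ratLocalizedAt ℓ)) * g dinv) := by
          rw [← map_mul, h1', map_one, mul_one]
      _ = (f dinv * f (x.den : (GaloisRep.ratLocalizedAt ℓ))) * g dinv := by
          rw [map_natCast, map_natCast, mul_assoc]
      _ = g dinv := by rw [← map_mul, h1, map_one, one_mul]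
  rw [h2, map_mul, map_mul, map_intCast, map_intCast, hfg]

section Main

variable (ℓ : ℕ) [Fact ℓ.Prime]
variable {A : Type*} [CommRing A] [Algebra (GaloisRep.ratLocalizedAt ℓ) A]
variable (K : Type*) [Field K] [CharP K ℓ] [Algebra (GaloisRep.ratLocalizedAt ℓ) K]

/-- The canonical map `𝔽_ℓ → K`. -/
abbrev iota : ZMod ℓ →+* K :=
  ZMod.castHom (dvd_refl ℓ) K

omit [Fact ℓ.Prime] [CharP K ℓ] [Algebra (GaloisRep.ratLocalizedAt ℓ) K] in
/-- A private copy of `K((q))`, carrying exactly one `ℤ_(ℓ)`-algebra structure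
(`LaurentSeries K` itself carries two non-reducibly-equal scalar actions of `ℤ_(ℓ)`). -/
def LK : Type _ := LaurentSeries K

instance instCommRingLK : CommRing (LK K) := inferInstanceAs (CommRing (LaurentSeries K))

instance instIsDomainLK : IsDomain (LK K) := inferInstanceAs (IsDomain (LaurentSeries K))

instance algLK : Algebra (GaloisRep.ratLocalizedAt ℓ) (LK K) :=
  (RingHom.comp (HahnSeries.C : K →+* LaurentSeries K)
    (algebraMap (GaloisRep.ratLocalizedAt ℓ) K)).toAlgebra

omit [Fact ℓ.Prime] [CharP K ℓ] [Algebra (GaloisRep.ratLocalizedAt ℓ) K] in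
/-- The identity `LK K → K((q))` as a ring homomorphism. -/
def ofLK : LK K →+* LaurentSeries K := RingHom.id (LaurentSeries K)

/-- The first factor `A → K((q))`. -/
def redK (red : A →+* LaurentSeries (ZMod ℓ)) :
    A →ₐ[(GaloisRep.ratLocalizedAt ℓ)] LK K :=
  { ((coeffMap (iota ℓ K)).comp red : A →+* LaurentSeries K) with
    commutes' := fun r => by
      have := ringHom_ext_Zl (ℓ := ℓ) (B := LK K)
        ((((coeffMap (iota ℓ K)).comp red).comp
          (algebraMap (GaloisRep.ratLocalizedAt ℓ) A) : _ →+* LaurentSeries K))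
        (algebraMap (GaloisRep.ratLocalizedAt ℓ) (LK K))
      exact RingHom.congr_fun this r }

omit [Fact ℓ.Prime] [CharP K ℓ] in
/-- The second factor `K → K((q))`. -/
def constK : K →ₐ[(GaloisRep.ratLocalizedAt ℓ)] LK K :=
  { (HahnSeries.C : K →+* LaurentSeries K) with
    commutes' := fun _ => rfl }

/-- The comparison map `A ⊗ K → K((q))`. -/
def Phi (red : A →+* LaurentSeries (ZMod ℓ)) :
    A ⊗[(GaloisRep.ratLocalizedAt ℓ)] K →ₐ[(GaloisRep.ratLocalizedAt ℓ)] LK K :=
  Algebra.TensorProduct.lift (redK ℓ K red) (constK ℓ K)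
    (fun _ _ => Commute.all _ _)

theorem Phi_tmul (red : A →+* LaurentSeries (ZMod ℓ)) (a : A) (c : K) :
    ofLK K (Phi ℓ K red (a ⊗ₜ[(GaloisRep.ratLocalizedAt ℓ)] c)) =
      coeffMap (iota ℓ K) (red a) * (HahnSeries.C c : LaurentSeries K) := by
  rw [Phi, Algebra.TensorProduct.lift_tmul]
  rfl

theorem coeff_Phi_tmul (red : A →+* LaurentSeries (ZMod ℓ)) (a : A) (c : K) (n : ℤ) :
    (ofLK K (Phi ℓ K red (a ⊗ₜ[(GaloisRep.ratLocalizedAt ℓ)] c))).coeff n =
      iota ℓ K ((red a).coeff n) * c := by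
  rw [Phi_tmul, HahnSeries.C_apply, HahnSeries.coeff_mul_single_zero, coeffMap_coeff]

omit [Fact ℓ.Prime] [CharP K ℓ] in
/-- `(n : A) * a ⊗ c = a ⊗ (n : K) * c`. -/
theorem natCast_mul_tmul (n : ℕ) (a : A) (c : K) :
    ((n : A) * a) ⊗ₜ[(GaloisRep.ratLocalizedAt ℓ)] c =
      a ⊗ₜ[(GaloisRep.ratLocalizedAt ℓ)] ((n : K) * c) := by
  have h1 : (n : A) * a = (n : (GaloisRep.ratLocalizedAt ℓ)) • a := by
    rw [Algebra.smul_def, map_natCast]
  have h2 : (n : K) * c = (n : (GaloisRep.ratLocalizedAt ℓ)) • c := by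
    rw [Algebra.smul_def, map_natCast]
  rw [h1, h2, TensorProduct.smul_tmul]

/-- Every tensor is a finite sum `∑ aᵢ ⊗ bᵢ` along an `𝔽_ℓ`-basis `b` of `K`. -/
theorem exists_repr {I : Type*}
    (b : letI := ZMod.algebra K ℓ; Module.Basis I (ZMod ℓ) K)
    (t : A ⊗[(GaloisRep.ratLocalizedAt ℓ)] K) :
    ∃ f : I →₀ A, t = f.sum (fun i a => a ⊗ₜ[(GaloisRep.ratLocalizedAt ℓ)] b i) := by
  let _ := ZMod.algebra K ℓ
  induction t using TensorProduct.induction_on with
  | zero => exact ⟨0, by simp⟩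
  | tmul a c =>
    refine ⟨(b.repr c).mapRange (fun m => (m.val : A) * a) (by simp), ?_⟩
    rw [Finsupp.sum_mapRange_index (fun i => by simp)]
    have hc : c = (b.repr c).sum (fun i m => (m.val : K) * b i) := by
      conv_lhs => rw [← b.linearCombination_repr c, Finsupp.linearCombination_apply]
      refine Finsupp.sum_congr fun i _ => ?_
      rw [Algebra.smul_def]
      congr 1
      show (ZMod.castHom (dvd_refl ℓ) K) (b.repr c i) = _
      conv_lhs => rw [← ZMod.natCast_zmod_val (b.repr c i)]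
      rw [map_natCast]
    conv_lhs => rw [hc]
    rw [Finsupp.sum, TensorProduct.tmul_sum, Finsupp.sum]
    refine Finset.sum_congr rfl fun i _ => ?_
    rw [natCast_mul_tmul]
  | add x y hx hy =>
    obtain ⟨f, rfl⟩ := hx
    obtain ⟨g, rfl⟩ := hy
    refine ⟨f + g, ?_⟩
    rw [Finsupp.sum_add_index' (fun i => by simp) (fun i a₁ a₂ => by rw [TensorProduct.add_tmul])]

/-- The comparison map is injective as soon as the kernel of `red` is contained in `ℓ A`. -/
theorem Phi_injective (red : A →+* LaurentSeries (ZMod ℓ))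
    (hker : ∀ x : A, red x = 0 → ∃ y : A, x = (ℓ : A) * y) :
    Function.Injective (Phi ℓ K red) := by
  let _ := ZMod.algebra K ℓ
  rw [injective_iff_map_eq_zero]
  intro t ht
  set b := Module.Basis.ofVectorSpace (ZMod ℓ) K with hb
  obtain ⟨f, rfl⟩ := exists_repr ℓ K b t
  rw [map_finsuppSum] at ht
  -- coefficientwise
  have hcoeff : ∀ n : ℤ, ∑ i ∈ f.support, ((red (f i)).coeff n) • b i = 0 := by
    intro n
    have h := congrArg (fun x : LK K => (ofLK K x).coeff n) ht
    simp only [Finsupp.sum, map_sum, map_zero, HahnSeries.coeff_sum, HahnSeries.coeff_zero] at h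
    rw [← h]
    refine Finset.sum_congr rfl fun i _ => ?_
    rw [coeff_Phi_tmul, Algebra.smul_def]
    rfl
  have hzero : ∀ i ∈ f.support, red (f i) = 0 := by
    intro i hi
    ext n
    exact linearIndependent_iff'.mp b.linearIndependent f.support
      (fun i => (red (f i)).coeff n) (hcoeff n) i hi
  rw [Finsupp.sum]
  refine Finset.sum_eq_zero fun i hi => ?_
  obtain ⟨y, hy⟩ := hker (f i) (hzero i hi)
  rw [hy, natCast_mul_tmul, CharP.cast_eq_zero K ℓ, zero_mul, TensorProduct.tmul_zero]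

/-- **Tensor domain lemma.** -/
theorem isDomain_tensor (red : A →+* LaurentSeries (ZMod ℓ))
    (hker : ∀ x : A, red x = 0 → ∃ y : A, x = (ℓ : A) * y) :
    IsDomain (A ⊗[(GaloisRep.ratLocalizedAt ℓ)] K) :=
  Function.Injective.isDomain (Phi ℓ K red).toRingHom (Phi_injective ℓ K red hker)

/-- **Tensor domain lemma**, other order of the factors. -/
theorem isDomain_tensor' (red : A →+* LaurentSeries (ZMod ℓ))
    (hker : ∀ x : A, red x = 0 → ∃ y : A, x = (ℓ : A) * y) :
    IsDomain (K ⊗[(GaloisRep.ratLocalizedAt ℓ)] A) :=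
  haveI := isDomain_tensor ℓ K red hker
  (Algebra.TensorProduct.comm (GaloisRep.ratLocalizedAt ℓ) K A).toMulEquiv.isDomain

end Main

end Fermat.Agent.S28.TensorDomain
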