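import Mathlib
import Fermat.Agent.S28.HDPackage
import Fermat.Agent.S28.TensorDomain

/-!
# S28, block D bridge: `ChartDomainStatement` from the q-expansion principle

`QExpMainStatement` is the closed form of the export `QExpPrinciple.main` of block D.valuation
(report 1005): from the hypothesis package `HD` (a family `x : Fin (ψ N) → F` with `ℓ`-integral
`q`-expansions, spanning `F` over `ℚ(j)`, with `𝔽_ℓ(j̄)`-independent reductions) each of the three
chart algebras carries a reduction homomorphism to `𝔽_ℓ((q))` whose kernel is contained in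
`ℓ · chartAlg`.

`chartDomain_of_qexp` : `QExpMainStatement → CoreIndepStatement → DegreeQStatement →
ChartDomainStatement`, via `HDPackage.exists_HD` and `TensorDomain.isDomain_tensor`.
-/

set_option autoImplicit false

open IntermediateField ModularCurve ModularCurve.IgusaScheme
open scoped TensorProduct

namespace Fermat.Agent.S28.ChartDomainOfMain

open Fermat.Agent.S28.Interfaces Fermat.Agent.S28.IntLaurent

/-- The conclusion of the q-expansion principle for one chart `S`: a reduction homomorphism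
`chartAlg S → 𝔽_ℓ((q))` with kernel inside `ℓ · chartAlg S`. -/
def HasRed (N : ℕ) [NeZero N] (ℓ : ℕ) [Fact ℓ.Prime]
    (S : Set ↥(modularFunctionFieldFull N)) : Prop :=
  ∃ red : ↥(chartAlg N ℓ S) →+* LaurentSeries (ZMod ℓ),
    ∀ x, red x = 0 → ∃ y : ↥(chartAlg N ℓ S), x = (ℓ : ↥(chartAlg N ℓ S)) * y

/-- **(D.valuation)** the q-expansion principle, closed form. -/
def QExpMainStatement : Prop :=
  ∀ (N : ℕ) [NeZero N] (ℓ : ℕ) [Fact ℓ.Prime]
    (x : Fin (dedekindPsi N) → ↥(modularFunctionFieldFull N))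
    (hint : ∀ i, ((x i : ↥(modularFunctionFieldFull N)) : LaurentSeries ℚ) ∈ IntSub ℓ),
    Submodule.span ↥(ℚ⟮jFull N⟯) (Set.range x) = ⊤ →
    LinearIndependent ↥((ZMod ℓ)⟮jqModC (ZMod ℓ)⟯)
      (fun i => redInt ℓ ⟨((x i : ↥(modularFunctionFieldFull N)) : LaurentSeries ℚ), hint i⟩) →
    HasRed N ℓ {jFull N} ∧ HasRed N ℓ {(jFull N)⁻¹} ∧ HasRed N ℓ {jFull N, (jFull N)⁻¹}

/-- A chart algebra with a reduction homomorphism is a domain after every base change to a field
of characteristic `ℓ`. -/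
theorem isDomain_of_hasRed (N : ℕ) [NeZero N] (ℓ : ℕ) [Fact ℓ.Prime]
    (S : Set ↥(modularFunctionFieldFull N)) (h : HasRed N ℓ S)
    (K : Type) [Field K] [CharP K ℓ] [Algebra ↥(GaloisRep.ratLocalizedAt ℓ) K] :
    IsDomain (↥(chartAlg N ℓ S) ⊗[↥(GaloisRep.ratLocalizedAt ℓ)] K) := by
  obtain ⟨red, hker⟩ := h
  exact Fermat.Agent.S28.TensorDomain.isDomain_tensor ℓ K red hker

/-- **Block D**, modulo the q-expansion principle. -/
theorem chartDomain_of_qexp (hmain : QExpMainStatement) (hC : CoreIndepStatement)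
    (_hQ : DegreeQStatement) : ChartDomainStatement := by
  intro N _ ℓ _ hℓN K _ _ _
  obtain ⟨x, hint, hspan, hind⟩ := Fermat.Agent.S28.HDPackage.exists_HD N ℓ hC hℓN
  obtain ⟨h1, h2, h3⟩ := hmain N ℓ x hint hspan hind
  exact ⟨isDomain_of_hasRed N ℓ _ h1 K, isDomain_of_hasRed N ℓ _ h2 K,
    isDomain_of_hasRed N ℓ _ h3 K⟩

end Fermat.Agent.S28.ChartDomainOfMain
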