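/-
S28 / block C, coprime step, part 2 (helper97): the base points `j(ξ u ^ r)` and the modular
equation (interface `HasModEq`) transported to an arbitrary base point.
-/
import Mathlib
import Fermat.Agent.S28.Interfaces

set_option autoImplicit false

open Polynomial ModularCurve
open Fermat.Agent.S20.LaurentTools Fermat.Agent.S28.Interfaces

namespace Fermat.Agent.S28.BasePoint

variable {k : Type*} [Field k]

/-- `rot ξ` commutes with `qExpand d` up to replacing `ξ` by `ξ ^ d`. -/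
theorem rot_qExpand (ξ : kˣ) (d : ℕ) [NeZero d] (f : LaurentSeries k) :
    rot ξ (qExpand k d f) = qExpand k d (rot (ξ ^ d) f) := by
  ext n
  by_cases hn : (d : ℤ) ∣ n
  · obtain ⟨m, rfl⟩ := hn
    rw [coeff_rot, qExpand_coeff_mul, qExpand_coeff_mul, coeff_rot]
    congr 2
    rw [zpow_mul, zpow_natCast]
  · rw [coeff_rot, qExpand_coeff_of_not_dvd d f hn, qExpand_coeff_of_not_dvd d _ hn, mul_zero]

/-- The base point `j(ξ u ^ r)` (junk value `0` for `r = 0`). -/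
noncomputable def bp (ξ : kˣ) (r : ℕ) : LaurentSeries k :=
  if h : r = 0 then 0 else @qExpand k _ r ⟨h⟩ (rot ξ (jqModC k))

theorem bp_eq (ξ : kˣ) (r : ℕ) [hr : NeZero r] : bp ξ r = qExpand k r (rot ξ (jqModC k)) := by
  unfold bp
  rw [dif_neg (NeZero.ne r)]

theorem jD_eq_bp (d : ℕ) : jD k d = bp (1 : kˣ) d := by
  unfold jD bp
  by_cases h : d = 0
  · rw [dif_pos h, dif_pos h]
  · rw [dif_neg h, dif_neg h, rot_one]

/-- `f(v) ↦ f(ξ u ^ e)` applied to `j(v ^ d)`. -/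
theorem theta_jD (ξ : kˣ) (e d : ℕ) [NeZero e] [NeZero d] :
    qExpand k e (rot ξ (jD k d)) = bp (ξ ^ d) (e * d) := by
  have : NeZero (e * d) := ⟨Nat.mul_ne_zero (NeZero.ne e) (NeZero.ne d)⟩
  rw [jD_eq, rot_qExpand, qExpand_qExpand, bp_eq]

/-- `f(v) ↦ f(ξ u ^ e)` applied to `j(ζ v)`. -/
theorem theta_rot (ξ ζ : kˣ) (e : ℕ) [NeZero e] :
    qExpand k e (rot ξ (rot ζ (jqModC k))) = bp (ξ * ζ) e := by
  rw [rot_rot, bp_eq]

/-- `qExpand d` of a base point. -/
theorem qExpand_bp (ξ : kˣ) (d r : ℕ) [NeZero d] [NeZero r] :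
    qExpand k d (bp ξ r) = bp ξ (d * r) := by
  have : NeZero (d * r) := ⟨Nat.mul_ne_zero (NeZero.ne d) (NeZero.ne r)⟩
  rw [bp_eq, bp_eq, qExpand_qExpand]

/-- `rot η` of a base point. -/
theorem rot_bp (η ξ : kˣ) (r : ℕ) [NeZero r] :
    rot η (bp ξ r) = bp (η ^ r * ξ) r := by
  rw [bp_eq, bp_eq, rot_qExpand, rot_rot]

theorem bp_coeff_neg (ξ : kˣ) (r : ℕ) [NeZero r] :
    (bp ξ r).coeff (-(r : ℤ)) = ((ξ⁻¹ : kˣ) : k) := by
  have h : (-(r : ℤ)) = (r : ℤ) * (-1) := by ring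
  rw [bp_eq, h, qExpand_coeff_mul, coeff_rot, coeff_jqModC_neg_one, mul_one, zpow_neg_one]

theorem bp_coeff_of_not_dvd (ξ : kˣ) (r : ℕ) [NeZero r] {n : ℤ} (hn : ¬ (r : ℤ) ∣ n) :
    (bp ξ r).coeff n = 0 := by
  rw [bp_eq, qExpand_coeff_of_not_dvd r _ hn]

/-- A base point `j(ξ u ^ r)` with `p ∣ r` is a series in `u ^ p`. -/
theorem bp_mem_range (ξ : kˣ) (p r : ℕ) [NeZero p] (hr : r ≠ 0) (hpr : p ∣ r) :
    bp ξ r ∈ Set.range (qExpand k p) := by
  obtain ⟨e, rfl⟩ := hpr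
  have he : e ≠ 0 := fun h => hr (by rw [h, mul_zero])
  have : NeZero e := ⟨he⟩
  exact ⟨bp ξ e, qExpand_bp ξ p e⟩

/-- Elements of the range of `qExpand p` have no coefficients outside the multiples of `p`. -/
theorem coeff_eq_zero_of_mem_range {p : ℕ} [NeZero p] {f : LaurentSeries k}
    (hf : f ∈ Set.range (qExpand k p)) {n : ℤ} (hn : ¬ (p : ℤ) ∣ n) : f.coeff n = 0 := by
  obtain ⟨g, rfl⟩ := hf
  exact qExpand_coeff_of_not_dvd p g hn

/-- `j(u ^ M)` is not a series in `u ^ p` when `p ∤ M`. -/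
theorem bp_not_mem_range (ξ : kˣ) (p M : ℕ) [NeZero p] [NeZero M] (hpM : ¬ p ∣ M) :
    bp ξ M ∉ Set.range (qExpand k p) := by
  intro h
  have h0 := coeff_eq_zero_of_mem_range h (n := -(M : ℤ)) (by
    rw [Int.dvd_neg]
    exact fun hd => hpM (Int.natCast_dvd_natCast.mp hd))
  rw [bp_coeff_neg] at h0
  exact Units.ne_zero _ h0

/-- The `k`-algebra homomorphism `f(v) ↦ f(ξ u ^ e)`. -/
noncomputable def theta (ξ : kˣ) (e : ℕ) [NeZero e] : LaurentSeries k →ₐ[k] LaurentSeries k :=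
  (qExpandAlgHomC k e).comp (rot ξ).toAlgHom

theorem theta_apply (ξ : kˣ) (e : ℕ) [NeZero e] (f : LaurentSeries k) :
    theta ξ e f = qExpand k e (rot ξ f) := rfl

/-- **The modular equation at an arbitrary base point.** -/
theorem modEq_bp {p : ℕ} (hp : p ≠ 0) {ζ : kˣ} {Φ : Polynomial (Polynomial k)}
    (hΦ : Φ.map ((aeval (jD k p) : Polynomial k →ₐ[k] LaurentSeries k) :
        Polynomial k →+* LaurentSeries k) =
      (X - C (jD k (p ^ 2))) * ∏ b ∈ Finset.range p, (X - C (rot (ζ ^ b) (jqModC k))))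
    (ξ : kˣ) (e : ℕ) [NeZero e] :
    Φ.map ((aeval (bp (ξ ^ p) (e * p)) : Polynomial k →ₐ[k] LaurentSeries k) :
        Polynomial k →+* LaurentSeries k) =
      (X - C (bp (ξ ^ (p ^ 2)) (e * p ^ 2))) *
        ∏ b ∈ Finset.range p, (X - C (bp (ξ * ζ ^ b) e)) := by
  have : NeZero p := ⟨hp⟩
  have : NeZero (p ^ 2) := ⟨pow_ne_zero 2 hp⟩
  have h := congrArg (Polynomial.map ((theta ξ e : LaurentSeries k →ₐ[k] LaurentSeries k) :
    LaurentSeries k →+* LaurentSeries k)) hΦ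
  rw [Polynomial.map_map] at h
  have hcomp : ((theta ξ e : LaurentSeries k →ₐ[k] LaurentSeries k) :
      LaurentSeries k →+* LaurentSeries k).comp
        ((aeval (jD k p) : Polynomial k →ₐ[k] LaurentSeries k) :
          Polynomial k →+* LaurentSeries k) =
      ((aeval (bp (ξ ^ p) (e * p)) : Polynomial k →ₐ[k] LaurentSeries k) :
        Polynomial k →+* LaurentSeries k) := by
    have h1 : aeval (theta ξ e (jD k p)) = (theta ξ e).comp (aeval (jD k p)) :=
      aeval_algHom (theta ξ e) (jD k p)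
    rw [theta_apply, theta_jD] at h1
    rw [h1]
    rfl
  rw [hcomp] at h
  rw [h, Polynomial.map_mul, Polynomial.map_sub, Polynomial.map_X, Polynomial.map_C,
    Polynomial.map_prod]
  congr 1
  · congr 2
    show theta ξ e (jD k (p ^ 2)) = _
    rw [theta_apply, theta_jD]
  · refine Finset.prod_congr rfl fun b _ => ?_
    rw [Polynomial.map_sub, Polynomial.map_X, Polynomial.map_C]
    congr 2
    show theta ξ e (rot (ζ ^ b) (jqModC k)) = _
    rw [theta_apply, theta_rot]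

end Fermat.Agent.S28.BasePoint
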