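/-
S28 / block C, coprime step, part 1 (helper97): extension of field embeddings with control of the
images (pure field theory, Mathlib only).
-/
import Mathlib

set_option autoImplicit false

open Polynomial IntermediateField

namespace Fermat.Agent.S28.LiftTrack

variable {F E K : Type*} [Field F] [Field E] [Field K] [Algebra F E] [Algebra F K]

/-- Extend a lift to `s`, sending `s` to a prescribed root of the image of its minimal
polynomial. -/
theorem exists_lift_of_root (x : Lifts F E K) {s : E} (h1 : IsIntegral x.carrier s) (β : K)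
    (h2 : ((minpoly x.carrier s).map x.emb.toRingHom).IsRoot β) :
    ∃ y : Lifts F E K, x ≤ y ∧ ∃ h : s ∈ y.carrier, y.emb ⟨s, h⟩ = β := by
  let _ : Algebra x.carrier K := x.emb.toRingHom.toAlgebra
  let carrier := x.carrier⟮s⟯.restrictScalars F
  let _ : Algebra x.carrier carrier := x.carrier⟮s⟯.toSubalgebra.algebra
  let φ : carrier →ₐ[x.carrier] K := ((algHomAdjoinIntegralEquiv x.carrier h1).symm
    ⟨β, by
      rw [mem_aroots, and_iff_right (minpoly.ne_zero h1)]
      exact (eval_map _ _).symm.trans h2⟩)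
  refine ⟨⟨carrier, (@algHomEquivSigma F x.carrier carrier K _ _ _ _ _ _ _ _
      (IsScalarTower.of_algebraMap_eq fun _ ↦ rfl)).symm ⟨x.emb, φ⟩⟩,
    ⟨fun z hz ↦ IntermediateField.algebraMap_mem x.carrier⟮s⟯ ⟨z, hz⟩, φ.commutes⟩,
    mem_adjoin_simple_self x.carrier s, ?_⟩
  exact algHomAdjoinIntegralEquiv_symm_apply_gen x.carrier h1 _

/-- If `x ≤ y` and `s ∈ x.carrier`, the two embeddings agree on `s`. -/
theorem emb_eq_of_le {x y : Lifts F E K} (hxy : x ≤ y) {s : E} (hx : s ∈ x.carrier)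
    (hy : s ∈ y.carrier) : y.emb ⟨s, hy⟩ = x.emb ⟨s, hx⟩ := by
  obtain ⟨h, h'⟩ := hxy
  exact h' ⟨s, hx⟩

/-- Tracked step: if `s` is a root of a nonzero `g` over the current carrier whose image splits
with all roots in `T`, the lift extends to `s` with image in `T`. -/
theorem exists_lift_of_splits_of_roots (x : Lifts F E K) {s : E} (g : x.carrier[X]) (hg0 : g ≠ 0)
    (hgs : aeval s g = 0) (T : Set K) (hsplit : (g.map x.emb.toRingHom).Splits)
    (hroots : ∀ β, (g.map x.emb.toRingHom).IsRoot β → β ∈ T) :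
    ∃ y : Lifts F E K, x ≤ y ∧ ∃ h : s ∈ y.carrier, y.emb ⟨s, h⟩ ∈ T := by
  have h1 : IsIntegral x.carrier s := (isAlgebraic_iff_isIntegral).mp ⟨g, hg0, hgs⟩
  have hdvd : minpoly x.carrier s ∣ g := minpoly.dvd _ _ hgs
  have hdvd' : (minpoly x.carrier s).map x.emb.toRingHom ∣ g.map x.emb.toRingHom :=
    Polynomial.map_dvd _ hdvd
  have hg0' : g.map x.emb.toRingHom ≠ 0 :=
    (Polynomial.map_ne_zero_iff x.emb.toRingHom.injective).mpr hg0
  have hsp : ((minpoly x.carrier s).map x.emb.toRingHom).Splits := hsplit.of_dvd hg0' hdvd'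
  have hdeg : ((minpoly x.carrier s).map x.emb.toRingHom).degree ≠ 0 := by
    rw [degree_map]
    exact (minpoly.degree_pos h1).ne'
  obtain ⟨β, hβ⟩ := hsp.exists_eval_eq_zero hdeg
  obtain ⟨y, hxy, h, hy⟩ := exists_lift_of_root x h1 β hβ
  refine ⟨y, hxy, h, ?_⟩
  rw [hy]
  refine hroots β ?_
  obtain ⟨c, hc⟩ := hdvd'
  rw [IsRoot, hc, eval_mul, hβ, zero_mul]

/-- Iterated tracked extension along a sequence of generators. -/
theorem exists_lift_tracking (x₀ : Lifts F E K) (s : ℕ → E) (T : ℕ → Set K) (n : ℕ)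
    (hstep : ∀ y : Lifts F E K, x₀ ≤ y → ∀ i < n,
      (∀ j < i, ∃ h : s j ∈ y.carrier, y.emb ⟨s j, h⟩ ∈ T j) →
      ∃ g : y.carrier[X], g ≠ 0 ∧ aeval (s i) g = 0 ∧ (g.map y.emb.toRingHom).Splits ∧
        ∀ β, (g.map y.emb.toRingHom).IsRoot β → β ∈ T i) :
    ∃ y : Lifts F E K, x₀ ≤ y ∧ ∀ i < n, ∃ h : s i ∈ y.carrier, y.emb ⟨s i, h⟩ ∈ T i := by
  induction n with
  | zero => exact ⟨x₀, le_rfl, fun i hi => absurd hi (Nat.not_lt_zero i)⟩
  | succ n ih =>
    obtain ⟨y, hy0, hy⟩ := ih (fun y hy i hi hj => hstep y hy i (Nat.lt_succ_of_lt hi) hj)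
    obtain ⟨g, hg0, hgs, hsplit, hroots⟩ := hstep y hy0 n (Nat.lt_succ_self n) hy
    obtain ⟨z, hyz, h, hz⟩ := exists_lift_of_splits_of_roots y g hg0 hgs (T n) hsplit hroots
    refine ⟨z, hy0.trans hyz, fun i hi => ?_⟩
    rcases Nat.lt_succ_iff_lt_or_eq.mp hi with hlt | rfl
    · obtain ⟨hi', hT⟩ := hy i hlt
      refine ⟨hyz.1 hi', ?_⟩
      rw [emb_eq_of_le hyz hi']
      exact hT
    · exact ⟨h, hz⟩

end Fermat.Agent.S28.LiftTrack
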