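/-
S28 / block C, coprime step (helper97): for `k` algebraically closed, `p` prime, `p ∤ M`,
`M p` invertible in `k`:  `j(q ^ p) ∉ k(j(q ^ d) : d ∣ M)`,
from the modular equations (interface `HasModEq`) and the prime case `j(q ^ p) ∉ k(j)`.
-/
import Mathlib
import Fermat.Agent.S28.BasePoint
import Fermat.Agent.S28.LiftTrack

set_option autoImplicit false

open Polynomial IntermediateField ModularCurve
open Fermat.Agent.S20.LaurentTools Fermat.Agent.S28.Interfaces Fermat.Agent.S28.BasePoint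
open Fermat.Agent.S28.LiftTrack

namespace Fermat.Agent.S28.CoprimeNotMem

variable {k : Type*} [Field k]

/-! ### Generic bookkeeping for `Φ(X, a)` -/

/-- `Φ(X, a)` mapped by an algebra homomorphism `f` is `Φ(X, f a)`. -/
theorem map_map_aeval {A B : Type*} [CommRing A] [CommRing B] [Algebra k A] [Algebra k B]
    (f : A →ₐ[k] B) (a : A) (Φ : Polynomial (Polynomial k)) :
    (Φ.map ((aeval a : Polynomial k →ₐ[k] A) : Polynomial k →+* A)).map (f : A →+* B) =
      Φ.map ((aeval (f a) : Polynomial k →ₐ[k] B) : Polynomial k →+* B) := by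
  rw [Polynomial.map_map, aeval_algHom]
  rfl

/-- In the `q`-world: `Φ_p(j(q ^ (d p)), j(q ^ d)) = 0`. -/
theorem modEq_root {p : ℕ} (hp : p ≠ 0) {ζ : kˣ} {Φ : Polynomial (Polynomial k)}
    (hΦ : Φ.map ((aeval (jD k p) : Polynomial k →ₐ[k] LaurentSeries k) :
        Polynomial k →+* LaurentSeries k) =
      (X - C (jD k (p ^ 2))) * ∏ b ∈ Finset.range p, (X - C (rot (ζ ^ b) (jqModC k))))
    (d : ℕ) (hd : d ≠ 0) :
    (Φ.map ((aeval (jD k d) : Polynomial k →ₐ[k] LaurentSeries k) :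
        Polynomial k →+* LaurentSeries k)).eval (jD k (d * p)) = 0 := by
  have : NeZero p := ⟨hp⟩
  have : NeZero d := ⟨hd⟩
  have : NeZero (d * p) := ⟨Nat.mul_ne_zero hd hp⟩
  have h := modEq_bp hp hΦ (1 : kˣ) d
  rw [one_pow, one_pow] at h
  have h1 : bp (1 : kˣ) (d * p) = qExpandAlgHomC k p (jD k d) := by
    rw [qExpandAlgHomC_apply, jD_eq_bp, qExpand_bp, mul_comm]
  have h2 : bp (1 : kˣ) (d * p ^ 2) = qExpandAlgHomC k p (jD k (d * p)) := by
    rw [qExpandAlgHomC_apply, jD_eq_bp, qExpand_bp]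
    congr 1
    ring
  rw [h1, ← map_map_aeval, h2] at h
  have h3 : ((Φ.map ((aeval (jD k d) : Polynomial k →ₐ[k] LaurentSeries k) :
      Polynomial k →+* LaurentSeries k)).map
        ((qExpandAlgHomC k p : LaurentSeries k →ₐ[k] LaurentSeries k) :
          LaurentSeries k →+* LaurentSeries k)).eval (qExpandAlgHomC k p (jD k (d * p))) = 0 := by
    rw [h, eval_mul, eval_sub, eval_X, eval_C, sub_self, zero_mul]
  have h4 : ((qExpandAlgHomC k p : LaurentSeries k →ₐ[k] LaurentSeries k) :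
      LaurentSeries k →+* LaurentSeries k)
      ((Φ.map ((aeval (jD k d) : Polynomial k →ₐ[k] LaurentSeries k) :
        Polynomial k →+* LaurentSeries k)).eval (jD k (d * p))) = 0 := by
    rw [← Polynomial.eval_map_apply]
    exact h3
  have hinj : Function.Injective (qExpandAlgHomC k p) := qExpand_injective p
  exact hinj (by rw [map_zero]; exact h4)

/-! ### The tracking sets -/

/-- The base points `j(ξ u ^ r)` with `p (M / d) ∣ r`: they contain every conjugate of `j(q ^ d)`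
(`q = u ^ (M p)`). -/
def Tset (k : Type*) [Field k] (p M d : ℕ) : Set (LaurentSeries k) :=
  {x | ∃ (ξ : kˣ) (r : ℕ), r ≠ 0 ∧ p * (M / d) ∣ r ∧ x = bp ξ r}

theorem Tset_subset_range (p M d : ℕ) [NeZero p] :
    Tset k p M d ⊆ Set.range (qExpand k p) := by
  rintro x ⟨ξ, r, hr, hdiv, rfl⟩
  exact bp_mem_range ξ p r hr (dvd_trans (dvd_mul_right p _) hdiv)

/-- Units of an algebraically closed field have `n`-th roots. -/
theorem exists_unit_pow_eq [IsAlgClosed k] (ξ : kˣ) {n : ℕ} (hn : 0 < n) :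
    ∃ η : kˣ, η ^ n = ξ := by
  obtain ⟨z, hz⟩ := IsAlgClosed.exists_pow_nat_eq (ξ : k) hn
  have hz0 : z ≠ 0 := by
    rintro rfl
    rw [zero_pow hn.ne'] at hz
    exact ξ.ne_zero hz.symm
  refine ⟨Units.mk0 z hz0, Units.ext ?_⟩
  rw [Units.val_pow_eq_pow_val, Units.val_mk0, hz]

/-- **Closure of the tracking sets**: for `β ∈ Tset d`, `Φ_{p'}(X, β)` splits with all roots in
`Tset (d p')`. -/
theorem splits_at_Tset [IsAlgClosed k] {p M d p' : ℕ} (hp' : p' ≠ 0) (hdp : d * p' ∣ M)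
    (hM : M ≠ 0) {ζ : kˣ} {Φ : Polynomial (Polynomial k)}
    (hΦ : Φ.map ((aeval (jD k p') : Polynomial k →ₐ[k] LaurentSeries k) :
        Polynomial k →+* LaurentSeries k) =
      (X - C (jD k (p' ^ 2))) * ∏ b ∈ Finset.range p', (X - C (rot (ζ ^ b) (jqModC k))))
    {β : LaurentSeries k} (hβ : β ∈ Tset k p M d) :
    (Φ.map ((aeval β : Polynomial k →ₐ[k] LaurentSeries k) :
        Polynomial k →+* LaurentSeries k)).Splits ∧
      ∀ γ, (Φ.map ((aeval β : Polynomial k →ₐ[k] LaurentSeries k) :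
        Polynomial k →+* LaurentSeries k)).IsRoot γ → γ ∈ Tset k p M (d * p') := by
  obtain ⟨ξ, r, hr, hdiv, rfl⟩ := hβ
  obtain ⟨c, hc⟩ := hdp
  have hd0 : d ≠ 0 := by
    rintro rfl
    apply hM
    rw [hc]
    simp
  have hc0 : c ≠ 0 := by
    rintro rfl
    exact hM (by rw [hc, mul_zero])
  have hMd : M / d = p' * c := by
    rw [hc, mul_assoc]
    exact Nat.mul_div_cancel_left _ (Nat.pos_of_ne_zero hd0)
  have hMdp : M / (d * p') = c := by
    rw [hc]
    exact Nat.mul_div_cancel_left _ (Nat.pos_of_ne_zero (Nat.mul_ne_zero hd0 hp'))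
  rw [hMd] at hdiv
  -- `r = e * p'`
  obtain ⟨t, ht⟩ := hdiv
  set e : ℕ := p * c * t with he
  have hre : r = e * p' := by rw [ht, he]; ring
  have he0 : e ≠ 0 := by
    rintro h0
    exact hr (by rw [hre, h0, zero_mul])
  have : NeZero e := ⟨he0⟩
  obtain ⟨ξ', hξ'⟩ := exists_unit_pow_eq ξ (Nat.pos_of_ne_zero hp')
  have hfac := modEq_bp hp' hΦ ξ' e
  rw [hξ', ← hre] at hfac
  rw [hfac]
  refine ⟨(Splits.X_sub_C _).mul (Splits.prod fun b _ => Splits.X_sub_C _), ?_⟩
  intro γ hγ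
  rw [IsRoot, eval_mul, eval_prod, mul_eq_zero, Finset.prod_eq_zero_iff] at hγ
  rcases hγ with hγ | ⟨b, _, hγ⟩
  · rw [eval_sub, eval_X, eval_C, sub_eq_zero] at hγ
    refine ⟨ξ' ^ (p' ^ 2), e * p' ^ 2, Nat.mul_ne_zero he0 (pow_ne_zero 2 hp'), ?_, hγ⟩
    rw [hMdp, he]
    exact ⟨t * p' ^ 2, by ring⟩
  · rw [eval_sub, eval_X, eval_C, sub_eq_zero] at hγ
    refine ⟨ξ' * ζ ^ b, e, he0, ?_, hγ⟩
    rw [hMdp, he]
    exact ⟨t, rfl⟩

/-! ### The base lift `q ↦ u ^ N` on `k(j)` and the dual embedding of `k(j, j(q ^ p))` -/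

/-- `Φ(X, a)` for `a` in a `k`-algebra `A` over which `B` is an algebra, evaluated in `B`. -/
theorem aeval_map_aeval {A B : Type*} [CommRing A] [CommRing B] [Algebra k A] [Algebra k B]
    [Algebra A B] [IsScalarTower k A B] (a : A) (s : B) (Φ : Polynomial (Polynomial k)) :
    aeval s (Φ.map ((aeval a : Polynomial k →ₐ[k] A) : Polynomial k →+* A)) =
      (Φ.map ((aeval (algebraMap A B a) : Polynomial k →ₐ[k] B) : Polynomial k →+* B)).eval s := by
  rw [aeval_def, eval₂_eq_eval_map]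
  exact congrArg (eval s) (map_map_aeval (IsScalarTower.toAlgHom k A B) a Φ)

variable (k) in
/-- The element `j` of `k(j)`. -/
noncomputable def jkj : kj k := ⟨jqModC k, mem_adjoin_simple_self k (jqModC k)⟩

variable (k) in
/-- `k(j) → k((u))`, `q ↦ u ^ N`. -/
noncomputable def emb0 (N : ℕ) [NeZero N] : kj k →ₐ[k] LaurentSeries k :=
  (qExpandAlgHomC k N).comp (kj k).val

variable (k) in
/-- The base lift: `k(j) → k((u))`, `q ↦ u ^ N`. -/
noncomputable def baseLift (N : ℕ) [NeZero N] : Lifts k (LaurentSeries k) (LaurentSeries k) :=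
  ⟨kj k, emb0 k N⟩

theorem emb0_apply (N : ℕ) [NeZero N] (a : kj k) :
    emb0 k N a = qExpand k N (a : LaurentSeries k) := rfl

/-- `rot η` fixes the image of the base lift when `η ^ N = 1`. -/
theorem rot_emb0 (N : ℕ) [NeZero N] (η : kˣ) (hη : η ^ N = 1) (a : kj k) :
    rot η (emb0 k N a) = emb0 k N a := by
  rw [emb0_apply, rot_qExpand, hη, rot_one]

/-- **The dual embedding in the prime case**: there is a lift extending `q ↦ u ^ (M p)` on `k(j)`
to `j(q ^ p)`, sending it to `j(u ^ M)`. -/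
theorem exists_prime_lift [IsAlgClosed k] {p M : ℕ} (hp : p ≠ 0) (hM : M ≠ 0) [NeZero (M * p)]
    {ζ : kˣ} (hζ : ζ ^ p = 1) {Φ : Polynomial (Polynomial k)} (hmonic : Φ.Monic)
    (hΦ : Φ.map ((aeval (jD k p) : Polynomial k →ₐ[k] LaurentSeries k) :
        Polynomial k →+* LaurentSeries k) =
      (X - C (jD k (p ^ 2))) * ∏ b ∈ Finset.range p, (X - C (rot (ζ ^ b) (jqModC k))))
    (hB : jD k p ∉ kj k) :
    ∃ x₀ : Lifts k (LaurentSeries k) (LaurentSeries k), baseLift k (M * p) ≤ x₀ ∧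
      ∃ h : jD k p ∈ x₀.carrier, x₀.emb ⟨jD k p, h⟩ = bp (1 : kˣ) M := by
  have : NeZero M := ⟨hM⟩
  have : NeZero p := ⟨hp⟩
  -- the polynomial `g₀ = Φ(X, j)` over `k(j)`
  set g₀ : Polynomial (kj k) :=
    Φ.map ((aeval (jkj k) : Polynomial k →ₐ[k] kj k) : Polynomial k →+* kj k) with hg₀
  have hg₀monic : g₀.Monic := hmonic.map _
  have hg₀root : aeval (jD k p) g₀ = 0 := by
    rw [hg₀, aeval_map_aeval]
    have h := modEq_root hp hΦ 1 one_ne_zero
    rw [one_mul, jD_one] at h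
    exact h
  have hint : IsIntegral (kj k) (jD k p) := ⟨g₀, hg₀monic, hg₀root⟩
  -- the image of `g₀`
  have hg₀map : g₀.map (emb0 k (M * p) : kj k →+* LaurentSeries k) =
      (X - C (bp (1 : kˣ) (M * p ^ 2))) * ∏ b ∈ Finset.range p, (X - C (bp (1 * ζ ^ b) M)) := by
    have h1 : g₀.map (emb0 k (M * p) : kj k →+* LaurentSeries k) =
        Φ.map ((aeval (emb0 k (M * p) (jkj k)) : Polynomial k →ₐ[k] LaurentSeries k) :
          Polynomial k →+* LaurentSeries k) := map_map_aeval (emb0 k (M * p)) (jkj k) Φ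
    have h2 : emb0 k (M * p) (jkj k) = bp ((1 : kˣ) ^ p) (M * p) := by
      rw [emb0_apply, one_pow, bp_eq, rot_one]
      rfl
    rw [h1, h2, modEq_bp hp hΦ (1 : kˣ) M, one_pow]
  -- the minimal polynomial and its image
  set m := minpoly (kj k) (jD k p) with hm
  have hmdvd : m.map (emb0 k (M * p) : kj k →+* LaurentSeries k) ∣
      g₀.map (emb0 k (M * p) : kj k →+* LaurentSeries k) :=
    Polynomial.map_dvd _ (minpoly.dvd _ _ hg₀root)
  have hmdeg : 2 ≤ (m.map (emb0 k (M * p) : kj k →+* LaurentSeries k)).natDegree := by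
    rw [natDegree_map]
    have h1 : m.natDegree ≠ 1 := by
      intro h1
      have := (minpoly.natDegree_eq_one_iff (A := kj k) (x := jD k p)).mp h1
      obtain ⟨a, ha⟩ := this
      exact hB (ha ▸ a.2)
    have h0 : 0 < m.natDegree := minpoly.natDegree_pos hint
    omega
  -- some `j(ζ ^ b u ^ M)` is a root
  have hroot : ∃ b ∈ Finset.range p,
      (m.map (emb0 k (M * p) : kj k →+* LaurentSeries k)).IsRoot (bp (1 * ζ ^ b) M) := by
    by_contra hcon
    push Not at hcon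
    have hcop : IsCoprime (m.map (emb0 k (M * p) : kj k →+* LaurentSeries k))
        (∏ b ∈ Finset.range p, (X - C (bp (1 * ζ ^ b) M))) := by
      refine IsCoprime.prod_right fun b hb => ?_
      refine ((irreducible_X_sub_C _).coprime_iff_not_dvd.mpr ?_).symm
      rw [dvd_iff_isRoot]
      exact hcon b hb
    rw [hg₀map] at hmdvd
    have hdvd1 : m.map (emb0 k (M * p) : kj k →+* LaurentSeries k) ∣
        (X - C (bp (1 : kˣ) (M * p ^ 2))) :=
      hcop.dvd_of_dvd_mul_right hmdvd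
    have := natDegree_le_of_dvd hdvd1 (X_sub_C_ne_zero _)
    rw [natDegree_X_sub_C] at this
    omega
  obtain ⟨b, -, hb⟩ := hroot
  -- rotate it to `j(u ^ M)`
  obtain ⟨η, hη⟩ := exists_unit_pow_eq ((ζ ^ b)⁻¹) (Nat.pos_of_ne_zero hM)
  have hηN : η ^ (M * p) = 1 := by
    rw [pow_mul, hη, inv_pow, ← pow_mul, mul_comm, pow_mul, hζ, one_pow, inv_one]
  have hfix : (m.map (emb0 k (M * p) : kj k →+* LaurentSeries k)).map
      ((rot η : LaurentSeries k ≃ₐ[k] LaurentSeries k) : LaurentSeries k →+* LaurentSeries k) =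
      m.map (emb0 k (M * p) : kj k →+* LaurentSeries k) := by
    rw [Polynomial.map_map]
    congr 1
    refine RingHom.ext fun a => ?_
    exact rot_emb0 (M * p) η hηN a
  have hroot1 : (m.map (emb0 k (M * p) : kj k →+* LaurentSeries k)).IsRoot (bp (1 : kˣ) M) := by
    have h := hb.map (f := ((rot η : LaurentSeries k ≃ₐ[k] LaurentSeries k) :
      LaurentSeries k →+* LaurentSeries k))
    rw [hfix] at h
    have h3 : ((rot η : LaurentSeries k ≃ₐ[k] LaurentSeries k) :
        LaurentSeries k →+* LaurentSeries k) (bp (1 * ζ ^ b) M) = bp (1 : kˣ) M := by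
      show rot η (bp (1 * ζ ^ b) M) = _
      rw [rot_bp, hη, one_mul, inv_mul_cancel]
    rwa [h3] at h
  exact exists_lift_of_root (baseLift k (M * p)) hint (bp (1 : kˣ) M) hroot1

/-! ### The inductive step and the main theorem -/

/-- Primes dividing an integer invertible in `k` are invertible in `k`. -/
theorem natCast_ne_zero_of_dvd {a b : ℕ} (hab : a ∣ b) (hb : (b : k) ≠ 0) : (a : k) ≠ 0 := by
  obtain ⟨c, rfl⟩ := hab
  intro h
  apply hb
  rw [Nat.cast_mul, h, zero_mul]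

/-- A primitive root of unity as a unit. -/
theorem exists_primitiveRoot_unit [IsAlgClosed k] {n : ℕ} (hn : (n : k) ≠ 0) :
    ∃ ζ : kˣ, IsPrimitiveRoot (ζ : k) n := by
  have : NeZero (n : k) := ⟨hn⟩
  have hn0 : n ≠ 0 := by
    rintro rfl
    exact hn Nat.cast_zero
  obtain ⟨ζ, hζ⟩ := HasEnoughRootsOfUnity.exists_primitiveRoot k n
  obtain ⟨u, hu⟩ := hζ.isUnit hn0
  exact ⟨u, hu ▸ hζ⟩

/-- The polynomial used to extend a lift to `j(q ^ d')`, `d' ∣ M`, once the lift is known on the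
`j(q ^ d)` for the smaller divisors `d` of `M`. -/
theorem step_poly [IsAlgClosed k] {p M : ℕ} (hM : M ≠ 0) [NeZero (M * p)]
    (hk : ((M * p : ℕ) : k) ≠ 0)
    (hA : ∀ p' : ℕ, p'.Prime → p' ∣ M * p → ∀ ζ : kˣ, IsPrimitiveRoot (ζ : k) p' →
      HasModEq k p' ζ)
    (y : Lifts k (LaurentSeries k) (LaurentSeries k)) (hy : baseLift k (M * p) ≤ y)
    (d' : ℕ) (hd' : d' ∣ M)
    (hprev : ∀ d, d ∣ M → d < d' →
      ∃ h : jD k d ∈ y.carrier, y.emb ⟨jD k d, h⟩ ∈ Tset k p M d) :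
    ∃ g : Polynomial y.carrier, g ≠ 0 ∧ aeval (jD k d') g = 0 ∧
      (g.map y.emb.toRingHom).Splits ∧
      ∀ β, (g.map y.emb.toRingHom).IsRoot β → β ∈ Tset k p M d' := by
  have hd'0 : d' ≠ 0 := fun h => hM (by rw [h] at hd'; exact zero_dvd_iff.mp hd')
  by_cases h1 : d' = 1
  · subst h1
    have hj : jqModC k ∈ y.carrier := hy.1 (jkj k).2
    refine ⟨X - C ⟨jqModC k, hj⟩, X_sub_C_ne_zero _, ?_, ?_, ?_⟩
    · rw [jD_one, map_sub, aeval_X, aeval_C]
      exact sub_self _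
    · rw [Polynomial.map_sub, Polynomial.map_X, Polynomial.map_C]
      exact Splits.X_sub_C _
    · intro β hβ
      rw [Polynomial.map_sub, Polynomial.map_X, Polynomial.map_C, IsRoot, eval_sub, eval_X,
        eval_C, sub_eq_zero] at hβ
      have h2 : y.emb ⟨jqModC k, hj⟩ = bp (1 : kˣ) (M * p) := by
        have h3 := emb_eq_of_le hy (s := jqModC k) (jkj k).2 hj
        rw [h3]
        show emb0 k (M * p) (jkj k) = _
        rw [emb0_apply, bp_eq, rot_one]
        rfl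
      refine ⟨1, M * p, NeZero.ne _, ?_, ?_⟩
      · rw [Nat.div_one, mul_comm]
      · rw [hβ]
        exact h2
  · -- `d' = d * p'`
    have hp' : d'.minFac.Prime := Nat.minFac_prime h1
    set p' := d'.minFac with hp'def
    obtain ⟨d, hd⟩ : ∃ d, d' = d * p' := ⟨d' / p', (Nat.div_mul_cancel (Nat.minFac_dvd d')).symm⟩
    have hd0 : d ≠ 0 := by
      rintro rfl
      exact hd'0 (by rw [hd, zero_mul])
    have hdM : d ∣ M := dvd_trans ⟨p', hd⟩ hd'
    have hdlt : d < d' := by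
      rw [hd]
      exact (lt_mul_iff_one_lt_right (Nat.pos_of_ne_zero hd0)).mpr hp'.one_lt
    have hp'N : p' ∣ M * p := dvd_trans (dvd_trans ⟨d, by rw [hd, mul_comm]⟩ hd') (dvd_mul_right M p)
    obtain ⟨ζ, hζ⟩ := exists_primitiveRoot_unit (natCast_ne_zero_of_dvd hp'N hk)
    obtain ⟨Φ, hmonic, -, hΦ⟩ := hA p' hp' hp'N ζ hζ
    obtain ⟨h, hT⟩ := hprev d hdM hdlt
    refine ⟨Φ.map ((aeval (⟨jD k d, h⟩ : y.carrier) : Polynomial k →ₐ[k] y.carrier) :
      Polynomial k →+* y.carrier), (hmonic.map _).ne_zero, ?_, ?_⟩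
    · rw [aeval_map_aeval, hd]
      exact modEq_root hp'.ne_zero hΦ d hd0
    · have hmap : (Φ.map ((aeval (⟨jD k d, h⟩ : y.carrier) : Polynomial k →ₐ[k] y.carrier) :
          Polynomial k →+* y.carrier)).map y.emb.toRingHom =
          Φ.map ((aeval (y.emb ⟨jD k d, h⟩) : Polynomial k →ₐ[k] LaurentSeries k) :
            Polynomial k →+* LaurentSeries k) := map_map_aeval y.emb _ Φ
      rw [hmap, hd]
      exact splits_at_Tset hp'.ne_zero (hd ▸ hd') hM hΦ hT

/-- **Coprime step.** For `k` algebraically closed, `p` prime, `p ∤ M`, `M p` invertible in `k`: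
`j(q ^ p) ∉ k(j(q ^ d) : d ∣ M)`, given the modular equations at the primes dividing `M p` and
the prime case `j(q ^ p) ∉ k(j)`. -/
theorem jD_not_mem_of_coprime [IsAlgClosed k] (p M : ℕ) (hp : p.Prime) (hpM : ¬ p ∣ M)
    (hM : M ≠ 0) (hk : ((M * p : ℕ) : k) ≠ 0)
    (hA : ∀ p' : ℕ, p'.Prime → p' ∣ M * p → ∀ ζ : kˣ, IsPrimitiveRoot (ζ : k) p' →
      HasModEq k p' ζ)
    (hB : jD k p ∉ kj k) :
    jD k p ∉ IntermediateField.adjoin k {x | ∃ d, d ∣ M ∧ x = jD k d} := by
  have : NeZero M := ⟨hM⟩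
  have : NeZero p := ⟨hp.ne_zero⟩
  have : NeZero (M * p) := ⟨Nat.mul_ne_zero hM hp.ne_zero⟩
  -- the dual embedding of `k(j, j(q ^ p))`
  obtain ⟨ζ, hζ⟩ := exists_primitiveRoot_unit (natCast_ne_zero_of_dvd (dvd_mul_left p M) hk)
  obtain ⟨Φ, hmonic, -, hΦ⟩ := hA p hp (dvd_mul_left p M) ζ hζ
  have hζ1 : ζ ^ p = 1 := Units.ext (by
    rw [Units.val_pow_eq_pow_val, Units.val_one]
    exact hζ.pow_eq_one)
  obtain ⟨x₀, hx₀, hJp, hJpemb⟩ := exists_prime_lift hp.ne_zero hM hζ1 hmonic hΦ hB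
  -- extend it along the divisors of `M`
  set s : ℕ → LaurentSeries k := fun i => if (i + 1) ∣ M then jD k (i + 1) else jqModC k with hs
  set T : ℕ → Set (LaurentSeries k) :=
    fun i => if (i + 1) ∣ M then Tset k p M (i + 1) else Set.univ with hT
  obtain ⟨y, hx₀y, hy⟩ := exists_lift_tracking x₀ s T M (by
    intro y hy i hi hprev
    by_cases hdvd : (i + 1) ∣ M
    · have hs_i : s i = jD k (i + 1) := by simp only [hs, if_pos hdvd]
      have hT_i : T i = Tset k p M (i + 1) := by simp only [hT, if_pos hdvd]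
      rw [hs_i, hT_i]
      refine step_poly hM hk hA y (hx₀.trans hy) (i + 1) hdvd ?_
      intro d hdM hdlt
      have hd0 : d ≠ 0 := fun h => hM (by rw [h] at hdM; exact zero_dvd_iff.mp hdM)
      obtain ⟨j, rfl⟩ : ∃ j, d = j + 1 := ⟨d - 1, by omega⟩
      have := hprev j (by omega)
      simp only [hs, hT, if_pos hdM] at this
      exact this
    · have hs_i : s i = jqModC k := by simp only [hs, if_neg hdvd]
      have hT_i : T i = Set.univ := by simp only [hT, if_neg hdvd]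
      rw [hs_i, hT_i]
      have hj : jqModC k ∈ y.carrier := (hx₀.trans hy).1 (jkj k).2
      refine ⟨X - C ⟨jqModC k, hj⟩, X_sub_C_ne_zero _, ?_, ?_, fun β _ => Set.mem_univ β⟩
      · rw [map_sub, aeval_X, aeval_C]
        exact sub_self _
      · rw [Polynomial.map_sub, Polynomial.map_X, Polynomial.map_C]
        exact Splits.X_sub_C _)
  -- every `j(q ^ d)`, `d ∣ M`, is in the carrier with image a series in `u ^ p`
  have hgen : ∀ d, d ∣ M → ∃ h : jD k d ∈ y.carrier,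
      y.emb ⟨jD k d, h⟩ ∈ Set.range (qExpand k p) := by
    intro d hdM
    have hd0 : d ≠ 0 := fun h => hM (by rw [h] at hdM; exact zero_dvd_iff.mp hdM)
    obtain ⟨j, rfl⟩ : ∃ j, d = j + 1 := ⟨d - 1, by omega⟩
    have hjM : j < M := Nat.lt_of_succ_le (Nat.le_of_dvd (Nat.pos_of_ne_zero hM) hdM)
    have := hy j hjM
    simp only [hs, hT, if_pos hdM] at this
    obtain ⟨h, hT'⟩ := this
    exact ⟨h, Tset_subset_range p M (j + 1) hT'⟩
  -- the contradiction
  intro hmem
  set R : IntermediateField k (LaurentSeries k) := (qExpandAlgHomC k p).fieldRange with hR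
  set W : IntermediateField k y.carrier := R.comap y.emb with hW
  have hle : IntermediateField.adjoin k {x | ∃ d, d ∣ M ∧ x = jD k d} ≤ W.map y.carrier.val := by
    rw [IntermediateField.adjoin_le_iff]
    rintro x ⟨d, hdM, rfl⟩
    obtain ⟨h, hr⟩ := hgen d hdM
    refine ⟨⟨jD k d, h⟩, ?_, rfl⟩
    obtain ⟨f, hf⟩ := hr
    exact ⟨f, hf⟩
  obtain ⟨w, hw, hwval⟩ := hle hmem
  have hw' : w = ⟨jD k p, hx₀y.1 hJp⟩ := Subtype.ext hwval
  have hwR : y.emb w ∈ R := hw
  rw [hw', emb_eq_of_le hx₀y hJp, hJpemb] at hwR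
  obtain ⟨f, hf⟩ := hwR
  exact bp_not_mem_range (1 : kˣ) p M hpM ⟨f, hf⟩

/-- The Prelude field `modularFunctionFieldFullC k M` is generated by the `jD k d`, `d ∣ M`. -/
theorem fullC_le_adjoin_jD (M : ℕ) :
    modularFunctionFieldFullC k M ≤
      IntermediateField.adjoin k {x | ∃ d, d ∣ M ∧ x = jD k d} := by
  rw [modularFunctionFieldFullC, IntermediateField.adjoin_le_iff]
  rintro x ⟨d, hne, hdM, rfl⟩
  exact IntermediateField.subset_adjoin k _ ⟨d, hdM, (jD_eq k d).symm⟩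

/-- **Coprime step**, for the Prelude field `modularFunctionFieldFullC k M`. -/
theorem jD_not_mem_fullC [IsAlgClosed k] (p M : ℕ) (hp : p.Prime) (hpM : ¬ p ∣ M)
    (hM : M ≠ 0) (hk : ((M * p : ℕ) : k) ≠ 0)
    (hA : ∀ p' : ℕ, p'.Prime → p' ∣ M * p → ∀ ζ : kˣ, IsPrimitiveRoot (ζ : k) p' →
      HasModEq k p' ζ)
    (hB : jD k p ∉ kj k) :
    jD k p ∉ modularFunctionFieldFullC k M :=
  fun h => jD_not_mem_of_coprime p M hp hpM hM hk hA hB (fullC_le_adjoin_jD M h)

/-- **Coprime step** from the interface statements (A) and (B). -/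
theorem jD_not_mem_of_statements (hA : ModEqStatement) (hB : PrimeCaseStatement)
    (k : Type) [Field k] [IsAlgClosed k] (p M : ℕ) (hp : p.Prime) (hpM : ¬ p ∣ M)
    (hM : M ≠ 0) (hk : ((M * p : ℕ) : k) ≠ 0) :
    jD k p ∉ IntermediateField.adjoin k {x | ∃ d, d ∣ M ∧ x = jD k d} :=
  jD_not_mem_of_coprime p M hp hpM hM hk (fun p' hp' _ ζ hζ => hA k p' hp' ζ hζ)
    (hB k p hp (natCast_ne_zero_of_dvd (dvd_mul_left p M) hk))

end Fermat.Agent.S28.CoprimeNotMem
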