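/-
S28 / block C, (NM) in the exact shape of lemma row 121 / helper94's consumer form (helper97).
-/
import Mathlib
import Fermat.Agent.S28.CoprimeNotMem

set_option autoImplicit false

open ModularCurve Fermat.Agent.S28.Interfaces

namespace Fermat.Agent.S28.CoprimeNotMemFinal

open Fermat.Agent.S28.CoprimeNotMem

/-- **(NM)** `p ∤ M ⇒ j(q ^ p) ∉ k(j(q ^ d) : d ∣ M)`, from the interface statements (A), (B). -/
theorem not_mem_full_of_coprime (hA : ModEqStatement) (hB : PrimeCaseStatement)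
    (k : Type) [Field k] [IsAlgClosed k] (M p : ℕ) [NeZero M] (hp : p.Prime) (hpM : ¬ p ∣ M)
    (hM : (M : k) ≠ 0) (hpk : (p : k) ≠ 0) :
    jD k p ∉ modularFunctionFieldFullC k M := by
  have hk : ((M * p : ℕ) : k) ≠ 0 := by
    rw [Nat.cast_mul]
    exact mul_ne_zero hM hpk
  exact jD_not_mem_fullC p M hp hpM (NeZero.ne M) hk
    (fun p' hp' _ ζ hζ => hA k p' hp' ζ hζ) (hB k p hp hpk)

/-- **(NM)** in the form consumed by `CoreDegree` (helper94): the modular equations are only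
needed over the field `k` itself. -/
theorem not_mem_full_of_coprime' (k : Type) [Field k] [IsAlgClosed k] (p M : ℕ) [NeZero M]
    (hp : p.Prime) (hpM : ¬ p ∣ M) (hk : ((M * p : ℕ) : k) ≠ 0)
    (hA : ∀ p' : ℕ, p'.Prime → ∀ ζ : kˣ, IsPrimitiveRoot (ζ : k) p' → HasModEq k p' ζ)
    (hB : jD k p ∉ kj k) :
    jD k p ∉ modularFunctionFieldFullC k M :=
  jD_not_mem_fullC p M hp hpM (NeZero.ne M) hk (fun p' hp' _ ζ hζ => hA p' hp' ζ hζ) hB

end Fermat.Agent.S28.CoprimeNotMemFinal
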