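/-
S28, block (C): the core degree bound `ψ(N) ≤ [k(j(q^d) : d ∣ N) : k(j̄)]` by induction on `N`
(route of report 1101: Kummer step + dichotomy step + swap), from four closed inputs
`KummerStatement`, `DichStatement`, `NotMemStatement`, `AlgStatement`.  Degrees are computed with the
`Cardinal`-valued `IntermediateField.relrank`, so no finiteness is needed before the very end.
Owner: helper94.
-/
import Mathlib
import Fermat.Agent.S28.Interfaces
import Fermat.Agent.S28.KummerLaurent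
import Fermat.Agent.S24.CombCard

set_option autoImplicit false

open ModularCurve Polynomial IntermediateField

namespace Fermat.Agent.S28.CoreDegree

open Fermat.Agent.S28.Interfaces Fermat.Agent.S20.LaurentTools

/-! ### The closed inputs -/

/-- **(K)** Kummer bound: over a `rot ζ`-fixed field, `j̄` has degree at least `p`. -/
def KummerStatement : Prop :=
  ∀ (k : Type) [Field k] (p : ℕ), p.Prime → ∀ ζ : kˣ, IsPrimitiveRoot (ζ : k) p →
    ∀ L : IntermediateField k (LaurentSeries k),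
      (∀ f ∈ L, rot ζ f = f) → IsIntegral ↥L (jqModC k) →
      p ≤ (minpoly ↥L (jqModC k)).natDegree

/-- **(Di)** Dichotomy: over a field containing `j̄` but not `j(q^p)`, the latter has degree
`p + 1`. -/
def DichStatement : Prop :=
  ∀ (k : Type) [Field k] (p : ℕ), p.Prime → ∀ ζ : kˣ, IsPrimitiveRoot (ζ : k) p →
    HasModEq k p ζ →
    ∀ L : IntermediateField k (LaurentSeries k),
      jqModC k ∈ L → jD k p ∉ L → p + 1 ≤ (minpoly ↥L (jD k p)).natDegree

/-- **(NM)** For `p ∤ M`, `j(q^p) ∉ k(j(q^d) : d ∣ M)`. -/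
def NotMemStatement : Prop :=
  ∀ (k : Type) [Field k] [IsAlgClosed k] (p M : ℕ), p.Prime → M ≠ 0 → ¬ p ∣ M →
    ((M * p : ℕ) : k) ≠ 0 →
    (∀ p' : ℕ, p'.Prime → ∀ ζ : kˣ, IsPrimitiveRoot (ζ : k) p' → HasModEq k p' ζ) →
    jD k p ∉ kj k → jD k p ∉ modularFunctionFieldFullC k M

/-- **(Alg)** Every `j(q^d)`, `d ∣ N`, is algebraic over `k(j̄)`. -/
def AlgStatement : Prop :=
  ∀ (k : Type) [Field k] [IsAlgClosed k] (N : ℕ), N ≠ 0 → ((N : ℕ) : k) ≠ 0 →
    (∀ p' : ℕ, p'.Prime → ∀ ζ : kˣ, IsPrimitiveRoot (ζ : k) p' → HasModEq k p' ζ) →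
    ∀ d : ℕ, d ∣ N → IsIntegral ↥(kj k) (jD k d)

/-! ### Generic field theory: `relrank` -/

section Generic

variable {F E : Type*} [Field F] [Field E] [Algebra F E]

theorem one_le_relrank (A B : IntermediateField F E) : 1 ≤ A.relrank B := by
  rw [← inf_relrank_right, relrank_eq_rank_of_le inf_le_right, Cardinal.one_le_iff_pos]
  exact rank_pos

theorem relrank_ne_zero (A B : IntermediateField F E) : A.relrank B ≠ 0 :=
  ne_of_gt (lt_of_lt_of_le zero_lt_one (one_le_relrank A B))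

theorem relrank_le_of_le {A B C : IntermediateField F E} (h1 : A ≤ B) (h2 : B ≤ C) :
    A.relrank B ≤ A.relrank C := by
  rw [← relrank_mul_relrank h1 h2]
  exact Cardinal.le_mul_right (relrank_ne_zero B C)

theorem relrank_le_of_le' {A B C : IntermediateField F E} (h1 : A ≤ B) (h2 : B ≤ C) :
    B.relrank C ≤ A.relrank C := by
  rw [← relrank_mul_relrank h1 h2]
  exact Cardinal.le_mul_left (relrank_ne_zero A B)

theorem relrank_sup_adjoin_simple (L : IntermediateField F E) (x : E) (hx : IsIntegral ↥L x) :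
    L.relrank (L ⊔ F⟮x⟯) = ((minpoly ↥L x).natDegree : Cardinal) := by
  have h : L ≤ L ⊔ F⟮x⟯ := le_sup_left
  rw [relrank_eq_rank_of_le h]
  have e : extendScalars h = (↥L)⟮x⟯ := by
    apply restrictScalars_injective F
    rw [extendScalars_restrictScalars, restrictScalars_adjoin_eq_sup]
  rw [e]
  have := adjoin.finiteDimensional hx
  rw [← Module.finrank_eq_rank, adjoin.finrank hx]

theorem isIntegral_of_natDegree_minpoly_pos {L : IntermediateField F E} {x : E}
    (h : 0 < (minpoly ↥L x).natDegree) : IsIntegral ↥L x := by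
  by_contra hx
  rw [minpoly.eq_zero hx] at h
  simp at h

theorem le_relrank_sup_adjoin_simple (L : IntermediateField F E) (x : E) {n : ℕ} (hn : 0 < n)
    (h : n ≤ (minpoly ↥L x).natDegree) : (n : Cardinal) ≤ L.relrank (L ⊔ F⟮x⟯) := by
  rw [relrank_sup_adjoin_simple L x (isIntegral_of_natDegree_minpoly_pos (lt_of_lt_of_le hn h))]
  exact_mod_cast h

theorem relrank_sup_adjoin_simple_le (L : IntermediateField F E) (x : E) (hx : IsIntegral ↥L x)
    {n : ℕ} (h : (minpoly ↥L x).natDegree ≤ n) : L.relrank (L ⊔ F⟮x⟯) ≤ (n : Cardinal) := by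
  rw [relrank_sup_adjoin_simple L x hx]
  exact_mod_cast h

end Generic

/-! ### Specific facts -/

section Specific

variable (k : Type) [Field k]

theorem kj_map (p : ℕ) [NeZero p] : (kj k).map (qExpandAlgHomC k p) = k⟮jD k p⟯ := by
  rw [kj, adjoin_map, Set.image_singleton, qExpandAlgHomC_apply, jD_eq]

theorem kj_le_full (N : ℕ) : kj k ≤ modularFunctionFieldFullC k N := by
  rw [kj, adjoin_simple_le_iff]
  exact jqModC_mem_full k N

theorem jD_mem_full {N d : ℕ} (hd : d ∣ N) (hd0 : d ≠ 0) :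
    jD k d ∈ modularFunctionFieldFullC k N := by
  haveI : NeZero d := ⟨hd0⟩
  rw [jD_eq]
  exact jqModCd_mem_full k N hd

theorem rot_fixed_of_mem_map {p : ℕ} [NeZero p] {ζ : kˣ} (hζ : IsPrimitiveRoot (ζ : k) p)
    (A : IntermediateField k (LaurentSeries k)) :
    ∀ f ∈ A.map (qExpandAlgHomC k p), rot ζ f = f := by
  rintro f ⟨g, -, rfl⟩
  exact KummerLaurent.rot_qExpand_self p (IsPrimitiveRoot.coe_units_iff.1 hζ) g

variable {k}

/-- From `HasModEq`: `j̄` is integral of degree `≤ p + 1` over any field containing `j(q^p)`. -/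
theorem jq_integral_of_hasModEq {p : ℕ} (hp : 0 < p) {ζ : kˣ} (hΦ : HasModEq k p ζ)
    (L : IntermediateField k (LaurentSeries k)) (h : jD k p ∈ L) :
    IsIntegral ↥L (jqModC k) ∧ (minpoly ↥L (jqModC k)).natDegree ≤ p + 1 := by
  obtain ⟨Φ, hmon, hdeg, hid⟩ := hΦ
  set y : ↥L := ⟨jD k p, h⟩ with hy
  set P : (↥L)[X] := Φ.map ((aeval y : k[X] →ₐ[k] ↥L) : k[X] →+* ↥L) with hP
  have hPmon : P.Monic := hmon.map _
  have hPdeg : P.natDegree = p + 1 := by rw [hP, hmon.natDegree_map, hdeg]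
  have hmap : P.map (algebraMap ↥L (LaurentSeries k)) =
      Φ.map ((aeval (jD k p) : k[X] →ₐ[k] LaurentSeries k) : k[X] →+* LaurentSeries k) := by
    rw [hP, Polynomial.map_map]
    congr 1
    ext c
    · simp [IntermediateField.algebraMap_apply]
    · simp [IntermediateField.algebraMap_apply, hy]
  have hroot : aeval (jqModC k) P = 0 := by
    rw [aeval_def, eval₂_eq_eval_map, hmap, hid, eval_mul, eval_prod]
    have : ∏ b ∈ Finset.range p, eval (jqModC k) (X - C (rot (ζ ^ b) (jqModC k))) = 0 := by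
      refine Finset.prod_eq_zero (Finset.mem_range.2 hp) ?_
      simp [rot_one]
    rw [this, mul_zero]
  refine ⟨⟨P, hPmon, hroot⟩, ?_⟩
  rw [← hPdeg]
  exact natDegree_le_natDegree (minpoly.min ↥L (jqModC k) hPmon hroot)

end Specific

/-! ### ψ arithmetic -/

section Psi

open Fermat.Agent.S24.Comb

theorem dedekindPsi_prime {p : ℕ} (hp : p.Prime) : dedekindPsi p = p + 1 := by
  have := dedekindPsi_prime_pow hp 0
  simpa using this

theorem dedekindPsi_mul_prime_of_not_dvd {p M : ℕ} (hp : p.Prime) (h : ¬ p ∣ M) :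
    dedekindPsi (M * p) = dedekindPsi M * (p + 1) := by
  rw [dedekindPsi_mul ((Nat.Prime.coprime_iff_not_dvd hp).2 h).symm, dedekindPsi_prime hp]

theorem dedekindPsi_mul_prime_of_dvd {p M : ℕ} (hp : p.Prime) (hM : M ≠ 0) (h : p ∣ M) :
    dedekindPsi (M * p) = dedekindPsi M * p := by
  obtain ⟨e, m, hm, rfl⟩ := Nat.exists_eq_pow_mul_and_not_dvd hM p hp.ne_one
  have he : e ≠ 0 := by
    rintro rfl
    simp at h
    exact hm h
  obtain ⟨a, rfl⟩ := Nat.exists_eq_succ_of_ne_zero he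
  have hcop : ∀ j, (p ^ j).Coprime m := fun j =>
    Nat.Coprime.pow_left j ((Nat.Prime.coprime_iff_not_dvd hp).2 hm)
  have e1 : p ^ (a + 1) * m * p = p ^ (a + 1 + 1) * m := by ring
  rw [e1, dedekindPsi_mul (hcop _), dedekindPsi_mul (hcop _), dedekindPsi_prime_pow hp,
    dedekindPsi_prime_pow hp]
  ring

end Psi

/-! ### The steps of the induction -/

section Steps

variable {k : Type} [Field k]

local notation "CC" => modularFunctionFieldFullC k

/-- **(Swap)** `[C : k(j(q^p))] ≤ [C : k(j̄)]`. -/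
theorem swap (hDi : DichStatement) {p : ℕ} (hp : p.Prime) {ζ : kˣ}
    (hζ : IsPrimitiveRoot (ζ : k) p) (hΦ : HasModEq k p ζ) (hB : jD k p ∉ kj k)
    (C : IntermediateField k (LaurentSeries k)) (h1 : kj k ≤ C) (h2 : k⟮jD k p⟯ ≤ C) :
    (k⟮jD k p⟯ : IntermediateField k (LaurentSeries k)).relrank C ≤ (kj k).relrank C := by
  set D : IntermediateField k (LaurentSeries k) := kj k ⊔ k⟮jD k p⟯ with hD
  have hDC : D ≤ C := sup_le h1 h2
  have h3 : ((p + 1 : ℕ) : Cardinal) ≤ (kj k).relrank D :=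
    le_relrank_sup_adjoin_simple (kj k) (jD k p) (Nat.succ_pos p)
      (hDi k p hp ζ hζ hΦ (kj k) (mem_adjoin_simple_self k _) hB)
  have h4 : (k⟮jD k p⟯ : IntermediateField k (LaurentSeries k)).relrank D ≤
      ((p + 1 : ℕ) : Cardinal) := by
    have hD' : D = k⟮jD k p⟯ ⊔ k⟮jqModC k⟯ := by rw [hD, sup_comm]
    rw [hD']
    obtain ⟨hint, hdeg⟩ :=
      jq_integral_of_hasModEq hp.pos hΦ k⟮jD k p⟯ (mem_adjoin_simple_self k _)
    exact relrank_sup_adjoin_simple_le _ _ hint hdeg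
  calc (k⟮jD k p⟯ : IntermediateField k (LaurentSeries k)).relrank C
      = (k⟮jD k p⟯ : IntermediateField k (LaurentSeries k)).relrank D * D.relrank C :=
        (relrank_mul_relrank le_sup_right hDC).symm
    _ ≤ ((p + 1 : ℕ) : Cardinal) * D.relrank C := mul_le_mul' h4 le_rfl
    _ ≤ (kj k).relrank D * D.relrank C := mul_le_mul' h3 le_rfl
    _ = (kj k).relrank C := relrank_mul_relrank le_sup_left hDC

/-- **Step (i)**: `p · [C_M : k(j̄)] ≤ [C_{Mp} : k(j̄)]`. -/
theorem step_mul (hK : KummerStatement) (hDi : DichStatement) {p : ℕ} (hp : p.Prime) {ζ : kˣ}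
    (hζ : IsPrimitiveRoot (ζ : k) p) (hΦ : HasModEq k p ζ) (hB : jD k p ∉ kj k) (M : ℕ) :
    (kj k).relrank (CC M) * (p : Cardinal) ≤ (kj k).relrank (CC (M * p)) := by
  haveI : NeZero p := ⟨hp.ne_zero⟩
  set W : IntermediateField k (LaurentSeries k) := (CC M).map (qExpandAlgHomC k p) with hW
  have hWN : W ≤ CC (M * p) := full_degeneracyC_map_le k M p
  have hJpW : k⟮jD k p⟯ ≤ W := by
    rw [← kj_map]
    exact map_mono _ (kj_le_full k M)
  have h1 : (k⟮jD k p⟯ : IntermediateField k (LaurentSeries k)).relrank W =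
      (kj k).relrank (CC M) := by
    rw [← kj_map]
    exact relrank_map_map _ _ (qExpandAlgHomC k p)
  have hJ1 : jD k p ∈ W := hJpW (mem_adjoin_simple_self k _)
  obtain ⟨hint, -⟩ := jq_integral_of_hasModEq hp.pos hΦ W hJ1
  have h2 : (p : Cardinal) ≤ W.relrank (W ⊔ k⟮jqModC k⟯) :=
    le_relrank_sup_adjoin_simple W (jqModC k) hp.pos
      (hK k p hp ζ hζ W (rot_fixed_of_mem_map k hζ (CC M)) hint)
  have h3 : W.relrank (W ⊔ k⟮jqModC k⟯) ≤ W.relrank (CC (M * p)) :=
    relrank_le_of_le le_sup_left (sup_le hWN (kj_le_full k _))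
  calc (kj k).relrank (CC M) * (p : Cardinal)
      = (k⟮jD k p⟯ : IntermediateField k (LaurentSeries k)).relrank W * (p : Cardinal) := by
        rw [h1]
    _ ≤ (k⟮jD k p⟯ : IntermediateField k (LaurentSeries k)).relrank W *
          W.relrank (CC (M * p)) := mul_le_mul' le_rfl (h2.trans h3)
    _ = (k⟮jD k p⟯ : IntermediateField k (LaurentSeries k)).relrank (CC (M * p)) :=
        relrank_mul_relrank hJpW hWN
    _ ≤ (kj k).relrank (CC (M * p)) :=
        swap hDi hp hζ hΦ hB _ (kj_le_full k _) (hJpW.trans hWN)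

/-- **Step (ii)**: `(p + 1) · [C_M : k(j̄)] ≤ [C_{Mp} : k(j̄)]` when `j(q^p) ∉ C_M`. -/
theorem step_coprime (hDi : DichStatement) {p : ℕ} (hp : p.Prime) {ζ : kˣ}
    (hζ : IsPrimitiveRoot (ζ : k) p) (hΦ : HasModEq k p ζ) (M : ℕ) (hM : M ≠ 0)
    (hNM : jD k p ∉ CC M) :
    (kj k).relrank (CC M) * ((p + 1 : ℕ) : Cardinal) ≤ (kj k).relrank (CC (M * p)) := by
  haveI : NeZero M := ⟨hM⟩
  haveI : NeZero (M * p) := ⟨Nat.mul_ne_zero hM hp.ne_zero⟩
  have hMN : CC M ≤ CC (M * p) := full_degeneracyC_le k (Dvd.intro _ rfl)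
  have hJp : k⟮jD k p⟯ ≤ CC (M * p) :=
    adjoin_simple_le_iff.2 (jD_mem_full k (Dvd.intro_left _ rfl) hp.ne_zero)
  have h2 : ((p + 1 : ℕ) : Cardinal) ≤ (CC M).relrank (CC M ⊔ k⟮jD k p⟯) :=
    le_relrank_sup_adjoin_simple (CC M) (jD k p) (Nat.succ_pos p)
      (hDi k p hp ζ hζ hΦ (CC M) (jqModC_mem_full k M) hNM)
  have h3 : (CC M).relrank (CC M ⊔ k⟮jD k p⟯) ≤ (CC M).relrank (CC (M * p)) :=
    relrank_le_of_le le_sup_left (sup_le hMN hJp)
  calc (kj k).relrank (CC M) * ((p + 1 : ℕ) : Cardinal)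
      ≤ (kj k).relrank (CC M) * (CC M).relrank (CC (M * p)) := mul_le_mul' le_rfl (h2.trans h3)
    _ = (kj k).relrank (CC (M * p)) := relrank_mul_relrank (kj_le_full k M) hMN

end Steps

/-! ### The induction -/

section Main

variable (k : Type) [Field k] [IsAlgClosed k]

theorem exists_primitiveRoot_unit {p : ℕ} (hp0 : p ≠ 0) (hpk : ((p : ℕ) : k) ≠ 0) :
    ∃ ζ : kˣ, IsPrimitiveRoot (ζ : k) p := by
  haveI : NeZero ((p : ℕ) : k) := ⟨hpk⟩
  obtain ⟨ζ0, hζ0⟩ := HasEnoughRootsOfUnity.exists_primitiveRoot k p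
  exact ⟨(hζ0.isUnit hp0).unit, by simpa using hζ0⟩

theorem psi_le_relrank (hK : KummerStatement) (hDi : DichStatement) (hNM : NotMemStatement)
    (hA : ∀ p' : ℕ, p'.Prime → ∀ ζ : kˣ, IsPrimitiveRoot (ζ : k) p' → HasModEq k p' ζ)
    (hB : ∀ p : ℕ, p.Prime → ((p : ℕ) : k) ≠ 0 → jD k p ∉ kj k) :
    ∀ N : ℕ, N ≠ 0 → ((N : ℕ) : k) ≠ 0 →
      (dedekindPsi N : Cardinal) ≤ (kj k).relrank (modularFunctionFieldFullC k N) := by
  intro N
  induction N using Nat.strong_induction_on with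
  | _ N ih =>
    intro hN hNk
    by_cases h1 : N = 1
    · subst h1
      rw [dedekindPsi_one, Nat.cast_one]
      exact one_le_relrank _ _
    have hp : (N.minFac).Prime := Nat.minFac_prime h1
    obtain ⟨M, hM⟩ := Nat.minFac_dvd N
    set p := N.minFac with hpdef
    have hNM' : N = M * p := by rw [hM, mul_comm]
    have hM0 : M ≠ 0 := by
      rintro rfl
      exact hN (by rw [hNM', zero_mul])
    have hMlt : M < N := by
      rw [hNM']
      exact lt_mul_of_one_lt_right (Nat.pos_of_ne_zero hM0) hp.one_lt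
    have hcast : ((M : ℕ) : k) * ((p : ℕ) : k) ≠ 0 := by
      rw [← Nat.cast_mul, ← hNM']
      exact hNk
    have hMk : ((M : ℕ) : k) ≠ 0 := left_ne_zero_of_mul hcast
    have hpk : ((p : ℕ) : k) ≠ 0 := right_ne_zero_of_mul hcast
    obtain ⟨ζ, hζ⟩ := exists_primitiveRoot_unit k hp.ne_zero hpk
    have hΦ := hA p hp ζ hζ
    have hBp := hB p hp hpk
    have ihM := ih M hMlt hM0 hMk
    rw [hNM']
    by_cases hd : p ∣ M
    · rw [dedekindPsi_mul_prime_of_dvd hp hM0 hd, Nat.cast_mul]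
      exact (mul_le_mul' ihM le_rfl).trans (step_mul hK hDi hp hζ hΦ hBp M)
    · rw [dedekindPsi_mul_prime_of_not_dvd hp hd, Nat.cast_mul]
      refine (mul_le_mul' ihM le_rfl).trans (step_coprime hDi hp hζ hΦ M hM0 ?_)
      exact hNM k p M hp hM0 hd (by rw [← hNM']; exact hNk) hA hBp

omit [IsAlgClosed k] in
theorem finite_divisorExpansionsC {N : ℕ} (hN : N ≠ 0) : (divisorExpansionsC k N).Finite := by
  refine Set.Finite.subset ((Finset.finite_toSet N.divisors).image (fun d => jD k d)) ?_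
  rintro x ⟨d, hd0, hd, rfl⟩
  refine ⟨d, ?_, ?_⟩
  · simp only [Finset.mem_coe, Nat.mem_divisors]
    exact ⟨hd, hN⟩
  · exact jD_eq k d

/-- **Block (C), degree form**, from the four closed inputs. -/
theorem coreDegree_of (hK : KummerStatement) (hDi : DichStatement) (hNM : NotMemStatement)
    (hAlg : AlgStatement) (hA : ModEqStatement) (hB : PrimeCaseStatement) :
    CoreDegreeStatement := by
  intro N _ k _ _ hNk
  have hN : N ≠ 0 := NeZero.ne N
  have hA' : ∀ p' : ℕ, p'.Prime → ∀ ζ : kˣ, IsPrimitiveRoot (ζ : k) p' → HasModEq k p' ζ :=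
    fun p' hp' ζ hζ => hA k p' hp' ζ hζ
  have h := psi_le_relrank k hK hDi hNM hA' (fun p hp hpk => hB k p hp hpk) N hN hNk
  have hle : kj k ≤ modularFunctionFieldFullC k N := kj_le_full k N
  have hfin : (kj k).relrank (modularFunctionFieldFullC k N) < Cardinal.aleph0 := by
    rw [relrank_eq_rank_of_le hle]
    have e : extendScalars hle = adjoin ↥(kj k) (divisorExpansionsC k N) :=
      extendScalars_adjoin (F := k) (K := kj k) (S := divisorExpansionsC k N) hle
    rw [e]
    haveI : Finite ↥(divisorExpansionsC k N) := (finite_divisorExpansionsC k hN).to_subtype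
    have : FiniteDimensional ↥(kj k) ↥(adjoin ↥(kj k) (divisorExpansionsC k N)) := by
      refine finiteDimensional_adjoin ?_
      rintro x ⟨d, hd0, hd, rfl⟩
      rw [← jD_eq]
      exact hAlg k N hN hNk hA' d hd
    exact Module.rank_lt_aleph0 _ _
  rw [relfinrank_eq_toNat_relrank]
  have := Cardinal.toNat_le_toNat h hfin
  simpa using this

end Main

end Fermat.Agent.S28.CoreDegree
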