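import Mathlib
import Fermat.Prelude.Def_ModularCurve_X0ModL

/-!
# S28, block A (support): rescaling the variable of a Laurent series by a unit

`scaleVar ξ : LaurentSeries R →+* LaurentSeries R` is the substitution `v ↦ ξ v` for a unit `ξ`,
i.e. the `n`-th coefficient is multiplied by `ξ ^ n` (`n : ℤ`).
-/

set_option autoImplicit false

open HahnSeries ModularCurve

namespace Fermat.Agent.S28.ScaleVar

variable {R S : Type*} [CommRing R] [CommRing S]

/-- The underlying function of `scaleVar`. -/
noncomputable def scaleVarFun (ξ : Rˣ) (F : LaurentSeries R) : LaurentSeries R where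
  coeff n := ((ξ ^ n : Rˣ) : R) * F.coeff n
  isPWO_support' := F.isPWO_support.mono fun n hn => by
    simp only [Function.mem_support, ne_eq] at hn
    simp only [HahnSeries.mem_support, ne_eq]
    intro h
    exact hn (by rw [h, mul_zero])

@[simp]
theorem scaleVarFun_coeff (ξ : Rˣ) (F : LaurentSeries R) (n : ℤ) :
    (scaleVarFun ξ F).coeff n = ((ξ ^ n : Rˣ) : R) * F.coeff n := rfl

theorem support_scaleVarFun (ξ : Rˣ) (F : LaurentSeries R) :
    (scaleVarFun ξ F).support = F.support := by
  ext n
  simp only [HahnSeries.mem_support, scaleVarFun_coeff, ne_eq]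
  rw [Units.mul_right_eq_zero]

theorem scaleVarFun_mul (ξ : Rˣ) (F G : LaurentSeries R) :
    scaleVarFun ξ (F * G) = scaleVarFun ξ F * scaleVarFun ξ G := by
  ext n
  rw [scaleVarFun_coeff, HahnSeries.coeff_mul,
    HahnSeries.coeff_mul_left' (x := scaleVarFun ξ F) F.isPWO_support
      (support_scaleVarFun ξ F).subset,
    Finset.mul_sum]
  have h2 : Finset.antidiagonal F.isPWO_support (scaleVarFun ξ G).isPWO_support n =
      Finset.antidiagonal F.isPWO_support G.isPWO_support n := by
    ext ij
    simp only [Finset.mem_antidiagonal, support_scaleVarFun]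
  rw [h2]
  refine Finset.sum_congr rfl fun ij hij => ?_
  have hsum : ij.1 + ij.2 = n := (Finset.mem_antidiagonal.mp hij).2.2
  rw [scaleVarFun_coeff, scaleVarFun_coeff, ← hsum, zpow_add, Units.val_mul]
  ring

/-- The substitution `v ↦ ξ v` on Laurent series, for a unit `ξ`. -/
noncomputable def scaleVar (ξ : Rˣ) : LaurentSeries R →+* LaurentSeries R where
  toFun := scaleVarFun ξ
  map_one' := by
    ext n
    rw [scaleVarFun_coeff, HahnSeries.coeff_one]
    split_ifs with h
    · subst h; simp
    · simp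
  map_mul' := scaleVarFun_mul ξ
  map_zero' := by
    ext n
    simp
  map_add' F G := by
    ext n
    simp [mul_add]

@[simp]
theorem scaleVar_coeff (ξ : Rˣ) (F : LaurentSeries R) (n : ℤ) :
    (scaleVar ξ F).coeff n = ((ξ ^ n : Rˣ) : R) * F.coeff n := rfl

theorem scaleVar_single (ξ : Rˣ) (n : ℤ) (r : R) :
    scaleVar ξ (HahnSeries.single n r) = HahnSeries.single n (((ξ ^ n : Rˣ) : R) * r) := by
  ext m
  rw [scaleVar_coeff]
  rcases eq_or_ne m n with rfl | h
  · simp
  · simp [HahnSeries.coeff_single_of_ne h]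

@[simp]
theorem scaleVar_C (ξ : Rˣ) (r : R) : scaleVar ξ (HahnSeries.C r) = HahnSeries.C r := by
  rw [HahnSeries.C_apply, scaleVar_single]
  simp

theorem scaleVar_one_apply (F : LaurentSeries R) : scaleVar (1 : Rˣ) F = F := by
  ext n
  simp

theorem scaleVar_scaleVar (ξ η : Rˣ) (F : LaurentSeries R) :
    scaleVar ξ (scaleVar η F) = scaleVar (ξ * η) F := by
  ext n
  rw [scaleVar_coeff, scaleVar_coeff, scaleVar_coeff, mul_zpow, Units.val_mul, mul_assoc]

theorem scaleVar_injective (ξ : Rˣ) : Function.Injective (scaleVar ξ) := by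
  intro F G h
  have := congrArg (scaleVar ξ⁻¹) h
  rwa [scaleVar_scaleVar, scaleVar_scaleVar, inv_mul_cancel, scaleVar_one_apply,
    scaleVar_one_apply] at this

theorem coeffMap_scaleVar (φ : R →+* S) (ξ : Rˣ) (F : LaurentSeries R) :
    coeffMap φ (scaleVar ξ F) = scaleVar (Units.map (φ : R →* S) ξ) (coeffMap φ F) := by
  ext n
  rw [coeffMap_coeff, scaleVar_coeff, scaleVar_coeff, coeffMap_coeff, map_mul, ← map_zpow]
  rfl

theorem scaleVar_qExpand (ξ : Rˣ) (d : ℕ) [NeZero d] (F : LaurentSeries R) :
    scaleVar ξ (qExpand R d F) = qExpand R d (scaleVar (ξ ^ d) F) := by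
  ext n
  by_cases hn : (d : ℤ) ∣ n
  · obtain ⟨m, rfl⟩ := hn
    rw [scaleVar_coeff, qExpand_coeff_mul, qExpand_coeff_mul, scaleVar_coeff, zpow_mul,
      zpow_natCast]
  · rw [scaleVar_coeff, qExpand_coeff_of_not_dvd d _ hn, qExpand_coeff_of_not_dvd d _ hn,
      mul_zero]

/-- `scaleVar` commutes with the scalars: it is an algebra map over the coefficient field. -/
theorem scaleVar_algebraMap {K : Type*} [Field K] (ξ : Kˣ) (c : K) :
    scaleVar ξ (algebraMap K (LaurentSeries K) c) = algebraMap K (LaurentSeries K) c := by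
  rw [algebraMap_laurentSeries_eq_single, scaleVar_single]
  simp

end Fermat.Agent.S28.ScaleVar
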