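/-
S28 / block A, step (A2): descent by triangularity.

If `f ∈ R((v))` has a pole of order `n ≥ 1` with leading coefficient `1`, `φ : R →+* S` is injective
and `c ∈ S[Y]` is a polynomial such that `c(f)` (computed in `S((v))`) has all its coefficients in
(the image of) `R`, then `c` has coefficients in `R`.
-/
import Mathlib
import Fermat.Prelude.Def_ModularCurve_LaurentCoeff

set_option autoImplicit false

namespace Fermat.Agent.S28.TriDescent

open ModularCurve Polynomial

variable {R S : Type*} [CommRing R] [CommRing S]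

/-- `f` has "leading term" `v ^ a` with coefficient `1`. -/
structure Lead (f : LaurentSeries R) (a : ℤ) : Prop where
  lead : f.coeff a = 1
  below : ∀ m : ℤ, m < a → f.coeff m = 0

theorem Lead.one : Lead (1 : LaurentSeries R) 0 := by
  refine ⟨by simp, fun m hm => ?_⟩
  rw [HahnSeries.coeff_one, if_neg hm.ne]

theorem Lead.mul {f g : LaurentSeries R} {a b : ℤ} (hf : Lead f a) (hg : Lead g b) :
    Lead (f * g) (a + b) := by
  have hsupp : ∀ {h : LaurentSeries R} {c : ℤ}, Lead h c → ∀ i, h.coeff i ≠ 0 → c ≤ i := by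
    intro h c hh i hi
    by_contra hlt
    exact hi (hh.below i (not_le.mp hlt))
  constructor
  · rw [HahnSeries.coeff_mul, Finset.sum_eq_single (a, b)]
    · simp [hf.lead, hg.lead]
    · rintro ⟨i, j⟩ hij hne
      rw [Finset.mem_antidiagonal] at hij
      obtain ⟨hi, hj, hsum⟩ := hij
      have hai : a ≤ i := hsupp hf i hi
      have hbj : b ≤ j := hsupp hg j hj
      exfalso
      apply hne
      simp only at hsum
      have h1 : i = a := by omega
      have h2 : j = b := by omega
      rw [h1, h2]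
    · intro hnot
      rw [Finset.mem_antidiagonal] at hnot
      simp only [HahnSeries.mem_support, ne_eq, and_true, not_and, not_not] at hnot
      by_cases h : f.coeff a = 0
      · rw [h, zero_mul]
      · rw [hnot h, mul_zero]
  · intro m hm
    rw [HahnSeries.coeff_mul]
    apply Finset.sum_eq_zero
    rintro ⟨i, j⟩ hij
    rw [Finset.mem_antidiagonal] at hij
    obtain ⟨hi, hj, hsum⟩ := hij
    have hai : a ≤ i := hsupp hf i hi
    have hbj : b ≤ j := hsupp hg j hj
    simp only at hsum
    omega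

theorem Lead.pow {f : LaurentSeries R} {a : ℤ} (hf : Lead f a) (k : ℕ) :
    Lead (f ^ k) ((k : ℤ) * a) := by
  induction k with
  | zero => simpa using (Lead.one : Lead (1 : LaurentSeries R) 0)
  | succ k ih =>
    have := ih.mul hf
    rw [pow_succ]
    convert this using 1
    push_cast
    ring

theorem Lead.map (φ : R →+* S) {f : LaurentSeries R} {a : ℤ} (hf : Lead f a) :
    Lead (coeffMap φ f) a := by
  refine ⟨by rw [coeffMap_coeff, hf.lead, map_one], fun m hm => ?_⟩
  rw [coeffMap_coeff, hf.below m hm, map_zero]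

theorem coeff_C_mul (s : S) (x : LaurentSeries S) (m : ℤ) :
    (HahnSeries.C s * x).coeff m = s * x.coeff m := by
  rw [HahnSeries.C_mul_eq_smul, HahnSeries.coeff_smul, smul_eq_mul]

/-- Coefficients of `e(f)` far to the left vanish. -/
theorem coeff_eval₂_eq_zero {f : LaurentSeries S} {n : ℕ} (hf : Lead f (-(n : ℤ)))
    (e : S[X]) {k : ℕ} (hk : e.natDegree ≤ k) {m : ℤ} (hm : m < -((n : ℤ) * k)) :
    (e.eval₂ HahnSeries.C f).coeff m = 0 := by
  rw [Polynomial.eval₂_eq_sum_range, HahnSeries.coeff_sum]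
  apply Finset.sum_eq_zero
  intro i hi
  rw [coeff_C_mul]
  have hi' : i ≤ k := by
    have := Finset.mem_range.mp hi
    omega
  have hlead := hf.pow i
  have : m < (i : ℤ) * -(n : ℤ) := by
    have h1 : (n : ℤ) * i ≤ (n : ℤ) * k := by
      apply mul_le_mul_of_nonneg_left _ (by positivity)
      exact_mod_cast hi'
    nlinarith
  rw [hlead.below m this, mul_zero]

/-- The coefficient of `c(f)` at `v ^ (-n * natDegree c)` is the leading coefficient of `c`. -/
theorem coeff_eval₂_natDegree {f : LaurentSeries S} {n : ℕ} (hn : 0 < n) (hf : Lead f (-(n : ℤ)))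
    (c : S[X]) :
    (c.eval₂ HahnSeries.C f).coeff (-((n : ℤ) * c.natDegree)) = c.leadingCoeff := by
  have key : c.eval₂ HahnSeries.C f =
      c.eraseLead.eval₂ HahnSeries.C f + HahnSeries.C c.leadingCoeff * f ^ c.natDegree := by
    conv_lhs => rw [← Polynomial.eraseLead_add_C_mul_X_pow c]
    rw [Polynomial.eval₂_add, Polynomial.eval₂_mul, Polynomial.eval₂_C,
      Polynomial.eval₂_pow, Polynomial.eval₂_X]
  rw [key, HahnSeries.coeff_add, coeff_C_mul]
  have h2 : (f ^ c.natDegree).coeff (-((n : ℤ) * c.natDegree)) = 1 := by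
    have := (hf.pow c.natDegree).lead
    convert this using 2
    ring
  rw [h2, mul_one]
  have h1 : (c.eraseLead.eval₂ HahnSeries.C f).coeff (-((n : ℤ) * c.natDegree)) = 0 := by
    rcases Nat.eq_zero_or_pos c.natDegree with h0 | hpos
    · have hc : c = Polynomial.C (c.coeff 0) := Polynomial.eq_C_of_natDegree_eq_zero h0
      have : c.eraseLead = 0 := by rw [hc, Polynomial.eraseLead_C]
      rw [this, Polynomial.eval₂_zero, HahnSeries.coeff_zero]
    · apply coeff_eval₂_eq_zero hf c.eraseLead (k := c.natDegree - 1)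
        (Polynomial.eraseLead_natDegree_le c)
      have : ((c.natDegree - 1 : ℕ) : ℤ) = (c.natDegree : ℤ) - 1 := by
        rw [Nat.cast_sub hpos]; simp
      rw [this]
      have hn' : (0 : ℤ) < n := by exact_mod_cast hn
      nlinarith
  rw [h1, zero_add]

/-- **Descent by triangularity**, one variable. -/
theorem exists_map_eq (φ : R →+* S) {f : LaurentSeries R} {n : ℕ} (hn : 0 < n)
    (hf : Lead f (-(n : ℤ))) :
    ∀ (c : S[X]), (∃ g : LaurentSeries R, coeffMap φ g = c.eval₂ HahnSeries.C (coeffMap φ f)) →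
      ∃ c₀ : R[X], c₀.map φ = c := by
  intro c
  induction' hcard : c.support.card using Nat.strong_induction_on with N ih generalizing c
  rintro ⟨g, hg⟩
  by_cases hc0 : c = 0
  · exact ⟨0, by rw [hc0, Polynomial.map_zero]⟩
  -- the leading coefficient lies in the image
  set d := c.natDegree with hd
  have hlead : φ (g.coeff (-((n : ℤ) * d))) = c.leadingCoeff := by
    rw [← coeffMap_coeff, hg, coeff_eval₂_natDegree hn (hf.map φ) c]
  set a₀ : R := g.coeff (-((n : ℤ) * d)) with ha₀
  -- apply the induction hypothesis to `eraseLead c`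
  have hcard' : c.eraseLead.support.card < N := by
    rw [← hcard]; exact Polynomial.eraseLead_support_card_lt hc0
  have hg' : coeffMap φ (g - HahnSeries.C a₀ * f ^ d) =
      c.eraseLead.eval₂ HahnSeries.C (coeffMap φ f) := by
    have h1 : c.eval₂ HahnSeries.C (coeffMap φ f) =
        c.eraseLead.eval₂ HahnSeries.C (coeffMap φ f) +
          HahnSeries.C c.leadingCoeff * (coeffMap φ f) ^ d := by
      conv_lhs => rw [← Polynomial.eraseLead_add_C_mul_X_pow c]
      rw [Polynomial.eval₂_add, Polynomial.eval₂_mul, Polynomial.eval₂_C,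
        Polynomial.eval₂_pow, Polynomial.eval₂_X]
    have h2 : coeffMap φ (HahnSeries.C a₀) = HahnSeries.C (φ a₀) := by
      rw [HahnSeries.C_apply, HahnSeries.C_apply, coeffMap_single]
    rw [map_sub, map_mul, map_pow, hg, h1, h2, hlead]
    ring
  obtain ⟨e₀, he₀⟩ := ih _ hcard' c.eraseLead rfl ⟨_, hg'⟩
  refine ⟨e₀ + Polynomial.C a₀ * Polynomial.X ^ d, ?_⟩
  rw [Polynomial.map_add, he₀, Polynomial.map_mul, Polynomial.map_C, Polynomial.map_pow,
    Polynomial.map_X, hlead]
  exact Polynomial.eraseLead_add_C_mul_X_pow c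

theorem coeffMap_C (φ : R →+* S) (r : R) :
    coeffMap φ (HahnSeries.C r) = HahnSeries.C (φ r) := by
  rw [HahnSeries.C_apply, HahnSeries.C_apply, coeffMap_single]

theorem coeffMap_injective (φ : R →+* S) (hφ : Function.Injective φ) :
    Function.Injective (coeffMap φ) := by
  intro x y hxy
  ext k
  apply hφ
  rw [← coeffMap_coeff, ← coeffMap_coeff, hxy]

/-- The two natural ring homs `R[Y] → S((v))` agree. -/
theorem coeffMap_comp_eval₂ (φ : R →+* S) (f : LaurentSeries R) :
    (coeffMap φ).comp (Polynomial.eval₂RingHom HahnSeries.C f) =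
      (Polynomial.eval₂RingHom HahnSeries.C (coeffMap φ f)).comp (Polynomial.mapRingHom φ) := by
  apply Polynomial.ringHom_ext
  · intro r
    simp
  · simp

/-- **Descent by triangularity**, two variables: `Φ ∈ S[Y][X]` such that every `X`-coefficient of
`Φ(X, f)` has its Laurent coefficients in `R`. -/
theorem exists_map_eq₂ (φ : R →+* S) {f : LaurentSeries R} {n : ℕ} (hn : 0 < n)
    (hf : Lead f (-(n : ℤ))) (Φ : S[X][X])
    (h : ∀ i : ℕ, ∃ g : LaurentSeries R, coeffMap φ g =
      (Φ.map (Polynomial.eval₂RingHom HahnSeries.C (coeffMap φ f))).coeff i) :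
    ∃ Φ₀ : R[X][X], Φ₀.map (Polynomial.mapRingHom φ) = Φ := by
  have h' : ∀ i : ℕ, ∃ c₀ : R[X], c₀.map φ = Φ.coeff i := by
    intro i
    obtain ⟨g, hg⟩ := h i
    rw [Polynomial.coeff_map, Polynomial.coe_eval₂RingHom] at hg
    exact exists_map_eq φ hn hf (Φ.coeff i) ⟨g, hg⟩
  choose c₀ hc₀ using h'
  refine ⟨∑ i ∈ Φ.support, Polynomial.monomial i (c₀ i), ?_⟩
  rw [Polynomial.map_sum]
  conv_rhs => rw [← Polynomial.sum_monomial_eq Φ]
  rw [Polynomial.sum_def]
  apply Finset.sum_congr rfl
  intro i _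
  rw [Polynomial.map_monomial, Polynomial.coe_mapRingHom, hc₀ i]

/-- Consumer form: `Φ(X, f) = Ψ` with `Ψ ∈ R((v))[X]` (e.g. an explicit product of linear
factors); then `Φ` descends to `Φ₀ ∈ R[Y][X]` and, if `φ` is injective, `Φ₀(X, f) = Ψ` over `R`. -/
theorem exists_map_eq_of_eq (φ : R →+* S) (hφ : Function.Injective φ) {f : LaurentSeries R}
    {n : ℕ} (hn : 0 < n) (hf : Lead f (-(n : ℤ))) (Φ : S[X][X]) (Ψ : (LaurentSeries R)[X])
    (h : Φ.map (Polynomial.eval₂RingHom HahnSeries.C (coeffMap φ f)) = Ψ.map (coeffMap φ)) :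
    ∃ Φ₀ : R[X][X], Φ₀.map (Polynomial.mapRingHom φ) = Φ ∧
      Φ₀.map (Polynomial.eval₂RingHom HahnSeries.C f) = Ψ := by
  obtain ⟨Φ₀, hΦ₀⟩ := exists_map_eq₂ φ hn hf Φ (fun i => ⟨Ψ.coeff i, by
    rw [h, Polynomial.coeff_map]⟩)
  refine ⟨Φ₀, hΦ₀, ?_⟩
  apply Polynomial.map_injective (coeffMap φ) (coeffMap_injective φ hφ)
  rw [Polynomial.map_map, coeffMap_comp_eval₂, ← Polynomial.map_map, hΦ₀, h]

/-- Degree and monicity are preserved by the descent (for injective `φ`). -/
theorem natDegree_eq_of_map_eq (φ : R →+* S) (hφ : Function.Injective φ) (Φ₀ : R[X][X]) :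
    (Φ₀.map (Polynomial.mapRingHom φ)).natDegree = Φ₀.natDegree :=
  Polynomial.natDegree_map_eq_of_injective (Polynomial.map_injective φ hφ) Φ₀

theorem monic_of_map_monic (φ : R →+* S) (hφ : Function.Injective φ) (Φ₀ : R[X][X])
    (h : (Φ₀.map (Polynomial.mapRingHom φ)).Monic) : Φ₀.Monic := by
  have hinj : Function.Injective (Polynomial.mapRingHom φ) := Polynomial.map_injective φ hφ
  apply hinj
  have h1 : (Polynomial.mapRingHom φ) Φ₀.leadingCoeff =
      (Φ₀.map (Polynomial.mapRingHom φ)).leadingCoeff :=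
    (Polynomial.leadingCoeff_map_of_injective hinj Φ₀).symm
  rw [h1, h, map_one]

end Fermat.Agent.S28.TriDescent
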