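/-
S28 / block A, steps (A2)+(A3) assembled: the modular equation of level `p` descends from ONE
field of characteristic zero containing a primitive `p`-th root of unity (e.g. `ℂ`) to the
cyclotomic coefficient ring `ℤ[x]/(Φ_p)` (triangularity, `TriDescent`) and is then pushed to ANY
nontrivial commutative ring `R` with a unit `ζ` which is a root of the `p`-th cyclotomic polynomial.

Main export: `exists_modPoly_of_charZero` (and its specialisation `exists_modPoly_of_complex`).
-/
import Mathlib
import Fermat.Prelude.Def_ModularCurve_X0ModL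
import Fermat.Agent.S28.TriDescent
import Fermat.Agent.S28.ScaleVar

set_option autoImplicit false

namespace Fermat.Agent.S28.ModPolyDescent

open ModularCurve Polynomial
open Fermat.Agent.S28.TriDescent Fermat.Agent.S28.ScaleVar

/-! ### Generalities -/

section General

variable {A B : Type*} [CommRing A] [CommRing B]

/-- The (power series) algebra map `A → A((v))` is `HahnSeries.C`. -/
theorem algebraMap_eq_C (a : A) : algebraMap A (LaurentSeries A) a = HahnSeries.C a := by
  have h1 : algebraMap A (PowerSeries A) a = PowerSeries.C a := by simp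
  rw [HahnSeries.algebraMap_apply', h1, HahnSeries.ofPowerSeries_C]

/-- `aeval x`, seen as a ring homomorphism, is `eval₂RingHom C x`. -/
theorem aeval_toRingHom_eq (x : LaurentSeries A) :
    ((aeval x : Polynomial A →ₐ[A] LaurentSeries A) : Polynomial A →+* LaurentSeries A) =
      Polynomial.eval₂RingHom HahnSeries.C x := by
  apply Polynomial.ringHom_ext
  · intro a
    simp only [RingHom.coe_coe, aeval_C, coe_eval₂RingHom, eval₂_C]
    exact algebraMap_eq_C a
  · simp

/-- The right-hand side of the modular equation of level `p`: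
`(X - j(v ^ (p ^ 2))) * ∏_{b < p} (X - j(ξ ^ b v))`. -/
noncomputable def modRHS (A : Type*) [CommRing A] (p : ℕ) [NeZero p] (ξ : Aˣ) :
    Polynomial (LaurentSeries A) :=
  (X - C (qExpand A (p ^ 2) (jqModC A))) *
    ∏ b ∈ Finset.range p, (X - C (scaleVar (ξ ^ b) (jqModC A)))

theorem modRHS_def (p : ℕ) [NeZero p] (ξ : Aˣ) :
    modRHS A p ξ = (X - C (qExpand A (p ^ 2) (jqModC A))) *
      ∏ b ∈ Finset.range p, (X - C (scaleVar (ξ ^ b) (jqModC A))) := rfl

/-- The right-hand side is compatible with change of the coefficient ring. -/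
theorem modRHS_map (g : A →+* B) (p : ℕ) [NeZero p] (ξ : Aˣ) :
    (modRHS A p ξ).map (coeffMap g) = modRHS B p (Units.map (g : A →* B) ξ) := by
  rw [modRHS_def, modRHS_def, Polynomial.map_mul, Polynomial.map_sub, Polynomial.map_X,
    Polynomial.map_C, coeffMap_qExpand, coeffMap_jqModC, Polynomial.map_prod]
  congr 1
  refine Finset.prod_congr rfl fun b _ => ?_
  rw [Polynomial.map_sub, Polynomial.map_X, Polynomial.map_C, coeffMap_scaleVar, coeffMap_jqModC,
    map_pow]

/-- `j(v ^ p)` has leading term `v ^ (-p)`. -/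
theorem lead_qExpand_jqModC (A : Type*) [CommRing A] (p : ℕ) [NeZero p] :
    Lead (qExpand A p (jqModC A)) (-(p : ℤ)) := by
  have hp : (0 : ℤ) < p := by exact_mod_cast Nat.pos_of_ne_zero (NeZero.ne p)
  constructor
  · have h : -(p : ℤ) = (p : ℤ) * (-1) := by ring
    rw [h, qExpand_coeff_mul, coeff_jqModC_neg_one]
  · intro m hm
    by_cases hd : (p : ℤ) ∣ m
    · obtain ⟨k, rfl⟩ := hd
      rw [qExpand_coeff_mul]
      apply coeff_jqModC_of_lt
      nlinarith
    · exact qExpand_coeff_of_not_dvd p _ hd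

end General

/-! ### The cyclotomic coefficient ring `ℤ[x]/(Φ_p)` -/

section Cyclo

/-- The universal ring with a root of the `p`-th cyclotomic polynomial. -/
abbrev Op (p : ℕ) : Type := AdjoinRoot (cyclotomic p ℤ)

theorem root_pow (p : ℕ) : (AdjoinRoot.root (cyclotomic p ℤ)) ^ p = 1 := by
  have h := AdjoinRoot.mk_eq_zero.mpr (cyclotomic.dvd_X_pow_sub_one p ℤ)
  rw [map_sub, map_pow, AdjoinRoot.mk_X, map_one, sub_eq_zero] at h
  exact h

/-- The universal root, as a unit. -/
noncomputable def rootUnit (p : ℕ) [NeZero p] : (Op p)ˣ :=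
  (IsUnit.of_pow_eq_one (root_pow p) (NeZero.ne p)).unit

theorem rootUnit_val (p : ℕ) [NeZero p] :
    ((rootUnit p : (Op p)ˣ) : Op p) = AdjoinRoot.root (cyclotomic p ℤ) :=
  IsUnit.unit_spec _

variable {R : Type*} [CommRing R]

/-- The ring homomorphism `ℤ[x]/(Φ_p) → R`, `x ↦ z`, for a root `z` of `Φ_p` in `R`. -/
noncomputable def toRing (p : ℕ) (z : R) (hz : (cyclotomic p R).eval z = 0) : Op p →+* R :=
  AdjoinRoot.lift (Int.castRingHom R) z (by rw [eval₂_eq_eval_map, map_cyclotomic]; exact hz)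

theorem toRing_root (p : ℕ) (z : R) (hz : (cyclotomic p R).eval z = 0) :
    toRing p z hz (AdjoinRoot.root (cyclotomic p ℤ)) = z :=
  AdjoinRoot.lift_root _

theorem toRing_mk (p : ℕ) (z : R) (hz : (cyclotomic p R).eval z = 0) (q : Polynomial ℤ) :
    toRing p z hz (AdjoinRoot.mk (cyclotomic p ℤ) q) = eval₂ (Int.castRingHom R) z q :=
  AdjoinRoot.lift_mk _ _

theorem units_map_toRing (p : ℕ) [NeZero p] (ζ : Rˣ) (hζ : (cyclotomic p R).eval (ζ : R) = 0) :
    Units.map (toRing p (ζ : R) hζ : Op p →* R) (rootUnit p) = ζ := by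
  apply Units.ext
  rw [Units.coe_map, MonoidHom.coe_coe, rootUnit_val, toRing_root]

/-- Into a field of characteristic zero, at a primitive `p`-th root of unity, the map is
injective. -/
theorem toRing_injective {K : Type*} [Field K] [CharZero K] (p : ℕ) [NeZero p] (μ : K)
    (hμ : IsPrimitiveRoot μ p) (hz : (cyclotomic p K).eval μ = 0) :
    Function.Injective (toRing p μ hz) := by
  have hp : 0 < p := Nat.pos_of_ne_zero (NeZero.ne p)
  rw [injective_iff_map_eq_zero]
  intro x hx
  obtain ⟨q, rfl⟩ := AdjoinRoot.mk_surjective x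
  rw [toRing_mk] at hx
  rw [AdjoinRoot.mk_eq_zero, cyclotomic_eq_minpoly hμ hp,
    ← minpoly.isIntegrallyClosed_dvd_iff (hμ.isIntegral hp), aeval_def, algebraMap_int_eq]
  exact hx

end Cyclo

/-! ### The main theorem -/

section Main

/-- **Descent + base change of the modular equation.**  If the modular equation of level `p`
holds over ONE field `K` of characteristic zero for ONE primitive `p`-th root of unity `ζK`, then
it holds over every nontrivial commutative ring `R` for every unit `ζ` which is a root of the `p`-th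
cyclotomic polynomial. -/
theorem exists_modPoly_of_charZero (p : ℕ) [NeZero p] {K : Type*} [Field K] [CharZero K]
    (ζK : Kˣ) (hζK : IsPrimitiveRoot (ζK : K) p)
    (hK : ∃ Φ : Polynomial (Polynomial K), Φ.Monic ∧ Φ.natDegree = p + 1 ∧
      Φ.map ((aeval (qExpand K p (jqModC K)) : Polynomial K →ₐ[K] LaurentSeries K) :
          Polynomial K →+* LaurentSeries K) =
        (X - C (qExpand K (p ^ 2) (jqModC K))) *
          ∏ b ∈ Finset.range p, (X - C (scaleVar (ζK ^ b) (jqModC K))))
    {R : Type*} [CommRing R] [Nontrivial R] (ζ : Rˣ) (hζ : (cyclotomic p R).eval (ζ : R) = 0) :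
    ∃ Φ : Polynomial (Polynomial R), Φ.Monic ∧ Φ.natDegree = p + 1 ∧
      Φ.map ((aeval (qExpand R p (jqModC R)) : Polynomial R →ₐ[R] LaurentSeries R) :
          Polynomial R →+* LaurentSeries R) =
        (X - C (qExpand R (p ^ 2) (jqModC R))) *
          ∏ b ∈ Finset.range p, (X - C (scaleVar (ζ ^ b) (jqModC R))) := by
  have hp : 0 < p := Nat.pos_of_ne_zero (NeZero.ne p)
  obtain ⟨ΦK, hmonic, hdeg, hΦK⟩ := hK
  have hzK : (cyclotomic p K).eval (ζK : K) = 0 := (hζK.isRoot_cyclotomic hp)
  -- the coefficient ring and its two maps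
  set ι : Op p →+* K := toRing p (ζK : K) hzK with hι
  have hιinj : Function.Injective ι := toRing_injective p (ζK : K) hζK hzK
  set φ : Op p →+* R := toRing p (ζ : R) hζ with hφ
  have hιu : Units.map (ι : Op p →* K) (rootUnit p) = ζK := units_map_toRing p ζK hzK
  have hφu : Units.map (φ : Op p →* R) (rootUnit p) = ζ := units_map_toRing p ζ hζ
  -- descent
  have hlead : Lead (qExpand (Op p) p (jqModC (Op p))) (-(p : ℤ)) := lead_qExpand_jqModC (Op p) p
  have hJ : coeffMap ι (qExpand (Op p) p (jqModC (Op p))) = qExpand K p (jqModC K) := by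
    rw [coeffMap_qExpand, coeffMap_jqModC]
  have h1 : ΦK.map (Polynomial.eval₂RingHom HahnSeries.C
      (coeffMap ι (qExpand (Op p) p (jqModC (Op p))))) =
      (modRHS (Op p) p (rootUnit p)).map (coeffMap ι) := by
    rw [modRHS_map, hιu, hJ, ← aeval_toRingHom_eq, hΦK, modRHS_def]
  obtain ⟨Φ₀, hΦ₀K, hΦ₀⟩ := exists_map_eq_of_eq ι hιinj hp hlead ΦK _ h1
  have hmonic₀ : Φ₀.Monic := monic_of_map_monic ι hιinj Φ₀ (by rw [hΦ₀K]; exact hmonic)
  have hdeg₀ : Φ₀.natDegree = p + 1 := by
    rw [← natDegree_eq_of_map_eq ι hιinj Φ₀, hΦ₀K, hdeg]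
  -- base change
  refine ⟨Φ₀.map (Polynomial.mapRingHom φ), hmonic₀.map _, ?_, ?_⟩
  · rw [hmonic₀.natDegree_map, hdeg₀]
  · have hJR : coeffMap φ (qExpand (Op p) p (jqModC (Op p))) = qExpand R p (jqModC R) := by
      rw [coeffMap_qExpand, coeffMap_jqModC]
    rw [aeval_toRingHom_eq, ← hJR, Polynomial.map_map, ← coeffMap_comp_eval₂,
      ← Polynomial.map_map, hΦ₀, modRHS_map, hφu, modRHS_def]

/-- The special case `K = ℂ`. -/
theorem exists_modPoly_of_complex (p : ℕ) [NeZero p]
    (ζC : ℂˣ) (hζC : IsPrimitiveRoot (ζC : ℂ) p)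
    (hC : ∃ Φ : Polynomial (Polynomial ℂ), Φ.Monic ∧ Φ.natDegree = p + 1 ∧
      Φ.map ((aeval (qExpand ℂ p (jqModC ℂ)) : Polynomial ℂ →ₐ[ℂ] LaurentSeries ℂ) :
          Polynomial ℂ →+* LaurentSeries ℂ) =
        (X - C (qExpand ℂ (p ^ 2) (jqModC ℂ))) *
          ∏ b ∈ Finset.range p, (X - C (scaleVar (ζC ^ b) (jqModC ℂ))))
    {R : Type*} [CommRing R] [Nontrivial R] (ζ : Rˣ) (hζ : (cyclotomic p R).eval (ζ : R) = 0) :
    ∃ Φ : Polynomial (Polynomial R), Φ.Monic ∧ Φ.natDegree = p + 1 ∧
      Φ.map ((aeval (qExpand R p (jqModC R)) : Polynomial R →ₐ[R] LaurentSeries R) :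
          Polynomial R →+* LaurentSeries R) =
        (X - C (qExpand R (p ^ 2) (jqModC R))) *
          ∏ b ∈ Finset.range p, (X - C (scaleVar (ζ ^ b) (jqModC R))) :=
  exists_modPoly_of_charZero p ζC hζC hC ζ hζ

end Main

end Fermat.Agent.S28.ModPolyDescent
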