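/-
S28 / block C support: every `j(q ^ d)` is algebraic over `k(j)`, from the modular equations (A)
alone.

`j(q)` is a root of `Φ_p(X, j(q ^ p))` (the factor `b = 0`), so there is a nontrivial bivariate
relation between `j(q)` and `j(q ^ p)`; `j(q)` being transcendental over `k`, `j(q ^ p)` is
algebraic over `k(j(q))`.  Transport by `q ↦ q ^ m` and induct on the prime factorisation.
-/
import Mathlib
import Fermat.Agent.S28.Interfaces
import Fermat.Agent.S28.TriDescent
import Fermat.Agent.S28.ModPolyDescent

set_option autoImplicit false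

namespace Fermat.Agent.S28.JDAlgebraic

open Polynomial ModularCurve Fermat.Agent.S28.Interfaces Fermat.Agent.S20.LaurentTools

/-! ### Generic algebra -/

section generic

theorem map_eval_eq_aevalAeval {R A : Type*} [CommRing R] [CommRing A] [Algebra R A]
    (a b : A) (Φ : R[X][X]) :
    (Φ.map ((aeval a : R[X] →ₐ[R] A) : R[X] →+* A)).eval b = aevalAeval a b Φ := by
  induction Φ using Polynomial.induction_on' with
  | add p q hp hq => rw [Polynomial.map_add, eval_add, hp, hq, map_add]
  | monomial n c =>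
    rw [Polynomial.map_monomial, eval_monomial, ← C_mul_X_pow_eq_monomial, map_mul, map_pow,
      aevalAeval_Y, aevalAeval_C]
    rfl

variable {k E : Type*} [Field k] [Field E] [Algebra k E]

/-- A nontrivial bivariate relation `Ψ(x, y) = 0` with `x` transcendental makes `y` algebraic
over `k(x)`. -/
theorem isAlgebraic_of_rel {x y : E} (hx : Transcendental k x) (Ψ : k[X][X]) (hΨ : Ψ ≠ 0)
    (h : aevalAeval x y Ψ = 0) : IsAlgebraic (IntermediateField.adjoin k {x}) y := by
  set F := IntermediateField.adjoin k {x} with hF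
  let xx : F := ⟨x, IntermediateField.mem_adjoin_simple_self k x⟩
  let φ : k[X] →ₐ[k] F := aeval xx
  have hcomp : (F.val.comp φ) = (aeval x : k[X] →ₐ[k] E) := by
    apply Polynomial.algHom_ext
    simp [φ, xx]
  have hφ : Function.Injective φ := by
    have h1 : Function.Injective (F.val.comp φ) := by
      rw [hcomp]
      exact transcendental_iff_injective.mp hx
    intro a b hab
    apply h1
    simp only [AlgHom.comp_apply, hab]
  refine ⟨Ψ.map (φ : k[X] →+* F), ?_, ?_⟩
  · exact (Polynomial.map_ne_zero_iff hφ).mpr hΨ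
  · rw [aeval_def, eval₂_map]
    have h2 : (algebraMap F E).comp (φ : k[X] →+* F) =
        ((aeval x : k[X] →ₐ[k] E) : k[X] →+* E) := by
      rw [← hcomp]
      rfl
    rw [h2, ← eval_map, map_eval_eq_aevalAeval, h]

/-- Transitivity of algebraicity along simple extensions of a common base field. -/
theorem isAlgebraic_trans_simple {a x y : E}
    (hx : IsAlgebraic (IntermediateField.adjoin k {a}) x)
    (hy : IsAlgebraic (IntermediateField.adjoin k {x}) y) :
    IsAlgebraic (IntermediateField.adjoin k {a}) y := by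
  set F := IntermediateField.adjoin k {a} with hF
  set G := IntermediateField.adjoin F {x} with hG
  have : Algebra.IsAlgebraic F G := IntermediateField.isAlgebraic_adjoin_simple hx.isIntegral
  have hle : IntermediateField.adjoin k {x} ≤ G.restrictScalars k := by
    rw [IntermediateField.adjoin_le_iff]
    intro z hz
    rw [Set.mem_singleton_iff] at hz
    rw [hz]
    exact IntermediateField.mem_adjoin_simple_self F x
  let ι : IntermediateField.adjoin k {x} →+* G :=
    { toFun := fun z => ⟨z.1, hle z.2⟩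
      map_one' := rfl
      map_mul' := fun _ _ => rfl
      map_zero' := rfl
      map_add' := fun _ _ => rfl }
  have hι : Function.Injective ι := by
    intro z w hzw
    apply Subtype.ext
    exact congrArg (fun t : G => (t : E)) hzw
  have hyG : IsAlgebraic G y := by
    obtain ⟨P, hP0, hP⟩ := hy
    refine ⟨P.map ι, (Polynomial.map_ne_zero_iff hι).mpr hP0, ?_⟩
    rw [aeval_def, eval₂_map]
    have : (algebraMap G E).comp ι = algebraMap (IntermediateField.adjoin k {x}) E := by
      ext z
      rfl
    rw [this, ← aeval_def, hP]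
  exact hyG.restrictScalars F

/-- Bivariate relations are transported by algebra homomorphisms. -/
theorem aevalAeval_map {E' : Type*} [Field E'] [Algebra k E'] (θ : E →ₐ[k] E') (x y : E)
    (Ψ : k[X][X]) : θ (aevalAeval x y Ψ) = aevalAeval (θ x) (θ y) Ψ := by
  have : θ.comp (aevalAeval x y) = aevalAeval (θ x) (θ y) := by
    apply (aevalAevalEquiv k E').symm.injective
    simp [aevalAevalEquiv]
  rw [← this]
  rfl

end generic

/-! ### The modular functions -/

variable (k : Type) [Field k]

/-- `j(q ^ m)` is transcendental over `k`. -/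
theorem transcendental_jD (m : ℕ) [NeZero m] : Transcendental k (jD k m) := by
  intro halg
  obtain ⟨c, hc0, hc⟩ := halg
  have hlead : TriDescent.Lead (jD k m) (-(m : ℤ)) := by
    rw [jD_eq]
    exact ModPolyDescent.lead_qExpand_jqModC k m
  have h1 : aeval (jD k m) c = c.eval₂ HahnSeries.C (jD k m) := by
    rw [aeval_def]
    congr 1
    ext a : 1
    exact ModPolyDescent.algebraMap_eq_C a
  have h2 := TriDescent.coeff_eval₂_natDegree (Nat.pos_of_ne_zero (NeZero.ne m)) hlead c
  rw [← h1, hc, HahnSeries.coeff_zero] at h2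
  exact hc0 (Polynomial.leadingCoeff_eq_zero.mp h2.symm)

/-- The bivariate relation between `j(q)` and `j(q ^ p)` given by the modular equation. -/
theorem rel_of_hasModEq {p : ℕ} (hp : 0 < p) {ζ : kˣ} (h : HasModEq k p ζ) :
    ∃ Ψ : k[X][X], Ψ ≠ 0 ∧ aevalAeval (jqModC k) (jD k p) Ψ = 0 := by
  obtain ⟨Φ, hmonic, -, hid⟩ := h
  refine ⟨Bivariate.swap Φ, ?_, ?_⟩
  · intro h0
    have : Φ = 0 := by
      have := congrArg Bivariate.swap h0
      rwa [Bivariate.swap_swap_apply, map_zero] at this
    exact hmonic.ne_zero this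
  · rw [Bivariate.aevalAeval_swap, ← map_eval_eq_aevalAeval, hid, eval_mul, eval_prod]
    have h0 : (0 : ℕ) ∈ Finset.range p := Finset.mem_range.mpr hp
    rw [Finset.prod_eq_zero h0, mul_zero]
    rw [pow_zero, eval_sub, eval_X, eval_C, rot_one, sub_self]

/-- `j(q ^ (m p))` is algebraic over `k(j(q ^ m))`. -/
theorem isAlgebraic_jD_mul {p : ℕ} (hp : 0 < p) {ζ : kˣ} (h : HasModEq k p ζ) (m : ℕ)
    [NeZero m] :
    IsAlgebraic (IntermediateField.adjoin k {jD k m}) (jD k (m * p)) := by
  obtain ⟨Ψ, hΨ0, hΨ⟩ := rel_of_hasModEq k hp h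
  have hp' : NeZero p := ⟨hp.ne'⟩
  have hmp : NeZero (m * p) := ⟨Nat.mul_ne_zero (NeZero.ne m) hp.ne'⟩
  have h1 := congrArg (qExpandAlgHomC k m) hΨ
  rw [aevalAeval_map, map_zero, qExpandAlgHomC_apply, qExpandAlgHomC_apply] at h1
  have e1 : qExpand k m (jqModC k) = jD k m := (jD_eq k m).symm
  have e2 : qExpand k m (jD k p) = jD k (m * p) := by
    rw [jD_eq k p, qExpand_qExpand, ← jD_eq k (m * p)]
  rw [e1, e2] at h1
  exact isAlgebraic_of_rel (transcendental_jD k m) Ψ hΨ0 h1

/-- **Algebraicity of all `j(q ^ d)` over `k(j)`**, given the modular equation at every prime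
dividing `d`. -/
theorem isAlgebraic_jD (d : ℕ) (hd : d ≠ 0)
    (hA : ∀ p : ℕ, p.Prime → p ∣ d → ∃ ζ : kˣ, HasModEq k p ζ) :
    IsAlgebraic (kj k) (jD k d) := by
  induction d using Nat.strong_induction_on with
  | _ d ih =>
    by_cases h1 : d = 1
    · rw [h1, jD_one]
      exact isAlgebraic_algebraMap
        (⟨jqModC k, IntermediateField.mem_adjoin_simple_self k _⟩ : kj k)
    · obtain ⟨p, hp, hpd⟩ := Nat.exists_prime_and_dvd h1
      obtain ⟨m, rfl⟩ := hpd
      have hm0 : m ≠ 0 := fun h => hd (by rw [h, mul_zero])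
      have hlt : m < p * m := by
        have := hp.two_le
        have hm : 0 < m := Nat.pos_of_ne_zero hm0
        nlinarith
      have ihm := ih m hlt hm0 (fun r hr hrm => hA r hr (dvd_mul_of_dvd_right hrm p))
      obtain ⟨ζ, hζ⟩ := hA p hp (dvd_mul_right p m)
      have : NeZero m := ⟨hm0⟩
      have h2 := isAlgebraic_jD_mul k hp.pos hζ m
      rw [mul_comm m p] at h2
      have ihm' : IsAlgebraic (IntermediateField.adjoin k {jD k 1}) (jD k m) := by
        rw [jD_one]; exact ihm
      have := isAlgebraic_trans_simple ihm' h2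
      rw [jD_one] at this
      exact this

/-- A primitive `p`-th root of unity, as a unit, in an algebraically closed field in which `p` is
invertible. -/
theorem exists_primitiveRoot_unit [IsAlgClosed k] (p : ℕ) (hp : (p : k) ≠ 0) :
    ∃ ζ : kˣ, IsPrimitiveRoot (ζ : k) p := by
  have : NeZero (p : k) := ⟨hp⟩
  obtain ⟨ζ, hζ⟩ := HasEnoughRootsOfUnity.exists_primitiveRoot k p
  have hp0 : p ≠ 0 := by
    rintro rfl
    exact hp (by simp)
  exact ⟨(hζ.isUnit hp0).unit, by simpa using hζ⟩

/-- **Consumer form**: under (A), for `k` algebraically closed with `N` invertible, every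
`j(q ^ d)`, `d ∣ N`, is algebraic over `k(j)`. -/
theorem isAlgebraic_jD_of_modEq (hA : ModEqStatement) [IsAlgClosed k] (N : ℕ)
    (hN : (N : k) ≠ 0) : ∀ d ∈ N.divisors, IsAlgebraic (kj k) (jD k d) := by
  intro d hd
  have hdN : d ∣ N := Nat.dvd_of_mem_divisors hd
  have hd0 : d ≠ 0 := by
    rintro rfl
    have := Nat.eq_zero_of_zero_dvd hdN
    exact hN (by rw [this]; simp)
  apply isAlgebraic_jD k d hd0
  intro p hp hpd
  have hpN : p ∣ N := hpd.trans hdN
  have hpk : (p : k) ≠ 0 := by
    intro h0
    obtain ⟨c, rfl⟩ := hpN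
    apply hN
    rw [Nat.cast_mul, h0, zero_mul]
  obtain ⟨ζ, hζ⟩ := exists_primitiveRoot_unit k p hpk
  exact ⟨ζ, hA k p hp ζ hζ⟩

end Fermat.Agent.S28.JDAlgebraic
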