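/-
S28 / block C (generic half): Kummer theory of `k((u)) / k((u^n))` on `LaurentSeries`.
Owner: helper62.  Mathlib + Prelude `Def_ModularCurve_X0` (for `qExpand`) + `S20/LaurentTools` (for `rot`,
the rotation used by `S28/Interfaces.HasModEq`).

* `irreducible_of_map_eq_prod_roots` : pure field theory — a polynomial over `K₁` whose image under
  `φ : K₁ → E` is `∏_{b<n} (X - r b)` with the `r b` pairwise distinct and all conjugate to `r 0` by
  ring endomorphisms of `E` fixing `φ K₁` pointwise is irreducible.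
* `rotHom : kˣ →* Aut_k k((u))` (bundling `S20.LaurentTools.rot`), `rot_pow_eq`, `rot_qExpand`.
* `mem_range_qExpand_iff`, `rot_eq_self_iff` : fixed field of `rot ξ` (`ξ` primitive `n`-th root) is
  `k((u^n)) = range (qExpand k n)`.
* `orbitPoly n ξ g = ∏_{b<n} (X - g(ξ^b u))`, descends along `qExpand k n`, and is irreducible there
  when the conjugates are pairwise distinct (`irreducible_of_map_eq_orbitPoly` and variants).
* `finrank_fieldRange_qExpand`, `isGalois_fieldRange_qExpand`.
-/
import Mathlib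
import Fermat.Prelude.Def_ModularCurve_X0
import Fermat.Prelude.Thm_ModularCurve_coeff_jqModC_neg_one
import Fermat.Agent.S20.LaurentTools

set_option autoImplicit false

open ModularCurve Polynomial

namespace Fermat.Agent.S28.KummerLaurent

open Fermat.Agent.S20.LaurentTools

section Generic

/-- **Orbit irreducibility, pure field theory.**  Let `φ : K₁ → E` be a homomorphism of fields and
`r 0, …, r (n-1) ∈ E` pairwise distinct elements, each of the form `σ (r 0)` for a ring endomorphism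
`σ` of `E` fixing `φ K₁` pointwise.  A polynomial `P ∈ K₁[X]` whose image in `E[X]` is
`∏_{b<n} (X - r b)` is irreducible. -/
theorem irreducible_of_map_eq_prod_roots {K₁ E : Type*} [Field K₁] [Field E] (φ : K₁ →+* E)
    (n : ℕ) (hn : 0 < n) (r : ℕ → E) (hr : Set.InjOn r (Finset.range n : Set ℕ))
    (hconj : ∀ b < n, ∃ σ : E →+* E, (∀ x, σ (φ x) = φ x) ∧ σ (r 0) = r b)
    {P : K₁[X]} (hP : P.map φ = ∏ b ∈ Finset.range n, (X - C (r b))) : Irreducible P := by
  classical
  let _ : Algebra K₁ E := φ.toAlgebra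
  have halg : algebraMap K₁ E = φ := rfl
  have hprodmonic : (∏ b ∈ Finset.range n, (X - C (r b))).Monic :=
    monic_prod_of_monic _ _ fun b _ => monic_X_sub_C _
  have hPmonic : P.Monic := by
    apply Polynomial.monic_of_injective φ.injective
    rw [hP]; exact hprodmonic
  have hPdeg : P.natDegree = n := by
    rw [← natDegree_map_eq_of_injective φ.injective, hP,
      natDegree_prod_of_monic _ _ fun b _ => monic_X_sub_C _]
    simp
  have hPg : Polynomial.aeval (r 0) P = 0 := by
    rw [Polynomial.aeval_def, halg, ← Polynomial.eval_map, hP, eval_prod]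
    refine Finset.prod_eq_zero (Finset.mem_range.2 hn) ?_
    simp
  have hint : IsIntegral K₁ (r 0) := ⟨P, hPmonic, hPg⟩
  set m := minpoly K₁ (r 0) with hm
  have hmP : m ∣ P := minpoly.dvd K₁ (r 0) hPg
  have hroot : ∀ b < n, (m.map φ).IsRoot (r b) := by
    intro b hb
    obtain ⟨σ, hσ, hσb⟩ := hconj b hb
    have hfix : σ.comp φ = φ := by
      ext1 x
      exact hσ x
    have h0 : Polynomial.eval₂ φ (r 0) m = 0 := by
      have := minpoly.aeval K₁ (r 0)
      rwa [Polynomial.aeval_def, halg] at this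
    have h1 := Polynomial.hom_eval₂ m φ σ (r 0)
    rw [h0, map_zero, hfix, hσb] at h1
    rw [Polynomial.IsRoot.def, Polynomial.eval_map]
    exact h1.symm
  have hm0 : m.map φ ≠ 0 := by
    rw [Polynomial.map_ne_zero_iff φ.injective]
    exact minpoly.ne_zero hint
  have hcard : n ≤ m.natDegree := by
    have hsub : ((Finset.range n).image r).val ⊆ (m.map φ).roots := by
      intro x hx
      rw [Finset.mem_val, Finset.mem_image] at hx
      obtain ⟨b, hb, rfl⟩ := hx
      exact (Polynomial.mem_roots hm0).2 (hroot b (Finset.mem_range.1 hb))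
    have := Polynomial.card_le_degree_of_subset_roots hsub
    rw [Finset.card_image_of_injOn hr, Finset.card_range,
      natDegree_map_eq_of_injective φ.injective] at this
    exact this
  have heq : P = m := by
    refine Polynomial.eq_of_monic_of_dvd_of_natDegree_le (minpoly.monic hint) hPmonic hmP ?_
    rw [hPdeg]; exact hcard
  rw [heq]
  exact minpoly.irreducible hint

end Generic


section Rot

variable {k : Type*} [Field k]

/-- `rot` (of `S20/LaurentTools`) as a group homomorphism `kˣ →* Aut_k (k((u)))`. -/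
noncomputable def rotHom : kˣ →* (LaurentSeries k ≃ₐ[k] LaurentSeries k) where
  toFun := rot
  map_one' := by ext f : 1; exact rot_one f
  map_mul' ξ η := by ext f : 1; exact (rot_rot ξ η f).symm

@[simp] theorem rotHom_apply (ξ : kˣ) : rotHom ξ = rot ξ := rfl

theorem rot_one_eq : rot (1 : kˣ) = 1 := rotHom.map_one

theorem rot_mul_eq (ξ η : kˣ) : rot (ξ * η) = rot ξ * rot η := rotHom.map_mul ξ η

theorem rot_pow_eq (ξ : kˣ) (b : ℕ) : rot (ξ ^ b) = rot ξ ^ b := rotHom.map_pow ξ b

theorem rot_zpow_eq (ξ : kˣ) (b : ℤ) : rot (ξ ^ b) = rot ξ ^ b := rotHom.map_zpow ξ b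

theorem rotHom_injective : Function.Injective (rotHom (k := k)) := by
  rw [injective_iff_map_eq_one]
  intro ξ h
  have h1 : rot ξ (HahnSeries.single 1 1) = HahnSeries.single 1 (1 : k) := by
    rw [← rotHom_apply, h]; rfl
  rw [rot_single, zpow_one, mul_one] at h1
  have := HahnSeries.single_injective (1 : ℤ) h1
  exact Units.ext this

/-- Rotation commutes with the substitution `u ↦ u ^ d`, up to raising `ξ` to the `d`. -/
theorem rot_qExpand (ξ : kˣ) (d : ℕ) [NeZero d] (f : LaurentSeries k) :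
    rot ξ (qExpand k d f) = qExpand k d (rot (ξ ^ d) f) := by
  ext i
  by_cases hi : (d : ℤ) ∣ i
  · obtain ⟨j, rfl⟩ := hi
    rw [coeff_rot, qExpand_coeff_mul, qExpand_coeff_mul, coeff_rot, zpow_mul, zpow_natCast]
  · rw [coeff_rot, qExpand_coeff_of_not_dvd d f hi, qExpand_coeff_of_not_dvd d _ hi, mul_zero]

end Rot



section Range

variable {R : Type*} [CommRing R] (n : ℕ) [NeZero n]

/-- The image of `u ↦ u ^ n` consists of the series supported on multiples of `n`. -/
theorem mem_range_qExpand_iff (f : LaurentSeries R) :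
    f ∈ Set.range (qExpand R n) ↔ ∀ i : ℤ, ¬ (n : ℤ) ∣ i → f.coeff i = 0 := by
  constructor
  · rintro ⟨g, rfl⟩ i hi
    exact qExpand_coeff_of_not_dvd n g hi
  · intro h
    have hn : (0 : ℤ) < n := by exact_mod_cast Nat.pos_of_ne_zero (NeZero.ne n)
    have hbdd : BddBelow (Function.support fun j : ℤ => f.coeff ((n : ℤ) * j)) := by
      refine ⟨min f.order 0, fun j hj => ?_⟩
      have hj' : f.coeff ((n : ℤ) * j) ≠ 0 := hj
      have hle : f.order ≤ (n : ℤ) * j := by
        by_contra hlt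
        exact hj' (HahnSeries.coeff_eq_zero_of_lt_order (not_le.1 hlt))
      rcases le_or_gt 0 j with h0 | h0
      · exact (min_le_right _ _).trans h0
      · refine (min_le_left _ _).trans (hle.trans ?_)
        nlinarith
    refine ⟨HahnSeries.ofSuppBddBelow (fun j : ℤ => f.coeff ((n : ℤ) * j)) hbdd, ?_⟩
    ext i
    by_cases hi : (n : ℤ) ∣ i
    · obtain ⟨j, rfl⟩ := hi
      rw [qExpand_coeff_mul]
      rfl
    · rw [qExpand_coeff_of_not_dvd n _ hi, h i hi]

end Range

section Field

variable {k : Type*} [Field k] (n : ℕ) [NeZero n] {ξ : kˣ}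

/-- **Fixed field of the rotation**: for a primitive `n`-th root of unity `ξ`, a Laurent series is
fixed by `u ↦ ξ u` iff it is a series in `u ^ n`. -/
theorem rot_eq_self_iff (hξ : IsPrimitiveRoot ξ n) (f : LaurentSeries k) :
    rot ξ f = f ↔ f ∈ Set.range (qExpand k n) := by
  rw [mem_range_qExpand_iff]
  constructor
  · intro h i hi
    have h1 : ((ξ ^ i : kˣ) : k) * f.coeff i = f.coeff i := by
      conv_rhs => rw [← h]
      rfl
    have h2 : (((ξ ^ i : kˣ) : k) - 1) * f.coeff i = 0 := by rw [sub_mul, h1, one_mul, sub_self]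
    rcases mul_eq_zero.1 h2 with h3 | h3
    · exfalso
      apply hi
      rw [← hξ.zpow_eq_one_iff_dvd]
      exact Units.ext (sub_eq_zero.1 h3)
    · exact h3
  · intro h
    ext i
    rw [coeff_rot]
    by_cases hi : (n : ℤ) ∣ i
    · rw [(hξ.zpow_eq_one_iff_dvd i).2 hi, Units.val_one, one_mul]
    · rw [h i hi, mul_zero]

theorem rot_qExpand_self (hξ : IsPrimitiveRoot ξ n) (f : LaurentSeries k) :
    rot ξ (qExpand k n f) = qExpand k n f :=
  (rot_eq_self_iff n hξ _).2 ⟨f, rfl⟩

theorem rot_pow_qExpand_self (hξ : IsPrimitiveRoot ξ n) (b : ℕ) (f : LaurentSeries k) :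
    rot (ξ ^ b) (qExpand k n f) = qExpand k n f := by
  rw [rot_pow_eq]
  induction b with
  | zero => rfl
  | succ b ih => rw [pow_succ, AlgEquiv.mul_apply, rot_qExpand_self n hξ, ih]

/-- The orbit polynomial `∏_{b < n} (X - g(ξ^b u))`. -/
noncomputable def orbitPoly (ξ : kˣ) (g : LaurentSeries k) : (LaurentSeries k)[X] :=
  ∏ b ∈ Finset.range n, (X - C (rot (ξ ^ b) g))

omit [NeZero n] in
theorem orbitPoly_monic (ξ : kˣ) (g : LaurentSeries k) : (orbitPoly n ξ g).Monic :=
  monic_prod_of_monic _ _ fun _ _ => monic_X_sub_C _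

omit [NeZero n] in
theorem natDegree_orbitPoly (ξ : kˣ) (g : LaurentSeries k) : (orbitPoly n ξ g).natDegree = n := by
  rw [orbitPoly, natDegree_prod_of_monic _ _ fun b _ => monic_X_sub_C _]
  simp

theorem orbitPoly_eval_self (ξ : kˣ) (g : LaurentSeries k) : (orbitPoly n ξ g).eval g = 0 := by
  rw [orbitPoly, eval_prod]
  refine Finset.prod_eq_zero (Finset.mem_range.2 (Nat.pos_of_ne_zero (NeZero.ne n))) ?_
  simp [rot_one]

/-- The orbit polynomial is invariant under the rotation. -/
theorem orbitPoly_map_rot (hξ : IsPrimitiveRoot ξ n) (g : LaurentSeries k) :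
    (orbitPoly n ξ g).map (rot ξ : LaurentSeries k →+* LaurentSeries k) = orbitPoly n ξ g := by
  have hstep : ∀ b : ℕ, (X - C (rot (ξ ^ b) g)).map (rot ξ : LaurentSeries k →+* LaurentSeries k)
      = X - C (rot (ξ ^ (b + 1)) g) := by
    intro b
    rw [Polynomial.map_sub, map_X, map_C]
    congr 2
    show rot ξ (rot (ξ ^ b) g) = _
    rw [rot_rot, ← pow_succ']
  rw [orbitPoly, Polynomial.map_prod]
  simp_rw [hstep]
  obtain ⟨m, hm⟩ : ∃ m, n = m + 1 := Nat.exists_eq_succ_of_ne_zero (NeZero.ne n)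
  have hlast : ξ ^ (m + 1) = ξ ^ 0 := by rw [← hm, hξ.pow_eq_one, pow_zero]
  rw [hm, Finset.prod_range_succ, Finset.prod_range_succ' (fun b => X - C (rot (ξ ^ b) g)), hlast]

/-- Coefficients of the orbit polynomial are series in `u ^ n`. -/
theorem coeff_orbitPoly_mem_range (hξ : IsPrimitiveRoot ξ n) (g : LaurentSeries k) (i : ℕ) :
    (orbitPoly n ξ g).coeff i ∈ Set.range (qExpand k n) := by
  rw [← rot_eq_self_iff n hξ]
  conv_rhs => rw [← orbitPoly_map_rot n hξ g]
  rw [coeff_map]
  rfl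

/-- The orbit polynomial descends along `u ↦ u ^ n`. -/
theorem exists_map_qExpand_eq_orbitPoly (hξ : IsPrimitiveRoot ξ n) (g : LaurentSeries k) :
    ∃ P : (LaurentSeries k)[X], P.map (qExpand k n) = orbitPoly n ξ g := by
  have h := coeff_orbitPoly_mem_range n hξ g
  have : orbitPoly n ξ g ∈ Polynomial.lifts (qExpand k n) := by
    rw [Polynomial.lifts_iff_coeff_lifts]
    intro i
    exact h i
  obtain ⟨P, hP⟩ := this
  exact ⟨P, hP⟩

end Field



section Field

variable {k : Type*} [Field k] (n : ℕ) [NeZero n] {ξ : kˣ}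

omit [NeZero n] in
/-- If no nontrivial power `ξ ^ b` (`0 < b < n`) fixes `g`, the `n` conjugates `g(ξ^b u)` are
pairwise distinct. -/
theorem rot_pow_injOn {g : LaurentSeries k}
    (hg : ∀ b : ℕ, 0 < b → b < n → rot (ξ ^ b) g ≠ g) :
    Set.InjOn (fun b : ℕ => rot (ξ ^ b) g) (Finset.range n : Set ℕ) := by
  have key : ∀ a b : ℕ, a < b → b < n → rot (ξ ^ a) g ≠ rot (ξ ^ b) g := by
    intro a b hab hbn h
    apply hg (b - a) (Nat.sub_pos_of_lt hab) (lt_of_le_of_lt (Nat.sub_le _ _) hbn)
    have h2 : rot (ξ ^ b) g = rot (ξ ^ a) (rot (ξ ^ (b - a)) g) := by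
      rw [rot_rot, ← pow_add, Nat.add_sub_cancel' hab.le]
    rw [h2] at h
    exact ((rot (ξ ^ a)).injective h).symm
  intro a ha b hb hab
  simp only [Finset.coe_range, Set.mem_Iio] at ha hb
  rcases lt_trichotomy a b with h | h | h
  · exact absurd hab (key a b h hb)
  · exact h
  · exact absurd hab.symm (key b a h ha)

/-- **Orbit irreducibility.**  Let `ξ` be a primitive `n`-th root of unity in `k`, `g ∈ k((u))` with
`n` pairwise distinct conjugates `g(ξ^b u)`.  If `φ : K₁ → k((u))` is a field embedding with image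
inside `k((u^n))` and `P ∈ K₁[X]` maps to the orbit polynomial `∏_{b<n} (X - g(ξ^b u))`, then `P` is
irreducible over `K₁`. -/
theorem irreducible_of_map_eq_orbitPoly {K₁ : Type*} [Field K₁] (φ : K₁ →+* LaurentSeries k)
    (hφ : ∀ x, φ x ∈ Set.range (qExpand k n)) (hξ : IsPrimitiveRoot ξ n) {g : LaurentSeries k}
    (hg : ∀ b : ℕ, 0 < b → b < n → rot (ξ ^ b) g ≠ g) {P : K₁[X]}
    (hP : P.map φ = orbitPoly n ξ g) : Irreducible P := by
  refine irreducible_of_map_eq_prod_roots φ n (Nat.pos_of_ne_zero (NeZero.ne n))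
    (fun b => rot (ξ ^ b) g) (rot_pow_injOn n hg) (fun b _ => ?_) hP
  refine ⟨(rot (ξ ^ b) : LaurentSeries k →+* LaurentSeries k), fun x => ?_, ?_⟩
  · obtain ⟨y, hy⟩ := hφ x
    show rot (ξ ^ b) (φ x) = φ x
    rw [← hy, rot_pow_qExpand_self n hξ]
  · show rot (ξ ^ b) (rot (ξ ^ 0) g) = rot (ξ ^ b) g
    rw [pow_zero, rot_one]

/-- **Orbit irreducibility inside the big field.**  `η : kˣ` any unit, `φ : K₁ → k((u))` with image
fixed by `u ↦ η u`, `G ∈ k((u))` such that `G(η^b u)`, `b < n`, are pairwise distinct: a polynomial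
`P ∈ K₁[X]` mapping to `∏_{b<n} (X - G(η^b u))` is irreducible.  (No condition on the order of `η`.) -/
theorem irreducible_of_map_eq_prod_rot {K₁ : Type*} [Field K₁] (φ : K₁ →+* LaurentSeries k)
    {η : kˣ} (hφ : ∀ x, rot η (φ x) = φ x) {G : LaurentSeries k}
    (hG : ∀ b : ℕ, 0 < b → b < n → rot (η ^ b) G ≠ G) {P : K₁[X]}
    (hP : P.map φ = ∏ b ∈ Finset.range n, (X - C (rot (η ^ b) G))) : Irreducible P := by
  refine irreducible_of_map_eq_prod_roots φ n (Nat.pos_of_ne_zero (NeZero.ne n))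
    (fun b => rot (η ^ b) G) (rot_pow_injOn n hG) (fun b _ => ?_) hP
  have hfix : ∀ (c : ℕ) (x : K₁), rot (η ^ c) (φ x) = φ x := by
    intro c x
    rw [rot_pow_eq]
    induction c with
    | zero => rfl
    | succ c ih => rw [pow_succ, AlgEquiv.mul_apply, hφ, ih]
  refine ⟨(rot (η ^ b) : LaurentSeries k →+* LaurentSeries k), fun x => ?_, ?_⟩
  · exact hfix b x
  · show rot (η ^ b) (rot (η ^ 0) G) = rot (η ^ b) G
    rw [pow_zero, rot_one]

/-- Orbit irreducibility, pulled back along `u ↦ u ^ n`: the polynomial `P ∈ k((u))[X]` with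
`P(u^n) = ∏_{b<n} (X - g(ξ^b u))` is irreducible. -/
theorem irreducible_of_map_qExpand_eq_orbitPoly (hξ : IsPrimitiveRoot ξ n) {g : LaurentSeries k}
    (hg : ∀ b : ℕ, 0 < b → b < n → rot (ξ ^ b) g ≠ g) {P : (LaurentSeries k)[X]}
    (hP : P.map (qExpand k n) = orbitPoly n ξ g) : Irreducible P :=
  irreducible_of_map_eq_orbitPoly n (qExpand k n) (fun x => ⟨x, rfl⟩) hξ hg hP

/-- Existence form. -/
theorem exists_irreducible_map_qExpand_eq_orbitPoly (hξ : IsPrimitiveRoot ξ n)
    {g : LaurentSeries k} (hg : ∀ b : ℕ, 0 < b → b < n → rot (ξ ^ b) g ≠ g) :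
    ∃ P : (LaurentSeries k)[X], P.Monic ∧ P.natDegree = n ∧ Irreducible P ∧
      P.map (qExpand k n) = orbitPoly n ξ g := by
  obtain ⟨P, hP⟩ := exists_map_qExpand_eq_orbitPoly n hξ g
  refine ⟨P, ?_, ?_, irreducible_of_map_qExpand_eq_orbitPoly n hξ hg hP, hP⟩
  · apply Polynomial.monic_of_injective (qExpand_injective n)
    rw [hP]; exact orbitPoly_monic n ξ g
  · rw [← natDegree_map_eq_of_injective (qExpand_injective n), hP, natDegree_orbitPoly]

omit [NeZero n] in
/-- A sufficient criterion for the distinctness hypothesis: some coefficient `g.coeff i ≠ 0` with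
`i` coprime to `n`. (E.g. `g = jbar(u)`, `i = -1`.) -/
theorem rot_pow_ne_self_of_coeff_ne_zero (hξ : IsPrimitiveRoot ξ n) {g : LaurentSeries k} {i : ℤ}
    (hi : IsCoprime i (n : ℤ)) (hgi : g.coeff i ≠ 0) (b : ℕ) (hb0 : 0 < b) (hbn : b < n) :
    rot (ξ ^ b) g ≠ g := by
  intro h
  have h1 : (((ξ ^ b) ^ i : kˣ) : k) * g.coeff i = g.coeff i := by
    conv_rhs => rw [← h]
    rfl
  have h2 : ((((ξ ^ b) ^ i : kˣ) : k) - 1) * g.coeff i = 0 := by
    rw [sub_mul, h1, one_mul, sub_self]
  rcases mul_eq_zero.1 h2 with h3 | h3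
  · have h4 : (ξ ^ b) ^ i = 1 := Units.ext (sub_eq_zero.1 h3)
    rw [← zpow_natCast, ← zpow_mul, hξ.zpow_eq_one_iff_dvd] at h4
    have h5 : (n : ℤ) ∣ (b : ℤ) := (hi.symm.dvd_of_dvd_mul_right h4)
    have h6 : n ∣ b := by exact_mod_cast h5
    exact absurd (Nat.le_of_dvd hb0 h6) (not_le.2 hbn)
  · exact hgi h3

end Field



section Field

variable {k : Type*} [Field k] (n : ℕ) [NeZero n] {ξ : kˣ}

omit [NeZero n] in
theorem orderOf_rot (hξ : IsPrimitiveRoot ξ n) : orderOf (rot ξ) = n := by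
  rw [← rotHom_apply, orderOf_injective rotHom rotHom_injective ξ, ← hξ.eq_orderOf]

theorem rot_zpow_qExpand_self (hξ : IsPrimitiveRoot ξ n) (b : ℤ) (f : LaurentSeries k) :
    rot (ξ ^ b) (qExpand k n f) = qExpand k n f := by
  have h1 : rot ξ ∈ MulAction.stabilizer (LaurentSeries k ≃ₐ[k] LaurentSeries k) (qExpand k n f) :=
    MulAction.mem_stabilizer_iff.2 (rot_qExpand_self n hξ f)
  have h2 := (Subgroup.zpowers_le.2 h1) (Subgroup.zpow_mem_zpowers (rot ξ) b)
  rw [rot_zpow_eq]
  exact MulAction.mem_stabilizer_iff.1 h2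

/-- The fixed field of the cyclic group generated by `u ↦ ξ u` is `k((u^n))`. -/
theorem fixedPoints_zpowers_rot (hξ : IsPrimitiveRoot ξ n) :
    FixedPoints.subfield (Subgroup.zpowers (rot ξ)) (LaurentSeries k)
      = (qExpand k n).fieldRange := by
  ext f
  rw [RingHom.mem_fieldRange]
  constructor
  · intro h
    have h1 : rot ξ f = f := h ⟨rot ξ, Subgroup.mem_zpowers _⟩
    exact (rot_eq_self_iff n hξ f).1 h1
  · rintro ⟨g, rfl⟩ ⟨σ, hσ⟩
    obtain ⟨b, rfl⟩ := Subgroup.mem_zpowers_iff.1 hσ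
    show (rot ξ ^ b) (qExpand k n g) = qExpand k n g
    rw [← rot_zpow_eq]
    exact rot_zpow_qExpand_self n hξ b g

theorem finite_zpowers_rot (hξ : IsPrimitiveRoot ξ n) : Finite (Subgroup.zpowers (rot ξ)) := by
  have hfo : IsOfFinOrder (rot ξ) := by
    rw [← orderOf_pos_iff, orderOf_rot n hξ]
    exact Nat.pos_of_ne_zero (NeZero.ne n)
  exact Finite.of_equiv _ (finEquivZPowers hfo)

theorem finrank_subfield_congr {E : Type*} [Field E] {S T : Subfield E} (h : S = T) :
    Module.finrank S E = Module.finrank T E := by subst h; rfl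

theorem isGalois_subfield_congr {E : Type*} [Field E] {S T : Subfield E} (h : S = T)
    (hS : IsGalois S E) : IsGalois T E := by subst h; exact hS

/-- `[k((u)) : k((u^n))] = n` (when `k` contains a primitive `n`-th root of unity). -/
theorem finrank_fieldRange_qExpand (hξ : IsPrimitiveRoot ξ n) :
    Module.finrank (qExpand k n).fieldRange (LaurentSeries k) = n := by
  have hfin := finite_zpowers_rot n hξ
  let _ : Fintype (Subgroup.zpowers (rot ξ)) := Fintype.ofFinite _
  have h1 := FixedPoints.finrank_eq_card (Subgroup.zpowers (rot ξ)) (LaurentSeries k)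
  rw [← Nat.card_eq_fintype_card, Nat.card_zpowers, orderOf_rot n hξ] at h1
  exact (finrank_subfield_congr (fixedPoints_zpowers_rot n hξ)).symm.trans h1

/-- `k((u)) / k((u^n))` is Galois (when `k` contains a primitive `n`-th root of unity). -/
theorem isGalois_fieldRange_qExpand (hξ : IsPrimitiveRoot ξ n) :
    IsGalois (qExpand k n).fieldRange (LaurentSeries k) := by
  have hfin := finite_zpowers_rot n hξ
  have h : IsGalois (FixedPoints.subfield (Subgroup.zpowers (rot ξ)) (LaurentSeries k))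
      (LaurentSeries k) := ⟨⟩
  exact isGalois_subfield_congr (fixedPoints_zpowers_rot n hξ) h

end Field


section JInvariant

variable {k : Type*} [Field k] (p : ℕ) [NeZero p] {ζ : kˣ}

omit [NeZero p] in
/-- The `p` conjugates `j(ζ^b u)`, `b < p`, of `j = jqModC k` are pairwise distinct (look at the
coefficient of `u⁻¹`). -/
theorem rot_pow_jqModC_ne (hζ : IsPrimitiveRoot ζ p) (b : ℕ) (hb0 : 0 < b) (hbp : b < p) :
    rot (ζ ^ b) (jqModC k) ≠ jqModC k := by
  refine rot_pow_ne_self_of_coeff_ne_zero p hζ (i := -1) ?_ ?_ b hb0 hbp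
  · exact isCoprime_one_left.neg_left
  · rw [coeff_jqModC_neg_one]; exact one_ne_zero

/-- **Orbit irreducibility for `j`**: a polynomial over a field `K₁ ↪ k((u^p))` mapping to
`∏_{b<p} (X - j(ζ^b u))` (the degree-`p` factor in `S28/Interfaces.HasModEq`) is irreducible. -/
theorem irreducible_of_map_eq_prod_rot_jqModC {K₁ : Type*} [Field K₁]
    (φ : K₁ →+* LaurentSeries k) (hφ : ∀ x, φ x ∈ Set.range (qExpand k p))
    (hζ : IsPrimitiveRoot ζ p) {P : K₁[X]}
    (hP : P.map φ = ∏ b ∈ Finset.range p, (X - C (rot (ζ ^ b) (jqModC k)))) : Irreducible P :=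
  irreducible_of_map_eq_orbitPoly p φ hφ hζ (rot_pow_jqModC_ne p hζ) hP

end JInvariant

end Fermat.Agent.S28.KummerLaurent
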