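/-
S28 / block C: the concrete (Kummer) and (Dich) steps of the architect's plan (report 1101),
over intermediate fields `L` of `k((q)) / k`, against the objects of `S28/Interfaces.lean`.
Owner: helper62.

* `kummer` : `L ≤ k((q^p))`, `g` integral over `L` with `p` distinct conjugates `g(ζ^b q)`
  ⟹ `p ≤ deg (minpoly L g)`; `kummer_finrank`, `kummer_jqModC`.
* `isIntegral_jqModC_of_hasModEq`, `isIntegral_jD_of_hasModEq` : integrality from the modular equation.
* `dich` : `k(J_1) ≤ L`, `J_p ∉ L` ⟹ `deg (minpoly L J_p) = p + 1`; `dich_finrank`.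
-/
import Mathlib
import Fermat.Agent.S28.Interfaces
import Fermat.Agent.S28.KummerLaurent

set_option autoImplicit false

open ModularCurve Polynomial

namespace Fermat.Agent.S28.KummerDich

open Fermat.Agent.S20.LaurentTools Fermat.Agent.S28.Interfaces Fermat.Agent.S28.KummerLaurent

section Generic

/-- Root transport: an endomorphism `σ` of `E` fixing `φ K₁` pointwise permutes the roots of
`f.map φ`. -/
theorem isRoot_map_of_fixed {K₁ E : Type*} [CommRing K₁] [CommRing E] (φ : K₁ →+* E)
    (σ : E →+* E) (hσ : ∀ x, σ (φ x) = φ x) (f : K₁[X]) {x : E} (hx : (f.map φ).IsRoot x) :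
    (f.map φ).IsRoot (σ x) := by
  have hfix : σ.comp φ = φ := by
    ext1 y
    exact hσ y
  rw [Polynomial.IsRoot.def, Polynomial.eval_map] at hx ⊢
  have h1 := Polynomial.hom_eval₂ f φ σ x
  rw [hx, map_zero, hfix] at h1
  exact h1.symm

end Generic

variable {k : Type*} [Field k]

section Kummer

variable (p : ℕ) [NeZero p] {ζ : kˣ}

/-- **(Kummer).**  `L ≤ k((q^p))`, `g ∈ k((q))` integral over `L` whose `p` conjugates `g(ζ^b q)` are
pairwise distinct: then `p ≤ deg (minpoly L g)`. -/
theorem kummer (hζ : IsPrimitiveRoot (ζ : k) p) (L : IntermediateField k (LaurentSeries k))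
    (hL : ∀ x ∈ L, x ∈ Set.range (qExpand k p)) {g : LaurentSeries k} (hint : IsIntegral L g)
    (hg : ∀ b : ℕ, 0 < b → b < p → rot (ζ ^ b) g ≠ g) :
    p ≤ (minpoly L g).natDegree := by
  classical
  have hζ' : IsPrimitiveRoot ζ p := IsPrimitiveRoot.coe_units_iff.1 hζ
  set φ : L →+* LaurentSeries k := algebraMap L (LaurentSeries k) with hφ
  set m := minpoly L g with hm
  have hfix : ∀ (b : ℕ) (x : L), rot (ζ ^ b) (φ x) = φ x := by
    intro b x
    obtain ⟨y, hy⟩ := hL (φ x) x.2
    rw [← hy, rot_pow_qExpand_self p hζ']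
  have hroot0 : (m.map φ).IsRoot g := by
    rw [Polynomial.IsRoot.def, Polynomial.eval_map, hφ, ← Polynomial.aeval_def]
    exact minpoly.aeval L g
  have hroot : ∀ b : ℕ, (m.map φ).IsRoot (rot (ζ ^ b) g) := fun b =>
    isRoot_map_of_fixed φ (rot (ζ ^ b) : LaurentSeries k →+* LaurentSeries k) (hfix b) m hroot0
  have hm0 : m.map φ ≠ 0 := by
    rw [Polynomial.map_ne_zero_iff φ.injective]
    exact minpoly.ne_zero hint
  have hsub : ((Finset.range p).image fun b : ℕ => rot (ζ ^ b) g).val ⊆ (m.map φ).roots := by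
    intro x hx
    rw [Finset.mem_val, Finset.mem_image] at hx
    obtain ⟨b, _, rfl⟩ := hx
    exact (Polynomial.mem_roots hm0).2 (hroot b)
  have := Polynomial.card_le_degree_of_subset_roots hsub
  rw [Finset.card_image_of_injOn (rot_pow_injOn p hg), Finset.card_range,
    natDegree_map_eq_of_injective φ.injective] at this
  exact this

/-- (Kummer), `finrank` form. -/
theorem kummer_finrank (hζ : IsPrimitiveRoot (ζ : k) p) (L : IntermediateField k (LaurentSeries k))
    (hL : ∀ x ∈ L, x ∈ Set.range (qExpand k p)) {g : LaurentSeries k} (hint : IsIntegral L g)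
    (hg : ∀ b : ℕ, 0 < b → b < p → rot (ζ ^ b) g ≠ g) :
    p ≤ Module.finrank L (IntermediateField.adjoin L {g}) := by
  rw [IntermediateField.adjoin.finrank hint]
  exact kummer p hζ L hL hint hg

/-- (Kummer) for `g = j(q)`: the conjugates are automatically distinct. -/
theorem kummer_jqModC (hζ : IsPrimitiveRoot (ζ : k) p)
    (L : IntermediateField k (LaurentSeries k)) (hL : ∀ x ∈ L, x ∈ Set.range (qExpand k p))
    (hint : IsIntegral L (jqModC k)) :
    p ≤ (minpoly L (jqModC k)).natDegree :=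
  kummer p hζ L hL hint (rot_pow_jqModC_ne p (IsPrimitiveRoot.coe_units_iff.1 hζ))

theorem kummer_jqModC_finrank (hζ : IsPrimitiveRoot (ζ : k) p)
    (L : IntermediateField k (LaurentSeries k)) (hL : ∀ x ∈ L, x ∈ Set.range (qExpand k p))
    (hint : IsIntegral L (jqModC k)) :
    p ≤ Module.finrank L (IntermediateField.adjoin L {jqModC k}) :=
  kummer_finrank p hζ L hL hint (rot_pow_jqModC_ne p (IsPrimitiveRoot.coe_units_iff.1 hζ))

/-- The image of an intermediate field under `V_p = qExpandAlgHomC k p` lies in `k((q^p))`. -/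
theorem map_qExpand_le_range (L : IntermediateField k (LaurentSeries k)) :
    ∀ x ∈ L.map (qExpandAlgHomC k p), x ∈ Set.range (qExpand k p) := by
  rintro x ⟨y, _, rfl⟩
  exact ⟨y, rfl⟩

end Kummer

section Dich

variable (p : ℕ) {ζ : kˣ}

/-- `V_p J_1 = J_p`. -/
theorem qExpand_jqModC [NeZero p] : qExpand k p (jqModC k) = jD k p := (jD_eq k p).symm

/-- `V_p J_p = J_{p²}`. -/
theorem qExpand_jD_self [NeZero p] : qExpand k p (jD k p) = jD k (p ^ 2) := by
  have : NeZero (p ^ 2) := ⟨pow_ne_zero 2 (NeZero.ne p)⟩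
  rw [jD_eq k p, jD_eq k (p ^ 2), qExpand_qExpand]
  exact qExpand_congr (pow_two p).symm _

/-- `V_p` composed with evaluation at `x` is evaluation at `V_p x` (as ring homs on `k[Y]`). -/
theorem qExpand_comp_aeval [NeZero p] (x : LaurentSeries k) :
    (qExpand k p).comp ((aeval x : k[X] →ₐ[k] LaurentSeries k) : k[X] →+* LaurentSeries k) =
      ((aeval (qExpand k p x) : k[X] →ₐ[k] LaurentSeries k) : k[X] →+* LaurentSeries k) := by
  refine Polynomial.ringHom_ext (fun c => ?_) ?_
  · simp only [RingHom.coe_comp, RingHom.coe_coe, Function.comp_apply, aeval_C]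
    exact (qExpandAlgHomC k p).commutes _
  · simp only [RingHom.coe_comp, RingHom.coe_coe, Function.comp_apply, aeval_X]

/-- From the modular equation: `J_1` is integral over every `L ∋ J_p`. -/
theorem isIntegral_jqModC_of_hasModEq (hp : 0 < p) (hmod : HasModEq k p ζ)
    (L : IntermediateField k (LaurentSeries k)) (hJp : jD k p ∈ L) :
    IsIntegral L (jqModC k) := by
  obtain ⟨Φ, hΦmonic, -, hΦ⟩ := hmod
  let JpL : L := ⟨jD k p, hJp⟩
  refine ⟨Φ.map ((aeval JpL : k[X] →ₐ[k] L) : k[X] →+* L), hΦmonic.map _, ?_⟩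
  have hcomp : (algebraMap L (LaurentSeries k)).comp ((aeval JpL : k[X] →ₐ[k] L) : k[X] →+* L)
      = ((aeval (jD k p) : k[X] →ₐ[k] LaurentSeries k) : k[X] →+* LaurentSeries k) := by
    refine Polynomial.ringHom_ext (fun c => ?_) ?_
    · simp only [RingHom.coe_comp, RingHom.coe_coe, Function.comp_apply, aeval_C]
      rfl
    · simp only [RingHom.coe_comp, RingHom.coe_coe, Function.comp_apply, aeval_X]
      rfl
  rw [← Polynomial.eval_map, Polynomial.map_map, hcomp, hΦ, eval_mul, eval_prod]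
  refine mul_eq_zero_of_right _ (Finset.prod_eq_zero (Finset.mem_range.2 hp) ?_)
  simp [rot_one]

/-- The polynomial `Φ_p(X, J_1) ∈ L[X]` for `L ∋ J_1`, together with its factorisation after
`V_p : L → k((v))`, `q = v^p`. -/
theorem exists_modPoly_over [NeZero p] (hmod : HasModEq k p ζ)
    (L : IntermediateField k (LaurentSeries k)) (hJ1 : jqModC k ∈ L) :
    ∃ Ψ : L[X], Ψ.Monic ∧ Ψ.natDegree = p + 1 ∧
      Ψ.map ((qExpand k p).comp (algebraMap L (LaurentSeries k))) =
        (X - C (jD k (p ^ 2))) * ∏ b ∈ Finset.range p, (X - C (rot (ζ ^ b) (jqModC k))) := by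
  obtain ⟨Φ, hΦmonic, hΦdeg, hΦ⟩ := hmod
  let J1L : L := ⟨jqModC k, hJ1⟩
  refine ⟨Φ.map ((aeval J1L : k[X] →ₐ[k] L) : k[X] →+* L), hΦmonic.map _, ?_, ?_⟩
  · rw [hΦmonic.natDegree_map, hΦdeg]
  · have hcomp : ((qExpand k p).comp (algebraMap L (LaurentSeries k))).comp
        ((aeval J1L : k[X] →ₐ[k] L) : k[X] →+* L)
        = ((aeval (jD k p) : k[X] →ₐ[k] LaurentSeries k) : k[X] →+* LaurentSeries k) := by
      refine Polynomial.ringHom_ext (fun c => ?_) ?_
      · simp only [RingHom.coe_comp, RingHom.coe_coe, Function.comp_apply, aeval_C]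
        exact (qExpandAlgHomC k p).commutes _
      · simp only [RingHom.coe_comp, RingHom.coe_coe, Function.comp_apply, aeval_X]
        exact qExpand_jqModC p
    rw [Polynomial.map_map, hcomp, hΦ]

/-- From the modular equation: `J_p` is integral over every `L ∋ J_1`. -/
theorem isIntegral_jD_of_hasModEq [NeZero p] (hmod : HasModEq k p ζ)
    (L : IntermediateField k (LaurentSeries k)) (hJ1 : jqModC k ∈ L) :
    IsIntegral L (jD k p) := by
  obtain ⟨Ψ, hΨmonic, -, hΨ⟩ := exists_modPoly_over p hmod L hJ1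
  refine ⟨Ψ, hΨmonic, ?_⟩
  apply qExpand_injective (R := k) p
  rw [map_zero, Polynomial.hom_eval₂, qExpand_jD_self, ← Polynomial.eval_map, hΨ, eval_mul]
  simp

/-- **(Dich).**  `L ⊇ k(J_1)` an intermediate field of `k((q))/k` with `J_p ∉ L`: then `J_p` has degree
exactly `p + 1` over `L`. -/
theorem dich (hp : p.Prime) (hζ : IsPrimitiveRoot (ζ : k) p) (hmod : HasModEq k p ζ)
    (L : IntermediateField k (LaurentSeries k)) (hJ1 : jqModC k ∈ L) (hJp : jD k p ∉ L) :
    (minpoly L (jD k p)).natDegree = p + 1 := by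
  classical
  have : NeZero p := ⟨hp.ne_zero⟩
  have hζ' : IsPrimitiveRoot ζ p := IsPrimitiveRoot.coe_units_iff.1 hζ
  obtain ⟨Ψ, hΨmonic, hΨdeg, hΨ⟩ := exists_modPoly_over p hmod L hJ1
  set ι : L →+* LaurentSeries k := algebraMap L (LaurentSeries k) with hι
  set φ : L →+* LaurentSeries k := (qExpand k p).comp ι with hφ
  set a : LaurentSeries k := jD k (p ^ 2) with ha
  set r : ℕ → LaurentSeries k := fun b => rot (ζ ^ b) (jqModC k) with hr
  have hint : IsIntegral L (jD k p) := isIntegral_jD_of_hasModEq p hmod L hJ1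
  set m := minpoly L (jD k p) with hm
  -- `Ψ` kills `J_p`
  have hΨJ : Polynomial.aeval (jD k p) Ψ = 0 := by
    apply qExpand_injective (R := k) p
    rw [map_zero, Polynomial.aeval_def, Polynomial.hom_eval₂, qExpand_jD_self,
      ← Polynomial.eval_map, ← hι, ← hφ, hΨ, eval_mul]
    simp [ha]
  have hmΨ : m ∣ Ψ := minpoly.dvd L (jD k p) hΨJ
  have hle : m.natDegree ≤ p + 1 := by
    rw [← hΨdeg]
    exact Polynomial.natDegree_le_of_dvd hmΨ hΨmonic.ne_zero
  refine le_antisymm hle ?_
  -- conjugation invariance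
  have hfix : ∀ (c : ℕ) (x : L), rot (ζ ^ c) (φ x) = φ x := fun c x =>
    rot_pow_qExpand_self p hζ' c (ι x)
  have hm0 : m.map φ ≠ 0 := by
    rw [Polynomial.map_ne_zero_iff φ.injective]
    exact minpoly.ne_zero hint
  -- `a = V_p J_p` is a root of `m.map φ`
  have hroota : (m.map φ).IsRoot a := by
    rw [Polynomial.IsRoot.def, Polynomial.eval_map, ha, ← qExpand_jD_self p, hφ,
      ← Polynomial.hom_eval₂, hι, ← Polynomial.aeval_def, minpoly.aeval, map_zero]
  -- degree at least two
  have hdeg2 : 2 ≤ m.natDegree := by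
    have h1 : m.natDegree ≠ 1 := by
      intro h1
      apply hJp
      have := (minpoly.natDegree_eq_one_iff (A := L) (x := jD k p)).1 h1
      obtain ⟨y, hy⟩ := this
      rw [← hy]
      exact y.2
    have h0 : 0 < m.natDegree := minpoly.natDegree_pos hint
    omega
  -- split off the root `a`
  obtain ⟨m₂, hm₂⟩ : (X - C a) ∣ m.map φ := Polynomial.dvd_iff_isRoot.2 hroota
  have hm₂0 : m₂ ≠ 0 := by
    rintro rfl
    rw [mul_zero] at hm₂
    exact hm0 hm₂
  have hm₂deg : 1 ≤ m₂.natDegree := by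
    have h1 : (m.map φ).natDegree = 1 + m₂.natDegree := by
      rw [hm₂, Polynomial.natDegree_mul (Polynomial.X_sub_C_ne_zero a) hm₂0,
        Polynomial.natDegree_X_sub_C]
    rw [natDegree_map_eq_of_injective φ.injective] at h1
    omega
  -- `m₂` divides the orbit product
  have hm₂Q : m₂ ∣ ∏ b ∈ Finset.range p, (X - C (r b)) := by
    obtain ⟨h, hh⟩ := Polynomial.map_dvd φ hmΨ
    rw [hΨ, hm₂, mul_assoc] at hh
    exact ⟨h, mul_left_cancel₀ (Polynomial.X_sub_C_ne_zero a) hh⟩
  -- some `r b` is a root of `m₂`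
  obtain ⟨b, hb, hrb⟩ : ∃ b ∈ Finset.range p, (m.map φ).IsRoot (r b) := by
    have hnu : ¬ IsUnit m₂ := fun hu => by
      have := Polynomial.natDegree_eq_zero_of_isUnit hu
      omega
    obtain ⟨π, hπ, hπm⟩ := WfDvdMonoid.exists_irreducible_factor hnu hm₂0
    obtain ⟨b, hb, hπb⟩ := (Prime.dvd_finsetProd_iff hπ.prime _).1 (hπm.trans hm₂Q)
    refine ⟨b, hb, ?_⟩
    have h1 : (X - C (r b)) ∣ π := hπ.dvd_symm (Polynomial.irreducible_X_sub_C (r b)) hπb
    have h2 : (X - C (r b)) ∣ m.map φ := by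
      rw [hm₂]
      exact (h1.trans hπm).mul_left _
    exact Polynomial.dvd_iff_isRoot.1 h2
  -- hence every `r c` is a root
  have hrall : ∀ c : ℕ, (m.map φ).IsRoot (r c) := by
    intro c
    have hbp : b < p := Finset.mem_range.1 hb
    have h1 := isRoot_map_of_fixed φ
      (rot (ζ ^ (c + (p - b))) : LaurentSeries k →+* LaurentSeries k) (hfix _) m hrb
    have h2 : rot (ζ ^ (c + (p - b))) (r b) = r c := by
      show rot (ζ ^ (c + (p - b))) (rot (ζ ^ b) (jqModC k)) = rot (ζ ^ c) (jqModC k)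
      rw [rot_rot, ← pow_add, show c + (p - b) + b = c + p by omega, pow_add, hζ'.pow_eq_one,
        mul_one]
    have h3 : (m.map φ).IsRoot ((rot (ζ ^ (c + (p - b))) : LaurentSeries k →+* LaurentSeries k)
        (r b)) := h1
    rw [show ((rot (ζ ^ (c + (p - b))) : LaurentSeries k →+* LaurentSeries k) (r b))
      = rot (ζ ^ (c + (p - b))) (r b) from rfl, h2] at h3
    exact h3
  -- `a` is not in the orbit
  have hinj : Set.InjOn r (Finset.range p : Set ℕ) := rot_pow_injOn p (rot_pow_jqModC_ne p hζ')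
  have hanot : a ∉ (Finset.range p).image r := by
    intro hmem
    obtain ⟨c, hc, hca⟩ := Finset.mem_image.1 hmem
    -- `a` is fixed by `rot ζ`, `r c` is not
    have hafix : rot ζ a = a := by
      rw [ha, ← qExpand_jD_self p]
      exact rot_qExpand_self p hζ' _
    rw [← hca] at hafix
    have h1 : rot ζ (r c) = rot (ζ ^ c) (rot ζ (jqModC k)) := by
      show rot ζ (rot (ζ ^ c) (jqModC k)) = _
      rw [rot_rot, rot_rot, mul_comm]
    rw [h1] at hafix
    have h2 : rot ζ (jqModC k) = jqModC k := (rot (ζ ^ c)).injective hafix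
    have := rot_pow_jqModC_ne p hζ' 1 one_pos hp.one_lt
    rw [pow_one] at this
    exact this h2
  -- count the roots
  have hsub : (insert a ((Finset.range p).image r)).val ⊆ (m.map φ).roots := by
    intro x hx
    rw [Finset.mem_val, Finset.mem_insert] at hx
    rcases hx with rfl | hx
    · exact (Polynomial.mem_roots hm0).2 hroota
    · obtain ⟨c, _, rfl⟩ := Finset.mem_image.1 hx
      exact (Polynomial.mem_roots hm0).2 (hrall c)
  have hcard := Polynomial.card_le_degree_of_subset_roots hsub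
  rw [Finset.card_insert_of_notMem hanot, Finset.card_image_of_injOn hinj, Finset.card_range,
    natDegree_map_eq_of_injective φ.injective] at hcard
  exact hcard

/-- (Dich), `finrank` form. -/
theorem dich_finrank (hp : p.Prime) (hζ : IsPrimitiveRoot (ζ : k) p) (hmod : HasModEq k p ζ)
    (L : IntermediateField k (LaurentSeries k)) (hJ1 : jqModC k ∈ L) (hJp : jD k p ∉ L) :
    Module.finrank L (IntermediateField.adjoin L {jD k p}) = p + 1 := by
  have : NeZero p := ⟨hp.ne_zero⟩
  rw [IntermediateField.adjoin.finrank (isIntegral_jD_of_hasModEq p hmod L hJ1)]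
  exact dich p hp hζ hmod L hJ1 hJp

end Dich

end Fermat.Agent.S28.KummerDich
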