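/-
S28, block (C), final assembly: `ModEqStatement → PrimeCaseStatement → CoreDegreeStatement`.
The induction is `CoreDegree.coreDegree_of`; the four leaves are
`KummerDich.kummer_jqModC`, `KummerDich.dich` (helper62), `CoprimeNotMemFinal.not_mem_full_of_coprime'`
(helper97) and `JDAlgebraic.isAlgebraic_jD` (helper60).  Owner: helper94.
-/
import Mathlib
import Fermat.Agent.S28.CoreDegree
import Fermat.Agent.S28.KummerDich
import Fermat.Agent.S28.CoprimeNotMemFinal
import Fermat.Agent.S28.JDAlgebraic

set_option autoImplicit false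

open ModularCurve Polynomial IntermediateField

namespace Fermat.Agent.S28.CoreDegreeFinal

open Fermat.Agent.S28.Interfaces Fermat.Agent.S20.LaurentTools Fermat.Agent.S28.CoreDegree

theorem kummerStatement : KummerStatement := by
  intro k _ p hp ζ hζ L hL hint
  haveI : NeZero p := ⟨hp.ne_zero⟩
  refine KummerDich.kummer_jqModC p hζ L (fun x hx => ?_) hint
  exact (KummerLaurent.rot_eq_self_iff p (IsPrimitiveRoot.coe_units_iff.1 hζ) x).1 (hL x hx)

theorem dichStatement : DichStatement := by
  intro k _ p hp ζ hζ hΦ L h1 h2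
  exact (KummerDich.dich p hp hζ hΦ L h1 h2).ge

theorem notMemStatement : NotMemStatement := by
  intro k _ _ p M hp hM hpM hk hA hB
  haveI : NeZero M := ⟨hM⟩
  exact CoprimeNotMemFinal.not_mem_full_of_coprime' k p M hp hpM hk hA hB

theorem algStatement : AlgStatement := by
  intro k _ _ N hN hNk hA d hd
  have hd0 : d ≠ 0 := fun h => hN (by rw [h] at hd; exact Nat.eq_zero_of_zero_dvd hd)
  refine (JDAlgebraic.isAlgebraic_jD k d hd0 ?_).isIntegral
  intro p hp hpd
  have hpN : p ∣ N := hpd.trans hd
  have hpk : ((p : ℕ) : k) ≠ 0 := by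
    obtain ⟨c, rfl⟩ := hpN
    rw [Nat.cast_mul] at hNk
    exact left_ne_zero_of_mul hNk
  obtain ⟨ζ, hζ⟩ := exists_primitiveRoot_unit k hp.ne_zero hpk
  exact ⟨ζ, hA p hp ζ hζ⟩

/-- **Block (C)**: `ψ(N) ≤ [k(j(q^d) : d ∣ N) : k(j̄)]`. -/
theorem coreDegree (hA : ModEqStatement) (hB : PrimeCaseStatement) : CoreDegreeStatement :=
  coreDegree_of kummerStatement dichStatement notMemStatement algStatement hA hB

end Fermat.Agent.S28.CoreDegreeFinal
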