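import Mathlib
import Fermat.Agent.S28.Interfaces

/-!
# S28, block C: from a degree bound to linearly independent monomials

The last bookkeeping step of block (C) of the elementary route to S28 (report 890): once the tower
argument has shown `ψ(N) ≤ [k(j(q^d) : d ∣ N) : k(j)]`, the consumer form
`Interfaces.CoreIndepStatement` asks for `ψ(N)` *monomials* in the `j(q^d)` which are linearly
independent over `k(j)`.

* `exists_linearIndependent_monomials` : generic field theory.  If
  `n ≤ [K₀(x_d : d ∈ s) : K₀]` then there are `n` monomials `∏_{d ∈ s} x_d ^ e_d` linearly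
  independent over `K₀`.
* `coreIndep_of_finrank_adjoin`, `coreIndep_of_relfinrank`, `coreIndep_of_rank` : the instances for
  `K₀ = k(j̄) = Interfaces.kj k`, `x = Interfaces.jD k`, `s = N.divisors`, with the degree bound in
  three interchangeable shapes.
* `coreIndepStatement_of_relfinrank` : the closed statement `Interfaces.CoreIndepStatement`.
-/

set_option autoImplicit false

open ModularCurve IntermediateField

namespace Fermat.Agent.S28.MonoConsumer

open Fermat.Agent.S28.Interfaces

section Generic

variable {K₀ E : Type*} [Field K₀] [Field E] [Algebra K₀ E] {ι : Type*}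

/-- every element of the multiplicative closure of a finite family is a monomial. -/
theorem exists_monomial_of_mem_closure (s : Finset ι) (x : ι → E) {y : E}
    (hy : y ∈ Submonoid.closure (x '' (s : Set ι))) :
    ∃ e : ι → ℕ, y = ∏ d ∈ s, x d ^ e d := by
  classical
  induction hy using Submonoid.closure_induction with
  | mem y hy =>
    obtain ⟨d₀, hd₀, rfl⟩ := hy
    refine ⟨fun d => if d = d₀ then 1 else 0, ?_⟩
    rw [Finset.prod_eq_single d₀]
    · simp
    · intro d _ hd
      simp [hd]
    · intro h
      exact absurd (Finset.mem_coe.mp hd₀) h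
  | one => exact ⟨fun _ => 0, by simp⟩
  | mul a b _ _ ha hb =>
    obtain ⟨ea, rfl⟩ := ha
    obtain ⟨eb, rfl⟩ := hb
    refine ⟨fun d => ea d + eb d, ?_⟩
    rw [← Finset.prod_mul_distrib]
    exact Finset.prod_congr rfl fun d _ => (pow_add _ _ _).symm

/-- **Generic step.**  If `n ≤ [K₀(x_d : d ∈ s) : K₀]` then `n` monomials in the `x_d` are linearly
independent over `K₀`. -/
theorem exists_linearIndependent_monomials (s : Finset ι) (x : ι → E) (n : ℕ)
    (hn : n ≤ Module.finrank K₀ ↥(IntermediateField.adjoin K₀ (x '' (s : Set ι)))) :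
    ∃ e : Fin n → ι → ℕ, LinearIndependent K₀ (fun i => ∏ d ∈ s, x d ^ e i d) := by
  classical
  rcases Nat.eq_zero_or_pos n with rfl | hpos
  · exact ⟨fun i => i.elim0, linearIndependent_empty_type⟩
  set L : IntermediateField K₀ E := IntermediateField.adjoin K₀ (x '' (s : Set ι)) with hL
  have hfin : Module.Finite K₀ L := Module.finite_of_finrank_pos (lt_of_lt_of_le hpos hn)
  have halg : Algebra.IsAlgebraic K₀ L := Algebra.IsAlgebraic.of_finite K₀ L
  -- the generators are algebraic
  have hx : ∀ y ∈ x '' (s : Set ι), IsAlgebraic K₀ y := by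
    intro y hy
    have hyL : y ∈ L := IntermediateField.subset_adjoin K₀ _ hy
    have := halg.isAlgebraic (⟨y, hyL⟩ : L)
    exact (IntermediateField.isAlgebraic_iff (S := L) (x := ⟨y, hyL⟩)).mp this
  -- hence `L` is spanned by the monomials
  have hsub : L.toSubalgebra = Algebra.adjoin K₀ (x '' (s : Set ι)) :=
    IntermediateField.adjoin_toSubalgebra_of_isAlgebraic hx
  set t : Set E := (Submonoid.closure (x '' (s : Set ι)) : Set E) with ht
  have hspan : Subalgebra.toSubmodule L.toSubalgebra = Submodule.span K₀ t := by
    rw [hsub, Algebra.adjoin_eq_span]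
  obtain ⟨b, hbt, hbspan, hbli⟩ := exists_linearIndependent K₀ t
  -- `b` is finite of cardinality `finrank L`
  have hWfin : Module.Finite K₀ ↥(Submodule.span K₀ t) := by
    rw [← hspan]
    exact hfin
  have hWrank : Module.finrank K₀ ↥(Submodule.span K₀ t) = Module.finrank K₀ L := by
    rw [← hspan]
    rfl
  have hbW : ∀ i : b, (i : E) ∈ Submodule.span K₀ t := fun i => Submodule.subset_span (hbt i.2)
  have hbliW : LinearIndependent K₀
      (fun i : b => (⟨i, hbW i⟩ : ↥(Submodule.span K₀ t))) := by
    refine LinearIndependent.of_comp (Submodule.span K₀ t).subtype ?_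
    exact hbli
  have : Finite b := hbliW.finite
  have : Fintype b := Fintype.ofFinite b
  have hcard : Fintype.card b = Module.finrank K₀ L := by
    have h1 := finrank_span_eq_card hbli
    rw [Subtype.range_coe_subtype, Set.ofPred_mem_eq, hbspan] at h1
    rw [← h1, ← hWrank]
  have hle : Fintype.card (Fin n) ≤ Fintype.card b := by
    rw [Fintype.card_fin, hcard]
    exact hn
  obtain ⟨g⟩ := Function.Embedding.nonempty_of_card_le hle
  have hmono : ∀ i : Fin n, ∃ e : ι → ℕ, ((g i : b) : E) = ∏ d ∈ s, x d ^ e d := fun i =>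
    exists_monomial_of_mem_closure s x (hbt (g i).2)
  choose e he using hmono
  refine ⟨e, ?_⟩
  have hcomp : (fun i => ∏ d ∈ s, x d ^ e i d) = (fun i : b => (i : E)) ∘ g := by
    funext i
    exact (he i).symm
  rw [hcomp]
  exact hbli.comp g g.injective

end Generic

section S28

variable (N : ℕ) (k : Type*) [Field k]

/-- the family `j(q^d)`, `d ∣ N`, is the generating set of the Prelude field. -/
theorem image_jD_divisors [NeZero N] :
    (fun d => jD k d) '' (N.divisors : Set ℕ) = divisorExpansionsC k N := by
  ext y
  constructor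
  · rintro ⟨d, hd, rfl⟩
    have hdN : d ∣ N := Nat.dvd_of_mem_divisors (Finset.mem_coe.mp hd)
    have hd0 : d ≠ 0 := fun h => NeZero.ne N (by rw [h] at hdN; exact Nat.eq_zero_of_zero_dvd hdN)
    have : NeZero d := ⟨hd0⟩
    exact ⟨d, ⟨hd0⟩, hdN, jD_eq k d⟩
  · rintro ⟨d, hd, hdN, rfl⟩
    refine ⟨d, Finset.mem_coe.mpr (Nat.mem_divisors.mpr ⟨hdN, NeZero.ne N⟩), ?_⟩
    have := hd
    exact jD_eq k d

/-- `j̄` is one of the generators. -/
theorem jqModC_mem_image [NeZero N] : jqModC k ∈ (fun d => jD k d) '' (N.divisors : Set ℕ) :=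
  ⟨1, Finset.mem_coe.mpr (Nat.mem_divisors.mpr ⟨one_dvd N, NeZero.ne N⟩), jD_one k⟩

/-- `k(j̄) ≤ k(j(q^d) : d ∣ N)`. -/
theorem kj_le_full [NeZero N] : kj k ≤ modularFunctionFieldFullC k N := by
  rw [IntermediateField.adjoin_le_iff]
  intro y hy
  rw [Set.mem_singleton_iff] at hy
  subst hy
  exact jqModC_mem_full k N

/-- the Prelude field, seen over `k(j̄)`, is generated by the `j(q^d)`. -/
theorem extendScalars_eq_adjoin [NeZero N] :
    IntermediateField.extendScalars (kj_le_full N k) =
      IntermediateField.adjoin (kj k) ((fun d => jD k d) '' (N.divisors : Set ℕ)) := by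
  apply IntermediateField.restrictScalars_injective k
  rw [IntermediateField.extendScalars_restrictScalars, IntermediateField.adjoin_adjoin_left,
    Set.union_eq_self_of_subset_left (Set.singleton_subset_iff.mpr (jqModC_mem_image N k)),
    image_jD_divisors]
  rfl

/-- **Consumer form from a degree bound** (`finrank` of the adjunction over `k(j̄)`). -/
theorem coreIndep_of_finrank_adjoin
    (h : dedekindPsi N ≤ Module.finrank (kj k)
      ↥(IntermediateField.adjoin (kj k) ((fun d => jD k d) '' (N.divisors : Set ℕ)))) :
    ∃ e : Fin (dedekindPsi N) → ℕ → ℕ, LinearIndependent (kj k) (fun i => mono k N (e i)) :=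
  exists_linearIndependent_monomials N.divisors (fun d => jD k d) _ h

/-- **Consumer form from a degree bound** (`finrank` of the Prelude field over `k(j̄)`). -/
theorem coreIndep_of_finrank_extendScalars [NeZero N]
    (h : dedekindPsi N ≤ Module.finrank (kj k)
      ↥(IntermediateField.extendScalars (kj_le_full N k))) :
    ∃ e : Fin (dedekindPsi N) → ℕ → ℕ, LinearIndependent (kj k) (fun i => mono k N (e i)) := by
  rw [extendScalars_eq_adjoin] at h
  exact coreIndep_of_finrank_adjoin N k h

/-- **Consumer form from a degree bound** (`relfinrank`). -/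
theorem coreIndep_of_relfinrank [NeZero N]
    (h : dedekindPsi N ≤ (kj k).relfinrank (modularFunctionFieldFullC k N)) :
    ∃ e : Fin (dedekindPsi N) → ℕ → ℕ, LinearIndependent (kj k) (fun i => mono k N (e i)) := by
  rw [IntermediateField.relfinrank_eq_finrank_of_le (kj_le_full N k)] at h
  exact coreIndep_of_finrank_extendScalars N k h

end S28

/-- the closed statement `Interfaces.CoreIndepStatement` from the degree bound in `relfinrank`
form. -/
theorem coreIndepStatement_of_relfinrank
    (h : ∀ (N : ℕ) [NeZero N] (k : Type) [Field k] [IsAlgClosed k], (N : k) ≠ 0 →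
      dedekindPsi N ≤ (kj k).relfinrank (modularFunctionFieldFullC k N)) :
    CoreIndepStatement := fun N _ k _ _ hN => coreIndep_of_relfinrank N k (h N k hN)

end Fermat.Agent.S28.MonoConsumer
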