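import Fermat.Agent.S28.Interfaces
import Fermat.Agent.S28.MonoConsumer

/-!
# S28, block C' (lemma row 122): `CoreDegreeStatement → CoreIndepStatement`

Thin adapter (helper54): the monomial extraction itself is helper38's
`MonoConsumer.coreIndepStatement_of_relfinrank`.
-/

set_option autoImplicit false

namespace Fermat.Agent.S28.CoreIndep

open Fermat.Agent.S28.Interfaces

/-- **(C')** the degree bound gives `ψ(N)` linearly independent monomials. -/
theorem coreIndep_of_coreDegree (h : CoreDegreeStatement) : CoreIndepStatement :=
  Fermat.Agent.S28.MonoConsumer.coreIndepStatement_of_relfinrank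
    (fun N _ k _ _ hN => h N k hN)

end Fermat.Agent.S28.CoreIndep
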