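import Fermat.Agent.S28.Interfaces
import Fermat.Agent.S28.DegreeQ

/-!
# S28: the characteristic-zero input `DegreeQStatement`, unconditionally
-/

set_option autoImplicit false

namespace Fermat.Agent.S28.DegreeQInst

/-- `[F : ℚ(j)] ≤ ψ(N)` for `F = modularFunctionFieldFull N` (interface form). -/
theorem degreeQ : Fermat.Agent.S28.Interfaces.DegreeQStatement :=
  fun N _ => Fermat.Agent.S28.DegreeQ.finrank_le N

end Fermat.Agent.S28.DegreeQInst
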