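/-
S28 / block E (scheme glue), helper26.  Mathlib + Prelude only.

`IsIntegral` of the base change of the Igusa scheme to a field `K` over `ℤ_(ℓ)`, from three
ring-theoretic facts: the base changes `chartAlg N ℓ S ⊗[ℤ_(ℓ)] K` of the three chart algebras
(`S = {j}`, `{j⁻¹}`, `{j, j⁻¹}`) are domains.

Main exports (namespace `Fermat.Agent.S28.SchemeGlue`):
* `isIntegral_fibre`            : from the three `IsDomain` hypotheses
* `isIntegral_fibre_of_injective`: from three injective ring homs into domains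
The conclusion is literally the goal of the frozen statement S28.
-/
import Mathlib
import Fermat.Prelude.Def_ModularCurve_IgusaScheme

set_option autoImplicit false

open AlgebraicGeometry CategoryTheory CategoryTheory.Limits ModularCurve ModularCurve.IgusaScheme
open TensorProduct

noncomputable section

namespace Fermat.Agent.S28.SchemeGlue

variable (N : ℕ) [NeZero N] (ℓ : ℕ) [Fact ℓ.Prime]

set_option quotPrecheck false in
local notation "ℤℓ" => ↥(GaloisRep.ratLocalizedAt ℓ)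

/-- the three-chart open cover of the Igusa scheme. -/
abbrev igusaOpenCover : (ModularCurve.IgusaScheme N ℓ).OpenCover :=
  Scheme.IsLocallyDirected.openCover (span (fFin N ℓ) (fInf N ℓ))

theorem igusaOpenCover_f_zero :
    (igusaOpenCover N ℓ).f WalkingSpan.zero = fFin N ℓ ≫ ιFin N ℓ :=
  (colimit.w (span (fFin N ℓ) (fInf N ℓ)) WalkingSpan.Hom.fst).symm

variable (K : Type) [Field K] [Algebra ↥(GaloisRep.ratLocalizedAt ℓ) K]

/-- the base change of the Igusa scheme -/
abbrev igusaFibre : Scheme.{0} :=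
  pullback (igusaTo N ℓ) (Spec.map (CommRingCat.ofHom (algebraMap ℤℓ K)))

/-- the induced cover of the base change -/
def fibreCover : (igusaFibre N ℓ K).OpenCover :=
  Scheme.Pullback.openCoverOfLeft (igusaOpenCover N ℓ) (igusaTo N ℓ)
    (Spec.map (CommRingCat.ofHom (algebraMap ℤℓ K)))

theorem toBase_left : (igusaOpenCover N ℓ).f WalkingSpan.left ≫ igusaTo N ℓ =
    Spec.map (CommRingCat.ofHom (algebraMap ℤℓ (chartAlgFin N ℓ))) :=
  ιFin_igusaTo N ℓ

theorem toBase_right : (igusaOpenCover N ℓ).f WalkingSpan.right ≫ igusaTo N ℓ =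
    Spec.map (CommRingCat.ofHom (algebraMap ℤℓ (chartAlgInf N ℓ))) :=
  ιInf_igusaTo N ℓ

theorem mid_toBase : (fFin N ℓ ≫ ιFin N ℓ) ≫ igusaTo N ℓ =
    Spec.map (CommRingCat.ofHom (algebraMap ℤℓ (chartAlgMid N ℓ))) := by
  have h : (inclFin N ℓ).toRingHom.comp (algebraMap ℤℓ (chartAlgFin N ℓ)) =
      algebraMap ℤℓ (chartAlgMid N ℓ) :=
    RingHom.ext fun a => (inclFin N ℓ).commutes a
  rw [Category.assoc, ιFin_igusaTo]
  simp only [← Spec.map_comp, ← CommRingCat.ofHom_comp, h]

theorem toBase_zero : (igusaOpenCover N ℓ).f WalkingSpan.zero ≫ igusaTo N ℓ =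
    Spec.map (CommRingCat.ofHom (algebraMap ℤℓ (chartAlgMid N ℓ))) :=
  (congrArg (· ≫ igusaTo N ℓ) (igusaOpenCover_f_zero N ℓ)).trans (mid_toBase N ℓ)

/-- chart iso, left -/
def isoLeft : (fibreCover N ℓ K).X WalkingSpan.left ≅
    Spec (.of <| (chartAlgFin N ℓ) ⊗[ℤℓ] K) :=
  pullback.congrHom (toBase_left N ℓ) rfl ≪≫ pullbackSpecIso ℤℓ (chartAlgFin N ℓ) K

def isoRight : (fibreCover N ℓ K).X WalkingSpan.right ≅
    Spec (.of <| (chartAlgInf N ℓ) ⊗[ℤℓ] K) :=
  pullback.congrHom (toBase_right N ℓ) rfl ≪≫ pullbackSpecIso ℤℓ (chartAlgInf N ℓ) K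

def isoZero : (fibreCover N ℓ K).X WalkingSpan.zero ≅
    Spec (.of <| (chartAlgMid N ℓ) ⊗[ℤℓ] K) :=
  pullback.congrHom (toBase_zero N ℓ) rfl ≪≫ pullbackSpecIso ℤℓ (chartAlgMid N ℓ) K


variable {N ℓ K}

theorem isIntegral_left (hFin : IsDomain ((chartAlgFin N ℓ) ⊗[ℤℓ] K)) :
    IsIntegral ((fibreCover N ℓ K).X WalkingSpan.left) :=
  IsIntegral.of_isIso (isoLeft N ℓ K).inv

theorem isIntegral_right (hInf : IsDomain ((chartAlgInf N ℓ) ⊗[ℤℓ] K)) :
    IsIntegral ((fibreCover N ℓ K).X WalkingSpan.right) :=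
  IsIntegral.of_isIso (isoRight N ℓ K).inv

theorem isIntegral_zero (hMid : IsDomain ((chartAlgMid N ℓ) ⊗[ℤℓ] K)) :
    IsIntegral ((fibreCover N ℓ K).X WalkingSpan.zero) :=
  IsIntegral.of_isIso (isoZero N ℓ K).inv


variable (N ℓ K)

theorem igusaOpenCover_f_zero' :
    (igusaOpenCover N ℓ).f WalkingSpan.zero = fInf N ℓ ≫ ιInf N ℓ :=
  (igusaOpenCover_f_zero N ℓ).trans (glue_condition N ℓ)

/-- the overlap chart maps to the left chart -/
def zeroToLeft : (fibreCover N ℓ K).X WalkingSpan.zero ⟶ (fibreCover N ℓ K).X WalkingSpan.left :=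
  pullback.map ((igusaOpenCover N ℓ).f WalkingSpan.zero ≫ igusaTo N ℓ)
    (Spec.map (CommRingCat.ofHom (algebraMap ℤℓ K)))
    ((igusaOpenCover N ℓ).f WalkingSpan.left ≫ igusaTo N ℓ)
    (Spec.map (CommRingCat.ofHom (algebraMap ℤℓ K)))
    (fFin N ℓ) (𝟙 _) (𝟙 _)
    ((Category.comp_id _).trans ((congrArg (· ≫ igusaTo N ℓ) (igusaOpenCover_f_zero N ℓ)).trans
      (Category.assoc _ _ _)))
    ((Category.comp_id _).trans (Category.id_comp _).symm)

theorem zeroToLeft_f :
    zeroToLeft N ℓ K ≫ (fibreCover N ℓ K).f WalkingSpan.left =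
      (fibreCover N ℓ K).f WalkingSpan.zero := by
  apply pullback.hom_ext
  · refine (Category.assoc _ _ _).trans ?_
    refine (congrArg (zeroToLeft N ℓ K ≫ ·) (pullback.lift_fst _ _ _)).trans ?_
    refine (Category.assoc _ _ _).symm.trans ?_
    refine (congrArg (· ≫ (igusaOpenCover N ℓ).f WalkingSpan.left) (pullback.lift_fst _ _ _)).trans ?_
    refine (Category.assoc _ _ _).trans ?_
    refine Eq.trans ?_ (pullback.lift_fst _ _ _).symm
    exact congrArg (pullback.fst _ _ ≫ ·) (igusaOpenCover_f_zero N ℓ).symm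
  · refine (Category.assoc _ _ _).trans ?_
    refine (congrArg (zeroToLeft N ℓ K ≫ ·) (pullback.lift_snd _ _ _)).trans ?_
    refine (Category.assoc _ _ _).symm.trans ?_
    refine (congrArg (· ≫ 𝟙 _) (pullback.lift_snd _ _ _)).trans ?_
    refine Eq.trans ?_ (pullback.lift_snd _ _ _).symm
    exact Category.comp_id _


/-- the overlap chart maps to the right chart -/
def zeroToRight :
    (fibreCover N ℓ K).X WalkingSpan.zero ⟶ (fibreCover N ℓ K).X WalkingSpan.right :=
  pullback.map ((igusaOpenCover N ℓ).f WalkingSpan.zero ≫ igusaTo N ℓ)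
    (Spec.map (CommRingCat.ofHom (algebraMap ℤℓ K)))
    ((igusaOpenCover N ℓ).f WalkingSpan.right ≫ igusaTo N ℓ)
    (Spec.map (CommRingCat.ofHom (algebraMap ℤℓ K)))
    (fInf N ℓ) (𝟙 _) (𝟙 _)
    ((Category.comp_id _).trans ((congrArg (· ≫ igusaTo N ℓ) (igusaOpenCover_f_zero' N ℓ)).trans
      (Category.assoc _ _ _)))
    ((Category.comp_id _).trans (Category.id_comp _).symm)

theorem zeroToRight_f :
    zeroToRight N ℓ K ≫ (fibreCover N ℓ K).f WalkingSpan.right =
      (fibreCover N ℓ K).f WalkingSpan.zero := by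
  apply pullback.hom_ext
  · refine (Category.assoc _ _ _).trans ?_
    refine (congrArg (zeroToRight N ℓ K ≫ ·) (pullback.lift_fst _ _ _)).trans ?_
    refine (Category.assoc _ _ _).symm.trans ?_
    refine (congrArg (· ≫ (igusaOpenCover N ℓ).f WalkingSpan.right)
      (pullback.lift_fst _ _ _)).trans ?_
    refine (Category.assoc _ _ _).trans ?_
    refine Eq.trans ?_ (pullback.lift_fst _ _ _).symm
    exact congrArg (pullback.fst _ _ ≫ ·) (igusaOpenCover_f_zero' N ℓ).symm
  · refine (Category.assoc _ _ _).trans ?_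
    refine (congrArg (zeroToRight N ℓ K ≫ ·) (pullback.lift_snd _ _ _)).trans ?_
    refine (Category.assoc _ _ _).symm.trans ?_
    refine (congrArg (· ≫ 𝟙 _) (pullback.lift_snd _ _ _)).trans ?_
    refine Eq.trans ?_ (pullback.lift_snd _ _ _).symm
    exact Category.comp_id _

theorem range_zero_subset_left :
    Set.range ((fibreCover N ℓ K).f WalkingSpan.zero).base ⊆
      Set.range ((fibreCover N ℓ K).f WalkingSpan.left).base := by
  rintro _ ⟨y, rfl⟩
  refine ⟨(zeroToLeft N ℓ K).base y, ?_⟩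
  rw [← zeroToLeft_f N ℓ K]
  rfl

theorem range_zero_subset_right :
    Set.range ((fibreCover N ℓ K).f WalkingSpan.zero).base ⊆
      Set.range ((fibreCover N ℓ K).f WalkingSpan.right).base := by
  rintro _ ⟨y, rfl⟩
  refine ⟨(zeroToRight N ℓ K).base y, ?_⟩
  rw [← zeroToRight_f N ℓ K]
  rfl


theorem preirreducibleSpace_of_two_opens {X : Type*} [TopologicalSpace X] (U V : Set X)
    (hUo : IsOpen U) (hVo : IsOpen V) (hU : IsPreirreducible U) (hV : IsPreirreducible V)
    (hUV : (U ∩ V).Nonempty) (hcov : ∀ x, x ∈ U ∨ x ∈ V) : PreirreducibleSpace X := by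
  have key : ∀ W : Set X, IsOpen W → W.Nonempty → (U ∩ (W ∩ V)).Nonempty := by
    intro W hW ⟨w, hw⟩
    rcases hcov w with hwU | hwV
    · exact hU W V hW hVo ⟨w, hwU, hw⟩ hUV
    · obtain ⟨z, hzV, hzW, hzU⟩ := hV W U hW hUo ⟨w, hwV, hw⟩ (by rwa [Set.inter_comm])
      exact ⟨z, hzU, hzW, hzV⟩
  refine ⟨fun W₁ W₂ h₁ h₂ hn₁ hn₂ => ?_⟩
  have hn₁' : W₁.Nonempty := by simpa using hn₁
  have hn₂' : W₂.Nonempty := by simpa using hn₂
  obtain ⟨z, hzU, ⟨hz₁, -⟩, hz₂, -⟩ :=
    hU (W₁ ∩ V) (W₂ ∩ V) (h₁.inter hVo) (h₂.inter hVo) (key W₁ h₁ hn₁') (key W₂ h₂ hn₂')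
  exact ⟨z, Set.mem_univ z, hz₁, hz₂⟩

variable {N ℓ K}

theorem isPreirreducible_range {X Y : Scheme.{0}} (f : X ⟶ Y) [IrreducibleSpace X] :
    IsPreirreducible (Set.range f.base) := by
  rw [← Set.image_univ]
  exact (IrreducibleSpace.isIrreducible_univ X).isPreirreducible.image _
    f.continuous.continuousOn

theorem isIntegral_fibre (hFin : IsDomain ((chartAlgFin N ℓ) ⊗[ℤℓ] K))
    (hInf : IsDomain ((chartAlgInf N ℓ) ⊗[ℤℓ] K))
    (hMid : IsDomain ((chartAlgMid N ℓ) ⊗[ℤℓ] K)) :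
    IsIntegral (igusaFibre N ℓ K) := by
  have iL := isIntegral_left hFin
  have iR := isIntegral_right hInf
  have iZ := isIntegral_zero hMid
  have oL : IsOpenImmersion ((fibreCover N ℓ K).f WalkingSpan.left) :=
    (fibreCover N ℓ K).map_prop _
  have oR : IsOpenImmersion ((fibreCover N ℓ K).f WalkingSpan.right) :=
    (fibreCover N ℓ K).map_prop _
  have : ∀ i, IsReduced ((fibreCover N ℓ K).X i) := by
    intro i
    rcases i with (_ | _ | _)
    · exact @isReduced_of_isIntegral _ iZ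
    · exact @isReduced_of_isIntegral _ iL
    · exact @isReduced_of_isIntegral _ iR
  have : IsReduced (igusaFibre N ℓ K) := IsReduced.of_openCover _ (fibreCover N ℓ K)
  have : IrreducibleSpace (igusaFibre N ℓ K) := by
    obtain ⟨y₀⟩ : Nonempty ((fibreCover N ℓ K).X WalkingSpan.zero) := inferInstance
    have hpre := preirreducibleSpace_of_two_opens
      (Set.range ((fibreCover N ℓ K).f WalkingSpan.left).base)
      (Set.range ((fibreCover N ℓ K).f WalkingSpan.right).base)
      ((fibreCover N ℓ K).f WalkingSpan.left).isOpenEmbedding.isOpen_range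
      ((fibreCover N ℓ K).f WalkingSpan.right).isOpenEmbedding.isOpen_range
      (isPreirreducible_range _) (isPreirreducible_range _)
      ⟨((fibreCover N ℓ K).f WalkingSpan.zero).base y₀,
        range_zero_subset_left N ℓ K ⟨y₀, rfl⟩, range_zero_subset_right N ℓ K ⟨y₀, rfl⟩⟩
      (by
        intro y
        obtain ⟨i, x, rfl⟩ := (fibreCover N ℓ K).exists_eq y
        rcases i with (_ | _ | _)
        · exact Or.inl (range_zero_subset_left N ℓ K ⟨x, rfl⟩)
        · exact Or.inl ⟨x, rfl⟩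
        · exact Or.inr ⟨x, rfl⟩)
    exact { toPreirreducibleSpace := hpre
            toNonempty := ⟨((fibreCover N ℓ K).f WalkingSpan.zero).base y₀⟩ }
  exact isIntegral_of_irreducibleSpace_of_isReduced _

/-- Variant: it suffices to embed each of the three base-changed chart algebras into a domain
(for instance into `LaurentSeries K`). -/
theorem isIntegral_fibre_of_injective
    {DFin DInf DMid : Type*} [CommRing DFin] [IsDomain DFin] [CommRing DInf] [IsDomain DInf]
    [CommRing DMid] [IsDomain DMid]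
    (φFin : (chartAlgFin N ℓ) ⊗[ℤℓ] K →+* DFin) (hφFin : Function.Injective φFin)
    (φInf : (chartAlgInf N ℓ) ⊗[ℤℓ] K →+* DInf) (hφInf : Function.Injective φInf)
    (φMid : (chartAlgMid N ℓ) ⊗[ℤℓ] K →+* DMid) (hφMid : Function.Injective φMid) :
    IsIntegral (igusaFibre N ℓ K) :=
  isIntegral_fibre (hφFin.isDomain φFin) (hφInf.isDomain φInf) (hφMid.isDomain φMid)

variable (N ℓ K)

/-- The statement in exactly the shape of the frozen S28. -/
theorem isIntegral_pullback_igusaTo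
    (hFin : IsDomain ((chartAlgFin N ℓ) ⊗[ℤℓ] K))
    (hInf : IsDomain ((chartAlgInf N ℓ) ⊗[ℤℓ] K))
    (hMid : IsDomain ((chartAlgMid N ℓ) ⊗[ℤℓ] K)) :
    IsIntegral ↑(pullback (igusaTo N ℓ)
      (Spec.map (CommRingCat.ofHom (algebraMap ↥(GaloisRep.ratLocalizedAt ℓ) K)))) :=
  isIntegral_fibre hFin hInf hMid

end Fermat.Agent.S28.SchemeGlue
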