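/-
S28 / block E, final form (helper26): `Fermat.Agent.S28.GlueInst.glue : Interfaces.GlueStatement`.
Same argument as `SchemeGlue.isIntegral_fibre`, but the overlap chart is only assumed nontrivial
after base change (reducedness is obtained from the two-chart cover).
-/
import Fermat.Agent.S28.SchemeGlue
import Fermat.Agent.S28.Interfaces

set_option autoImplicit false

open AlgebraicGeometry CategoryTheory CategoryTheory.Limits ModularCurve ModularCurve.IgusaScheme
open TensorProduct

noncomputable section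

namespace Fermat.Agent.S28.GlueInst

open Fermat.Agent.S28.SchemeGlue

variable {N : ℕ} [NeZero N] {ℓ : ℕ} [Fact ℓ.Prime]

set_option quotPrecheck false in
local notation "ℤℓ" => ↥(GaloisRep.ratLocalizedAt ℓ)

variable {K : Type} [Field K] [Algebra ↥(GaloisRep.ratLocalizedAt ℓ) K]

/-- index map of the two-chart cover -/
def twoIdx : Bool → WalkingSpan
  | true => WalkingSpan.left
  | false => WalkingSpan.right

theorem nonempty_zero (hMid : Nontrivial ((chartAlgMid N ℓ) ⊗[ℤℓ] K)) :
    Nonempty ((fibreCover N ℓ K).X WalkingSpan.zero) := by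
  have : Nonempty (Spec (.of <| (chartAlgMid N ℓ) ⊗[ℤℓ] K)) :=
    inferInstanceAs (Nonempty (PrimeSpectrum ((chartAlgMid N ℓ) ⊗[ℤℓ] K)))
  exact Nonempty.map (isoZero N ℓ K).inv inferInstance

theorem isIntegral_fibre' (hFin : IsDomain ((chartAlgFin N ℓ) ⊗[ℤℓ] K))
    (hInf : IsDomain ((chartAlgInf N ℓ) ⊗[ℤℓ] K))
    (hMid : Nontrivial ((chartAlgMid N ℓ) ⊗[ℤℓ] K)) :
    IsIntegral (igusaFibre N ℓ K) := by
  have iL := isIntegral_left hFin
  have iR := isIntegral_right hInf
  obtain ⟨y₀⟩ := nonempty_zero hMid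
  have oL : IsOpenImmersion ((fibreCover N ℓ K).f WalkingSpan.left) :=
    (fibreCover N ℓ K).map_prop _
  have oR : IsOpenImmersion ((fibreCover N ℓ K).f WalkingSpan.right) :=
    (fibreCover N ℓ K).map_prop _
  have hcov : ∀ y : igusaFibre N ℓ K,
      y ∈ Set.range ((fibreCover N ℓ K).f WalkingSpan.left).base ∨
        y ∈ Set.range ((fibreCover N ℓ K).f WalkingSpan.right).base := by
    intro y
    obtain ⟨i, x, rfl⟩ := (fibreCover N ℓ K).exists_eq y
    rcases i with (_ | _ | _)
    · exact Or.inl (range_zero_subset_left N ℓ K ⟨x, rfl⟩)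
    · exact Or.inl ⟨x, rfl⟩
    · exact Or.inr ⟨x, rfl⟩
  -- the two-chart cover
  let 𝒲 : (igusaFibre N ℓ K).OpenCover :=
    Scheme.Cover.mkOfCovers Bool (fun b => (fibreCover N ℓ K).X (twoIdx b))
      (fun b => (fibreCover N ℓ K).f (twoIdx b))
      (by
        intro y
        rcases hcov y with ⟨x, hx⟩ | ⟨x, hx⟩
        · exact ⟨true, x, hx⟩
        · exact ⟨false, x, hx⟩)
      (fun b => (fibreCover N ℓ K).map_prop _)
  have : ∀ b, IsReduced (𝒲.X b) := by
    intro b
    cases b
    · exact @isReduced_of_isIntegral _ iR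
    · exact @isReduced_of_isIntegral _ iL
  have : IsReduced (igusaFibre N ℓ K) := IsReduced.of_openCover _ 𝒲
  have : IrreducibleSpace (igusaFibre N ℓ K) := by
    have hpre := preirreducibleSpace_of_two_opens
      (Set.range ((fibreCover N ℓ K).f WalkingSpan.left).base)
      (Set.range ((fibreCover N ℓ K).f WalkingSpan.right).base)
      ((fibreCover N ℓ K).f WalkingSpan.left).isOpenEmbedding.isOpen_range
      ((fibreCover N ℓ K).f WalkingSpan.right).isOpenEmbedding.isOpen_range
      (isPreirreducible_range _) (isPreirreducible_range _)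
      ⟨((fibreCover N ℓ K).f WalkingSpan.zero).base y₀,
        range_zero_subset_left N ℓ K ⟨y₀, rfl⟩, range_zero_subset_right N ℓ K ⟨y₀, rfl⟩⟩
      hcov
    exact { toPreirreducibleSpace := hpre
            toNonempty := ⟨((fibreCover N ℓ K).f WalkingSpan.zero).base y₀⟩ }
  exact isIntegral_of_irreducibleSpace_of_isReduced _

/-- **Block (E)** in the interface form. -/
theorem glue : Fermat.Agent.S28.Interfaces.GlueStatement := by
  intro N _ ℓ _ K _ _ hFin hInf hMid
  exact isIntegral_fibre' hFin hInf hMid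

end Fermat.Agent.S28.GlueInst
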