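import Fermat.Agent.S28.Interfaces
import Fermat.Agent.S28.GlueInst

/-!
# S28: block (E) discharges `Interfaces.GlueStatement` (helper26's `GlueInst.glue`).
-/

set_option autoImplicit false

namespace Fermat.Agent.S28.GlueProof

open Fermat.Agent.S28.Interfaces

theorem glueStatement : GlueStatement := Fermat.Agent.S28.GlueInst.glue

end Fermat.Agent.S28.GlueProof
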