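import Mathlib
import Fermat.Agent.S28.Interfaces
import Fermat.Agent.S28.Haupt2Sturm

/-!
# S28, block H (m = 2): the Hauptmodul package of level `2` (helper9)

`haupt2 : Interfaces.Haupt2Statement`: for every field `k` with `2 ≠ 0` there is
`h = q f`, `f = ∏ (1 + qⁿ)²⁴ ∈ 1 + q k[[q]]`, `f ≠ 1`, with
`j h = (1 + 256 h)³` and `j(q²) h² = (1 + 16 h)³` in `k((q))`.

Integral versions: `identA`, `identB` (in `ℤ⟦X⟧`, with `G = (P(X²)/P(X))²⁴`).
-/

set_option autoImplicit false
set_option maxHeartbeats 400000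

namespace Fermat.Agent.S28.Haupt2

open PowerSeries ModularCurve Fermat.Agent.S28.Haupt2Coeff

/-! ### Division in the truncated calculus -/

lemma Approx.of_mul_eq {A B D : PowerSeries ℤ} {a b d : List ℤ} (hA : Approx A a)
    (hD : Approx D d) (hBA : B * A = D) (hA0 : constantCoeff A = 1) (hcheck : mulT b a = d) :
    Approx B b := by
  set c : PowerSeries ℤ := PowerSeries.mk fun n => b.getD n 0 with hc
  have hcb : Approx c b := fun n _ => by rw [hc, coeff_mk]
  have h1 : Approx (c * A) d := (hcb.mul hA).congr_list hcheck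
  have h2 : (X : PowerSeries ℤ) ^ 13 ∣ (c - B) * A := by
    rw [X_pow_dvd_iff]
    intro n hn
    rw [sub_mul, map_sub, hBA, h1 n hn, hD n hn, sub_self]
  have hu : IsUnit A := by
    rw [isUnit_iff_constantCoeff, hA0]
    exact isUnit_one
  rw [hu.dvd_mul_right, X_pow_dvd_iff] at h2
  intro n hn
  have := h2 n hn
  rw [map_sub, sub_eq_zero] at this
  rw [← this, hc, coeff_mk]

/-! ### The integral series -/

/-- The inverse of `∏ (1 - Xⁿ)` in `ℤ⟦X⟧`. -/
noncomputable def etaInv : PowerSeries ℤ := invOfUnit etaProd 1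

lemma etaProd_mul_etaInv : etaProd * etaInv = 1 :=
  PowerSeries.mul_invOfUnit _ _ (by rw [constantCoeff_etaProd]; rfl)

local notation "P₂" => expand 2 two_ne_zero etaProd

/-- `G = (P(X²) / P(X))²⁴ = ∏ (1 + Xⁿ)²⁴`. -/
noncomputable def G : PowerSeries ℤ := (P₂ * etaInv) ^ 24

lemma G_mul : G * etaProd ^ 24 = P₂ ^ 24 := by
  rw [G, ← mul_pow, mul_assoc, mul_comm etaInv, etaProd_mul_etaInv, mul_one]

lemma etaInv_pow : dedekindEtaUnitInv = etaInv ^ 24 := by
  have h1 : dedekindEtaUnit * etaInv ^ 24 = 1 := by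
    rw [dedekindEtaUnit, ← mul_pow, etaProd_mul_etaInv, one_pow]
  calc dedekindEtaUnitInv = dedekindEtaUnitInv * (dedekindEtaUnit * etaInv ^ 24) := by
        rw [h1, mul_one]
    _ = (dedekindEtaUnit * dedekindEtaUnitInv) * etaInv ^ 24 := by ring
    _ = etaInv ^ 24 := by rw [dedekindEtaUnit_mul_inv, one_mul]

/-- `j h = (1 + 256 h)³`, integral form. -/
theorem identA : jNum * G = (1 + C 256 * X * G) ^ 3 := by
  have h24 : etaProd ^ 24 * etaInv ^ 24 = 1 := by
    rw [← mul_pow, etaProd_mul_etaInv, one_pow]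
  have hm := Haupt2Sturm.main1
  have hG : G = P₂ ^ 24 * etaInv ^ 24 := by rw [G, mul_pow]
  rw [jNum, etaInv_pow, hG]
  calc eisenstein4 ^ 3 * etaInv ^ 24 * (P₂ ^ 24 * etaInv ^ 24)
      = (eisenstein4 ^ 3 * P₂ ^ 24 * etaProd ^ 24) * (etaInv ^ 24) ^ 3 := by
        linear_combination (-(eisenstein4 ^ 3 * P₂ ^ 24 * (etaInv ^ 24) ^ 2)) * h24
    _ = ((etaProd ^ 24 + C 256 * X * P₂ ^ 24) * etaInv ^ 24) ^ 3 := by rw [hm]; ring
    _ = (1 + C 256 * X * (P₂ ^ 24 * etaInv ^ 24)) ^ 3 := by
        congr 1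
        linear_combination h24

/-- `j(q²) h² = (1 + 16 h)³`, integral form. -/
theorem identB : expand 2 two_ne_zero jNum * G ^ 2 = (1 + C 16 * X * G) ^ 3 := by
  have h24 : etaProd ^ 24 * etaInv ^ 24 = 1 := by
    rw [← mul_pow, etaProd_mul_etaInv, one_pow]
  have h24' : P₂ ^ 24 * (expand 2 two_ne_zero etaInv) ^ 24 = 1 := by
    rw [← mul_pow, ← map_mul, etaProd_mul_etaInv, map_one, one_pow]
  have hm := Haupt2Sturm.main2
  have hG : G = P₂ ^ 24 * etaInv ^ 24 := by rw [G, mul_pow]
  rw [jNum, etaInv_pow, hG, map_mul, map_pow, map_pow]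
  set E₂ := expand 2 two_ne_zero eisenstein4
  set I₂ := expand 2 two_ne_zero etaInv
  calc E₂ ^ 3 * I₂ ^ 24 * (P₂ ^ 24 * etaInv ^ 24) ^ 2
      = (E₂ ^ 3 * P₂ ^ 24 * etaProd ^ 24) * (etaInv ^ 24) ^ 3 := by
        linear_combination (E₂ ^ 3 * P₂ ^ 24 * (etaInv ^ 24) ^ 2) * h24' -
          (E₂ ^ 3 * P₂ ^ 24 * (etaInv ^ 24) ^ 2) * h24
    _ = ((etaProd ^ 24 + C 16 * X * P₂ ^ 24) * etaInv ^ 24) ^ 3 := by rw [hm]; ring
    _ = (1 + C 16 * X * (P₂ ^ 24 * etaInv ^ 24)) ^ 3 := by
        congr 1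
        linear_combination h24

/-! ### Coefficients of `G` -/

/-- The first `13` coefficients of `G = ∏ (1 + Xⁿ)²⁴`. -/
def LG : List ℤ :=
  [1, 24, 300, 2624, 18126, 105504, 538296, 2471424, 10400997, 40674128, 149343012, 519045888,
    1718732998]

lemma approx_G : Approx G LG :=
  Approx.of_mul_eq approx_P24 approx_Q24 G_mul
    (by rw [map_pow, constantCoeff_etaProd, one_pow]) (by decide +kernel)

lemma constantCoeff_G : constantCoeff G = 1 := by
  rw [← coeff_zero_eq_constantCoeff_apply, approx_G 0 (by norm_num)]; rfl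

lemma coeff_one_G : coeff 1 G = 24 := by rw [approx_G 1 (by norm_num)]; rfl

lemma coeff_three_G : coeff 3 G = 2624 := by rw [approx_G 3 (by norm_num)]; rfl

/-! ### Laurent series over a commutative ring -/

section Laurent

variable (k : Type*) [CommRing k]

/-- `qExpand` on power series is `PowerSeries.expand`. -/
lemma qExpand_ofPowerSeries (N : ℕ) [NeZero N] (f : PowerSeries k) :
    qExpand k N (HahnSeries.ofPowerSeries ℤ k f) =
      HahnSeries.ofPowerSeries ℤ k (expand N (NeZero.ne N) f) := by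
  ext n
  by_cases hdvd : (N : ℤ) ∣ n
  · obtain ⟨m, rfl⟩ := hdvd
    rw [qExpand_coeff_mul]
    rcases lt_or_ge m 0 with hm | hm
    · have hN : (0 : ℤ) < N := by exact_mod_cast Nat.pos_of_ne_zero (NeZero.ne N)
      rw [ofPowerSeries_coeff_of_neg _ hm, ofPowerSeries_coeff_of_neg _ (by nlinarith)]
    · lift m to ℕ using hm
      rw [HahnSeries.ofPowerSeries_apply_coeff,
        show ((N : ℤ) * (m : ℤ)) = ((N * m : ℕ) : ℤ) by push_cast; ring,
        HahnSeries.ofPowerSeries_apply_coeff, coeff_expand_mul]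
  · rw [qExpand_coeff_of_not_dvd _ _ hdvd]
    rcases lt_or_ge n 0 with hn | hn
    · rw [ofPowerSeries_coeff_of_neg _ hn]
    · lift n to ℕ using hn
      rw [HahnSeries.ofPowerSeries_apply_coeff, coeff_expand_of_not_dvd]
      exact fun h => hdvd (Int.natCast_dvd_natCast.mpr h)

local notation "φ" => Int.castRingHom k

/-- `f = ∏ (1 + qⁿ)²⁴` over `k`. -/
noncomputable def fK : PowerSeries k := PowerSeries.map φ G

/-- The Hauptmodul `h = q ∏ (1 + qⁿ)²⁴` of level `2` over `k`. -/
noncomputable def hK : LaurentSeries k :=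
  HahnSeries.single 1 1 * HahnSeries.ofPowerSeries ℤ k (fK k)

lemma constantCoeff_fK : constantCoeff (fK k) = 1 := by
  rw [fK, ← coeff_zero_eq_constantCoeff_apply, coeff_map, coeff_zero_eq_constantCoeff_apply,
    constantCoeff_G, map_one]

lemma hK_eq : hK k = HahnSeries.ofPowerSeries ℤ k (X * fK k) := by
  rw [hK, map_mul, HahnSeries.ofPowerSeries_X]

/-- `j h = (1 + 256 h)³` in `k((q))`. -/
theorem jq_mul_hK : jqModC k * hK k = (1 + 256 * hK k) ^ 3 := by
  have h1 : (HahnSeries.single (-1 : ℤ) (1 : k)) * HahnSeries.single (1 : ℤ) (1 : k) = 1 := by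
    rw [HahnSeries.single_mul_single]; simp
  have h2 := congrArg (fun x => HahnSeries.ofPowerSeries ℤ k (PowerSeries.map φ x)) identA
  simp only [map_mul, map_pow, map_add, map_one, PowerSeries.map_C, PowerSeries.map_X,
    HahnSeries.ofPowerSeries_X, HahnSeries.ofPowerSeries_C] at h2
  have hC : (HahnSeries.C (φ 256) : LaurentSeries k) = 256 := by
    rw [map_ofNat, map_ofNat]
  rw [hC] at h2
  rw [jqModC, hK, fK]
  calc HahnSeries.single (-1 : ℤ) 1 * HahnSeries.ofPowerSeries ℤ k (PowerSeries.map φ jNum) *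
        (HahnSeries.single 1 1 * HahnSeries.ofPowerSeries ℤ k (PowerSeries.map φ G))
      = (HahnSeries.single (-1 : ℤ) (1 : k) * HahnSeries.single (1 : ℤ) (1 : k)) *
        (HahnSeries.ofPowerSeries ℤ k (PowerSeries.map φ jNum) *
          HahnSeries.ofPowerSeries ℤ k (PowerSeries.map φ G)) := by ring
    _ = _ := by
        rw [h1, one_mul, h2, mul_assoc]

/-- `j(q²) h² = (1 + 16 h)³` in `k((q))`. -/
theorem jq2_mul_hK : qExpand k 2 (jqModC k) * hK k ^ 2 = (1 + 16 * hK k) ^ 3 := by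
  have h1 : (HahnSeries.single (-2 : ℤ) (1 : k)) * (HahnSeries.single (1 : ℤ) (1 : k)) ^ 2 = 1 := by
    rw [HahnSeries.single_pow, HahnSeries.single_mul_single]; simp
  have h2 := congrArg (fun x => HahnSeries.ofPowerSeries ℤ k (PowerSeries.map φ x)) identB
  simp only [map_mul, map_pow, map_add, map_one, PowerSeries.map_C, PowerSeries.map_X,
    HahnSeries.ofPowerSeries_X, HahnSeries.ofPowerSeries_C, map_expand] at h2
  have hC : (HahnSeries.C (φ 16) : LaurentSeries k) = 16 := by
    rw [map_ofNat, map_ofNat]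
  rw [hC] at h2
  have h3 : qExpand k 2 (jqModC k) = HahnSeries.single (-2 : ℤ) 1 *
      HahnSeries.ofPowerSeries ℤ k (expand 2 two_ne_zero (PowerSeries.map φ jNum)) := by
    rw [jqModC, map_mul, qExpand_single, qExpand_ofPowerSeries]
    norm_num
  rw [h3, hK, fK]
  calc HahnSeries.single (-2 : ℤ) 1 *
        HahnSeries.ofPowerSeries ℤ k (expand 2 two_ne_zero (PowerSeries.map φ jNum)) *
        (HahnSeries.single 1 1 * HahnSeries.ofPowerSeries ℤ k (PowerSeries.map φ G)) ^ 2
      = (HahnSeries.single (-2 : ℤ) (1 : k) * (HahnSeries.single (1 : ℤ) (1 : k)) ^ 2) *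
        (HahnSeries.ofPowerSeries ℤ k (expand 2 two_ne_zero (PowerSeries.map φ jNum)) *
          HahnSeries.ofPowerSeries ℤ k (PowerSeries.map φ G) ^ 2) := by ring
    _ = _ := by
        rw [h1, one_mul, h2, mul_assoc]

end Laurent

/-! ### The interface statement -/

open Polynomial in
/-- **Block H, m = 2.** -/
theorem haupt2 : Interfaces.Haupt2Statement := by
  intro k _ h2
  have h2' : ∀ n : ℕ, ((2 : k) ^ n) ≠ 0 := fun n => pow_ne_zero n h2
  have h256 : (256 : k) ≠ 0 := by
    have := h2' 8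
    norm_num at this
    exact this
  have h16 : (16 : k) ≠ 0 := by
    have := h2' 4
    norm_num at this
    exact this
  refine ⟨fK k, (1 + Polynomial.C (256 : k) * Polynomial.X) ^ 3,
    (1 + Polynomial.C (16 : k) * Polynomial.X) ^ 3, constantCoeff_fK k, ?_, ?_, ?_, ?_, ?_, ?_, ?_⟩
  · -- `f ≠ 1`
    intro hf
    have e1 := congrArg (PowerSeries.coeff 1) hf
    have e3 := congrArg (PowerSeries.coeff 3) hf
    rw [fK, PowerSeries.coeff_map, coeff_one_G, PowerSeries.coeff_one] at e1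
    rw [fK, PowerSeries.coeff_map, coeff_three_G, PowerSeries.coeff_one] at e3
    simp only [one_ne_zero, if_false, eq_intCast, Int.cast_ofNat] at e1 e3
    norm_num at e1 e3
    have h8 : (8 : k) = 0 := by linear_combination e3 - 109 * e1
    have := h2' 3
    norm_num at this
    exact this h8
  · rw [Polynomial.natDegree_pow, add_comm, ← Polynomial.C_1, Polynomial.natDegree_linear h256]
  · rw [Polynomial.natDegree_pow, add_comm, ← Polynomial.C_1, Polynomial.natDegree_linear h16]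
  · simp [Polynomial.coeff_zero_eq_eval_zero]
  · simp [Polynomial.coeff_zero_eq_eval_zero]
  · have := jq_mul_hK k
    rw [hK] at this
    rw [this]
    simp only [map_pow, map_add, map_one, map_mul, Polynomial.aeval_C, Polynomial.aeval_X]
    rw [map_ofNat]
  · have := jq2_mul_hK k
    rw [hK] at this
    rw [Interfaces.jD_eq, this]
    simp only [map_pow, map_add, map_one, map_mul, Polynomial.aeval_C, Polynomial.aeval_X]
    rw [map_ofNat]

end Fermat.Agent.S28.Haupt2
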