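/-
S28 / block A, bridge: the interface statement `Interfaces.ModEqStatement` (modular equation of
prime level over EVERY field with a primitive `p`-th root of unity) follows from the modular
equation over `ℂ` for ONE primitive `p`-th root of unity (for each prime `p`).
-/
import Mathlib
import Fermat.Agent.S28.Interfaces
import Fermat.Agent.S28.ModPolyDescent

set_option autoImplicit false

namespace Fermat.Agent.S28.ModEqOfComplex

open ModularCurve Polynomial
open Fermat.Agent.S20.LaurentTools Fermat.Agent.S28.Interfaces Fermat.Agent.S28.ScaleVar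
open Fermat.Agent.S28.ModPolyDescent

/-- The two "rotations" `v ↦ ξ v` (S20 `rot`, S28 `scaleVar`) agree. -/
theorem rot_eq_scaleVar {k : Type*} [Field k] (ξ : kˣ) (F : LaurentSeries k) :
    rot ξ F = scaleVar ξ F := by
  ext n
  rw [coeff_rot, scaleVar_coeff]

/-- `Interfaces.HasModEq` in the `qExpand` / `scaleVar` form of `ModPolyDescent`. -/
theorem hasModEq_iff (k : Type*) [Field k] (p : ℕ) [NeZero p] (ζ : kˣ) :
    HasModEq k p ζ ↔
      ∃ Φ : Polynomial (Polynomial k), Φ.Monic ∧ Φ.natDegree = p + 1 ∧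
        Φ.map ((aeval (qExpand k p (jqModC k)) : Polynomial k →ₐ[k] LaurentSeries k) :
            Polynomial k →+* LaurentSeries k) =
          (X - C (qExpand k (p ^ 2) (jqModC k))) *
            ∏ b ∈ Finset.range p, (X - C (scaleVar (ζ ^ b) (jqModC k))) := by
  unfold HasModEq
  simp only [jD_eq, rot_eq_scaleVar]

/-- **Block A, closed form**: the modular equation over `ℂ` (one primitive root for each prime)
implies the interface statement `ModEqStatement`. -/
theorem modEqStatement_of_complex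
    (hC : ∀ p : ℕ, p.Prime → ∃ ζC : ℂˣ, IsPrimitiveRoot (ζC : ℂ) p ∧ HasModEq ℂ p ζC) :
    ModEqStatement := by
  intro k _ p hp ζ hζ
  have : NeZero p := ⟨hp.ne_zero⟩
  obtain ⟨ζC, hζC, hmod⟩ := hC p hp
  rw [hasModEq_iff] at hmod ⊢
  exact exists_modPoly_of_complex p ζC hζC hmod ζ (hζ.isRoot_cyclotomic hp.pos)

/-- The same, from the `qExpand` / `scaleVar` form over `ℂ`. -/
theorem modEqStatement_of_complex'
    (hC : ∀ (p : ℕ) [NeZero p], p.Prime → ∃ ζC : ℂˣ, IsPrimitiveRoot (ζC : ℂ) p ∧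
      ∃ Φ : Polynomial (Polynomial ℂ), Φ.Monic ∧ Φ.natDegree = p + 1 ∧
        Φ.map ((aeval (qExpand ℂ p (jqModC ℂ)) : Polynomial ℂ →ₐ[ℂ] LaurentSeries ℂ) :
            Polynomial ℂ →+* LaurentSeries ℂ) =
          (X - C (qExpand ℂ (p ^ 2) (jqModC ℂ))) *
            ∏ b ∈ Finset.range p, (X - C (scaleVar (ζC ^ b) (jqModC ℂ)))) :
    ModEqStatement := by
  apply modEqStatement_of_complex
  intro p hp
  have : NeZero p := ⟨hp.ne_zero⟩
  obtain ⟨ζC, hζC, hmod⟩ := hC p hp
  exact ⟨ζC, hζC, (hasModEq_iff ℂ p ζC).mpr hmod⟩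

end Fermat.Agent.S28.ModEqOfComplex
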