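import Mathlib
import Fermat.Agent.S24.LevelOnePoly
import Fermat.Agent.S24.CuspGen
import Fermat.Agent.S24.JdInv

/-!
# S28, block A (analytic part): the modular polynomial of prime level on the upper half plane

For a prime `p` the `p + 1` functions `j(p z)`, `j((z + b) / p)` (`b mod p`) are permuted by
`SL(2,ℤ)`; hence every symmetric function of them is a polynomial in `j`, and there is a monic
`Φ ∈ ℂ[Y][X]` of degree `p + 1` with `Φ(X, j(z)) = (X - j(p z)) ∏_b (X - j((z + b) / p))`.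
-/

set_option autoImplicit false

open UpperHalfPlane ModularForm Filter Topology Complex MatrixGroups Polynomial
open scoped Manifold

noncomputable section

namespace Fermat.Agent.S28.ModPolyAnalytic

open Fermat.Agent.S24 Fermat.Agent.S24.Hermite Fermat.Agent.S24.CuspExpansion

section Roots

variable (p : ℕ) [hp : Fact p.Prime]

lemma pZ_pos : (0 : ℤ) < (p : ℤ) := by exact_mod_cast hp.out.pos

/-- `z ↦ j((z + b) / p)`. -/
def rootZ (b : ℤ) (z : ℍ) : ℂ := jFun (affinePoint 1 b p one_pos (pZ_pos p) z)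

/-- `z ↦ j(p z)`. -/
def rootInf (z : ℍ) : ℂ := jFun (affinePoint p 0 1 (pZ_pos p) one_pos z)

lemma jFun_eq_of_coe_smul (γ : SL(2, ℤ)) {w w' : ℍ} (h : (w' : ℂ) = ((γ • w : ℍ) : ℂ)) :
    jFun w' = jFun w := by
  have : w' = γ • w := UpperHalfPlane.ext h
  rw [this, jFun_smul]

lemma pC_ne_zero : ((p : ℤ) : ℂ) ≠ 0 := by
  have := hp.out.ne_zero
  exact_mod_cast this

lemma rootZ_add_mul (b k : ℤ) (z : ℍ) : rootZ p (b + p * k) z = rootZ p b z := by
  unfold rootZ
  have h : affinePoint 1 (b + p * k) p one_pos (pZ_pos p) z =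
      ((k : ℝ) +ᵥ affinePoint 1 b p one_pos (pZ_pos p) z) := by
    apply UpperHalfPlane.ext
    rw [coe_vadd, coe_affinePoint, coe_affinePoint]
    have hpc := pC_ne_zero p
    push_cast at hpc ⊢
    field_simp
    ring
  rw [h, CuspGen.jFun_vadd_int]

lemma rootZ_T (b : ℤ) (z : ℍ) : rootZ p b (ModularGroup.T • z) = rootZ p (b + 1) z := by
  unfold rootZ
  congr 1
  apply UpperHalfPlane.ext
  rw [coe_affinePoint, coe_affinePoint, UpperHalfPlane.modular_T_smul, coe_vadd]
  push_cast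
  ring

lemma rootInf_T (z : ℍ) : rootInf p (ModularGroup.T • z) = rootInf p z := by
  unfold rootInf
  rw [UpperHalfPlane.modular_T_smul]
  have := CuspGen.jFun_affinePoint_vadd (p : ℤ) 0 1 (pZ_pos p) one_pos 1 p (by ring) z
  simpa using this

lemma coe_S_smul (z : ℍ) : ((ModularGroup.S • z : ℍ) : ℂ) = (-(z : ℂ))⁻¹ := by
  rw [UpperHalfPlane.modular_S_smul]

lemma rootInf_S (z : ℍ) : rootInf p (ModularGroup.S • z) = rootZ p 0 z := by
  unfold rootInf rootZ
  refine jFun_eq_of_coe_smul ModularGroup.S ?_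
  rw [coe_S_smul, coe_affinePoint, coe_affinePoint, coe_S_smul]
  have hpc := pC_ne_zero p
  have hz : (z : ℂ) ≠ 0 := UpperHalfPlane.ne_zero z
  push_cast at hpc ⊢
  simp only [add_zero, div_one, one_mul]
  field_simp

lemma rootZ_zero_S (z : ℍ) : rootZ p 0 (ModularGroup.S • z) = rootInf p z := by
  unfold rootInf rootZ
  refine jFun_eq_of_coe_smul ModularGroup.S ?_
  rw [coe_S_smul, coe_affinePoint, coe_affinePoint, coe_S_smul]
  have hpc := pC_ne_zero p
  have hz : (z : ℂ) ≠ 0 := UpperHalfPlane.ne_zero z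
  push_cast at hpc ⊢
  simp only [add_zero, div_one, one_mul]
  field_simp

lemma rootZ_S (b b' c : ℤ) (h : b * b' + 1 = p * c) (z : ℍ) :
    rootZ p b (ModularGroup.S • z) = rootZ p b' z := by
  unfold rootZ
  let γ' : SL(2, ℤ) := ⟨!![b, -c; (p : ℤ), -b'], by
    rw [Matrix.det_fin_two_of]
    linear_combination (-1 : ℤ) * h⟩
  refine jFun_eq_of_coe_smul γ' ?_
  have hden := UpperHalfPlane.denom_ne_zero (γ' : GL (Fin 2) ℝ)
    (affinePoint 1 b' p one_pos (pZ_pos p) z)
  rw [UpperHalfPlane.coe_specialLinearGroup_apply, coe_affinePoint, coe_affinePoint, coe_S_smul]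
  have hpc := pC_ne_zero p
  have hz : (z : ℂ) ≠ 0 := UpperHalfPlane.ne_zero z
  have hc : ((b : ℤ) : ℂ) * b' + 1 = p * c := by exact_mod_cast congrArg (Int.cast : ℤ → ℂ) h
  simp only [algebraMap_int_eq, Int.coe_castRingHom, Complex.ofReal_intCast, γ']
  simp only [Matrix.of_apply, Matrix.cons_val_zero,
    Matrix.cons_val_one, Matrix.cons_val', Matrix.cons_val_fin_one]
  push_cast at hpc ⊢
  have hden' : (p : ℂ) * ((1 * (z : ℂ) + b') / p) + -(b' : ℂ) = z := by
    field_simp
    ring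
  rw [hden']
  field_simp
  linear_combination (-1 : ℂ) * hc

end Roots

section Family

variable (p : ℕ) [hp : Fact p.Prime]

/-- `z ↦ j((z + b) / p)` for `b` modulo `p`. -/
def rootMod (b : ZMod p) (z : ℍ) : ℂ := rootZ p (b.val : ℤ) z

lemma rootMod_intCast (n : ℤ) (z : ℍ) : rootMod p (n : ZMod p) z = rootZ p n z := by
  unfold rootMod
  rw [ZMod.val_intCast]
  have h := rootZ_add_mul p (n % p) (n / p) z
  rw [Int.emod_add_mul_ediv] at h
  exact h.symm

lemma rootMod_T (b : ZMod p) (z : ℍ) :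
    rootMod p b (ModularGroup.T • z) = rootMod p (b + 1) z := by
  have h1 : rootMod p b (ModularGroup.T • z) = rootZ p ((b.val : ℤ) + 1) z := rootZ_T p _ z
  rw [h1, ← rootMod_intCast]
  congr 1
  push_cast
  rw [ZMod.natCast_zmod_val]

lemma rootMod_zero_S (z : ℍ) : rootMod p 0 (ModularGroup.S • z) = rootInf p z := by
  unfold rootMod
  rw [ZMod.val_zero]
  exact rootZ_zero_S p z

lemma rootInf_S' (z : ℍ) : rootInf p (ModularGroup.S • z) = rootMod p 0 z := by
  unfold rootMod
  rw [ZMod.val_zero]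
  exact rootInf_S p z

lemma rootMod_S (b : ZMod p) (hb : b ≠ 0) (z : ℍ) :
    rootMod p b (ModularGroup.S • z) = rootMod p (-b⁻¹) z := by
  unfold rootMod
  have hdvd : (p : ℤ) ∣ (b.val : ℤ) * ((-b⁻¹).val : ℤ) + 1 := by
    rw [← ZMod.intCast_zmod_eq_zero_iff_dvd]
    push_cast
    rw [ZMod.natCast_zmod_val, ZMod.natCast_zmod_val, mul_neg, mul_inv_cancel₀ hb]
    ring
  obtain ⟨c, hc⟩ := hdvd
  exact rootZ_S p _ _ c hc z

/-- The family of the `p + 1` roots: `none ↦ j(p z)`, `some b ↦ j((z + b) / p)`. -/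
def root : Option (ZMod p) → ℍ → ℂ
  | none => rootInf p
  | some b => rootMod p b

/-- `F_t(z) = ∏ (t - root)`. -/
def Fprod (t : ℂ) (z : ℍ) : ℂ := ∏ i : Option (ZMod p), (t - root p i z)

lemma Fprod_eq (t : ℂ) (z : ℍ) :
    Fprod p t z = (t - rootInf p z) * ∏ b : ZMod p, (t - rootMod p b z) := by
  unfold Fprod
  rw [Fintype.prod_option]
  rfl

lemma Fprod_T (t : ℂ) (z : ℍ) : Fprod p t (ModularGroup.T • z) = Fprod p t z := by
  have h : ∏ b : ZMod p, (t - rootMod p b (ModularGroup.T • z)) =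
      ∏ b : ZMod p, (t - rootMod p b z) := by
    simp_rw [rootMod_T]
    exact Equiv.prod_comp (Equiv.addRight (1 : ZMod p)) (fun b => t - rootMod p b z)
  rw [Fprod_eq, Fprod_eq, rootInf_T, h]

lemma Fprod_S (t : ℂ) (z : ℍ) : Fprod p t (ModularGroup.S • z) = Fprod p t z := by
  classical
  rw [Fprod_eq, Fprod_eq, rootInf_S',
    ← Finset.mul_prod_erase Finset.univ _ (Finset.mem_univ (0 : ZMod p)),
    ← Finset.mul_prod_erase Finset.univ (fun b => t - rootMod p b z) (Finset.mem_univ (0 : ZMod p)),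
    rootMod_zero_S]
  have hprod : ∏ b ∈ Finset.univ.erase (0 : ZMod p), (t - rootMod p b (ModularGroup.S • z)) =
      ∏ b ∈ Finset.univ.erase (0 : ZMod p), (t - rootMod p b z) := by
    refine Finset.prod_nbij' (fun b => -b⁻¹) (fun b => -b⁻¹) ?_ ?_ ?_ ?_ ?_
    · intro b hb
      have hb0 : b ≠ 0 := Finset.ne_of_mem_erase hb
      exact Finset.mem_erase.mpr ⟨neg_ne_zero.mpr (inv_ne_zero hb0), Finset.mem_univ _⟩
    · intro b hb
      have hb0 : b ≠ 0 := Finset.ne_of_mem_erase hb
      exact Finset.mem_erase.mpr ⟨neg_ne_zero.mpr (inv_ne_zero hb0), Finset.mem_univ _⟩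
    · intro b _
      rw [inv_neg, neg_neg, inv_inv]
    · intro b _
      rw [inv_neg, neg_neg, inv_inv]
    · intro b hb
      have hb0 : b ≠ 0 := Finset.ne_of_mem_erase hb
      rw [rootMod_S p b hb0]
  rw [hprod]
  ring

lemma Fprod_smul (t : ℂ) (γ : SL(2, ℤ)) (z : ℍ) : Fprod p t (γ • z) = Fprod p t z := by
  have hγ : γ ∈ Subgroup.closure {ModularGroup.S, ModularGroup.T} := by
    rw [SpecialLinearGroup.SL2Z_generators]; exact Subgroup.mem_top _
  revert z
  induction hγ using Subgroup.closure_induction with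
  | one => intro z; rw [one_smul]
  | mem g hg =>
      intro z
      simp only [Set.mem_insert_iff, Set.mem_singleton_iff] at hg
      rcases hg with rfl | rfl
      · exact Fprod_S p t z
      · exact Fprod_T p t z
  | mul g h _ _ ig ih =>
      intro z
      rw [mul_smul, ig, ih]
  | inv g _ ig =>
      intro z
      have := ig (g⁻¹ • z)
      rw [smul_inv_smul] at this
      exact this.symm

/-! ### Holomorphy -/

lemma mdiff_rootZ (b : ℤ) : MDiff (rootZ p b) :=
  CuspGen.mdiff_jFun_affinePoint 1 b p one_pos (pZ_pos p)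

lemma mdiff_rootInf : MDiff (rootInf p) :=
  CuspGen.mdiff_jFun_affinePoint p 0 1 (pZ_pos p) one_pos

lemma mdiff_root (i : Option (ZMod p)) : MDiff (root p i) := by
  cases i with
  | none => exact mdiff_rootInf p
  | some b => exact mdiff_rootZ p _

lemma Fprod_fun_eq (t : ℂ) :
    Fprod p t = ∏ i : Option (ZMod p), ((fun _ => t) - root p i : ℍ → ℂ) := by
  funext z
  rw [Finset.prod_apply]
  rfl

lemma mdiff_Fprod (t : ℂ) : MDiff (Fprod p t) := by
  rw [Fprod_fun_eq]
  refine Finset.prod_induction _ (fun f : ℍ → ℂ => MDiff f) (fun a b ha hb => ha.mul hb)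
    mdifferentiable_const (fun i _ => ?_)
  exact mdifferentiable_const.sub (mdiff_root p i)

/-! ### Boundedness at `i∞` -/

local notation "Δ" => ModularForm.discriminant

/-- The function `∏ (1 - q^n)^24`. -/
def etaP (z : ℍ) : ℂ := ∏' n : ℕ, (1 - ModularForm.eta_q n z) ^ 24

lemma bdd_etaP : IsBoundedAtImInfty etaP :=
  ModularForm.tendsto_atImInfty_tprod_one_sub_eta_q_pow.isBigO_one ℝ

lemma qh_pow_p (z : ℍ) : qh p z ^ p = Function.Periodic.qParam 1 (z : ℂ) := by
  have hpc : (p : ℂ) ≠ 0 := by exact_mod_cast hp.out.ne_zero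
  simp only [qh, Function.Periodic.qParam]
  rw [← Complex.exp_nat_mul]
  congr 1
  push_cast
  field_simp

lemma discriminant_eq_qh (z : ℍ) : Δ z = qh p z ^ p * etaP z := by
  rw [ModularForm.discriminant_eq_q_prod, qh_pow_p]
  rfl

lemma bdd_qh_pow (m : ℕ) : IsBoundedAtImInfty (fun z => qh p z ^ m) :=
  ((HolAtCusp.qh p).pow m).bdd

omit hp in
lemma bdd_discriminant : IsBoundedAtImInfty (fun z => Δ z) := by
  have : Fact (Nat.Prime 2) := ⟨Nat.prime_two⟩
  have h : (fun z : ℍ => Δ z) = (fun z => qh 2 z ^ 2) * etaP := by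
    funext z
    rw [Pi.mul_apply, discriminant_eq_qh 2]
  rw [h]
  exact (bdd_qh_pow 2 2).mul bdd_etaP

omit hp in
lemma bdd_pow {f : ℍ → ℂ} (hf : IsBoundedAtImInfty f) (n : ℕ) : IsBoundedAtImInfty (f ^ n) := by
  induction n with
  | zero =>
    rw [pow_zero]
    exact Filter.const_boundedAtFilter _ (1 : ℂ)
  | succ n ih =>
    rw [pow_succ]
    exact ih.mul hf

lemma bdd_affine (a b e : ℤ) (ha : 0 < a) (he : 0 < e) (m : ℕ) (hm : a * (p : ℕ) = m * e) :
    IsBoundedAtImInfty (fun z => qh p z ^ m * jFun (affinePoint a b e ha he z)) := by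
  refine isBoundedAtImInfty_of_hasSum_qExpansion (hpos p) (c := CuspGen.affCoeff b e m) fun τ => ?_
  have := CuspGen.hasSum_jFun_affinePoint p hp.out.pos a b e ha he m hm τ
  simpa [smul_eq_mul, qh] using this

lemma bdd_rootZ_mul (b : ℤ) : IsBoundedAtImInfty (fun z => rootZ p b z * Δ z) := by
  have h1 := bdd_affine p 1 b p one_pos (pZ_pos p) 1 (by ring)
  have h : (fun z => rootZ p b z * Δ z) =
      (fun z => qh p z ^ 1 * jFun (affinePoint 1 b p one_pos (pZ_pos p) z)) *
        ((fun z => qh p z ^ (p - 1)) * etaP) := by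
    funext z
    have hp1 : qh p z ^ p = qh p z ^ (p - 1) * qh p z := by
      rw [← pow_succ, Nat.sub_add_cancel hp.out.one_le]
    simp only [Pi.mul_apply]
    rw [discriminant_eq_qh p, rootZ, hp1]
    ring
  rw [h]
  exact h1.mul ((bdd_qh_pow p (p - 1)).mul bdd_etaP)

lemma bdd_rootInf_mul : IsBoundedAtImInfty (fun z => rootInf p z * Δ z ^ p) := by
  have h1 := bdd_affine p p 0 1 (pZ_pos p) one_pos (p * p) (by push_cast; ring)
  have h : (fun z => rootInf p z * Δ z ^ p) =
      (fun z => qh p z ^ (p * p) * jFun (affinePoint p 0 1 (pZ_pos p) one_pos z)) *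
        (etaP ^ p) := by
    funext z
    simp only [Pi.mul_apply, Pi.pow_apply]
    rw [discriminant_eq_qh p, rootInf, mul_pow, ← pow_mul]
    ring
  rw [h]
  exact h1.mul (bdd_pow bdd_etaP p)

lemma bdd_sub_rootMod_mul (t : ℂ) (b : ZMod p) :
    IsBoundedAtImInfty (fun z => (t - rootMod p b z) * Δ z) := by
  have h : (fun z => (t - rootMod p b z) * Δ z) =
      (fun _ => t) * (fun z => Δ z) - (fun z => rootZ p (b.val : ℤ) z * Δ z) := by
    funext z
    simp only [Pi.mul_apply, Pi.sub_apply, rootMod]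
    ring
  rw [h]
  exact ((Filter.const_boundedAtFilter _ t).mul bdd_discriminant).sub (bdd_rootZ_mul p _)

lemma bdd_sub_rootInf_mul (t : ℂ) :
    IsBoundedAtImInfty (fun z => (t - rootInf p z) * Δ z ^ p) := by
  have h : (fun z => (t - rootInf p z) * Δ z ^ p) =
      (fun _ => t) * ((fun z => Δ z) ^ p) - (fun z => rootInf p z * Δ z ^ p) := by
    funext z
    simp only [Pi.mul_apply, Pi.sub_apply, Pi.pow_apply]
    ring
  rw [h]
  exact ((Filter.const_boundedAtFilter _ t).mul (bdd_pow bdd_discriminant p)).sub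
    (bdd_rootInf_mul p)

lemma bdd_Fprod_mul (t : ℂ) :
    IsBoundedAtImInfty (fun z => Fprod p t z * Δ z ^ (2 * p)) := by
  have h : (fun z => Fprod p t z * Δ z ^ (2 * p)) =
      (fun z => (t - rootInf p z) * Δ z ^ p) *
        ∏ b : ZMod p, (fun z => (t - rootMod p b z) * Δ z) := by
    funext z
    rw [Pi.mul_apply, Finset.prod_apply, Fprod_eq, Finset.prod_mul_distrib, Finset.prod_const,
      Finset.card_univ, ZMod.card, two_mul, pow_add]
    ring
  rw [h]
  refine (bdd_sub_rootInf_mul p t).mul ?_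
  refine Finset.prod_induction _ (fun f : ℍ → ℂ => IsBoundedAtImInfty f)
    (fun a b ha hb => ha.mul hb) (Filter.const_boundedAtFilter _ (1 : ℂ)) (fun b _ => ?_)
  exact bdd_sub_rootMod_mul p t b

/-- For every `t`, the function `F_t` is a polynomial in `j`. -/
theorem exists_poly_Fprod (t : ℂ) :
    ∃ P : Polynomial ℂ, ∀ z : ℍ, Fprod p t z = P.eval (jFun z) := by
  obtain ⟨P, -, hP⟩ := LevelOnePoly.exists_poly_j (F := Fprod p t) (mdiff_Fprod p t)
    (fun γ z => Fprod_smul p t γ z) (2 * p) (bdd_Fprod_mul p t)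
  exact ⟨P, hP⟩

end Family

/-! ### From "polynomial in `j` for every `t`" to a bivariate polynomial -/

section Bivariate

variable {ι : Type*} [Fintype ι] (r : ι → ℍ → ℂ)

/-- The monic polynomial `Q_z(X) = ∏ (X - r_i z)`. -/
def rootPolyAt (z : ℍ) : Polynomial ℂ := ∏ i : ι, (X - C (r i z))

lemma rootPolyAt_monic (z : ℍ) : (rootPolyAt r z).Monic :=
  monic_prod_of_monic _ _ fun _ _ => monic_X_sub_C _

lemma rootPolyAt_natDegree (z : ℍ) : (rootPolyAt r z).natDegree = Fintype.card ι := by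
  rw [rootPolyAt, natDegree_prod_of_monic _ _ fun i _ => monic_X_sub_C _]
  simp

lemma rootPolyAt_eval (z : ℍ) (t : ℂ) : (rootPolyAt r z).eval t = ∏ i : ι, (t - r i z) := by
  rw [rootPolyAt, eval_prod]
  simp

lemma exists_poly_coeff
    (h : ∀ t : ℂ, ∃ P : Polynomial ℂ, ∀ z : ℍ, ∏ i : ι, (t - r i z) = P.eval (jFun z)) (m : ℕ) :
    ∃ E : Polynomial ℂ, ∀ z : ℍ, (rootPolyAt r z).coeff m = E.eval (jFun z) := by
  classical
  choose P hP using h
  set n := Fintype.card ι
  set s : Finset ℕ := Finset.range (n + 1)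
  set v : ℕ → ℂ := fun i => (i : ℂ)
  have hv : Set.InjOn v s := fun a _ b _ h => Nat.cast_injective h
  refine ⟨∑ i ∈ s, C ((Lagrange.basis s v i).coeff m) * P (v i), fun z => ?_⟩
  have hdeg : (rootPolyAt r z).degree < s.card := by
    rw [Finset.card_range, degree_eq_natDegree (rootPolyAt_monic r z).ne_zero,
      rootPolyAt_natDegree]
    exact_mod_cast Nat.lt_succ_self n
  have h := Lagrange.eq_interpolate hv hdeg
  rw [Lagrange.interpolate_apply] at h
  conv_lhs => rw [h]
  rw [finsetSum_coeff, eval_finsetSum]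
  refine Finset.sum_congr rfl fun i _ => ?_
  rw [coeff_C_mul, eval_mul, eval_C, rootPolyAt_eval, hP, mul_comm]

/-- The bivariate polynomial. -/
theorem exists_bivariate
    (h : ∀ t : ℂ, ∃ P : Polynomial ℂ, ∀ z : ℍ, ∏ i : ι, (t - r i z) = P.eval (jFun z)) :
    ∃ Φ : Polynomial (Polynomial ℂ), Φ.Monic ∧ Φ.natDegree = Fintype.card ι ∧
      ∀ z : ℍ, Φ.map (Polynomial.evalRingHom (jFun z)) = rootPolyAt r z := by
  classical
  choose E hE using exists_poly_coeff r h
  set n := Fintype.card ι with hn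
  set R : Polynomial (Polynomial ℂ) := ∑ m ∈ Finset.range n, C (E m) * X ^ m with hR
  have hRdeg : R.degree < n := by
    refine (degree_sum_le _ _).trans_lt ?_
    rw [Finset.sup_lt_iff (by exact_mod_cast WithBot.bot_lt_coe n)]
    intro m hm
    refine (degree_C_mul_X_pow_le m (E m)).trans_lt ?_
    exact_mod_cast Finset.mem_range.mp hm
  refine ⟨X ^ n + R, monic_X_pow_add hRdeg, ?_, fun z => ?_⟩
  · rw [natDegree_add_eq_left_of_degree_lt (by rwa [degree_X_pow]), natDegree_X_pow]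
  · have hmonic := rootPolyAt_monic r z
    have hnat := rootPolyAt_natDegree r z
    conv_rhs => rw [hmonic.as_sum, hnat]
    rw [Polynomial.map_add, Polynomial.map_pow, Polynomial.map_X, hR, Polynomial.map_sum]
    congr 1
    refine Finset.sum_congr rfl fun m _ => ?_
    rw [Polynomial.map_mul, Polynomial.map_C, Polynomial.map_pow, Polynomial.map_X,
      Polynomial.coe_evalRingHom, hE]

end Bivariate

section Main

variable (p : ℕ) [hp : Fact p.Prime]

/-- **Block A, analytic form.** There is a monic `Φ ∈ ℂ[Y][X]` of degree `p + 1` with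
`Φ(X, j(z)) = (X - j(p z)) ∏_b (X - j((z + b) / p))` for all `z ∈ ℍ`. -/
theorem exists_modPoly_analytic :
    ∃ Φ : Polynomial (Polynomial ℂ), Φ.Monic ∧ Φ.natDegree = p + 1 ∧
      ∀ z : ℍ, Φ.map (Polynomial.evalRingHom (jFun z)) =
        ∏ i : Option (ZMod p), (X - C (root p i z)) := by
  obtain ⟨Φ, hmonic, hdeg, hΦ⟩ := exists_bivariate (root p) (exists_poly_Fprod p)
  refine ⟨Φ, hmonic, ?_, hΦ⟩
  rw [hdeg, Fintype.card_option, ZMod.card]

end Main

end Fermat.Agent.S28.ModPolyAnalytic
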