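import Mathlib
import Fermat.Agent.S28.ModPolyAnalytic
import Fermat.Agent.S28.ScaleVar

/-!
# S28, block A: the modular polynomial of prime level as a formal identity over `ℂ`

`Φ(X, J(v^p)) = (X - J(v^(p^2))) ∏_{b < p} (X - J(ζ^b v))` in `ℂ((v))[X]`, `J = jqModC ℂ`,
`ζ = exp(2πi/p)`, obtained from the analytic identity through the Laurent expansion at the cusp
`i∞` of width `p`.
-/

set_option autoImplicit false

open UpperHalfPlane Complex Polynomial ModularCurve
open scoped Real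

noncomputable section

namespace Fermat.Agent.S28.ModPolyComplex

open Fermat.Agent.S24 Fermat.Agent.S24.Hermite Fermat.Agent.S24.CuspExpansion
open Fermat.Agent.S28.ModPolyAnalytic Fermat.Agent.S28.ScaleVar

variable (p : ℕ) [hp : Fact p.Prime]

/-- `ζ = exp(2πi/p)` as a unit of `ℂ`. -/
def zetaC : ℂˣ := Units.mk0 (Complex.exp (2 * π * Complex.I / p)) (Complex.exp_ne_zero _)

omit hp in
lemma coe_zetaC : ((zetaC p : ℂˣ) : ℂ) = Complex.exp (2 * π * Complex.I / p) := rfl

lemma zetaC_isPrimitiveRoot : IsPrimitiveRoot ((zetaC p : ℂˣ) : ℂ) p :=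
  Complex.isPrimitiveRoot_exp p hp.out.ne_zero

lemma cuspLaurent_one_jFun : cuspLaurent 1 jFun = jqModC ℂ := by
  rw [CuspGen.merAtCusp_jFun.2, ← jqModC_rat, coeffMap_jqModC]

lemma cuspLaurent_jFun : cuspLaurent p jFun = qExpand ℂ p (jqModC ℂ) := by
  rw [CuspGen.cuspLaurent_jFun p, ← jqModC_rat, coeffMap_jqModC]

lemma merAtCusp_rootInf :
    MerAtCusp p (rootInf p) ∧ cuspLaurent p (rootInf p) = qExpand ℂ (p ^ 2) (jqModC ℂ) := by
  have hφ : ∀ τ : ℍ, ((affinePoint p 0 1 (pZ_pos p) one_pos τ : ℍ) : ℂ) =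
      ((p : ℂ) * (τ : ℂ) + ((0 : ℤ) : ℂ)) / ((1 : ℕ) : ℂ) := by
    intro τ
    rw [coe_affinePoint]
    push_cast
    ring
  have key := MerAtCusp.comp_affine (h₁ := 1) (h := p) (a := p) (d := 1) (e := p ^ 2) (b := 0)
    (φ := affinePoint p 0 1 (pZ_pos p) one_pos) CuspGen.merAtCusp_jFun.1 one_pos
    (pow_pos hp.out.pos 2) (by ring) hφ
  refine ⟨key.1, ?_⟩
  ext k
  have hω : omega 0 1 1 = 1 := by simp [omega]
  have h2 := key.2 k
  rw [hω, cuspLaurent_one_jFun] at h2
  have h3 : cuspLaurent p (rootInf p) = cuspLaurent p (jFun ∘ affinePoint p 0 1 (pZ_pos p) one_pos) :=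
    rfl
  rw [h3, h2]
  by_cases hk : ((p ^ 2 : ℕ) : ℤ) ∣ k
  · obtain ⟨j, rfl⟩ := hk
    have hne : ((p ^ 2 : ℕ) : ℤ) ≠ 0 := by
      exact_mod_cast (pow_pos hp.out.pos 2).ne'
    rw [if_pos (dvd_mul_right _ _), Int.mul_ediv_cancel_left _ hne, qExpand_coeff_mul, one_zpow,
      one_mul]
  · rw [if_neg hk, qExpand_coeff_of_not_dvd _ _ hk]

omit hp in
lemma omega_eq (β : ℤ) : omega β p 1 = (((zetaC p) ^ β : ℂˣ) : ℂ) := by
  rw [Units.val_zpow_eq_zpow_val, coe_zetaC, ← Complex.exp_int_mul, omega]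
  congr 1
  push_cast
  ring

lemma merAtCusp_rootZ (β : ℤ) :
    MerAtCusp p (rootZ p β) ∧ cuspLaurent p (rootZ p β) = scaleVar (zetaC p ^ β) (jqModC ℂ) := by
  have hφ : ∀ τ : ℍ, ((affinePoint 1 β p one_pos (pZ_pos p) τ : ℍ) : ℂ) =
      (((1 : ℕ) : ℂ) * (τ : ℂ) + (β : ℂ)) / ((p : ℕ) : ℂ) := by
    intro τ
    rw [coe_affinePoint]
    push_cast
    ring
  have key := MerAtCusp.comp_affine (h₁ := 1) (h := p) (a := 1) (d := p) (e := 1) (b := β)
    (φ := affinePoint 1 β p one_pos (pZ_pos p)) CuspGen.merAtCusp_jFun.1 hp.out.pos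
    one_pos (by ring) hφ
  refine ⟨key.1, ?_⟩
  ext k
  have h2 := key.2 k
  rw [cuspLaurent_one_jFun, omega_eq] at h2
  have h3 : cuspLaurent p (rootZ p β) =
      cuspLaurent p (jFun ∘ affinePoint 1 β p one_pos (pZ_pos p)) := rfl
  rw [h3, h2, if_pos (by simp), scaleVar_coeff]
  simp only [Nat.cast_one, Int.ediv_one]
  rw [← Units.val_zpow_eq_zpow_val, ← zpow_mul]

lemma merAtCusp_root (i : Option (ZMod p)) : MerAtCusp p (root p i) := by
  cases i with
  | none => exact (merAtCusp_rootInf p).1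
  | some b => exact (merAtCusp_rootZ p _).1

/-- `j` as an element of the algebra of functions meromorphic at the cusp of width `p`. -/
def jEl : merCuspAlg p := ⟨jFun, CuspGen.merAtCusp_jFun_width p⟩

/-- The roots as elements of the algebra of functions meromorphic at the cusp of width `p`. -/
def rootEl (i : Option (ZMod p)) : merCuspAlg p := ⟨root p i, merAtCusp_root p i⟩

/-- Evaluation at a point of `ℍ`, as a ring homomorphism on `merCuspAlg p`. -/
def evPt (z : ℍ) : merCuspAlg p →+* ℂ :=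
  (Pi.evalRingHom (fun _ : ℍ => ℂ) z).comp (merCuspAlg p).val.toRingHom

lemma evPt_apply (z : ℍ) (f : merCuspAlg p) : evPt p z f = (f : ℍ → ℂ) z := rfl

lemma poly_ext_evPt {P Q : Polynomial (merCuspAlg p)}
    (h : ∀ z : ℍ, P.map (evPt p z) = Q.map (evPt p z)) : P = Q := by
  ext n : 1
  apply Subtype.ext
  funext z
  have := congrArg (fun R : Polynomial ℂ => R.coeff n) (h z)
  simpa [coeff_map, evPt_apply] using this

/-- `ℂ[Y] → merCuspAlg p`, `Y ↦ j`. -/
def toFunAlg : Polynomial ℂ →+* merCuspAlg p :=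
  Polynomial.eval₂RingHom (algebraMap ℂ (merCuspAlg p)) (jEl p)

lemma evPt_comp_toFunAlg (z : ℍ) :
    (evPt p z).comp (toFunAlg p) = Polynomial.evalRingHom (jFun z) := by
  refine Polynomial.ringHom_ext (fun c => ?_) ?_
  · simp only [RingHom.comp_apply, toFunAlg, Polynomial.coe_eval₂RingHom, Polynomial.eval₂_C,
      Polynomial.coe_evalRingHom, Polynomial.eval_C]
    rfl
  · simp only [RingHom.comp_apply, toFunAlg, Polynomial.coe_eval₂RingHom, Polynomial.eval₂_X,
      Polynomial.coe_evalRingHom, Polynomial.eval_X]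
    rfl

/-- The identity in the algebra of functions. -/
theorem identity_fun {Φ : Polynomial (Polynomial ℂ)}
    (hΦ : ∀ z : ℍ, Φ.map (Polynomial.evalRingHom (jFun z)) =
        ∏ i : Option (ZMod p), (X - C (root p i z))) :
    Φ.map (toFunAlg p) = ∏ i : Option (ZMod p), (X - C (rootEl p i)) := by
  refine poly_ext_evPt p fun z => ?_
  rw [Polynomial.map_map, evPt_comp_toFunAlg, hΦ z, Polynomial.map_prod]
  refine Finset.prod_congr rfl fun i _ => ?_
  rw [Polynomial.map_sub, Polynomial.map_X, Polynomial.map_C]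
  rfl

/-- `ℂ[Y] → ℂ((v))`, `Y ↦ x`, constants via `HahnSeries.C`. -/
def evalAt {R : Type*} [CommRing R] (x : LaurentSeries R) : Polynomial R →+* LaurentSeries R :=
  Polynomial.eval₂RingHom (HahnSeries.C : R →+* LaurentSeries R) x

lemma cuspLaurent_comp_toFunAlg :
    (cuspLaurentRingHom p).comp (toFunAlg p) = evalAt (qExpand ℂ p (jqModC ℂ)) := by
  refine Polynomial.ringHom_ext (fun c => ?_) ?_
  · simp only [RingHom.comp_apply, toFunAlg, evalAt, Polynomial.coe_eval₂RingHom,
      Polynomial.eval₂_C, cuspLaurentRingHom_apply]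
    exact cuspLaurent_const c
  · simp only [RingHom.comp_apply, toFunAlg, evalAt, Polynomial.coe_eval₂RingHom,
      Polynomial.eval₂_X, cuspLaurentRingHom_apply]
    exact cuspLaurent_jFun p

/-- **Block A over `ℂ`.** -/
theorem exists_modPoly_complex :
    ∃ Φ : Polynomial (Polynomial ℂ), Φ.Monic ∧ Φ.natDegree = p + 1 ∧
      Φ.map (evalAt (qExpand ℂ p (jqModC ℂ))) =
        (X - C (qExpand ℂ (p ^ 2) (jqModC ℂ))) *
          ∏ b ∈ Finset.range p, (X - C (scaleVar (zetaC p ^ b) (jqModC ℂ))) := by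
  obtain ⟨Φ, hmonic, hdeg, hΦ⟩ := exists_modPoly_analytic p
  refine ⟨Φ, hmonic, hdeg, ?_⟩
  have h1 := congrArg (Polynomial.map (cuspLaurentRingHom p)) (identity_fun p hΦ)
  rw [Polynomial.map_map, cuspLaurent_comp_toFunAlg, Polynomial.map_prod,
    Fintype.prod_option] at h1
  rw [h1]
  congr 1
  · rw [Polynomial.map_sub, Polynomial.map_X, Polynomial.map_C]
    congr 2
    exact (merAtCusp_rootInf p).2
  · have h2 : ∀ b : ZMod p, Polynomial.map (cuspLaurentRingHom p) (X - C (rootEl p (some b))) =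
        X - C (scaleVar (zetaC p ^ b.val) (jqModC ℂ)) := by
      intro b
      rw [Polynomial.map_sub, Polynomial.map_X, Polynomial.map_C]
      congr 2
      have := (merAtCusp_rootZ p (b.val : ℤ)).2
      rw [zpow_natCast] at this
      exact this
    simp_rw [h2]
    refine Finset.prod_nbij' (fun b : ZMod p => b.val) (fun n : ℕ => (n : ZMod p)) ?_ ?_ ?_ ?_ ?_
    · intro b _
      exact Finset.mem_range.mpr (ZMod.val_lt b)
    · intro n _
      exact Finset.mem_univ _
    · intro b _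
      exact ZMod.natCast_zmod_val b
    · intro n hn
      exact ZMod.val_natCast_of_lt (Finset.mem_range.mp hn)
    · intro b _
      rfl

end Fermat.Agent.S28.ModPolyComplex
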