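import Mathlib
import Fermat.Agent.S28.ModPolyComplex
import Fermat.Agent.S28.ModEqOfComplex

/-!
# S28, block A closed: `Interfaces.ModEqStatement`

The modular equation of prime level over `ℂ` (`ModPolyComplex.exists_modPoly_complex`, analytic)
plugged into the descent / base change bridge (`ModEqOfComplex.modEqStatement_of_complex'`).
-/

set_option autoImplicit false

namespace Fermat.Agent.S28.ModEqInst

open ModularCurve Polynomial
open Fermat.Agent.S28.ScaleVar Fermat.Agent.S28.ModPolyComplex Fermat.Agent.S28.ModPolyDescent

/-- **Block A.** The modular equation of prime level `p` over every field with a primitive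
`p`-th root of unity. -/
theorem modEq : Fermat.Agent.S28.Interfaces.ModEqStatement := by
  apply Fermat.Agent.S28.ModEqOfComplex.modEqStatement_of_complex'
  intro p _ hp
  have : Fact p.Prime := ⟨hp⟩
  obtain ⟨Φ, hmonic, hdeg, hΦ⟩ := exists_modPoly_complex p
  refine ⟨zetaC p, zetaC_isPrimitiveRoot p, Φ, hmonic, hdeg, ?_⟩
  rw [aeval_toRingHom_eq]
  exact hΦ

end Fermat.Agent.S28.ModEqInst
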