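/-
S28 / block (B), polynomial bookkeeping ("denominator lemma").

`hom2 a n x y = ∑_{i ≤ n} a_i x^i y^(n-i)` is the homogenisation of a polynomial `a` evaluated at
`(x, y)` in a commutative `k`-algebra.  If `x, y` are coprime and the extreme coefficients of `a`
are nonzero, `hom2 a n x y` is coprime to `x` and to `y`.  Consequence (`key`): a polynomial
identity `r̃ · R₁ · R₂^(n-1) = X^d · hom2 a n R₁ R₂` with `R₁, R₂` coprime forces
`R₁ = c₁ X^e₁`, `R₂ = c₂ X^e₂` with `e₁ = 0 ∨ e₂ = 0`.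
-/
import Mathlib

set_option autoImplicit false

namespace Fermat.Agent.S28.PrimeCaseRat

open Polynomial

variable {k : Type*} [Field k]

/-- `∑_{i ≤ n} a_i x^i y^(n-i)`. -/
noncomputable def hom2 {S : Type*} [CommRing S] [Algebra k S] (a : k[X]) (n : ℕ) (x y : S) : S :=
  ∑ i ∈ Finset.range (n + 1), algebraMap k S (a.coeff i) * x ^ i * y ^ (n - i)

section basic

variable {S : Type*} [CommRing S] [Algebra k S]

theorem hom2_mul (a : k[X]) (n : ℕ) (hn : a.natDegree ≤ n) (w y : S) :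
    hom2 a n (w * y) y = y ^ n * aeval w a := by
  rw [hom2, aeval_eq_sum_range' (Nat.lt_succ_of_le hn), Finset.mul_sum]
  refine Finset.sum_congr rfl fun i hi => ?_
  have hi' : i ≤ n := Nat.lt_succ_iff.mp (Finset.mem_range.mp hi)
  have : y ^ n = y ^ i * y ^ (n - i) := by rw [← pow_add, Nat.add_sub_cancel' hi']
  rw [this, mul_pow, Algebra.smul_def]
  ring

theorem map_hom2 {S' : Type*} [CommRing S'] [Algebra k S'] (φ : S →ₐ[k] S') (a : k[X]) (n : ℕ)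
    (x y : S) : φ (hom2 a n x y) = hom2 a n (φ x) (φ y) := by
  simp only [hom2, map_sum, map_mul, map_pow, AlgHom.commutes]

theorem hom2_eq_add_mul_left (a : k[X]) (n : ℕ) (x y : S) :
    ∃ t : S, hom2 a n x y = algebraMap k S (a.coeff 0) * y ^ n + x * t := by
  refine ⟨∑ i ∈ Finset.range n, algebraMap k S (a.coeff (i + 1)) * x ^ i * y ^ (n - (i + 1)), ?_⟩
  rw [hom2, Finset.sum_range_succ', Finset.mul_sum, add_comm]
  congr 1
  · simp
  · refine Finset.sum_congr rfl fun i _ => ?_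
    rw [pow_succ]; ring

theorem hom2_eq_add_mul_right (a : k[X]) (n : ℕ) (x y : S) :
    ∃ t : S, hom2 a n x y = algebraMap k S (a.coeff n) * x ^ n + y * t := by
  refine ⟨∑ i ∈ Finset.range n, algebraMap k S (a.coeff i) * x ^ i * y ^ (n - i - 1), ?_⟩
  rw [hom2, Finset.sum_range_succ, Finset.mul_sum, add_comm]
  congr 1
  · simp
  · refine Finset.sum_congr rfl fun i hi => ?_
    have hi' : i < n := Finset.mem_range.mp hi
    have : y ^ (n - i) = y * y ^ (n - i - 1) := by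
      rw [← pow_succ']; congr 1; omega
    rw [this]; ring

theorem isCoprime_hom2_left (a : k[X]) (n : ℕ) {x y : S} (h : IsCoprime x y)
    (ha : a.coeff 0 ≠ 0) : IsCoprime (hom2 a n x y) x := by
  obtain ⟨t, ht⟩ := hom2_eq_add_mul_left a n x y
  rw [ht]
  apply IsCoprime.add_mul_left_left
  have hu : IsUnit (algebraMap k S (a.coeff 0)) := (IsUnit.mk0 _ ha).map _
  exact (isCoprime_mul_unit_left_left hu _ _).mpr (h.symm.pow_left)

theorem isCoprime_hom2_right (a : k[X]) (n : ℕ) {x y : S} (h : IsCoprime x y)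
    (ha : a.coeff n ≠ 0) : IsCoprime (hom2 a n x y) y := by
  obtain ⟨t, ht⟩ := hom2_eq_add_mul_right a n x y
  rw [ht]
  apply IsCoprime.add_mul_left_left
  have hu : IsUnit (algebraMap k S (a.coeff n)) := (IsUnit.mk0 _ ha).map _
  exact (isCoprime_mul_unit_left_left hu _ _).mpr (h.pow_left)

end basic

/-- A divisor of `X ^ d` in `k[X]` is `c X^e`. -/
theorem eq_C_mul_X_pow_of_dvd {R : k[X]} {d : ℕ} (h : R ∣ X ^ d) :
    ∃ (e : ℕ) (c : k), c ≠ 0 ∧ R = C c * X ^ e := by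
  obtain ⟨e, -, hass⟩ := (dvd_prime_pow (prime_X (R := k)) d).mp h
  obtain ⟨u, hu⟩ := hass.symm
  obtain ⟨c, hc, hcu⟩ := Polynomial.isUnit_iff.mp u.isUnit
  refine ⟨e, c, hc.ne_zero, ?_⟩
  rw [← hu, ← hcu]; ring

/-- **Denominator lemma.** -/
theorem key (a R₁ R₂ T : k[X]) (n d : ℕ) (hn : 2 ≤ n) (ha0 : a.coeff 0 ≠ 0)
    (han : a.coeff n ≠ 0) (hcop : IsCoprime R₁ R₂)
    (hid : T * R₁ * R₂ ^ (n - 1) = X ^ d * hom2 a n R₁ R₂) :
    ∃ (e₁ e₂ : ℕ) (c₁ c₂ : k), c₁ ≠ 0 ∧ c₂ ≠ 0 ∧ R₁ = C c₁ * X ^ e₁ ∧ R₂ = C c₂ * X ^ e₂ ∧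
      (e₁ = 0 ∨ e₂ = 0) := by
  set A := hom2 a n R₁ R₂ with hA
  have hc1 : IsCoprime A R₁ := isCoprime_hom2_left a n hcop ha0
  have hc2 : IsCoprime A R₂ := isCoprime_hom2_right a n hcop han
  have hc : IsCoprime (R₁ * R₂ ^ (n - 1)) A := (hc1.mul_right hc2.pow_right).symm
  have hdvd : R₁ * R₂ ^ (n - 1) ∣ X ^ d * A := ⟨T, by rw [← hid]; ring⟩
  have hdvd' : R₁ * R₂ ^ (n - 1) ∣ X ^ d := hc.dvd_of_dvd_mul_right hdvd
  have h1 : R₁ ∣ X ^ d := (Dvd.intro _ rfl).trans hdvd'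
  have h2 : R₂ ∣ X ^ d := by
    refine Dvd.dvd.trans ?_ ((Dvd.intro_left _ rfl).trans hdvd')
    exact dvd_pow_self R₂ (by omega)
  obtain ⟨e₁, c₁, hc₁, hR₁⟩ := eq_C_mul_X_pow_of_dvd h1
  obtain ⟨e₂, c₂, hc₂, hR₂⟩ := eq_C_mul_X_pow_of_dvd h2
  refine ⟨e₁, e₂, c₁, c₂, hc₁, hc₂, hR₁, hR₂, ?_⟩
  by_contra hcon
  rw [not_or] at hcon
  have hX1 : (X : k[X]) ∣ R₁ := by
    rw [hR₁]; exact Dvd.dvd.mul_left (dvd_pow_self X hcon.1) _
  have hX2 : (X : k[X]) ∣ R₂ := by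
    rw [hR₂]; exact Dvd.dvd.mul_left (dvd_pow_self X hcon.2) _
  exact not_isUnit_X (hcop.isUnit_of_dvd' hX1 hX2)

end Fermat.Agent.S28.PrimeCaseRat
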