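/-
S28 / block (B2) of route 890, abstract form.

`k` a field, `J h : k((q))`, `h = q * f(q)` with `f ∈ 1 + q k[[q]]`, `f ≠ 1`,
`J * h = a(h)` with `a ∈ k[X]` of degree `m + 1`, `a(0) ≠ 0`; `V_m J * h^m = b(h)`;
`h ∈ k(J, V_m J)`.  Then for every `p ≥ 2` with `(p : k) ≠ 0` there is NO polynomial `r` with
`V_p J = r(J)`  (`V_d = qExpand k d : q ↦ q^d`).  No primality of `p`, no `p ≠ m` needed.
-/
import Mathlib
import Fermat.Prelude.Def_ModularCurve_X0ModL
import Fermat.Agent.S28.PrimeCaseFrob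
import Fermat.Agent.S28.PrimeCaseRat

set_option autoImplicit false

namespace Fermat.Agent.S28.PrimeCaseB2

open Polynomial ModularCurve IntermediateField
open Fermat.Agent.S28.PrimeCaseRat Fermat.Agent.S28.PrimeCaseFrob

variable {k : Type*} [Field k]

/-- `ofPowerSeries` as a `k`-algebra hom for the algebra instance used on `LaurentSeries k`. -/
noncomputable def ofPSAlg : PowerSeries k →ₐ[k] LaurentSeries k :=
  { HahnSeries.ofPowerSeries ℤ k with commutes' := fun _ => rfl }

theorem ofPSAlg_apply (f : PowerSeries k) : ofPSAlg f = HahnSeries.ofPowerSeries ℤ k f := rfl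

theorem ofPSAlg_injective : Function.Injective (ofPSAlg (k := k)) :=
  HahnSeries.ofPowerSeries_injective

/-- A nonzero power series with zero constant coefficient is transcendental over `k`. -/
theorem transcendental_of_constantCoeff_eq_zero {t : PowerSeries k} (ht : t ≠ 0)
    (h0 : PowerSeries.constantCoeff t = 0) : Transcendental k t := by
  intro halg
  have hu : IsUnit t := halg.isIntegral.isUnit ht
  have := PowerSeries.isUnit_iff_constantCoeff.mp hu
  rw [h0] at this
  exact not_isUnit_zero this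

/-- The "Hauptmodul" `q * f(q)`, `f(0) ≠ 0`, is transcendental over `k`. -/
theorem transcendental_hauptmodul (f : PowerSeries k) (hf0 : PowerSeries.constantCoeff f ≠ 0) :
    Transcendental k (HahnSeries.single (1 : ℤ) (1 : k) * HahnSeries.ofPowerSeries ℤ k f) := by
  have hf : f ≠ 0 := fun h => hf0 (by rw [h, map_zero])
  have ht : Transcendental k (PowerSeries.X * f : PowerSeries k) :=
    transcendental_of_constantCoeff_eq_zero (mul_ne_zero PowerSeries.X_ne_zero hf) (by simp)
  have : HahnSeries.single (1 : ℤ) (1 : k) * HahnSeries.ofPowerSeries ℤ k f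
      = ofPSAlg (PowerSeries.X * f) := by
    rw [ofPSAlg_apply, map_mul, HahnSeries.ofPowerSeries_X]
  rw [this]
  intro halg
  exact ht ((isAlgebraic_algHom_iff ofPSAlg ofPSAlg_injective).mp halg)

/-- Reduce a fraction of polynomials to lowest terms. -/
theorem exists_coprime_factor (R₁ R₂ : k[X]) (h2 : R₂ ≠ 0) :
    ∃ g S₁ S₂ : k[X], g ≠ 0 ∧ R₁ = g * S₁ ∧ R₂ = g * S₂ ∧ IsCoprime S₁ S₂ := by
  classical
  set g := EuclideanDomain.gcd R₁ R₂ with hg
  have hg0 : g ≠ 0 := fun h => h2 (EuclideanDomain.gcd_eq_zero_iff.mp h).2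
  obtain ⟨S₁, hS₁⟩ := EuclideanDomain.gcd_dvd_left R₁ R₂
  obtain ⟨S₂, hS₂⟩ := EuclideanDomain.gcd_dvd_right R₁ R₂
  refine ⟨g, S₁, S₂, hg0, hS₁, hS₂, ?_⟩
  have hb := EuclideanDomain.gcd_eq_gcd_ab R₁ R₂
  refine ⟨EuclideanDomain.gcdA R₁ R₂, EuclideanDomain.gcdB R₁ R₂, ?_⟩
  apply mul_left_cancel₀ hg0
  calc g * (EuclideanDomain.gcdA R₁ R₂ * S₁ + EuclideanDomain.gcdB R₁ R₂ * S₂)
      = (g * S₁) * EuclideanDomain.gcdA R₁ R₂ + (g * S₂) * EuclideanDomain.gcdB R₁ R₂ := by ring
    _ = g * 1 := by rw [← hS₁, ← hS₂, ← hb, mul_one]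

/-- Comparing `q^a u = q^b v` for power series `u, v` with nonzero constant coefficients. -/
theorem single_mul_ofPowerSeries_inj {a b : ℤ} {u v : PowerSeries k}
    (hu : PowerSeries.constantCoeff u ≠ 0) (hv : PowerSeries.constantCoeff v ≠ 0)
    (h : HahnSeries.single a (1 : k) * HahnSeries.ofPowerSeries ℤ k u =
      HahnSeries.single b (1 : k) * HahnSeries.ofPowerSeries ℤ k v) : a = b ∧ u = v := by
  have key : ∀ {a b : ℤ} {u v : PowerSeries k}, PowerSeries.constantCoeff u ≠ 0 →
      HahnSeries.single a (1 : k) * HahnSeries.ofPowerSeries ℤ k u =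
      HahnSeries.single b (1 : k) * HahnSeries.ofPowerSeries ℤ k v → ¬ a < b := by
    intro a b u v hu h hab
    have h1 := congrArg (fun x => HahnSeries.coeff x (0 + a)) h
    simp only [HahnSeries.coeff_single_mul_add] at h1
    have h2 : (HahnSeries.single b (1 : k) * HahnSeries.ofPowerSeries ℤ k v).coeff (0 + a) = 0 := by
      have : (0 : ℤ) + a = (a - b) + b := by ring
      rw [this, HahnSeries.coeff_single_mul_add, ofPowerSeries_coeff_of_neg _ (by omega), mul_zero]
    rw [h2, one_mul] at h1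
    apply hu
    have h3 : (HahnSeries.ofPowerSeries ℤ k u).coeff ((0 : ℕ) : ℤ) = 0 := by simpa using h1
    rwa [HahnSeries.ofPowerSeries_apply_coeff, PowerSeries.coeff_zero_eq_constantCoeff_apply] at h3
  have hab : a = b := le_antisymm (not_lt.mp (key hv h.symm)) (not_lt.mp (key hu h))
  subst hab
  refine ⟨rfl, ?_⟩
  have hs : HahnSeries.single a (1 : k) ≠ 0 := by simp
  exact HahnSeries.ofPowerSeries_injective (mul_left_cancel₀ hs h)


theorem aeval_mem_of_mem {E : Type*} [Field E] [Algebra k E] (K : IntermediateField k E) {x : E}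
    (hx : x ∈ K) (r : k[X]) : aeval x r ∈ K := by
  rw [aeval_eq_sum_range]
  exact sum_mem fun i _ => K.smul_mem (pow_mem hx i)

section main

variable (m p : ℕ) [NeZero m] [NeZero p]

/-- **Block (B2), abstract form.** -/
theorem false_of_qExpand_eq_aeval (hp : 2 ≤ p) (hpk : (p : k) ≠ 0)
    (J : LaurentSeries k) (f : PowerSeries k) (hf0 : PowerSeries.constantCoeff f = 1)
    (hf1 : f ≠ 1) (a b : k[X]) (ha : a.natDegree = m + 1) (ha0 : a.coeff 0 ≠ 0)
    (h1 : J * (HahnSeries.single (1 : ℤ) (1 : k) * HahnSeries.ofPowerSeries ℤ k f) =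
      aeval (HahnSeries.single (1 : ℤ) (1 : k) * HahnSeries.ofPowerSeries ℤ k f) a)
    (h2 : qExpand k m J * (HahnSeries.single (1 : ℤ) (1 : k) * HahnSeries.ofPowerSeries ℤ k f) ^ m =
      aeval (HahnSeries.single (1 : ℤ) (1 : k) * HahnSeries.ofPowerSeries ℤ k f) b)
    (HM : (HahnSeries.single (1 : ℤ) (1 : k) * HahnSeries.ofPowerSeries ℤ k f) ∈
      IntermediateField.adjoin k {J, qExpand k m J})
    (r : k[X]) (hr : qExpand k p J = aeval J r) : False := by
  set F : LaurentSeries k := HahnSeries.ofPowerSeries ℤ k f with hF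
  set h : LaurentSeries k := HahnSeries.single (1 : ℤ) (1 : k) * F with hh
  have hm1 : 1 ≤ m := Nat.pos_of_ne_zero (NeZero.ne m)
  have hf0' : PowerSeries.constantCoeff f ≠ 0 := by rw [hf0]; exact one_ne_zero
  have htr : Transcendental k h := transcendental_hauptmodul f hf0'
  have hinj : Function.Injective (aeval h : k[X] → LaurentSeries k) :=
    transcendental_iff_injective.mp htr
  have hh0 : h ≠ 0 := by
    intro h0
    apply htr
    rw [h0]
    exact isAlgebraic_zero
  -- J and V_m J lie in k(h)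
  have hJmem : J ∈ IntermediateField.adjoin k {h} := by
    have : J = aeval h a / aeval h (X : k[X]) := by
      rw [aeval_X, ← h1, mul_div_cancel_right₀ _ hh0]
    rw [this]
    exact (mem_adjoin_simple_iff k _).mpr ⟨a, X, rfl⟩
  have hJm_mem : qExpand k m J ∈ IntermediateField.adjoin k {h} := by
    have : qExpand k m J = aeval h b / aeval h ((X : k[X]) ^ m) := by
      rw [map_pow, aeval_X, ← h2, mul_div_cancel_right₀ _ (pow_ne_zero _ hh0)]
    rw [this]
    exact (mem_adjoin_simple_iff k _).mpr ⟨b, X ^ m, rfl⟩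
  -- W := V_p h lies in k(h)
  set φ : LaurentSeries k →ₐ[k] LaurentSeries k := qExpandAlgHomC k p with hφ
  have hφapp : ∀ x, φ x = qExpand k p x := fun x => rfl
  set W : LaurentSeries k := φ h with hW
  have hWmem : W ∈ IntermediateField.adjoin k {h} := by
    have hmap : W ∈ (IntermediateField.adjoin k {J, qExpand k m J}).map φ :=
      ⟨h, HM, rfl⟩
    rw [IntermediateField.adjoin_map] at hmap
    refine (IntermediateField.adjoin_le_iff.mpr ?_) hmap
    rintro x ⟨y, hy, rfl⟩
    rcases hy with rfl | rfl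
    · -- φ J = r(J)
      show φ y ∈ _
      rw [hφapp, hr]
      exact aeval_mem_of_mem _ hJmem r
    · -- φ (V_m J) = V_m (V_p J) = r (V_m J)
      show φ (qExpand k m J) ∈ _
      have : φ (qExpand k m J) = aeval (qExpand k m J) r := by
        rw [hφapp, qExpand_qExpand, qExpand_congr (mul_comm p m), ← qExpand_qExpand, hr]
        have := Polynomial.aeval_algHom_apply (qExpandAlgHomC k m) J r
        simpa using this.symm
      rw [this]
      exact aeval_mem_of_mem _ hJm_mem r
  -- W ≠ 0 and W = R₁(h) / R₂(h) in lowest terms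
  have hW0 : W ≠ 0 := by
    intro h0
    apply hh0
    apply qExpand_injective (R := k) p
    rw [map_zero]
    exact h0
  obtain ⟨R₁', R₂', hWR⟩ := (mem_adjoin_simple_iff k _).mp hWmem
  have hR₂' : aeval h R₂' ≠ 0 := by
    intro h0
    rw [h0, div_zero] at hWR
    exact hW0 hWR
  have hR₂'0 : R₂' ≠ 0 := by
    rintro rfl
    simp at hR₂'
  obtain ⟨g, R₁, R₂, hg0, hgR₁, hgR₂, hcop⟩ := exists_coprime_factor R₁' R₂' hR₂'0
  have hgh : aeval h g ≠ 0 := fun h0 => hg0 (hinj (by rw [h0, map_zero]))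
  have hx2 : aeval h R₂ ≠ 0 := by
    intro h0
    apply hR₂'
    rw [hgR₂, map_mul, h0, mul_zero]
  have hWx : W * aeval h R₂ = aeval h R₁ := by
    rw [hWR, hgR₁, hgR₂, map_mul, map_mul]
    field_simp
  -- apply φ to `J * h = a(h)`
  have h1' : aeval J r * W = aeval W a := by
    have := congrArg φ h1
    rw [map_mul, hφapp J, hr] at this
    rw [this, ← Polynomial.aeval_algHom_apply]
  -- the polynomial identity
  have hid : hom2 r r.natDegree a X * R₁ * R₂ ^ (m + 1 - 1) =
      X ^ r.natDegree * hom2 a (m + 1) R₁ R₂ := by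
    apply hinj
    rw [map_mul, map_mul, map_mul, map_pow, map_pow, aeval_X, map_hom2, map_hom2, aeval_X,
      ← hWx, ← h1, hom2_mul r r.natDegree le_rfl J h,
      hom2_mul a (m + 1) ha.le W (aeval h R₂), ← h1']
    have : (aeval h R₂) ^ (m + 1) = aeval h R₂ * (aeval h R₂) ^ (m + 1 - 1) := by
      rw [← pow_succ']
      rfl
    rw [this]
    ring
  have han : a.coeff (m + 1) ≠ 0 := by
    rw [← ha]
    have ha_ne : a ≠ 0 := fun h0 => ha0 (by rw [h0, coeff_zero])
    exact leadingCoeff_ne_zero.mpr ha_ne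
  obtain ⟨e₁, e₂, c₁, c₂, hc₁, hc₂, hR₁, hR₂, he⟩ :=
    key a R₁ R₂ (hom2 r r.natDegree a X) (m + 1) r.natDegree (by omega) ha0 han hcop hid
  -- translate to q-expansions
  have hWq : W = HahnSeries.single (p : ℤ) (1 : k) *
      HahnSeries.ofPowerSeries ℤ k (f.expand p (NeZero.ne p)) := by
    rw [hW, hφapp, hh, map_mul, qExpand_single, mul_one, hF, qExpand_ofPowerSeries]
  have hpow : ∀ e : ℕ, h ^ e = HahnSeries.single (e : ℤ) (1 : k) *
      HahnSeries.ofPowerSeries ℤ k (f ^ e) := by
    intro e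
    rw [hh, mul_pow, HahnSeries.single_pow, one_pow, hF, map_pow]
    simp
  have hC : ∀ c : k, algebraMap k (LaurentSeries k) c =
      HahnSeries.ofPowerSeries ℤ k (PowerSeries.C c) := fun c => rfl
  have hx1 : aeval h R₁ = HahnSeries.single (e₁ : ℤ) (1 : k) *
      HahnSeries.ofPowerSeries ℤ k (PowerSeries.C c₁ * f ^ e₁) := by
    rw [hR₁, map_mul, aeval_C, map_pow, aeval_X, hpow, hC, map_mul]
    ring
  have hx2' : W * aeval h R₂ = HahnSeries.single ((p : ℤ) + e₂) (1 : k) *
      HahnSeries.ofPowerSeries ℤ k (f.expand p (NeZero.ne p) * PowerSeries.C c₂ * f ^ e₂) := by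
    rw [hR₂, map_mul, aeval_C, map_pow, aeval_X, hpow, hC, hWq, map_mul, map_mul,
      ← mul_one (1 : k), ← HahnSeries.single_mul_single, mul_one]
    ring
  rw [hx1, hx2'] at hWx
  have hcc1 : PowerSeries.constantCoeff
      (f.expand p (NeZero.ne p) * PowerSeries.C c₂ * f ^ e₂) ≠ 0 := by
    simp [hf0, hc₂]
  have hcc2 : PowerSeries.constantCoeff (PowerSeries.C c₁ * f ^ e₁) ≠ 0 := by
    simp [hf0, hc₁]
  obtain ⟨hexp, hser⟩ := single_mul_ofPowerSeries_inj hcc1 hcc2 hWx
  have he₂ : e₂ = 0 := by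
    rcases he with he | he
    · exfalso
      rw [he] at hexp
      have : (0 : ℤ) ≤ e₂ := Int.natCast_nonneg _
      have : (2 : ℤ) ≤ p := by exact_mod_cast hp
      push_cast at hexp
      omega
    · exact he
  have he₁ : e₁ = p := by
    rw [he₂] at hexp
    push_cast at hexp
    rw [add_zero] at hexp
    exact_mod_cast hexp.symm
  rw [he₂, he₁, pow_zero, mul_one] at hser
  have hcc : c₂ = c₁ := by
    have := congrArg PowerSeries.constantCoeff hser
    simpa [hf0] using this
  rw [hcc, mul_comm] at hser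
  have hfin : f.expand p (NeZero.ne p) = f ^ p :=
    mul_left_cancel₀ (by simpa using hc₁ : (PowerSeries.C c₁ : PowerSeries k) ≠ 0) hser
  exact hf1 (eq_one_of_expand_eq_pow p hp hpk f hf0 hfin)

end main

end Fermat.Agent.S28.PrimeCaseB2
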