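/-
S28 / block (B1) of route 890, abstract form: with the Hauptmodul package
`J * h = a(h)`, `V_m J * h^m = b(h)`, `deg a = deg b = m + 1`, `a(0), b(0) ≠ 0`, `m ≥ 2`,
the series `V_m J = J(q^m)` does NOT lie in `k(J)`.
(Pole orders of `b(H)/H^m = ρ(a(H)/H)` at `H = 0` and `H = ∞`, in polynomial form.)
-/
import Mathlib
import Fermat.Prelude.Def_ModularCurve_X0ModL
import Fermat.Agent.S28.PrimeCaseRat
import Fermat.Agent.S28.PrimeCaseB2

set_option autoImplicit false

namespace Fermat.Agent.S28.PrimeCaseB1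

open Polynomial ModularCurve IntermediateField
open Fermat.Agent.S28.PrimeCaseRat Fermat.Agent.S28.PrimeCaseB2

variable {k : Type*} [Field k]

/-- `hom2 P d a X = ∑_{i ≤ d} P_i a^i X^(d-i)` has nonzero constant coefficient when
`P_d ≠ 0`, `a(0) ≠ 0`. -/
theorem coeff_zero_hom2_ne_zero (P a : k[X]) (d : ℕ) (hP : P.coeff d ≠ 0) (ha0 : a.coeff 0 ≠ 0) :
    (hom2 P d a (X : k[X])).coeff 0 ≠ 0 := by
  obtain ⟨t, ht⟩ := hom2_eq_add_mul_right P d a (X : k[X])
  rw [ht, coeff_add, coeff_X_mul_zero, add_zero, algebraMap_eq, coeff_C_mul, coeff_zero_eq_eval_zero,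
    eval_pow, ← coeff_zero_eq_eval_zero]
  exact mul_ne_zero hP (pow_ne_zero _ ha0)

/-- Degree of `hom2 P d a X` for `d = natDegree P`, `P ≠ 0`, `natDegree a = m + 1`, `m ≥ 1`. -/
theorem natDegree_hom2 (P a : k[X]) (m : ℕ) (hm : 1 ≤ m) (hP : P ≠ 0) (ha : a.natDegree = m + 1) :
    (hom2 P P.natDegree a (X : k[X])).natDegree = P.natDegree * (m + 1) := by
  set d := P.natDegree with hd
  have hPd : P.coeff d ≠ 0 := leadingCoeff_ne_zero.mpr hP
  have ha_ne : a ≠ 0 := fun h0 => by rw [h0, natDegree_zero] at ha; omega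
  rw [hom2, Finset.sum_range_succ, Nat.sub_self, pow_zero, mul_one]
  have htop : (algebraMap k k[X] (P.coeff d) * a ^ d).natDegree = d * (m + 1) := by
    rw [algebraMap_eq, natDegree_C_mul hPd, natDegree_pow, ha]
  rcases Nat.eq_zero_or_pos d with hd0 | hdpos
  · rw [hd0] at htop ⊢
    simp
  rw [natDegree_add_eq_right_of_natDegree_lt, htop]
  rw [htop]
  refine lt_of_le_of_lt (natDegree_sum_le_of_forall_le (n := (d - 1) * m + d) _ _ ?_) ?_
  · intro i hi
    have hi' : i < d := Finset.mem_range.mp hi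
    calc (algebraMap k k[X] (P.coeff i) * a ^ i * X ^ (d - i)).natDegree
        ≤ (algebraMap k k[X] (P.coeff i) * a ^ i).natDegree + (X ^ (d - i) : k[X]).natDegree :=
          natDegree_mul_le
      _ ≤ ((algebraMap k k[X] (P.coeff i)).natDegree + (a ^ i).natDegree) + (d - i) := by
          gcongr
          · exact natDegree_mul_le
          · exact (natDegree_X_pow_le _)
      _ ≤ (0 + i * (m + 1)) + (d - i) := by
          gcongr
          · rw [algebraMap_eq, natDegree_C]
          · rw [natDegree_pow, ha]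
      _ = i * m + d := by
          have : i + (d - i) = d := Nat.add_sub_cancel' hi'.le
          rw [zero_add, mul_add, mul_one, add_assoc, this]
      _ ≤ (d - 1) * m + d := by
          gcongr
          omega
  · obtain ⟨d', hd'⟩ : ∃ d', d = d' + 1 := ⟨d - 1, by omega⟩
    rw [hd', Nat.add_sub_cancel]
    nlinarith

/-- `natTrailingDegree` of a polynomial with nonzero constant coefficient. -/
theorem natTrailingDegree_eq_zero_of_coeff_zero_ne_zero {P : k[X]} (h : P.coeff 0 ≠ 0) :
    P.natTrailingDegree = 0 :=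
  Nat.le_zero.mp (natTrailingDegree_le_of_ne_zero h)

/-- **Block (B1), abstract form.** -/
theorem qExpand_not_mem_adjoin (m : ℕ) [NeZero m] (hm : 2 ≤ m)
    (J : LaurentSeries k) (f : PowerSeries k) (hf0 : PowerSeries.constantCoeff f ≠ 0)
    (a b : k[X]) (ha : a.natDegree = m + 1) (hb : b.natDegree = m + 1)
    (ha0 : a.coeff 0 ≠ 0) (hb0 : b.coeff 0 ≠ 0)
    (h1 : J * (HahnSeries.single (1 : ℤ) (1 : k) * HahnSeries.ofPowerSeries ℤ k f) =
      aeval (HahnSeries.single (1 : ℤ) (1 : k) * HahnSeries.ofPowerSeries ℤ k f) a)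
    (h2 : qExpand k m J * (HahnSeries.single (1 : ℤ) (1 : k) * HahnSeries.ofPowerSeries ℤ k f) ^ m =
      aeval (HahnSeries.single (1 : ℤ) (1 : k) * HahnSeries.ofPowerSeries ℤ k f) b) :
    qExpand k m J ∉ IntermediateField.adjoin k {J} := by
  set h : LaurentSeries k :=
    HahnSeries.single (1 : ℤ) (1 : k) * HahnSeries.ofPowerSeries ℤ k f with hh
  have htr : Transcendental k h := transcendental_hauptmodul f hf0
  have hinj : Function.Injective (aeval h : k[X] → LaurentSeries k) :=
    transcendental_iff_injective.mp htr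
  have hh0 : h ≠ 0 := by
    intro h0
    apply htr
    rw [h0]
    exact isAlgebraic_zero
  have hb_ne : b ≠ 0 := fun h0 => hb0 (by rw [h0, coeff_zero])
  have hVne : qExpand k m J ≠ 0 := by
    intro h0
    rw [h0, zero_mul] at h2
    exact hb_ne (hinj (by rw [← h2, map_zero]))
  intro hmem
  obtain ⟨P, Q, hPQ⟩ := (mem_adjoin_simple_iff k _).mp hmem
  have hQJ : aeval J Q ≠ 0 := by
    intro h0
    rw [h0, div_zero] at hPQ
    exact hVne hPQ
  have hPJ : aeval J P ≠ 0 := by
    intro h0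
    rw [h0, zero_div] at hPQ
    exact hVne hPQ
  have hQ : Q ≠ 0 := by
    rintro rfl
    simp at hQJ
  have hP : P ≠ 0 := by
    rintro rfl
    simp at hPJ
  have hrel : aeval J Q * qExpand k m J = aeval J P := by
    rw [hPQ]
    field_simp
  -- polynomial identity
  have hid : hom2 Q Q.natDegree a X * b * X ^ P.natDegree =
      hom2 P P.natDegree a X * X ^ (Q.natDegree + m) := by
    apply hinj
    rw [map_mul, map_mul, map_mul, map_pow, map_pow, aeval_X, map_hom2, map_hom2, aeval_X,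
      ← h1, ← h2, hom2_mul Q Q.natDegree le_rfl J h, hom2_mul P P.natDegree le_rfl J h, ← hrel]
    ring
  have hm1 : 1 ≤ m := by omega
  have hPt0 := coeff_zero_hom2_ne_zero P a P.natDegree (leadingCoeff_ne_zero.mpr hP) ha0
  have hQt0 := coeff_zero_hom2_ne_zero Q a Q.natDegree (leadingCoeff_ne_zero.mpr hQ) ha0
  have hPt_ne : hom2 P P.natDegree a (X : k[X]) ≠ 0 := fun h0 => hPt0 (by rw [h0, coeff_zero])
  have hQt_ne : hom2 Q Q.natDegree a (X : k[X]) ≠ 0 := fun h0 => hQt0 (by rw [h0, coeff_zero])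
  -- trailing degrees
  have htr1 := congrArg natTrailingDegree hid
  rw [natTrailingDegree_mul (mul_ne_zero hQt_ne hb_ne) (pow_ne_zero _ X_ne_zero),
    natTrailingDegree_mul hQt_ne hb_ne,
    natTrailingDegree_mul hPt_ne (pow_ne_zero _ X_ne_zero),
    natTrailingDegree_X_pow, natTrailingDegree_X_pow,
    natTrailingDegree_eq_zero_of_coeff_zero_ne_zero hPt0,
    natTrailingDegree_eq_zero_of_coeff_zero_ne_zero hQt0,
    natTrailingDegree_eq_zero_of_coeff_zero_ne_zero hb0] at htr1
  -- degrees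
  have hdeg := congrArg natDegree hid
  rw [natDegree_mul (mul_ne_zero hQt_ne hb_ne) (pow_ne_zero _ X_ne_zero),
    natDegree_mul hQt_ne hb_ne,
    natDegree_mul hPt_ne (pow_ne_zero _ X_ne_zero),
    natDegree_X_pow, natDegree_X_pow, natDegree_hom2 P a m hm1 hP ha,
    natDegree_hom2 Q a m hm1 hQ ha, hb] at hdeg
  nlinarith

end Fermat.Agent.S28.PrimeCaseB1
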