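/-
S28 / block (B): the ORBIT DEGREE BOUND.

`V = qExpand k m : k((q)) → k((v))`, `q ↦ v^m`; `ρ = rot ζ`, `ζ^m = 1`, fixes `range V`.
If a monic `Ψ ∈ D[X]` (`D` a subfield of `k((q))`) becomes, over `k((v))`,
`(X - V x₀) ∏_{b<m} (X - ρ^b y)` with pairwise distinct roots, and `x₀ ∉ D`, then the minimal
polynomial of `x₀` over `D` has degree `≥ m + 1`.
-/
import Mathlib
import Fermat.Prelude.Def_ModularCurve_X0ModL
import Fermat.Agent.S20.LaurentTools

set_option autoImplicit false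

namespace Fermat.Agent.S28.PrimeCaseOrbit

open Polynomial ModularCurve IntermediateField
open Fermat.Agent.S20.LaurentTools

variable {k : Type*} [Field k]

/-- `rot ζ` fixes the range of `qExpand k m` when `ζ ^ m = 1`. -/
theorem rot_qExpand (m : ℕ) [NeZero m] (ζ : kˣ) (hζ : ζ ^ m = 1) (x : LaurentSeries k) :
    rot ζ (qExpand k m x) = qExpand k m x := by
  ext n
  rw [coeff_rot]
  by_cases hd : (m : ℤ) ∣ n
  · obtain ⟨t, rfl⟩ := hd
    have : ζ ^ ((m : ℤ) * t) = 1 := by rw [zpow_mul, zpow_natCast, hζ, one_zpow]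
    rw [this, Units.val_one, one_mul]
  · rw [qExpand_coeff_of_not_dvd m x hd, mul_zero]

theorem rot_pow_rot (ζ : kˣ) (c b : ℕ) (y : LaurentSeries k) :
    rot (ζ ^ c) (rot (ζ ^ b) y) = rot (ζ ^ (c + b)) y := by
  rw [rot_rot, pow_add]

/-- **Orbit degree bound.** -/
theorem natDegree_minpoly_ge (m : ℕ) [NeZero m] (ζ : kˣ) (hζm : ζ ^ m = 1)
    (D : IntermediateField k (LaurentSeries k)) (x₀ y : LaurentSeries k)
    (Ψ : (↥D)[X]) (hΨm : Ψ.Monic)
    (hfac : (Ψ.map (algebraMap ↥D (LaurentSeries k))).map (qExpand k m) =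
      (X - C (qExpand k m x₀)) * ∏ b ∈ Finset.range m, (X - C (rot (ζ ^ b) y)))
    (hdist : ∀ b ∈ Finset.range m, ∀ b' ∈ Finset.range m,
      rot (ζ ^ b) y = rot (ζ ^ b') y → b = b')
    (hx₀y : ∀ b ∈ Finset.range m, qExpand k m x₀ ≠ rot (ζ ^ b) y)
    (hx₀ : x₀ ∉ D) :
    IsIntegral ↥D x₀ ∧ m + 1 ≤ (minpoly ↥D x₀).natDegree := by
  classical
  set V : LaurentSeries k →+* LaurentSeries k := qExpand k m with hV
  have hVinj : Function.Injective V := qExpand_injective m
  set ι : ↥D →+* LaurentSeries k := algebraMap ↥D (LaurentSeries k) with hι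
  set θ : ↥D →+* LaurentSeries k := V.comp ι with hθ
  have hθinj : Function.Injective θ := hVinj.comp (algebraMap ↥D (LaurentSeries k)).injective
  set G : (LaurentSeries k)[X] := ∏ b ∈ Finset.range m, (X - C (rot (ζ ^ b) y)) with hG
  have hfac' : Ψ.map θ = (X - C (V x₀)) * G := by
    rw [hθ, ← Polynomial.map_map]
    exact hfac
  -- Ψ(x₀) = 0
  have hroot : aeval x₀ Ψ = 0 := by
    apply hVinj
    rw [map_zero, aeval_def, Polynomial.hom_eval₂, ← hι, ← hθ, ← Polynomial.eval_map, hfac',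
      eval_mul, eval_sub, eval_X, eval_C, sub_self, zero_mul]
  have hint : IsIntegral ↥D x₀ := ⟨Ψ, hΨm, hroot⟩
  refine ⟨hint, ?_⟩
  set P : (↥D)[X] := minpoly ↥D x₀ with hP
  have hPdvd : P ∣ Ψ := minpoly.dvd ↥D x₀ hroot
  set P' : (LaurentSeries k)[X] := P.map θ with hP'
  have hP'dvd : P' ∣ (X - C (V x₀)) * G := by
    rw [← hfac']
    exact Polynomial.map_dvd θ hPdvd
  have hP'deg : P'.natDegree = P.natDegree := natDegree_map_eq_of_injective hθinj P
  have hP'ne : P' ≠ 0 := by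
    rw [hP', Ne, Polynomial.map_eq_zero_iff hθinj]
    exact minpoly.ne_zero hint
  have h2 : 2 ≤ P.natDegree := by
    rw [hP, minpoly.two_le_natDegree_iff hint]
    rintro ⟨d, hd⟩
    exact hx₀ (hd ▸ d.2)
  -- V x₀ is a root of P'
  have hr0 : P'.IsRoot (V x₀) := by
    have : aeval x₀ P = 0 := minpoly.aeval ↥D x₀
    rw [IsRoot.def, hP', eval_map, hθ, ← Polynomial.hom_eval₂]
    show V (aeval x₀ P) = 0
    rw [this, map_zero]
  obtain ⟨Q', hQ'⟩ := dvd_iff_isRoot.mpr hr0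
  have hlin_ne : (X - C (V x₀) : (LaurentSeries k)[X]) ≠ 0 := X_sub_C_ne_zero _
  have hQ'ne : Q' ≠ 0 := by
    rintro rfl
    rw [mul_zero] at hQ'
    exact hP'ne hQ'
  have hQ'dvd : Q' ∣ G := by
    rw [hQ'] at hP'dvd
    exact (mul_dvd_mul_iff_left hlin_ne).mp hP'dvd
  have hQ'deg : 1 ≤ Q'.natDegree := by
    have : P'.natDegree = 1 + Q'.natDegree := by
      rw [hQ', natDegree_mul hlin_ne hQ'ne, natDegree_X_sub_C]
    omega
  have hGne : G ≠ 0 := by
    rw [hG]
    exact Finset.prod_ne_zero_iff.mpr fun b _ => X_sub_C_ne_zero _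
  have hGsplits : G.Splits := Splits.prod fun b _ => Splits.X_sub_C _
  have hQ'splits : Q'.Splits := hGsplits.of_dvd hGne hQ'dvd
  obtain ⟨a, ha⟩ := hQ'splits.exists_eval_eq_zero (by
    intro h0
    have : Q'.natDegree = 0 := natDegree_eq_zero_iff_degree_le_zero.mpr h0.le
    omega)
  -- a is a root of G, hence a conjugate
  obtain ⟨b₀, hb₀, hab₀⟩ : ∃ b₀ ∈ Finset.range m, a = rot (ζ ^ b₀) y := by
    obtain ⟨T, hT⟩ := hQ'dvd
    have hGa : eval a G = 0 := by rw [hT, eval_mul, ha, zero_mul]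
    rw [hG, eval_prod, Finset.prod_eq_zero_iff] at hGa
    obtain ⟨b₀, hb₀, h0⟩ := hGa
    refine ⟨b₀, hb₀, ?_⟩
    rw [eval_sub, eval_X, eval_C] at h0
    exact sub_eq_zero.mp h0
  have hrb₀ : P'.IsRoot (rot (ζ ^ b₀) y) := by
    rw [← hab₀, IsRoot.def, hQ', eval_mul, ha, mul_zero]
  -- invariance of P' under ρ = rot ζ^c
  have hinv : ∀ c : ℕ, P'.map ((rot (ζ ^ c) : LaurentSeries k ≃ₐ[k] LaurentSeries k) :
      LaurentSeries k →+* LaurentSeries k) = P' := by
    intro c
    rw [hP', Polynomial.map_map]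
    congr 1
    refine RingHom.ext fun d => ?_
    simp only [RingHom.comp_apply, hθ, RingHom.coe_coe]
    exact rot_qExpand m (ζ ^ c) (by rw [← pow_mul, mul_comm, pow_mul, hζm, one_pow]) _
  have hroots : ∀ b ∈ Finset.range m, P'.IsRoot (rot (ζ ^ b) y) := by
    intro b hb
    have hb₀' : b₀ < m := Finset.mem_range.mp hb₀
    have hb' : b < m := Finset.mem_range.mp hb
    have h1 := hrb₀.map (f := ((rot (ζ ^ (b + (m - b₀))) :
      LaurentSeries k ≃ₐ[k] LaurentSeries k) : LaurentSeries k →+* LaurentSeries k))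
    rw [hinv] at h1
    have : ((rot (ζ ^ (b + (m - b₀))) : LaurentSeries k ≃ₐ[k] LaurentSeries k) :
        LaurentSeries k →+* LaurentSeries k) (rot (ζ ^ b₀) y) = rot (ζ ^ b) y := by
      show rot (ζ ^ (b + (m - b₀))) (rot (ζ ^ b₀) y) = rot (ζ ^ b) y
      rw [rot_pow_rot]
      have : b + (m - b₀) + b₀ = b + m := by omega
      rw [this, pow_add, hζm, mul_one]
    rwa [this] at h1
  -- count the roots
  set Z : Finset (LaurentSeries k) :=
    insert (V x₀) ((Finset.range m).image fun b => rot (ζ ^ b) y) with hZ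
  have hZcard : Z.card = m + 1 := by
    rw [hZ, Finset.card_insert_of_notMem, Finset.card_image_of_injOn, Finset.card_range]
    · intro b hb b' hb' h
      exact hdist b hb b' hb' h
    · intro hmem
      obtain ⟨b, hb, hbe⟩ := Finset.mem_image.mp hmem
      exact hx₀y b hb hbe.symm
  have hZsub : Z.val ⊆ P'.roots := by
    intro z hz
    rw [Finset.mem_val, hZ, Finset.mem_insert, Finset.mem_image] at hz
    rw [mem_roots hP'ne]
    rcases hz with rfl | ⟨b, hb, rfl⟩
    · exact hr0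
    · exact hroots b hb
  have := card_le_degree_of_subset_roots hZsub
  rw [hZcard, hP'deg] at this
  exact this

end Fermat.Agent.S28.PrimeCaseOrbit
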