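/-
S28 / block (B): glue lemmas.

* `transcendental_jqModC` : `j̄ = jqModC k` is transcendental over `k`.
* `exists_aeval_eq_of_isIntegral` : an element of `k(J)` integral over `k[J]` is a polynomial in
  `J` (`J` transcendental).
* `modEq_over_kj` : the modular equation `HasModEq k p ζ` as a monic polynomial over `k(j̄)`.
* `hauptmodul_mem` : (HM) `h ∈ k(j̄, j̄(q^m))` from the orbit degree bound and (B1).
-/
import Mathlib
import Fermat.Prelude.Def_ModularCurve_X0ModL
import Fermat.Prelude.Thm_ModularCurve_coeff_jqModC_neg_one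
import Fermat.Agent.S20.LaurentTools
import Fermat.Agent.S28.Interfaces
import Fermat.Agent.S28.PrimeCaseB1
import Fermat.Agent.S28.PrimeCaseB2
import Fermat.Agent.S28.PrimeCaseOrbit

set_option autoImplicit false

namespace Fermat.Agent.S28.PrimeCaseHM

open Polynomial ModularCurve IntermediateField
open Fermat.Agent.S20.LaurentTools Fermat.Agent.S28.Interfaces
open Fermat.Agent.S28.PrimeCaseB2 Fermat.Agent.S28.PrimeCaseB1 Fermat.Agent.S28.PrimeCaseOrbit

variable {k : Type*} [Field k]

/-- `j̄` is transcendental over `k`. -/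
theorem transcendental_jqModC : Transcendental k (jqModC k) := by
  set g : PowerSeries k := jNum.map (Int.castRingHom k) with hg
  have hg0 : PowerSeries.constantCoeff g = 1 := by
    rw [hg, ← PowerSeries.coeff_zero_eq_constantCoeff_apply, PowerSeries.coeff_map,
      PowerSeries.coeff_zero_eq_constantCoeff_apply, constantCoeff_jNum, map_one]
  have hg0' : PowerSeries.constantCoeff g ≠ 0 := by rw [hg0]; exact one_ne_zero
  have hinv : jqModC k * (HahnSeries.single (1 : ℤ) (1 : k) *
      HahnSeries.ofPowerSeries ℤ k g⁻¹) = 1 := by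
    rw [jqModC, ← hg]
    calc HahnSeries.single (-1 : ℤ) (1 : k) * HahnSeries.ofPowerSeries ℤ k g *
          (HahnSeries.single (1 : ℤ) (1 : k) * HahnSeries.ofPowerSeries ℤ k g⁻¹)
        = (HahnSeries.single (-1 : ℤ) (1 : k) * HahnSeries.single (1 : ℤ) (1 : k)) *
          HahnSeries.ofPowerSeries ℤ k (g * g⁻¹) := by rw [map_mul]; ring
      _ = 1 := by
          rw [HahnSeries.single_mul_single, PowerSeries.mul_inv_cancel g hg0']
          simp
  have hJinv : (jqModC k)⁻¹ = HahnSeries.single (1 : ℤ) (1 : k) *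
      HahnSeries.ofPowerSeries ℤ k g⁻¹ := inv_eq_of_mul_eq_one_right hinv
  have hginv0 : PowerSeries.constantCoeff g⁻¹ ≠ 0 := by
    rw [PowerSeries.constantCoeff_inv, hg0, inv_one]
    exact one_ne_zero
  have htr := transcendental_hauptmodul g⁻¹ hginv0
  rw [← hJinv] at htr
  intro halg
  exact htr (IsAlgebraic.inv_iff.mpr halg)

open IntermediateField.algebraAdjoinAdjoin in
/-- An element of `k(J)` integral over `k[J]` lies in `k[J]`, for `J` transcendental. -/
theorem exists_aeval_eq_of_isIntegral {E : Type*} [Field E] [Algebra k E] {J x : E}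
    (hJ : Transcendental k J)
    (hx : x ∈ IntermediateField.adjoin k {J}) (hint : IsIntegral (Algebra.adjoin k {J}) x) :
    ∃ r : k[X], x = aeval J r := by
  have : IsIntegrallyClosed (Algebra.adjoin k {J}) :=
    IsIntegrallyClosed.of_equiv (Polynomial.algEquivOfTranscendental k J hJ).toRingEquiv
  set xd : IntermediateField.adjoin k {J} := ⟨x, hx⟩ with hxd
  have hint' : IsIntegral (Algebra.adjoin k {J}) xd := by
    have : IsIntegral (Algebra.adjoin k {J})
        (algebraMap (IntermediateField.adjoin k {J}) E xd) := hint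
    exact (isIntegral_algebraMap_iff
      (algebraMap (IntermediateField.adjoin k {J}) E).injective).mp this
  obtain ⟨y, hy⟩ := IsIntegrallyClosed.isIntegral_iff.mp hint'
  have hyx : (y : E) = x := by
    have := congrArg (fun z : IntermediateField.adjoin k {J} => (z : E)) hy
    simpa using this
  have hymem : x ∈ Algebra.adjoin k {J} := hyx ▸ y.2
  rw [Algebra.adjoin_singleton_eq_range_aeval] at hymem
  obtain ⟨r, hr⟩ := hymem
  exact ⟨r, hr.symm⟩

/-- `V (aeval J r) = aeval (V J) r` for `V = qExpand k p`. -/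
theorem qExpand_aeval (p : ℕ) [NeZero p] (J : LaurentSeries k) (r : k[X]) :
    qExpand k p (aeval J r) = aeval (qExpand k p J) r := by
  have := Polynomial.aeval_algHom_apply (qExpandAlgHomC k p) J r
  simpa using this.symm

/-- The modular equation as a monic polynomial over `k(j̄)`. -/
theorem modEq_over_kj (p : ℕ) [NeZero p] (ζ : kˣ) (h : HasModEq k p ζ) :
    ∃ Ψ : (↥(kj k))[X], Ψ.Monic ∧ Ψ.natDegree = p + 1 ∧
      (Ψ.map (algebraMap ↥(kj k) (LaurentSeries k))).map (qExpand k p) =
        (X - C (qExpand k p (qExpand k p (jqModC k)))) *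
          ∏ b ∈ Finset.range p, (X - C (rot (ζ ^ b) (jqModC k))) := by
  obtain ⟨Φ, hm, hd, hfac⟩ := h
  set Jd : ↥(kj k) := ⟨jqModC k, mem_adjoin_simple_self k _⟩ with hJd
  set φ : k[X] →+* ↥(kj k) := ((aeval Jd : k[X] →ₐ[k] ↥(kj k)) : k[X] →+* ↥(kj k)) with hφ
  refine ⟨Φ.map φ, hm.map φ, ?_, ?_⟩
  · rw [hm.natDegree_map φ, hd]
  · have hp2 : jD k (p ^ 2) = qExpand k p (qExpand k p (jqModC k)) := by
      have : NeZero (p ^ 2) := ⟨pow_ne_zero 2 (NeZero.ne p)⟩
      rw [jD_eq, qExpand_qExpand]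
      exact qExpand_congr (sq p) _
    rw [hp2] at hfac
    rw [Polynomial.map_map, Polynomial.map_map, ← hfac]
    congr 1
    refine RingHom.ext fun r => ?_
    have h1 : algebraMap ↥(kj k) (LaurentSeries k) (aeval Jd r) = aeval (jqModC k) r :=
      (Polynomial.aeval_algebraMap_apply (LaurentSeries k) Jd r).symm
    show qExpand k p (algebraMap ↥(kj k) (LaurentSeries k) (aeval Jd r)) = aeval (jD k p) r
    rw [h1, qExpand_aeval, jD_eq]

/-- `j̄(q^p)` is integral over `k[j̄]`. -/
theorem isIntegral_qExpand (p : ℕ) [NeZero p] (ζ : kˣ) (h : HasModEq k p ζ) :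
    IsIntegral (Algebra.adjoin k {jqModC k}) (qExpand k p (jqModC k)) := by
  obtain ⟨Φ, hm, hd, hfac⟩ := h
  set Ja : ↥(Algebra.adjoin k {jqModC k}) :=
    ⟨jqModC k, Algebra.self_mem_adjoin_singleton k _⟩ with hJa
  set φ : k[X] →+* ↥(Algebra.adjoin k {jqModC k}) :=
    ((aeval Ja : k[X] →ₐ[k] ↥(Algebra.adjoin k {jqModC k})) :
      k[X] →+* ↥(Algebra.adjoin k {jqModC k})) with hφ
  refine ⟨Φ.map φ, hm.map φ, ?_⟩
  apply qExpand_injective (R := k) p
  rw [map_zero, Polynomial.eval₂_map, Polynomial.hom_eval₂]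
  have hcomp : ((qExpand k p).comp
      ((algebraMap ↥(Algebra.adjoin k {jqModC k}) (LaurentSeries k)).comp φ)) =
      ((aeval (jD k p) : k[X] →ₐ[k] LaurentSeries k) : k[X] →+* LaurentSeries k) := by
    refine RingHom.ext fun r => ?_
    have h1 : algebraMap ↥(Algebra.adjoin k {jqModC k}) (LaurentSeries k) (aeval Ja r) =
        aeval (jqModC k) r :=
      (Polynomial.aeval_algebraMap_apply (LaurentSeries k) Ja r).symm
    show qExpand k p (algebraMap ↥(Algebra.adjoin k {jqModC k}) (LaurentSeries k)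
      (aeval Ja r)) = aeval (jD k p) r
    rw [h1, qExpand_aeval, jD_eq]
  have hp2 : jD k (p ^ 2) = qExpand k p (qExpand k p (jqModC k)) := by
    have : NeZero (p ^ 2) := ⟨pow_ne_zero 2 (NeZero.ne p)⟩
    rw [jD_eq, qExpand_qExpand]
    exact qExpand_congr (sq p) _
  rw [hcomp, ← Polynomial.eval_map, hfac, hp2, eval_mul, eval_sub, eval_X, eval_C, sub_self,
    zero_mul]

/-- **(HM)** the Hauptmodul lies in `k(j̄, j̄(q^m))`. -/
theorem hauptmodul_mem (m : ℕ) [NeZero m] (hm : 2 ≤ m) (ζ : kˣ) (hζ : IsPrimitiveRoot (ζ : k) m)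
    (hmod : HasModEq k m ζ) (f : PowerSeries k) (a b : k[X])
    (hf0 : PowerSeries.constantCoeff f = 1)
    (ha : a.natDegree = m + 1) (hb : b.natDegree = m + 1) (ha0 : a.coeff 0 = 1)
    (hb0 : b.coeff 0 = 1)
    (h1 : jqModC k * (HahnSeries.single (1 : ℤ) (1 : k) * HahnSeries.ofPowerSeries ℤ k f) =
      aeval (HahnSeries.single (1 : ℤ) (1 : k) * HahnSeries.ofPowerSeries ℤ k f) a)
    (h2 : jD k m * (HahnSeries.single (1 : ℤ) (1 : k) * HahnSeries.ofPowerSeries ℤ k f) ^ m =
      aeval (HahnSeries.single (1 : ℤ) (1 : k) * HahnSeries.ofPowerSeries ℤ k f) b) :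
    (HahnSeries.single (1 : ℤ) (1 : k) * HahnSeries.ofPowerSeries ℤ k f) ∈
      IntermediateField.adjoin k {jqModC k, qExpand k m (jqModC k)} := by
  classical
  set J : LaurentSeries k := jqModC k with hJ
  set h : LaurentSeries k :=
    HahnSeries.single (1 : ℤ) (1 : k) * HahnSeries.ofPowerSeries ℤ k f with hh
  rw [jD_eq] at h2
  set x₀ : LaurentSeries k := qExpand k m J with hx₀
  have hf0' : PowerSeries.constantCoeff f ≠ 0 := by rw [hf0]; exact one_ne_zero
  have ha0' : a.coeff 0 ≠ 0 := by rw [ha0]; exact one_ne_zero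
  have hb0' : b.coeff 0 ≠ 0 := by rw [hb0]; exact one_ne_zero
  have htr : Transcendental k h := transcendental_hauptmodul f hf0'
  have hh0 : h ≠ 0 := by
    intro h0
    apply htr
    rw [h0]
    exact isAlgebraic_zero
  -- (B1)
  have hB1 : x₀ ∉ kj k := qExpand_not_mem_adjoin m hm J f hf0' a b ha hb ha0' hb0' h1 h2
  -- orbit bound
  obtain ⟨Ψ, hΨm, -, hfac⟩ := modEq_over_kj m ζ hmod
  have hζm : ζ ^ m = 1 := by
    apply Units.ext
    rw [Units.val_pow_eq_pow_val, Units.val_one]
    exact hζ.pow_eq_one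
  have hcoeff : ∀ b : ℕ, (rot (ζ ^ b) J).coeff (-1) = (((ζ ^ b)⁻¹ : kˣ) : k) := by
    intro b
    rw [coeff_rot, hJ, coeff_jqModC_neg_one, mul_one, zpow_neg_one]
  have hdist : ∀ b ∈ Finset.range m, ∀ b' ∈ Finset.range m,
      rot (ζ ^ b) J = rot (ζ ^ b') J → b = b' := by
    intro b hb b' hb' heq
    have := congrArg (fun x => HahnSeries.coeff x (-1)) heq
    simp only [hcoeff] at this
    have h3 : ζ ^ b = ζ ^ b' := inv_injective (Units.ext this)
    have h4 : (ζ : k) ^ b = (ζ : k) ^ b' := by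
      rw [← Units.val_pow_eq_pow_val, ← Units.val_pow_eq_pow_val, h3]
    exact hζ.pow_inj (Finset.mem_range.mp hb) (Finset.mem_range.mp hb') h4
  have hx₀y : ∀ b ∈ Finset.range m, qExpand k m x₀ ≠ rot (ζ ^ b) J := by
    intro b _ heq
    have := congrArg (fun x => HahnSeries.coeff x (-1)) heq
    simp only [hcoeff] at this
    rw [qExpand_coeff_of_not_dvd m x₀ (k := -1)] at this
    · exact (Units.ne_zero _) this.symm
    · intro hd
      have hm' : (2 : ℤ) ≤ m := by exact_mod_cast hm
      have := Int.le_of_dvd (by norm_num) ((dvd_neg (a := (m : ℤ)) (b := 1)).mp hd)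
      omega
  obtain ⟨hint₀, hdeg₀⟩ := natDegree_minpoly_ge m ζ hζm (kj k) x₀ J Ψ hΨm hfac hdist hx₀y hB1
  -- h is algebraic over D = k(J) of degree ≤ m + 1
  set D : IntermediateField k (LaurentSeries k) := kj k with hD
  set Jd : ↥D := ⟨J, mem_adjoin_simple_self k _⟩ with hJd
  set aD : (↥D)[X] := a.map (algebraMap k ↥D) - C Jd * X with haD
  have haDdeg : aD.natDegree = m + 1 := by
    rw [haD, natDegree_sub_eq_left_of_natDegree_lt]
    · rw [natDegree_map, ha]
    · rw [natDegree_map, ha]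
      calc (C Jd * X : (↥D)[X]).natDegree ≤ (C Jd : (↥D)[X]).natDegree + (X : (↥D)[X]).natDegree :=
            natDegree_mul_le
        _ ≤ 0 + 1 := by
            gcongr
            · exact (natDegree_C Jd).le
            · exact natDegree_X_le
        _ < m + 1 := by omega
  have haDne : aD ≠ 0 := by
    intro h0
    rw [h0, natDegree_zero] at haDdeg
    omega
  have haDroot : aeval h aD = 0 := by
    rw [haD, map_sub, map_mul, aeval_C, aeval_X, aeval_map_algebraMap, ← h1]
    show J * h - J * h = 0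
    exact sub_self _
  have hinth : IsIntegral ↥D h := isAlgebraic_iff_isIntegral.mp ⟨aD, haDne, haDroot⟩
  have hdegh : (minpoly ↥D h).natDegree ≤ m + 1 := by
    rw [← haDdeg]
    exact natDegree_le_of_dvd (minpoly.dvd ↥D h haDroot) haDne
  -- the squeeze
  set E₁ : IntermediateField ↥D (LaurentSeries k) := IntermediateField.adjoin ↥D {x₀} with hE₁
  set E₂ : IntermediateField ↥D (LaurentSeries k) := IntermediateField.adjoin ↥D {h} with hE₂
  have hhE₂ : h ∈ E₂ := mem_adjoin_simple_self ↥D h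
  have hx₀E₂ : x₀ ∈ E₂ := by
    have hx : x₀ = aeval h b / h ^ m := by
      rw [← h2, mul_div_cancel_right₀ _ (pow_ne_zero _ hh0)]
    rw [hx]
    apply div_mem
    · have : aeval h b ∈ E₂.restrictScalars k :=
        aeval_mem_of_mem (E₂.restrictScalars k) (by exact hhE₂) b
      exact this
    · exact pow_mem hhE₂ m
  have hle : E₁ ≤ E₂ := by
    rw [hE₁, adjoin_simple_le_iff]
    exact hx₀E₂
  have : FiniteDimensional ↥D ↥E₂ := adjoin.finiteDimensional hinth
  have hfin : Module.finrank ↥D ↥E₂ ≤ Module.finrank ↥D ↥E₁ := by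
    rw [hE₁, hE₂, adjoin.finrank hinth, adjoin.finrank hint₀]
    omega
  have heq : E₁ = E₂ := IntermediateField.eq_of_le_of_finrank_le hle hfin
  have hhE₁ : h ∈ E₁ := heq ▸ hhE₂
  have hfinal : h ∈ (IntermediateField.adjoin (IntermediateField.adjoin k {J}) {x₀}).restrictScalars k :=
    hhE₁
  rw [adjoin_adjoin_left] at hfinal
  have hset : ({J} ∪ {x₀} : Set (LaurentSeries k)) = {J, x₀} := Set.singleton_union
  rw [hset] at hfinal
  exact hfinal

end Fermat.Agent.S28.PrimeCaseHM
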