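/-
S28 / block (B): `Interfaces.PrimeCaseStatement` from the Hauptmodul packages (H) and the modular
equation (A):   `j̄(q^p) ∉ k(j̄)` for `p` prime, `(p : k) ≠ 0`, `k` algebraically closed.
-/
import Mathlib
import Fermat.Agent.S28.Interfaces
import Fermat.Agent.S28.PrimeCaseB2
import Fermat.Agent.S28.PrimeCaseHM

set_option autoImplicit false

namespace Fermat.Agent.S28.PrimeCase

open Polynomial ModularCurve IntermediateField
open Fermat.Agent.S28.Interfaces Fermat.Agent.S28.PrimeCaseB2 Fermat.Agent.S28.PrimeCaseHM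

/-- A primitive `n`-th root of unity, as a unit, in an algebraically closed field with
`(n : k) ≠ 0`. -/
theorem exists_primitiveRoot_unit (k : Type*) [Field k] [IsAlgClosed k] (n : ℕ) (hn : (n : k) ≠ 0) :
    ∃ ζ : kˣ, IsPrimitiveRoot (ζ : k) n := by
  have : NeZero (n : k) := ⟨hn⟩
  obtain ⟨ζ, hζ⟩ := HasEnoughRootsOfUnity.exists_primitiveRoot k n
  have hn0 : n ≠ 0 := by
    rintro rfl
    simp at hn
  exact ⟨Units.mk0 ζ (hζ.ne_zero hn0), hζ⟩

/-- The core of (B) with a Hauptmodul package of prime level `m`. -/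
theorem core (hA : ModEqStatement) (k : Type) [Field k] [IsAlgClosed k] (m : ℕ) (hmp : m.Prime)
    (hmk : (m : k) ≠ 0) (pkg : HauptPackage k m) (p : ℕ) (hp : p.Prime) (hpk : (p : k) ≠ 0) :
    jD k p ∉ kj k := by
  have : NeZero m := ⟨hmp.ne_zero⟩
  have : NeZero p := ⟨hp.ne_zero⟩
  intro hmem
  rw [jD_eq] at hmem
  obtain ⟨f, a, b, hf0, hf1, ha, hb, ha0, hb0, h1, h2⟩ := pkg
  obtain ⟨ζm, hζm⟩ := exists_primitiveRoot_unit k m hmk
  obtain ⟨ζp, hζp⟩ := exists_primitiveRoot_unit k p hpk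
  have hmodm := hA k m hmp ζm hζm
  have hmodp := hA k p hp ζp hζp
  have HM := hauptmodul_mem m hmp.two_le ζm hζm hmodm f a b hf0 ha hb ha0 hb0 h1 h2
  have hint := isIntegral_qExpand p ζp hmodp
  obtain ⟨r, hr⟩ := exists_aeval_eq_of_isIntegral transcendental_jqModC hmem hint
  rw [jD_eq] at h2
  exact false_of_qExpand_eq_aeval m p hp.two_le hpk (jqModC k) f hf0 hf1 a b ha
    (by rw [ha0]; exact one_ne_zero) h1 h2 HM r hr

/-- **Block (B).** -/
theorem primeCase (hH2 : Haupt2Statement) (hH3 : Haupt3Statement) (hA : ModEqStatement) :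
    PrimeCaseStatement := by
  intro k _ _ p hp hpk
  by_cases h2 : (2 : k) = 0
  · have h3 : (3 : k) ≠ 0 := by
      have : (3 : k) = 2 + 1 := by norm_num
      rw [this, h2, zero_add]
      exact one_ne_zero
    exact core hA k 3 Nat.prime_three (by exact_mod_cast h3) (hH3 k h3) p hp hpk
  · exact core hA k 2 Nat.prime_two (by exact_mod_cast h2) (hH2 k h2) p hp hpk

end Fermat.Agent.S28.PrimeCase
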