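import Fermat.Agent.S28.Reduction
import Fermat.Agent.S28.GlueProof
import Fermat.Agent.S28.ModEqInst
import Fermat.Agent.S28.Haupt2
import Fermat.Agent.S28.PrimeCase
import Fermat.Agent.S28.CoreDegreeFinal
import Fermat.Agent.S28.CoreIndep
import Fermat.Agent.S28.DegreeQInst
import Fermat.Agent.S28.ChartDomainOfMain

/-!
# S28 (Igusa): everything that is closed, chained

`igusa_of_haupt3_qexp` : the frozen statement S28 from the two remaining inputs
* `Interfaces.Haupt3Statement` (Hauptmodul package of level `3`, needed for `ℓ = 2`);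
* `ChartDomainOfMain.QExpMainStatement` (the q-expansion principle, block D.valuation).
-/

set_option autoImplicit false

open AlgebraicGeometry CategoryTheory CategoryTheory.Limits ModularCurve ModularCurve.IgusaScheme

namespace Fermat.Agent.S28.FinalChain

open Fermat.Agent.S28.Interfaces

/-- Block (B), closed modulo the level-3 Hauptmodul package. -/
theorem primeCase_of_haupt3 (h3 : Haupt3Statement) : PrimeCaseStatement :=
  Fermat.Agent.S28.PrimeCase.primeCase Fermat.Agent.S28.Haupt2.haupt2 h3
    Fermat.Agent.S28.ModEqInst.modEq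

/-- Block (C), closed modulo the level-3 Hauptmodul package. -/
theorem coreIndep_of_haupt3 (h3 : Haupt3Statement) : CoreIndepStatement :=
  Fermat.Agent.S28.CoreIndep.coreIndep_of_coreDegree
    (Fermat.Agent.S28.CoreDegreeFinal.coreDegree Fermat.Agent.S28.ModEqInst.modEq
      (primeCase_of_haupt3 h3))

/-- Block (D), closed modulo the level-3 Hauptmodul package and the q-expansion principle. -/
theorem chartDomain_of_haupt3_qexp (h3 : Haupt3Statement)
    (hmain : Fermat.Agent.S28.ChartDomainOfMain.QExpMainStatement) : ChartDomainStatement :=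
  Fermat.Agent.S28.ChartDomainOfMain.chartDomain_of_qexp hmain (coreIndep_of_haupt3 h3)
    Fermat.Agent.S28.DegreeQInst.degreeQ

set_option maxHeartbeats 4000000 in
set_option synthInstance.maxHeartbeats 400000 in
/-- The frozen statement S28 from the two remaining inputs. -/
theorem igusa_of_haupt3_qexp (h3 : Haupt3Statement)
    (hmain : Fermat.Agent.S28.ChartDomainOfMain.QExpMainStatement)
    (N : ℕ) [NeZero N] (ℓ : ℕ) [Fact ℓ.Prime] (hℓN : ¬ ℓ ∣ N)
    (K : Type) [Field K] [CharP K ℓ] [Algebra ↥(GaloisRep.ratLocalizedAt ℓ) K] :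
    IsIntegral ↑(pullback (igusaTo N ℓ)
      (Spec.map (CommRingCat.ofHom (algebraMap ↥(GaloisRep.ratLocalizedAt ℓ) K)))) :=
  Fermat.Agent.S28.Reduction.igusa_of_chartDomain_glue (chartDomain_of_haupt3_qexp h3 hmain)
    Fermat.Agent.S28.GlueProof.glueStatement N ℓ hℓN K

end Fermat.Agent.S28.FinalChain
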