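/-
S28 / block (B), sub-lemma "Frobenius": in a field `k`, if `(p : k) ≠ 0`, `2 ≤ p`, and a power
series `f` with constant coefficient `1` satisfies `f(q^p) = f(q)^p`, then `f = 1`.
Both a `PowerSeries.expand` form and a Laurent-series form (Prelude `qExpand`) are given.
-/
import Mathlib
import Fermat.Prelude.Def_ModularCurve_X0

set_option autoImplicit false

namespace Fermat.Agent.S28.PrimeCaseFrob

open PowerSeries

variable {k : Type*} [Field k]

/-- `(1 + g)^p = 1 + p g + g^2 c`. -/
theorem one_add_pow_eq {R : Type*} [CommRing R] (g : R) (p : ℕ) :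
    ∃ c : R, (1 + g) ^ p = 1 + (p : R) * g + g ^ 2 * c := by
  obtain ⟨c, hc⟩ := Polynomial.powAddExpansion (1 : R) g p
  exact ⟨c, by rw [hc]; ring⟩

/-- **Frobenius lemma**, power-series form. -/
theorem eq_one_of_expand_eq_pow (p : ℕ) (hp : 2 ≤ p) (hpk : (p : k) ≠ 0) (f : PowerSeries k)
    (hf0 : constantCoeff f = 1)
    (h : f.expand p (by omega) = f ^ p) : f = 1 := by
  by_contra hne
  have hp0 : p ≠ 0 := by omega
  -- g := f - 1 ≠ 0, order μ ≥ 1
  set g : PowerSeries k := f - 1 with hg
  have hg0 : g ≠ 0 := sub_ne_zero.mpr hne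
  have hfg : f = 1 + g := by rw [hg]; ring
  set μ : ℕ := g.order.toNat with hμdef
  have hμ : g.order = μ := (coe_toNat_order hg0).symm
  have hcoeffμ : coeff μ g ≠ 0 := coeff_order hg0
  have hlt : ∀ i < μ, coeff i g = 0 := fun i hi => coeff_of_lt_order_toNat i hi
  have hμpos : 0 < μ := by
    rcases Nat.eq_zero_or_pos μ with h0 | h0
    · exfalso
      apply hcoeffμ
      rw [h0, coeff_zero_eq_constantCoeff_apply, hg, map_sub, hf0, map_one, sub_self]
    · exact h0
  -- coefficient μ of f^p
  obtain ⟨c, hc⟩ := one_add_pow_eq g p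
  have h1 : coeff μ (f ^ p) = (p : k) * coeff μ g := by
    rw [hfg, hc, map_add, map_add]
    have e1 : coeff μ (1 : PowerSeries k) = 0 := by
      rw [coeff_one, if_neg hμpos.ne']
    have e2 : coeff μ (g ^ 2 * c) = 0 := by
      apply coeff_of_lt_order
      calc (μ : ℕ∞) < μ + μ := by exact_mod_cast Nat.lt_add_of_pos_left hμpos
        _ = (g ^ 2).order := by rw [order_pow, hμ, two_nsmul]
        _ ≤ (g ^ 2).order + c.order := le_self_add
        _ ≤ (g ^ 2 * c).order := le_order_mul _ _
    have e3 : coeff μ ((p : PowerSeries k) * g) = (p : k) * coeff μ g := by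
      have : (p : PowerSeries k) = C (p : k) := by simp
      rw [this, coeff_C_mul]
    rw [e1, e2, e3, zero_add, add_zero]
  -- coefficient μ of expand
  have h2 : coeff μ (f.expand p hp0) = 0 := by
    rw [coeff_expand]
    split_ifs with hd
    · obtain ⟨t, ht⟩ := hd
      have htpos : 0 < t := by
        rcases Nat.eq_zero_or_pos t with h0 | h0
        · rw [h0, mul_zero] at ht; omega
        · exact h0
      have hlt' : μ / p < μ := Nat.div_lt_self hμpos (by omega)
      have hdiv : μ / p = t := by rw [ht]; exact Nat.mul_div_cancel_left t (by omega)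
      have hfc : coeff (μ / p) f = coeff (μ / p) g := by
        rw [hfg, map_add, coeff_one, if_neg (by omega), zero_add]
      rw [hfc, hlt _ hlt']
    · rfl
  rw [h, h1] at h2
  rcases mul_eq_zero.mp h2 with h3 | h3
  · exact hpk h3
  · exact hcoeffμ h3

end Fermat.Agent.S28.PrimeCaseFrob

namespace Fermat.Agent.S28.PrimeCaseFrob

open ModularCurve

variable {k : Type*} [Field k]

/-- `qExpand` on (the Laurent series of) a power series is `PowerSeries.expand`. -/
theorem qExpand_ofPowerSeries {R : Type*} [CommRing R] (p : ℕ) [NeZero p] (f : PowerSeries R) :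
    qExpand R p (HahnSeries.ofPowerSeries ℤ R f) =
      HahnSeries.ofPowerSeries ℤ R (f.expand p (NeZero.ne p)) := by
  have hp0 : p ≠ 0 := NeZero.ne p
  ext n
  by_cases hd : (p : ℤ) ∣ n
  · obtain ⟨t, rfl⟩ := hd
    rw [qExpand_coeff_mul]
    rcases le_or_gt 0 t with ht | ht
    · lift t to ℕ using ht
      rw [HahnSeries.ofPowerSeries_apply_coeff]
      have : ((p : ℤ) * (t : ℤ)) = ((p * t : ℕ) : ℤ) := by push_cast; ring
      rw [this, HahnSeries.ofPowerSeries_apply_coeff, PowerSeries.coeff_expand_mul]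
    · rw [ofPowerSeries_coeff_of_neg _ ht, ofPowerSeries_coeff_of_neg]
      have : (0 : ℤ) < p := by exact_mod_cast Nat.pos_of_ne_zero hp0
      nlinarith
  · rw [qExpand_coeff_of_not_dvd p _ hd]
    rcases le_or_gt 0 n with hn | hn
    · lift n to ℕ using hn
      rw [HahnSeries.ofPowerSeries_apply_coeff, PowerSeries.coeff_expand_of_not_dvd]
      intro h
      exact hd (by exact_mod_cast h)
    · rw [ofPowerSeries_coeff_of_neg _ hn]

/-- **Frobenius lemma**, Laurent-series form: `f(q^p) = f(q)^p`, `(p : k) ≠ 0`, `2 ≤ p`,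
`f(0) = 1` force `f = 1`. -/
theorem eq_one_of_qExpand_eq_pow (p : ℕ) [NeZero p] (hp : 2 ≤ p) (hpk : (p : k) ≠ 0)
    (f : PowerSeries k) (hf0 : PowerSeries.constantCoeff f = 1)
    (h : qExpand k p (HahnSeries.ofPowerSeries ℤ k f) = (HahnSeries.ofPowerSeries ℤ k f) ^ p) :
    f = 1 := by
  apply eq_one_of_expand_eq_pow p hp hpk f hf0
  apply HahnSeries.ofPowerSeries_injective (Γ := ℤ)
  rw [← qExpand_ofPowerSeries, h, map_pow]

end Fermat.Agent.S28.PrimeCaseFrob
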