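/-
S28 / D.chartSteps (helper47): `chartAlg` inside a valuation subring; the Mid chart from the Fin chart.
-/
import Mathlib
import Fermat.Prelude.Def_ModularCurve_IgusaScheme

set_option autoImplicit false

open ModularCurve ModularCurve.IgusaScheme

namespace Fermat.Agent.S28.ChartSteps

variable (N : ℕ) [NeZero N] (l : ℕ) [Fact l.Prime]

/-- If a valuation subring of the function field contains `ℤ_(l)` and `S`, it contains the whole
chart algebra `chartAlg N l S` (the integral closure of `ℤ_(l)[S]`). -/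
theorem chartAlg_le_of_valuationSubring (OV : ValuationSubring ↥(modularFunctionFieldFull N))
    (hZ : ∀ a : ↥(GaloisRep.ratLocalizedAt l),
      algebraMap ↥(GaloisRep.ratLocalizedAt l) ↥(modularFunctionFieldFull N) a ∈ OV)
    (S : Set ↥(modularFunctionFieldFull N)) (hS : ∀ s ∈ S, s ∈ OV) :
    ∀ x ∈ chartAlg N l S, x ∈ OV := by
  intro x hx
  rw [mem_chartAlg_iff] at hx
  have hA : ∀ a ∈ Algebra.adjoin ↥(GaloisRep.ratLocalizedAt l) S, a ∈ OV := by
    intro a ha
    induction ha using Algebra.adjoin_induction with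
    | mem y hy => exact hS y hy
    | algebraMap a => exact hZ a
    | add y z _ _ hy hz => exact OV.add_mem _ _ hy hz
    | mul y z _ _ hy hz => exact OV.mul_mem _ _ hy hz
  let φ : ↥(Algebra.adjoin ↥(GaloisRep.ratLocalizedAt l) S) →+* ↥OV :=
    { toFun := fun a => ⟨a.1, hA a.1 a.2⟩
      map_one' := rfl
      map_mul' := fun _ _ => rfl
      map_zero' := rfl
      map_add' := fun _ _ => rfl }
  have hint : IsIntegral ↥OV x :=
    hx.map_of_comp_eq φ (RingHom.id ↥(modularFunctionFieldFull N)) (by ext; rfl)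
  obtain ⟨y, hy⟩ := IsIntegrallyClosed.isIntegral_iff.mp hint
  rw [← hy]
  exact y.2

/-- The divisibility-by-`l` closure property passes from the Fin chart to the Mid chart. -/
theorem mid_of_fin (O : Subring ↥(modularFunctionFieldFull N)) (hj : jFull N ∈ O)
    (hFin : ∀ x ∈ chartAlg N l {jFull N}, ∀ y ∈ O,
      x = (l : ↥(modularFunctionFieldFull N)) * y → y ∈ chartAlg N l {jFull N}) :
    ∀ x ∈ chartAlg N l {jFull N, (jFull N)⁻¹}, ∀ y ∈ O,
      x = (l : ↥(modularFunctionFieldFull N)) * y → y ∈ chartAlg N l {jFull N, (jFull N)⁻¹} := by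
  intro x hx y hy hxy
  have hx' : x ∈ chartAlg N l (insert (jFull N)⁻¹ {jFull N}) := by
    rw [show insert (jFull N)⁻¹ ({jFull N} : Set ↥(modularFunctionFieldFull N)) =
      {jFull N, (jFull N)⁻¹} from Set.pair_comm _ _]
    exact hx
  obtain ⟨n, hn⟩ := exists_pow_mul_mem_chartAlg (Set.mem_singleton _) (jFull_ne_zero N) hx'
  have h1 : jFull N ^ n * y ∈ chartAlg N l {jFull N} :=
    hFin _ hn _ (O.mul_mem (O.pow_mem hj n) hy) (by rw [hxy]; ring)
  have h2 : jFull N ^ n * y ∈ chartAlg N l {jFull N, (jFull N)⁻¹} :=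
    chartAlg_mono N l (sFin_subset N) h1
  have h3 : (jFull N)⁻¹ ∈ chartAlg N l {jFull N, (jFull N)⁻¹} :=
    subset_chartAlg N l _ (by simp)
  have h4 : y = (jFull N)⁻¹ ^ n * (jFull N ^ n * y) := by
    rw [← mul_assoc, ← mul_pow, inv_mul_cancel₀ (jFull_ne_zero N), one_pow, one_mul]
  rw [h4]
  exact mul_mem (pow_mem h3 n) h2

end Fermat.Agent.S28.ChartSteps
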