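/-
S28 block D (helper23): the "Gauss valuation ring" `O` of a subfield `F ⊂ ℚ((q))`:
`O = {a / b | a, b ∈ F with ℓ-integral coefficients, b ≢ 0 mod ℓ}`, with its reduction
homomorphism `redO : O → 𝔽_ℓ((q))` whose kernel is `ℓ O`.
-/
import Mathlib
import Fermat.Agent.S28.IntLaurent

set_option autoImplicit false
set_option linter.unusedSectionVars false

namespace Fermat.Agent.S28.GaussRing

open ModularCurve Fermat.Agent.S28.ZlRes Fermat.Agent.S28.IntLaurent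

variable (ℓ : ℕ) [hℓ : Fact ℓ.Prime] (F : IntermediateField ℚ (LaurentSeries ℚ))

/-- the inclusion `F → ℚ((q))` as a bare ring hom -/
def valHom : ↥F →+* LaurentSeries ℚ where
  toFun := Subtype.val
  map_one' := rfl
  map_mul' := fun _ _ => rfl
  map_zero' := rfl
  map_add' := fun _ _ => rfl

/-- elements of `F` with `ℓ`-integral coefficients -/
noncomputable def A : Subring ↥F := (IntSub ℓ).comap (valHom F)

variable {ℓ F}

lemma mem_A_iff {y : ↥F} : y ∈ A ℓ F ↔ (y : LaurentSeries ℚ) ∈ IntSub ℓ := Iff.rfl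

lemma natCast_mem (F : IntermediateField ℚ (LaurentSeries ℚ)) (n : ℕ) : (n : LaurentSeries ℚ) ∈ F := by
  have : (n : LaurentSeries ℚ) = ((n : ↥F) : LaurentSeries ℚ) := by simp
  rw [this]; exact (n : ↥F).2

variable (ℓ F)

/-- reduction on `A` -/
noncomputable def redA : ↥(A ℓ F) →+* LaurentSeries (ZMod ℓ) :=
  (redInt ℓ).comp
    { toFun := fun a => ⟨((a : ↥F) : LaurentSeries ℚ), a.2⟩
      map_one' := rfl
      map_mul' := fun _ _ => rfl
      map_zero' := rfl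
      map_add' := fun _ _ => rfl }

variable {ℓ F}

lemma redA_apply (a : ↥(A ℓ F)) : redA ℓ F a = redInt ℓ ⟨((a : ↥F) : LaurentSeries ℚ), a.2⟩ := rfl

/-- kernel of `redA` -/
lemma redA_eq_zero_iff (a : ↥(A ℓ F)) :
    redA ℓ F a = 0 ↔ ∃ a' : ↥(A ℓ F), (a : ↥F) = (ℓ : ↥F) * (a' : ↥F) := by
  rw [redA_apply, redInt_eq_zero_iff]
  constructor
  · rintro ⟨g, hg, hfg⟩
    simp only at hfg
    have hℓL : (ℓ : LaurentSeries ℚ) ≠ 0 := by
      have : (ℓ : LaurentSeries ℚ) = HahnSeries.C (ℓ : ℚ) := by simp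
      rw [this]
      exact fun h => (Nat.cast_ne_zero.mpr hℓ.out.ne_zero : (ℓ : ℚ) ≠ 0)
        (HahnSeries.C_injective (by simpa using h))
    have hgF : g ∈ F := by
      have : g = ((ℓ : LaurentSeries ℚ))⁻¹ * ((a : ↥F) : LaurentSeries ℚ) := by
        rw [hfg, inv_mul_cancel_left₀ hℓL]
      rw [this]
      exact F.mul_mem (F.inv_mem (natCast_mem F ℓ)) (a : ↥F).2
    refine ⟨⟨⟨g, hgF⟩, hg⟩, ?_⟩
    apply Subtype.ext
    rw [hfg]
    rfl
  · rintro ⟨a', ha'⟩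
    refine ⟨((a' : ↥F) : LaurentSeries ℚ), a'.2, ?_⟩
    simp only
    rw [ha']
    rfl

variable (ℓ F)

/-- The Gauss ring `O ⊂ F`. -/
noncomputable def O : Subring ↥F where
  carrier := {y | ∃ a b : ↥(A ℓ F), redA ℓ F b ≠ 0 ∧ (b : ↥F) * y = (a : ↥F)}
  mul_mem' := by
    rintro y y' ⟨a, b, hb, h⟩ ⟨a', b', hb', h'⟩
    refine ⟨a * a', b * b', ?_, ?_⟩
    · rw [map_mul]; exact mul_ne_zero hb hb'
    · push_cast
      rw [← h, ← h']; ring
  one_mem' := ⟨1, 1, by rw [map_one]; exact one_ne_zero, by simp⟩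
  add_mem' := by
    rintro y y' ⟨a, b, hb, h⟩ ⟨a', b', hb', h'⟩
    refine ⟨a * b' + a' * b, b * b', ?_, ?_⟩
    · rw [map_mul]; exact mul_ne_zero hb hb'
    · push_cast
      rw [← h, ← h']; ring
  zero_mem' := ⟨0, 1, by rw [map_one]; exact one_ne_zero, by simp⟩
  neg_mem' := by
    rintro y ⟨a, b, hb, h⟩
    exact ⟨-a, b, hb, by push_cast; rw [← h]; ring⟩

variable {ℓ F}

lemma mem_O_iff {y : ↥F} :
    y ∈ O ℓ F ↔ ∃ a b : ↥(A ℓ F), redA ℓ F b ≠ 0 ∧ (b : ↥F) * y = (a : ↥F) := Iff.rfl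

lemma A_le_O : A ℓ F ≤ O ℓ F := fun y hy =>
  ⟨⟨y, hy⟩, 1, by rw [map_one]; exact one_ne_zero, by simp⟩

lemma redA_ne_zero_imp_ne_zero {b : ↥(A ℓ F)} (hb : redA ℓ F b ≠ 0) : (b : ↥F) ≠ 0 := by
  intro h
  apply hb
  have : b = 0 := Subtype.ext h
  rw [this, map_zero]

/-- two representations give the same quotient of reductions -/
lemma red_quot_eq {y : ↥F} {a b a' b' : ↥(A ℓ F)} (hb : redA ℓ F b ≠ 0) (hb' : redA ℓ F b' ≠ 0)
    (h : (b : ↥F) * y = (a : ↥F)) (h' : (b' : ↥F) * y = (a' : ↥F)) :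
    redA ℓ F a / redA ℓ F b = redA ℓ F a' / redA ℓ F b' := by
  rw [div_eq_div_iff hb hb', ← map_mul, ← map_mul]
  congr 1
  apply Subtype.ext
  push_cast
  rw [← h, ← h']; ring

variable (ℓ F)

/-- the reduction map on `O` (as a function) -/
noncomputable def redOfun (y : ↥(O ℓ F)) : LaurentSeries (ZMod ℓ) :=
  redA ℓ F (Classical.choose y.2) / redA ℓ F (Classical.choose (Classical.choose_spec y.2))

variable {ℓ F}

lemma redOfun_eq (y : ↥(O ℓ F)) {a b : ↥(A ℓ F)} (hb : redA ℓ F b ≠ 0)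
    (h : (b : ↥F) * (y : ↥F) = (a : ↥F)) : redOfun ℓ F y = redA ℓ F a / redA ℓ F b := by
  have hs := Classical.choose_spec (Classical.choose_spec y.2)
  exact red_quot_eq hs.1 hb hs.2 h

variable (ℓ F)

/-- The reduction homomorphism `O → 𝔽_ℓ((q))`. -/
noncomputable def redO : ↥(O ℓ F) →+* LaurentSeries (ZMod ℓ) where
  toFun := redOfun ℓ F
  map_one' := by
    rw [redOfun_eq (1 : ↥(O ℓ F)) (a := 1) (b := 1) (by rw [map_one]; exact one_ne_zero) (by simp)]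
    simp
  map_zero' := by
    rw [redOfun_eq (0 : ↥(O ℓ F)) (a := 0) (b := 1) (by rw [map_one]; exact one_ne_zero) (by simp)]
    simp
  map_mul' := by
    intro y y'
    obtain ⟨a, b, hb, h⟩ := y.2
    obtain ⟨a', b', hb', h'⟩ := y'.2
    rw [redOfun_eq y hb h, redOfun_eq y' hb' h',
      redOfun_eq (y * y') (a := a * a') (b := b * b')
        (by rw [map_mul]; exact mul_ne_zero hb hb')
        (by push_cast; rw [← h, ← h']; ring)]
    rw [map_mul, map_mul, mul_div_mul_comm]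
  map_add' := by
    intro y y'
    obtain ⟨a, b, hb, h⟩ := y.2
    obtain ⟨a', b', hb', h'⟩ := y'.2
    rw [redOfun_eq y hb h, redOfun_eq y' hb' h',
      redOfun_eq (y + y') (a := a * b' + a' * b) (b := b * b')
        (by rw [map_mul]; exact mul_ne_zero hb hb')
        (by push_cast; rw [← h, ← h']; ring)]
    rw [map_add, map_mul, map_mul, map_mul, div_add_div _ _ hb hb', mul_comm (redA ℓ F b) (redA ℓ F a')]

variable {ℓ F}

lemma redO_eq (y : ↥(O ℓ F)) {a b : ↥(A ℓ F)} (hb : redA ℓ F b ≠ 0)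
    (h : (b : ↥F) * (y : ↥F) = (a : ↥F)) : redO ℓ F y = redA ℓ F a / redA ℓ F b :=
  redOfun_eq y hb h

lemma redO_of_mem_A (a : ↥(A ℓ F)) : redO ℓ F ⟨a, A_le_O a.2⟩ = redA ℓ F a := by
  rw [redO_eq ⟨a, A_le_O a.2⟩ (a := a) (b := 1) (by rw [map_one]; exact one_ne_zero) (by simp)]
  simp

/-- kernel of `redO` is `ℓ O` -/
lemma redO_eq_zero_iff (y : ↥(O ℓ F)) :
    redO ℓ F y = 0 ↔ ∃ y' : ↥(O ℓ F), (y : ↥F) = (ℓ : ↥F) * (y' : ↥F) := by
  obtain ⟨a, b, hb, h⟩ := y.2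
  have hb0 := redA_ne_zero_imp_ne_zero hb
  rw [redO_eq y hb h, div_eq_zero_iff]
  constructor
  · rintro (h0 | h0)
    · obtain ⟨a', ha'⟩ := (redA_eq_zero_iff a).mp h0
      refine ⟨⟨(a' : ↥F) / (b : ↥F), a', b, hb, by field_simp⟩, ?_⟩
      show (y : ↥F) = (ℓ : ↥F) * ((a' : ↥F) / (b : ↥F))
      rw [← mul_div_assoc, ← ha', ← h]
      field_simp
    · exact absurd h0 hb
  · rintro ⟨y', hy'⟩
    left
    obtain ⟨a', b', hb', h'⟩ := y'.2
    -- b' * b * y = b' * a ; also = b * ℓ * a'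
    have hb'0 := redA_ne_zero_imp_ne_zero hb'
    have e : ((b' * a : ↥(A ℓ F)) : ↥F) = ((b * ((ℓ : ↥(A ℓ F)) * a') : ↥(A ℓ F)) : ↥F) := by
      push_cast
      rw [← h, ← h', hy']; ring
    have e' : b' * a = b * ((ℓ : ↥(A ℓ F)) * a') := Subtype.ext e
    have := congrArg (redA ℓ F) e'
    rw [map_mul, map_mul, map_mul] at this
    have hl : redA ℓ F (ℓ : ↥(A ℓ F)) = 0 := by
      rw [map_natCast]
      have : (ℓ : LaurentSeries (ZMod ℓ)) = HahnSeries.C ((ℓ : ℕ) : ZMod ℓ) :=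
        (map_natCast (HahnSeries.C : ZMod ℓ →+* LaurentSeries (ZMod ℓ)) ℓ).symm
      rw [this, ZMod.natCast_self, map_zero]
    rw [hl, zero_mul, mul_zero] at this
    exact (mul_eq_zero.mp this).resolve_left hb'

/-- elements of `O` with nonzero reduction are units of `O` -/
lemma inv_mem_O {y : ↥(O ℓ F)} (hy : redO ℓ F y ≠ 0) : ((y : ↥F))⁻¹ ∈ O ℓ F := by
  obtain ⟨a, b, hb, h⟩ := y.2
  have hb0 := redA_ne_zero_imp_ne_zero hb
  rw [redO_eq y hb h] at hy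
  have ha : redA ℓ F a ≠ 0 := fun h0 => hy (by rw [h0, zero_div])
  have ha0 := redA_ne_zero_imp_ne_zero ha
  have hy0 : (y : ↥F) ≠ 0 := by
    intro h0; rw [h0, mul_zero] at h; exact ha0 h.symm
  exact ⟨b, a, ha, by rw [← h]; field_simp⟩

end Fermat.Agent.S28.GaussRing
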