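/-
S28 block D (row 124, helper68): content normal form of `P(t)` for `P ∈ ℚ[X]` and `t` an
`ℓ`-integral element of `F ⊂ ℚ((q))` whose reduction is transcendental over `𝔽_ℓ`:
`P(t) = ℓ ^ e * w` with `w` integral, `w̄ ≠ 0`, `w̄ ∈ 𝔽_ℓ[t̄]`, and `P ∈ ℤ_(ℓ)[X]` when `0 ≤ e`.
-/
import Mathlib
import Fermat.Agent.S28.GaussRing

set_option autoImplicit false
set_option linter.unusedSectionVars false

namespace Fermat.Agent.S28.GaussPoly

open ModularCurve Fermat.Agent.S28.ZlRes Fermat.Agent.S28.IntLaurent Fermat.Agent.S28.GaussRing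
open Polynomial

variable {ℓ : ℕ} [hℓ : Fact ℓ.Prime] {F : IntermediateField ℚ (LaurentSeries ℚ)}

/-- the constant `u ∈ ℤ_(ℓ)` as an element of `A`. -/
lemma algebraMap_mem_A {u : ℚ} (hu : u ∈ GaloisRep.ratLocalizedAt ℓ) :
    algebraMap ℚ ↥F u ∈ A ℓ F := by
  rw [mem_A_iff, mem_IntSub_iff]
  intro k
  have h1 : ((algebraMap ℚ ↥F u : ↥F) : LaurentSeries ℚ) = HahnSeries.C u := rfl
  rw [h1, HahnSeries.C_apply, HahnSeries.coeff_single]
  split_ifs
  · exact hu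
  · exact Subring.zero_mem _

lemma redA_algebraMap {u : ℚ} (hu : u ∈ GaloisRep.ratLocalizedAt ℓ) :
    redA ℓ F ⟨algebraMap ℚ ↥F u, algebraMap_mem_A hu⟩ =
      algebraMap (ZMod ℓ) (LaurentSeries (ZMod ℓ)) (res ℓ ⟨u, hu⟩) := by
  ext k
  rw [redA_apply, redInt_coeff]
  have h1 : ((algebraMap ℚ ↥F u : ↥F) : LaurentSeries ℚ) = HahnSeries.C u := rfl
  have h2 : algebraMap (ZMod ℓ) (LaurentSeries (ZMod ℓ)) (res ℓ ⟨u, hu⟩) =
      HahnSeries.C (res ℓ ⟨u, hu⟩) := by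
    rw [HahnSeries.algebraMap_apply']
    simp
  simp only [h1, h2, HahnSeries.C_apply, HahnSeries.coeff_single]
  split_ifs
  · rfl
  · simp

/-- a primitive integer polynomial is nonzero mod `ℓ`. -/
lemma map_ne_zero_of_isPrimitive {p : ℤ[X]} (hp : p.IsPrimitive) :
    p.map (Int.castRingHom (ZMod ℓ)) ≠ 0 := by
  intro h
  have hdvd : C (ℓ : ℤ) ∣ p := by
    rw [Polynomial.C_dvd_iff_dvd_coeff]
    intro i
    have := congrArg (fun q => q.coeff i) h
    simp only [Polynomial.coeff_map, Polynomial.coeff_zero, eq_intCast] at this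
    exact (ZMod.intCast_zmod_eq_zero_iff_dvd _ _).mp this
  have hu := hp _ hdvd
  rw [Int.isUnit_iff] at hu
  have h2 := hℓ.out.two_le
  omega

theorem polyNorm (t : ↥(A ℓ F)) (htr : Transcendental (ZMod ℓ) (redA ℓ F t)) (P : ℚ[X])
    (hP : P ≠ 0) :
    ∃ (e : ℤ) (w : ↥(A ℓ F)), redA ℓ F w ≠ 0 ∧
      redA ℓ F w ∈ Algebra.adjoin (ZMod ℓ) {redA ℓ F t} ∧
      Polynomial.aeval ((t : ↥F)) P = (ℓ : ↥F) ^ e * ((w : ↥F)) ∧
      (0 ≤ e → P ∈ Polynomial.lifts (algebraMap (GaloisRep.ratLocalizedAt ℓ) ℚ)) := by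
  classical
  -- clear denominators
  obtain ⟨b, hbM, hb⟩ := IsLocalization.integerNormalization_spec (nonZeroDivisors ℤ) P
  set P1 : ℤ[X] := IsLocalization.integerNormalization (nonZeroDivisors ℤ) P with hP1
  have hb0 : (b : ℤ) ≠ 0 := nonZeroDivisors.ne_zero hbM
  have hbq : ((b : ℤ) : ℚ) ≠ 0 := by exact_mod_cast hb0
  have hP1ne : P1 ≠ 0 := by
    intro h0
    rw [h0, Polynomial.map_zero] at hb
    have : (b : ℤ) • P ≠ 0 := smul_ne_zero hb0 hP
    exact this hb.symm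
  set c : ℤ := P1.content with hc
  set pp : ℤ[X] := P1.primPart with hpp
  have hc0 : c ≠ 0 := by rw [hc, Ne, Polynomial.content_eq_zero_iff]; exact hP1ne
  have hcq : (c : ℚ) ≠ 0 := by exact_mod_cast hc0
  have hprim : pp.IsPrimitive := P1.isPrimitive_primPart
  have hdecomp : P1 = C c * pp := P1.eq_C_content_mul_primPart
  -- `P = C (c / b) * pp`
  have ha0 : (c : ℚ) / (b : ℤ) ≠ 0 := div_ne_zero hcq hbq
  have hPeq : P = C ((c : ℚ) / ((b : ℤ) : ℚ)) * pp.map (Int.castRingHom ℚ) := by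
    have h1 : ((b : ℤ) : ℚ) • P = C (c : ℚ) * pp.map (Int.castRingHom ℚ) := by
      have h2 : P1.map (algebraMap ℤ ℚ) = C (c : ℚ) * pp.map (Int.castRingHom ℚ) := by
        conv_lhs => rw [hdecomp]
        rw [Polynomial.map_mul, Polynomial.map_C]
        rfl
      rw [← h2, hb]
      rw [zsmul_eq_mul, Polynomial.smul_eq_C_mul]
      simp
    have h3 : P = (((b : ℤ) : ℚ))⁻¹ • (((b : ℤ) : ℚ) • P) := by
      rw [smul_smul, inv_mul_cancel₀ hbq, one_smul]
    rw [h3, h1, Polynomial.smul_eq_C_mul, ← mul_assoc, ← C_mul]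
    congr 2
    field_simp
  obtain ⟨e, u, hu, hu', hau⟩ := exists_normalize (ℓ := ℓ) ((c : ℚ) / ((b : ℤ) : ℚ)) ha0
  -- the elements of `A`
  set uA : ↥(A ℓ F) := ⟨algebraMap ℚ ↥F u, algebraMap_mem_A hu⟩ with huA
  set vA : ↥(A ℓ F) := pp.eval₂ (Int.castRingHom ↥(A ℓ F)) t with hvA
  have hresu : res ℓ ⟨u, hu⟩ ≠ 0 := by
    intro h0
    have hu0 : u ≠ 0 := by
      rintro rfl
      rw [mul_zero] at hau
      exact ha0 hau
    have hmul : (⟨u, hu⟩ : ↥(GaloisRep.ratLocalizedAt ℓ)) * ⟨u⁻¹, hu'⟩ = 1 :=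
      Subtype.ext (mul_inv_cancel₀ hu0)
    have := congrArg (res ℓ) hmul
    rw [map_mul, h0, zero_mul, map_one] at this
    exact zero_ne_one this
  have hredv : redA ℓ F vA =
      Polynomial.aeval (redA ℓ F t) (pp.map (Int.castRingHom (ZMod ℓ))) := by
    rw [hvA, Polynomial.hom_eval₂, Polynomial.aeval_def, Polynomial.eval₂_map]
    congr 1
    exact Subsingleton.elim _ _
  have hredv0 : redA ℓ F vA ≠ 0 := by
    rw [hredv]
    intro h0
    exact map_ne_zero_of_isPrimitive hprim ((transcendental_iff.mp htr) _ h0)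
  have hcoev : ((vA : ↥(A ℓ F)) : ↥F) =
      Polynomial.aeval (t : ↥F) (pp.map (Int.castRingHom ℚ)) := by
    have h1 : ((vA : ↥(A ℓ F)) : ↥F) = (A ℓ F).subtype vA := rfl
    rw [h1, hvA, Polynomial.hom_eval₂, Polynomial.aeval_def, Polynomial.eval₂_map]
    congr 1
  refine ⟨e, uA * vA, ?_, ?_, ?_, ?_⟩
  · rw [map_mul, huA, redA_algebraMap hu]
    refine mul_ne_zero ?_ hredv0
    intro h0
    apply hresu
    exact (algebraMap (ZMod ℓ) (LaurentSeries (ZMod ℓ))).injective (by rw [h0, map_zero])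
  · rw [map_mul, huA, redA_algebraMap hu, hredv]
    refine Subalgebra.mul_mem _ (Subalgebra.algebraMap_mem _ _) ?_
    exact Polynomial.aeval_mem_adjoin_singleton _ _
  · have hl : algebraMap ℚ ↥F ((ℓ : ℚ) ^ e * u) = (ℓ : ↥F) ^ e * algebraMap ℚ ↥F u := by
      rw [map_mul, map_zpow₀, map_natCast]
    conv_lhs => rw [hPeq]
    rw [map_mul, Polynomial.aeval_C, hau, hl]
    push_cast
    rw [hcoev, huA]
    ring
  · intro he
    rw [Polynomial.lifts_iff_coeff_lifts]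
    intro n
    obtain ⟨m, rfl⟩ := Int.eq_ofNat_of_zero_le he
    have hcoeff : P.coeff n = (ℓ : ℚ) ^ m * u * ((pp.coeff n : ℤ) : ℚ) := by
      conv_lhs => rw [hPeq]
      rw [Polynomial.coeff_C_mul, Polynomial.coeff_map, hau, zpow_natCast]
      simp
    have hmem : P.coeff n ∈ GaloisRep.ratLocalizedAt ℓ := by
      rw [hcoeff]
      exact Subring.mul_mem _ (Subring.mul_mem _ (Subring.pow_mem _ (natCast_mem ℓ) m) hu)
        (intCast_mem _)
    exact ⟨⟨P.coeff n, hmem⟩, rfl⟩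

end Fermat.Agent.S28.GaussPoly
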