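/-
S28 block D (helper23): the Gauss ring `O ⊂ F` is a valuation ring, given a transcendental
parameter `t` with transcendental reduction and a spanning family with independent reductions.
-/
import Mathlib
import Fermat.Agent.S28.GaussPoly

set_option autoImplicit false
set_option linter.unusedSectionVars false

namespace Fermat.Agent.S28.GaussVal

open ModularCurve Fermat.Agent.S28.ZlRes Fermat.Agent.S28.IntLaurent Fermat.Agent.S28.GaussRing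
open Polynomial IntermediateField

variable (ℓ : ℕ) [hℓ : Fact ℓ.Prime] (F : IntermediateField ℚ (LaurentSeries ℚ))

/-- total version of the reduction map (zero outside `O`) -/
noncomputable def rd (y : ↥F) : LaurentSeries (ZMod ℓ) := by
  classical exact if h : y ∈ O ℓ F then redO ℓ F ⟨y, h⟩ else 0

variable {ℓ F}

lemma rd_of_mem {y : ↥F} (h : y ∈ O ℓ F) : rd ℓ F y = redO ℓ F ⟨y, h⟩ := by
  unfold rd; exact dif_pos h

lemma rd_mul {y y' : ↥F} (h : y ∈ O ℓ F) (h' : y' ∈ O ℓ F) :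
    rd ℓ F (y * y') = rd ℓ F y * rd ℓ F y' := by
  rw [rd_of_mem h, rd_of_mem h', rd_of_mem ((O ℓ F).mul_mem h h'), ← map_mul]
  rfl

lemma rd_add {y y' : ↥F} (h : y ∈ O ℓ F) (h' : y' ∈ O ℓ F) :
    rd ℓ F (y + y') = rd ℓ F y + rd ℓ F y' := by
  rw [rd_of_mem h, rd_of_mem h', rd_of_mem ((O ℓ F).add_mem h h'), ← map_add]
  rfl

lemma rd_zero : rd ℓ F 0 = 0 := by
  rw [rd_of_mem (O ℓ F).zero_mem]
  exact map_zero (redO ℓ F)

lemma rd_one : rd ℓ F 1 = 1 := by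
  rw [rd_of_mem (O ℓ F).one_mem]
  exact map_one (redO ℓ F)

lemma rd_sum {ι : Type*} (s : Finset ι) (f : ι → ↥F) (h : ∀ i ∈ s, f i ∈ O ℓ F) :
    rd ℓ F (∑ i ∈ s, f i) = ∑ i ∈ s, rd ℓ F (f i) := by
  classical
  induction s using Finset.induction_on with
  | empty => simp [rd_zero]
  | insert a s ha ih =>
    rw [Finset.sum_insert ha, Finset.sum_insert ha,
      rd_add (h a (Finset.mem_insert_self a s))
        ((O ℓ F).sum_mem fun i hi => h i (Finset.mem_insert_of_mem hi)),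
      ih fun i hi => h i (Finset.mem_insert_of_mem hi)]

lemma rd_of_mem_A (a : ↥(A ℓ F)) : rd ℓ F (a : ↥F) = redA ℓ F a := by
  rw [rd_of_mem (A_le_O a.2)]
  exact redO_of_mem_A a

lemma ell_mem_O : (ℓ : ↥F) ∈ O ℓ F := _root_.natCast_mem (O ℓ F) ℓ

lemma ell_ne_zero : (ℓ : ↥F) ≠ 0 := Nat.cast_ne_zero.mpr hℓ.out.ne_zero

lemma rd_ell_mul {y : ↥F} (h : y ∈ O ℓ F) : rd ℓ F ((ℓ : ↥F) * y) = 0 := by
  rw [rd_of_mem ((O ℓ F).mul_mem ell_mem_O h)]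
  exact (redO_eq_zero_iff _).mpr ⟨⟨y, h⟩, rfl⟩

lemma rd_ell_pow_mul {k : ℕ} (hk : 0 < k) {y : ↥F} (h : y ∈ O ℓ F) :
    rd ℓ F ((ℓ : ↥F) ^ k * y) = 0 := by
  obtain ⟨k', rfl⟩ := Nat.exists_eq_succ_of_ne_zero hk.ne'
  rw [pow_succ', mul_assoc]
  exact rd_ell_mul ((O ℓ F).mul_mem ((O ℓ F).pow_mem ell_mem_O k') h)

lemma rd_eq_zero_iff {y : ↥F} (h : y ∈ O ℓ F) :
    rd ℓ F y = 0 ↔ ∃ y' ∈ O ℓ F, y = (ℓ : ↥F) * y' := by
  rw [rd_of_mem h, redO_eq_zero_iff]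
  constructor
  · rintro ⟨y', hy'⟩; exact ⟨y', y'.2, hy'⟩
  · rintro ⟨y', hy', e⟩; exact ⟨⟨y', hy'⟩, e⟩

lemma inv_mem_of_rd_ne_zero {y : ↥F} (h : y ∈ O ℓ F) (h0 : rd ℓ F y ≠ 0) : y⁻¹ ∈ O ℓ F := by
  rw [rd_of_mem h] at h0
  have h1 := inv_mem_O (y := (⟨y, h⟩ : ↥(O ℓ F))) h0
  exact h1

lemma ne_zero_of_rd_ne_zero {y : ↥F} (h0 : rd ℓ F y ≠ 0) : y ≠ 0 := by
  rintro rfl; exact h0 rd_zero

lemma rd_inv {y : ↥F} (h : y ∈ O ℓ F) (h0 : rd ℓ F y ≠ 0) : rd ℓ F y⁻¹ = (rd ℓ F y)⁻¹ := by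
  have hinv := inv_mem_of_rd_ne_zero h h0
  have hy0 := ne_zero_of_rd_ne_zero h0
  have : rd ℓ F y * rd ℓ F y⁻¹ = 1 := by
    rw [← rd_mul h hinv, mul_inv_cancel₀ hy0, rd_one]
  exact eq_inv_of_mul_eq_one_right this

/-- `ℓ ^ m * y ∈ O` for `m ≥ 0`. -/
lemma zpow_mul_mem {m : ℤ} (hm : 0 ≤ m) {y : ↥F} (h : y ∈ O ℓ F) : (ℓ : ↥F) ^ m * y ∈ O ℓ F := by
  obtain ⟨k, rfl⟩ := Int.eq_ofNat_of_zero_le hm
  rw [zpow_natCast]
  exact (O ℓ F).mul_mem ((O ℓ F).pow_mem ell_mem_O k) h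

/-- if `z = ℓ ^ m * z'` with `m < 0` and `z, z' ∈ O` then `z'` reduces to zero. -/
lemma rd_eq_zero_of_neg {m : ℤ} (hm : m < 0) {z z' : ↥F} (hz : z ∈ O ℓ F)
    (e : z = (ℓ : ↥F) ^ m * z') : rd ℓ F z' = 0 := by
  obtain ⟨k, hk⟩ := Int.eq_ofNat_of_zero_le (by omega : 0 ≤ -m)
  have hk0 : 0 < k := by omega
  have : z' = (ℓ : ↥F) ^ k * z := by
    rw [e, ← mul_assoc, ← zpow_natCast, ← hk, ← zpow_add₀ ell_ne_zero]
    simp
  rw [this]
  exact rd_ell_pow_mul hk0 hz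

/-! ### Normal form of elements of `ℚ(t)` -/

section NormalForm

variable (t : ↥(A ℓ F)) (htr : Transcendental (ZMod ℓ) (redA ℓ F t))

/-- Every nonzero element of `ℚ(t)` is `ℓ ^ m * w` with `w` a unit of `O` whose reduction lies in
`𝔽_ℓ(t̄)`. -/
theorem normalForm (htr : Transcendental (ZMod ℓ) (redA ℓ F t)) {c : ↥F}
    (hc : c ∈ ℚ⟮(t : ↥F)⟯) (hc0 : c ≠ 0) :
    ∃ (m : ℤ) (w : ↥F), w ∈ O ℓ F ∧ rd ℓ F w ≠ 0 ∧ rd ℓ F w ∈ (ZMod ℓ)⟮redA ℓ F t⟯ ∧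
      c = (ℓ : ↥F) ^ m * w := by
  obtain ⟨r, s, hrs⟩ := (IntermediateField.mem_adjoin_simple_iff ℚ c).mp hc
  have hr0 : r ≠ 0 := by
    rintro rfl
    rw [map_zero, zero_div] at hrs
    exact hc0 hrs
  have hs0 : s ≠ 0 := by
    rintro rfl
    rw [map_zero, div_zero] at hrs
    exact hc0 hrs
  obtain ⟨e1, w1, hw1, hw1k, h1, -⟩ := GaussPoly.polyNorm t htr r hr0
  obtain ⟨e2, w2, hw2, hw2k, h2, -⟩ := GaussPoly.polyNorm t htr s hs0
  have hw1O : (w1 : ↥F) ∈ O ℓ F := A_le_O w1.2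
  have hw2O : (w2 : ↥F) ∈ O ℓ F := A_le_O w2.2
  have hrd2 : rd ℓ F (w2 : ↥F) ≠ 0 := by rw [rd_of_mem_A]; exact hw2
  have hw2inv := inv_mem_of_rd_ne_zero hw2O hrd2
  have hle : Algebra.adjoin (ZMod ℓ) {redA ℓ F t} ≤ ((ZMod ℓ)⟮redA ℓ F t⟯).toSubalgebra :=
    IntermediateField.algebra_adjoin_le_adjoin _ _
  refine ⟨e1 - e2, (w1 : ↥F) * (w2 : ↥F)⁻¹, (O ℓ F).mul_mem hw1O hw2inv, ?_, ?_, ?_⟩
  · rw [rd_mul hw1O hw2inv, rd_inv hw2O hrd2, rd_of_mem_A, rd_of_mem_A]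
    exact mul_ne_zero hw1 (inv_ne_zero hw2)
  · rw [rd_mul hw1O hw2inv, rd_inv hw2O hrd2, rd_of_mem_A, rd_of_mem_A]
    exact mul_mem (hle hw1k) (inv_mem (hle hw2k))
  · rw [hrs, h1, h2, zpow_sub₀ ell_ne_zero]
    have hw20 : (w2 : ↥F) ≠ 0 := ne_zero_of_rd_ne_zero hrd2
    have hl2 : (ℓ : ↥F) ^ e2 ≠ 0 := zpow_ne_zero _ ell_ne_zero
    field_simp

end NormalForm

/-! ### The scaling lemma -/

section Scaling

variable (t : ↥(A ℓ F)) (htr : Transcendental (ZMod ℓ) (redA ℓ F t))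
  {n : ℕ} (x : Fin n → ↥F) (hxA : ∀ i, x i ∈ A ℓ F)

lemma coords (hspan : Submodule.span ℚ⟮(t : ↥F)⟯ (Set.range x) = ⊤) (z : ↥F) :
    ∃ c : Fin n → ↥F, (∀ i, c i ∈ ℚ⟮(t : ↥F)⟯) ∧ z = ∑ i, c i * x i := by
  have hz : z ∈ Submodule.span ℚ⟮(t : ↥F)⟯ (Set.range x) := by rw [hspan]; trivial
  obtain ⟨c, hc⟩ := (Submodule.mem_span_range_iff_exists_fun _).mp hz
  refine ⟨fun i => ((c i : ℚ⟮(t : ↥F)⟯) : ↥F), fun i => (c i).2, ?_⟩
  rw [← hc]
  refine Finset.sum_congr rfl fun i _ => ?_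
  rw [IntermediateField.smul_def, smul_eq_mul]

include htr in
/-- **Scaling lemma.**  A nonzero coefficient vector over `ℚ(t)` can be scaled by a power of `ℓ`
so that all coefficients lie in `O` and the combination has nonzero reduction. -/
theorem key
    (hind : ∀ r : Fin n → LaurentSeries (ZMod ℓ), (∀ i, r i ∈ (ZMod ℓ)⟮redA ℓ F t⟯) →
      ∑ i, r i * redA ℓ F ⟨x i, hxA i⟩ = 0 → ∀ i, r i = 0)
    (c : Fin n → ↥F) (hc : ∀ i, c i ∈ ℚ⟮(t : ↥F)⟯) (hne : ∃ i, c i ≠ 0) :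
    ∃ (m : ℤ) (c' : Fin n → ↥F),
      (∀ i, c' i ∈ O ℓ F ∧ c' i ∈ ℚ⟮(t : ↥F)⟯ ∧ c i = (ℓ : ↥F) ^ m * c' i) ∧
      rd ℓ F (∑ i, c' i * x i) ≠ 0 := by
  classical
  have H : ∀ i, ∃ (m : ℤ) (w : ↥F), c i ≠ 0 →
      (w ∈ O ℓ F ∧ rd ℓ F w ≠ 0 ∧ rd ℓ F w ∈ (ZMod ℓ)⟮redA ℓ F t⟯ ∧
        c i = (ℓ : ↥F) ^ m * w) := by
    intro i
    by_cases h0 : c i = 0
    · exact ⟨0, 0, fun h => absurd h0 h⟩
    · obtain ⟨m, w, h1, h2, h3, h4⟩ := normalForm t htr (hc i) h0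
      exact ⟨m, w, fun _ => ⟨h1, h2, h3, h4⟩⟩
  choose m w hmw using H
  set I : Finset (Fin n) := Finset.univ.filter (fun i => c i ≠ 0) with hI
  have hIne : I.Nonempty := by
    obtain ⟨i, hi⟩ := hne
    exact ⟨i, by simp [hI, hi]⟩
  obtain ⟨i₀, hi₀, hMi₀⟩ := Finset.exists_mem_eq_inf' hIne m
  set M : ℤ := I.inf' hIne m with hM
  have hci₀ : c i₀ ≠ 0 := by simpa [hI] using hi₀
  have hle : ∀ i, c i ≠ 0 → M ≤ m i := fun i hi => Finset.inf'_le m (by simp [hI, hi])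
  have hℓK : (ℓ : ↥F) ∈ ℚ⟮(t : ↥F)⟯ := _root_.natCast_mem _ ℓ
  set c' : Fin n → ↥F := fun i => if c i = 0 then 0 else (ℓ : ↥F) ^ (m i - M) * w i with hc'
  have hxO : ∀ i, x i ∈ O ℓ F := fun i => A_le_O (hxA i)
  have hc'O : ∀ i, c' i ∈ O ℓ F := by
    intro i
    by_cases h0 : c i = 0
    · simp only [hc', h0, if_true]; exact (O ℓ F).zero_mem
    · simp only [hc', h0, if_false]
      exact zpow_mul_mem (sub_nonneg.mpr (hle i h0)) (hmw i h0).1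
  have hc'k : ∀ i, rd ℓ F (c' i) ∈ (ZMod ℓ)⟮redA ℓ F t⟯ := by
    intro i
    by_cases h0 : c i = 0
    · simp only [hc', h0, if_true, rd_zero]; exact zero_mem _
    · simp only [hc', h0, if_false]
      obtain ⟨h1, h2, h3, h4⟩ := hmw i h0
      obtain ⟨k, hk⟩ := Int.eq_ofNat_of_zero_le (sub_nonneg.mpr (hle i h0))
      rw [hk, zpow_natCast]
      rcases Nat.eq_zero_or_pos k with rfl | hk0
      · rw [pow_zero, one_mul]; exact h3
      · rw [rd_ell_pow_mul hk0 h1]; exact zero_mem _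
  refine ⟨M, c', fun i => ⟨hc'O i, ?_, ?_⟩, ?_⟩
  · by_cases h0 : c i = 0
    · simp only [hc', h0, if_true]; exact zero_mem _
    · simp only [hc', h0, if_false]
      have h4 := (hmw i h0).2.2.2
      have : (ℓ : ↥F) ^ (m i - M) * w i = (ℓ : ↥F) ^ (-M) * c i := by
        rw [h4, ← mul_assoc, ← zpow_add₀ ell_ne_zero]
        congr 2; ring
      rw [this]
      exact mul_mem (zpow_mem hℓK _) (hc i)
  · by_cases h0 : c i = 0
    · simp only [hc', h0, if_true, mul_zero]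
    · simp only [hc', h0, if_false]
      have h4 := (hmw i h0).2.2.2
      rw [← mul_assoc, ← zpow_add₀ ell_ne_zero]
      rw [show M + (m i - M) = m i by ring]
      exact h4
  · intro hzero
    rw [rd_sum _ _ (fun i _ => (O ℓ F).mul_mem (hc'O i) (hxO i))] at hzero
    have hz2 : ∑ i, rd ℓ F (c' i) * redA ℓ F ⟨x i, hxA i⟩ = 0 := by
      rw [← hzero]
      refine Finset.sum_congr rfl fun i _ => ?_
      rw [rd_mul (hc'O i) (hxO i)]
      congr 1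
      exact (rd_of_mem_A ⟨x i, hxA i⟩).symm
    have h0 := hind (fun i => rd ℓ F (c' i)) hc'k hz2 i₀
    have : c' i₀ = w i₀ := by
      simp only [hc', hci₀, if_false]
      rw [show m i₀ - M = 0 by rw [hMi₀]; ring, zpow_zero, one_mul]
    rw [this] at h0
    exact (hmw i₀ hci₀).2.1 h0

end Scaling

/-! ### A generic integrality lemma -/

section Generic

/-- If every element of a subring `Osub ⊆ E` is an `R`-combination of finitely many fixed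
elements of `Osub`, then every element of `Osub` is a root of a monic polynomial with coefficients
in `R`. -/
theorem exists_monic_of_coords {K E : Type*} [Field K] [Field E] [Algebra K E] (R : Subring K)
    (Osub : Subring E) {n : ℕ} (x : Fin n → E) (hx : ∀ i, x i ∈ Osub)
    (hcoords : ∀ z ∈ Osub, ∃ c : Fin n → K, (∀ i, c i ∈ R) ∧
      z = ∑ i, algebraMap K E (c i) * x i)
    {y : E} (hy : y ∈ Osub) :
    ∃ p : Polynomial K, p.Monic ∧ (∀ i, p.coeff i ∈ R) ∧ Polynomial.aeval y p = 0 := by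
  classical
  have hsmul : ∀ (v : ↥R) (a : E), v • a = algebraMap K E (v : K) * a := fun v a => by
    rw [Subring.smul_def, Algebra.smul_def]
  set Nn : Submodule ↥R E := Submodule.span _ (Set.range x) with hNn
  have hON : ∀ z : E, z ∈ Osub → z ∈ Nn := by
    intro z hz
    obtain ⟨c, hc, hzc⟩ := hcoords z hz
    rw [hzc]
    refine Submodule.sum_mem _ fun i _ => ?_
    have : algebraMap K E (c i) * x i = (⟨c i, hc i⟩ : ↥R) • x i := by rw [hsmul]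
    rw [this]
    exact Submodule.smul_mem _ _ (Submodule.subset_span ⟨i, rfl⟩)
  have hN0 : Nn ≠ ⊥ := by
    intro h
    have h1 : (1 : E) ∈ Nn := hON 1 Osub.one_mem
    rw [h, Submodule.mem_bot] at h1
    exact one_ne_zero h1
  have hNfg : Nn.FG := Submodule.fg_span (Set.finite_range x)
  have hstab : ∀ a ∈ Nn, y • a ∈ Nn := by
    intro a ha
    induction ha using Submodule.span_induction with
    | mem a ha =>
      obtain ⟨i, rfl⟩ := ha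
      rw [smul_eq_mul]
      exact hON _ (Osub.mul_mem hy (hx i))
    | zero => rw [smul_zero]; exact Submodule.zero_mem _
    | add a b _ _ ha hb => rw [smul_add]; exact Submodule.add_mem _ ha hb
    | smul v a _ ha =>
      have : y • v • a = v • (y • a) := by
        rw [hsmul, hsmul, smul_eq_mul, smul_eq_mul]; ring
      rw [this]
      exact Submodule.smul_mem _ _ ha
  have hint : IsIntegral ↥R y := isIntegral_of_smul_mem_submodule Nn hN0 hNfg y hstab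
  obtain ⟨q, hqm, hq⟩ := hint
  refine ⟨q.map (algebraMap ↥R K), hqm.map _, ?_, ?_⟩
  · intro i
    rw [Polynomial.coeff_map]
    exact (q.coeff i).2
  · rw [Polynomial.aeval_def, Polynomial.eval₂_map]
    exact hq

end Generic

/-! ### `O` is a valuation ring; coordinates; integrality over `V = O ∩ ℚ(t)` -/

section Main

variable (t : ↥(A ℓ F)) (htr : Transcendental (ZMod ℓ) (redA ℓ F t))
  {n : ℕ} (x : Fin n → ↥F) (hxA : ∀ i, x i ∈ A ℓ F)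
  (hspan : Submodule.span ℚ⟮(t : ↥F)⟯ (Set.range x) = ⊤)
  (hind : ∀ r : Fin n → LaurentSeries (ZMod ℓ), (∀ i, r i ∈ (ZMod ℓ)⟮redA ℓ F t⟯) →
      ∑ i, r i * redA ℓ F ⟨x i, hxA i⟩ = 0 → ∀ i, r i = 0)

include htr hspan hind in
theorem mem_or_inv_mem (z : ↥F) : z ∈ O ℓ F ∨ z⁻¹ ∈ O ℓ F := by
  by_cases hz : z = 0
  · left; rw [hz]; exact (O ℓ F).zero_mem
  obtain ⟨c, hc, hzc⟩ := coords t x hspan z
  have hne : ∃ i, c i ≠ 0 := by
    by_contra h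
    push Not at h
    apply hz
    rw [hzc]
    exact Finset.sum_eq_zero fun i _ => by rw [h i, zero_mul]
  obtain ⟨m, c', hc', hrd⟩ := key t htr x hxA hind c hc hne
  have hz'O : ∑ i, c' i * x i ∈ O ℓ F :=
    (O ℓ F).sum_mem fun i _ => (O ℓ F).mul_mem (hc' i).1 (A_le_O (hxA i))
  have hzz' : z = (ℓ : ↥F) ^ m * ∑ i, c' i * x i := by
    rw [hzc, Finset.mul_sum]
    refine Finset.sum_congr rfl fun i _ => ?_
    rw [(hc' i).2.2, mul_assoc]
  rcases le_or_gt 0 m with hm | hm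
  · left; rw [hzz']; exact zpow_mul_mem hm hz'O
  · right
    rw [hzz', mul_inv, ← zpow_neg]
    exact zpow_mul_mem (by omega) (inv_mem_of_rd_ne_zero hz'O hrd)

/-- The Gauss ring as a valuation subring of `F`. -/
noncomputable def OV : ValuationSubring ↥F :=
  { (O ℓ F) with mem_or_inv_mem' := mem_or_inv_mem t htr x hxA hspan hind }

lemma mem_OV {z : ↥F} : z ∈ OV t htr x hxA hspan hind ↔ z ∈ O ℓ F := Iff.rfl

/-- `V = O ∩ ℚ(t)` as a valuation subring of `ℚ(t)`. -/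
noncomputable def V : ValuationSubring ↥ℚ⟮(t : ↥F)⟯ :=
  (OV t htr x hxA hspan hind).comap (algebraMap ↥ℚ⟮(t : ↥F)⟯ ↥F)

lemma mem_V {c : ↥ℚ⟮(t : ↥F)⟯} : c ∈ V t htr x hxA hspan hind ↔ (c : ↥F) ∈ O ℓ F := Iff.rfl

include htr hspan hind in
/-- Elements of `O` have coordinates in `O ∩ ℚ(t)`. -/
theorem coords_mem {y : ↥F} (hy : y ∈ O ℓ F) :
    ∃ c : Fin n → ↥F, (∀ i, c i ∈ ℚ⟮(t : ↥F)⟯ ∧ c i ∈ O ℓ F) ∧ y = ∑ i, c i * x i := by
  obtain ⟨c, hc, hyc⟩ := coords t x hspan y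
  by_cases hne : ∃ i, c i ≠ 0
  · obtain ⟨m, c', hc', hrd⟩ := key t htr x hxA hind c hc hne
    have hz'O : ∑ i, c' i * x i ∈ O ℓ F :=
      (O ℓ F).sum_mem fun i _ => (O ℓ F).mul_mem (hc' i).1 (A_le_O (hxA i))
    have hyz' : y = (ℓ : ↥F) ^ m * ∑ i, c' i * x i := by
      rw [hyc, Finset.mul_sum]
      refine Finset.sum_congr rfl fun i _ => ?_
      rw [(hc' i).2.2, mul_assoc]
    rcases le_or_gt 0 m with hm | hm
    · refine ⟨c, fun i => ⟨hc i, ?_⟩, hyc⟩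
      rw [(hc' i).2.2]
      exact zpow_mul_mem hm (hc' i).1
    · exact absurd (rd_eq_zero_of_neg hm hy hyz') hrd
  · push Not at hne
    exact ⟨c, fun i => ⟨hc i, by rw [hne i]; exact (O ℓ F).zero_mem⟩, hyc⟩

include htr in
/-- `O ∩ ℚ[t] ⊆ ℤ_(ℓ)[t]`, on the level of polynomials. -/
theorem lifts_of_mem (P : ℚ[X]) (h : Polynomial.aeval (t : ↥F) P ∈ O ℓ F) :
    P ∈ Polynomial.lifts (algebraMap ↥(GaloisRep.ratLocalizedAt ℓ) ℚ) := by
  by_cases hP : P = 0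
  · rw [hP]; exact Subsemiring.zero_mem _
  obtain ⟨e, w, hw, -, he, hlift⟩ := GaussPoly.polyNorm t htr P hP
  apply hlift
  by_contra hneg
  push Not at hneg
  have := rd_eq_zero_of_neg hneg h he
  rw [rd_of_mem_A] at this
  exact hw this

omit hℓ in
lemma coe_aeval_gen (t : ↥F) (c : ℚ[X]) :
    ((Polynomial.aeval (AdjoinSimple.gen ℚ t) c : ↥ℚ⟮t⟯) : ↥F) = Polynomial.aeval t c := by
  rw [Polynomial.aeval_def, Polynomial.aeval_def]
  have h := Polynomial.hom_eval₂ c (algebraMap ℚ ↥ℚ⟮t⟯) (algebraMap ↥ℚ⟮t⟯ ↥F)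
    (AdjoinSimple.gen ℚ t)
  rw [show (algebraMap ↥ℚ⟮t⟯ ↥F).comp (algebraMap ℚ ↥ℚ⟮t⟯) = algebraMap ℚ ↥F from
    Subsingleton.elim _ _] at h
  exact h

include htr in
/-- the content hypothesis in the shape used by `IntegralDescent`. -/
theorem hV (c : ℚ[X])
    (h : Polynomial.aeval (AdjoinSimple.gen ℚ (t : ↥F)) c ∈ V t htr x hxA hspan hind) :
    c ∈ Polynomial.lifts (algebraMap ↥(GaloisRep.ratLocalizedAt ℓ) ℚ) := by
  apply lifts_of_mem t htr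
  rw [mem_V, coe_aeval_gen] at h
  exact h

/-- Every element of `O` is a root of a monic polynomial with coefficients in `V`. -/
theorem exists_monic {y : ↥F} (hy : y ∈ O ℓ F) :
    ∃ p : Polynomial ↥ℚ⟮(t : ↥F)⟯, p.Monic ∧ (∀ i, p.coeff i ∈ V t htr x hxA hspan hind) ∧
      Polynomial.aeval y p = 0 := by
  have hcoords : ∀ z ∈ O ℓ F, ∃ c : Fin n → ↥ℚ⟮(t : ↥F)⟯,
      (∀ i, c i ∈ (V t htr x hxA hspan hind).toSubring) ∧
      z = ∑ i, algebraMap ↥ℚ⟮(t : ↥F)⟯ ↥F (c i) * x i := by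
    intro z hz
    obtain ⟨c, hc, hzc⟩ := coords_mem t htr x hxA hspan hind hz
    exact ⟨fun i => ⟨c i, (hc i).1⟩, fun i => (hc i).2, hzc⟩
  exact exists_monic_of_coords (V t htr x hxA hspan hind).toSubring (O ℓ F) x
    (fun i => A_le_O (hxA i)) hcoords hy

end Main

end Fermat.Agent.S28.GaussVal
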