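/-
S28 / block D helper (helper26): abstract "integral over `ℚ[t]` and over a valuation ring `V` of
`ℚ(t)` with `V ∩ ℚ[t] = R[t]` implies integral over `R[t]`".  Mathlib + S24/ZerosBackup (the
`K[X]`-algebra structures `polyAlgebra`, `polyAlgebraAdjoin` and `isFractionRing_polyAdjoin`).
-/
import Mathlib
import Fermat.Agent.S24.ZerosBackup
import Fermat.Prelude.Def_ModularCurve_IgusaScheme

set_option autoImplicit false
set_option linter.style.haveILetI false

open Polynomial IntermediateField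

namespace Fermat.Agent.S28.IntegralDescent

open Fermat.Agent.S24.ZerosBackup

variable {K F : Type*} [Field K] [Field F] [Algebra K F]

/-- An element integral over `K[t] = Algebra.adjoin K {t}` is integral over `K[X]` acting through
`X ↦ t`. -/
theorem isIntegral_poly_of_isIntegral_adjoin (t : F) {y : F}
    (h : IsIntegral (Algebra.adjoin K {t}) y) :
    letI := polyAlgebra (K := K) t
    IsIntegral K[X] y := by
  letI := polyAlgebra (K := K) t
  obtain ⟨p, hmonic, hroot⟩ := h
  -- lift the coefficients of `p` to polynomials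
  have hcoeff : ∀ i, ∃ c : K[X], Polynomial.aeval t c = (p.coeff i : F) := by
    intro i
    have h1 : ((p.coeff i : Algebra.adjoin K {t}) : F) ∈ (Polynomial.aeval (R := K) t).range := by
      rw [← Algebra.adjoin_singleton_eq_range_aeval]
      exact (p.coeff i).2
    obtain ⟨c, hc⟩ := h1
    exact ⟨c, hc⟩
  have hlifts : p.map (algebraMap (Algebra.adjoin K {t}) F) ∈
      Polynomial.lifts (algebraMap K[X] F) := by
    rw [Polynomial.lifts_iff_coeff_lifts]
    intro i
    obtain ⟨c, hc⟩ := hcoeff i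
    exact ⟨c, by rw [Polynomial.coeff_map, algebraMap_poly_apply, hc]; rfl⟩
  obtain ⟨q, hq, -, hqmonic⟩ :=
    Polynomial.lifts_and_natDegree_eq_and_monic hlifts (hmonic.map _)
  refine ⟨q, hqmonic, ?_⟩
  rw [Polynomial.eval₂_eq_eval_map, hq, ← Polynomial.eval₂_eq_eval_map]
  exact hroot


variable {R : Type*} [CommRing R] [Algebra R K] [Algebra R F] [IsScalarTower R K F]

/-- **Integral descent.**  Let `t : F` be transcendental over `K`, `V` a valuation subring of
`K(t)` with `V ∩ K[t] ⊆ R[t]` (hypothesis `hV`, stated on polynomials).  If `y : F` is integral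
over `K[t]` and is a root of a monic polynomial with coefficients in `V`, then `y` is integral
over `R[t] = Algebra.adjoin R {t}`. -/
theorem isIntegral_adjoin_of_isIntegral_of_isIntegral
    (t : F) (ht : Transcendental K t) (V : ValuationSubring K⟮t⟯)
    (hV : ∀ c : K[X], Polynomial.aeval (AdjoinSimple.gen K t) c ∈ V →
      c ∈ Polynomial.lifts (algebraMap R K))
    {y : F} (h1 : IsIntegral (Algebra.adjoin K {t}) y)
    (h2 : ∃ p : Polynomial K⟮t⟯, p.Monic ∧ (∀ i, p.coeff i ∈ V) ∧ Polynomial.aeval y p = 0) :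
    IsIntegral (Algebra.adjoin R {t}) y := by
  letI := polyAlgebra (K := K) t
  letI := polyAlgebraAdjoin (K := K) t
  haveI := isScalarTower_polyAdjoin (K := K) t
  haveI := isFractionRing_polyAdjoin (K := K) t ht
  have hy1 : IsIntegral K[X] y := isIntegral_poly_of_isIntegral_adjoin t h1
  have e1 : minpoly K⟮t⟯ y = (minpoly K[X] y).map (algebraMap K[X] K⟮t⟯) :=
    minpoly.isIntegrallyClosed_eq_field_fractions' K⟮t⟯ hy1
  -- the `V`-side
  letI : Algebra V F := ((algebraMap K⟮t⟯ F).comp (algebraMap V K⟮t⟯)).toAlgebra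
  haveI : IsScalarTower V K⟮t⟯ F := IsScalarTower.of_algebraMap_eq' rfl
  have hy2 : IsIntegral V y := by
    obtain ⟨p, hmonic, hcoeff, hroot⟩ := h2
    have hlifts : p ∈ Polynomial.lifts (algebraMap V K⟮t⟯) := by
      rw [Polynomial.lifts_iff_coeff_lifts]
      intro i
      exact ⟨⟨p.coeff i, hcoeff i⟩, rfl⟩
    obtain ⟨q, hq, -, hqmonic⟩ := Polynomial.lifts_and_natDegree_eq_and_monic hlifts hmonic
    refine ⟨q, hqmonic, ?_⟩
    have : (algebraMap V F) = (algebraMap K⟮t⟯ F).comp (algebraMap V K⟮t⟯) := rfl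
    rw [this, ← Polynomial.eval₂_map, hq]
    exact hroot
  have e2 : minpoly K⟮t⟯ y = (minpoly V y).map (algebraMap V K⟮t⟯) :=
    minpoly.isIntegrallyClosed_eq_field_fractions' K⟮t⟯ hy2
  -- every coefficient of `minpoly K[X] y` lifts to `R[X]`
  have hc : ∀ i, (minpoly K[X] y).coeff i ∈ Polynomial.lifts (algebraMap R K) := by
    intro i
    apply hV
    have h3 : Polynomial.aeval (AdjoinSimple.gen K t) ((minpoly K[X] y).coeff i) =
        (minpoly K⟮t⟯ y).coeff i := by
      rw [e1, Polynomial.coeff_map, algebraMap_polyAdjoin_apply]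
    rw [h3, e2, Polynomial.coeff_map]
    exact ((minpoly V y).coeff i).2
  have hlifts : minpoly K[X] y ∈
      Polynomial.lifts (Polynomial.mapRingHom (algebraMap R K)) := by
    rw [Polynomial.lifts_iff_coeff_lifts]
    intro i
    obtain ⟨c, hc'⟩ := (Polynomial.mem_lifts _).mp (hc i)
    exact ⟨c, hc'⟩
  obtain ⟨Q, hQ, -, hQmonic⟩ :=
    Polynomial.lifts_and_natDegree_eq_and_monic hlifts (minpoly.monic hy1)
  -- push `Q` to `(R[t])[X]`
  let φ : R[X] →ₐ[R] Algebra.adjoin R {t} :=
    (Polynomial.aeval t).codRestrict (Algebra.adjoin R {t}) fun c => by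
      rw [Algebra.adjoin_singleton_eq_range_aeval]
      exact ⟨c, rfl⟩
  refine ⟨Q.map φ.toRingHom, hQmonic.map _, ?_⟩
  rw [Polynomial.eval₂_map]
  have hcomp : (algebraMap (Algebra.adjoin R {t}) F).comp φ.toRingHom =
      (algebraMap K[X] F).comp (Polynomial.mapRingHom (algebraMap R K)) := by
    ext c
    · simp [φ, algebraMap_poly_apply, IsScalarTower.algebraMap_apply R K F]
    · simp [φ, algebraMap_poly_apply]
  rw [hcomp, ← Polynomial.eval₂_map, hQ]
  exact minpoly.aeval K[X] y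


/-! ### Consumer form for the Prelude chart algebras -/

section Chart

open ModularCurve ModularCurve.IgusaScheme

variable (N : ℕ) [NeZero N] (ℓ : ℕ) [Fact ℓ.Prime]

omit [NeZero N] [Fact (Nat.Prime ℓ)] in
theorem mem_adjoin_rat_of_mem_adjoin {t z : ↥(modularFunctionFieldFull N)}
    (hz : z ∈ Algebra.adjoin ↥(GaloisRep.ratLocalizedAt ℓ)
      ({t} : Set ↥(modularFunctionFieldFull N))) :
    z ∈ Algebra.adjoin ℚ ({t} : Set ↥(modularFunctionFieldFull N)) := by
  induction hz using Algebra.adjoin_induction with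
  | mem y hy => exact Algebra.subset_adjoin hy
  | algebraMap a =>
    rw [IsScalarTower.algebraMap_apply ↥(GaloisRep.ratLocalizedAt ℓ) ℚ
      ↥(modularFunctionFieldFull N)]
    exact Subalgebra.algebraMap_mem _ _
  | add y z _ _ hy hz => exact add_mem hy hz
  | mul y z _ _ hy hz => exact mul_mem hy hz

/-- Elements of a chart algebra over `ℤ_(ℓ)[t]` are integral over `ℚ[t]`. -/
theorem isIntegral_adjoin_rat_of_mem_chartAlg {t x : ↥(modularFunctionFieldFull N)}
    (hx : x ∈ chartAlg N ℓ {t}) :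
    IsIntegral (Algebra.adjoin ℚ ({t} : Set ↥(modularFunctionFieldFull N))) x := by
  rw [mem_chartAlg_iff] at hx
  obtain ⟨p, hmonic, hroot⟩ := hx
  have hlifts : p.map (algebraMap (Algebra.adjoin ↥(GaloisRep.ratLocalizedAt ℓ)
      ({t} : Set ↥(modularFunctionFieldFull N))) ↥(modularFunctionFieldFull N)) ∈
      Polynomial.lifts (algebraMap (Algebra.adjoin ℚ ({t} : Set ↥(modularFunctionFieldFull N)))
        ↥(modularFunctionFieldFull N)) := by
    rw [Polynomial.lifts_iff_coeff_lifts]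
    intro i
    rw [Polynomial.coeff_map]
    exact ⟨⟨_, mem_adjoin_rat_of_mem_adjoin N ℓ (p.coeff i).2⟩, rfl⟩
  obtain ⟨q, hq, -, hqmonic⟩ :=
    Polynomial.lifts_and_natDegree_eq_and_monic hlifts (hmonic.map _)
  refine ⟨q, hqmonic, ?_⟩
  rw [Polynomial.eval₂_eq_eval_map, hq, ← Polynomial.eval₂_eq_eval_map]
  exact hroot

/-- If `x = ℓ * y` with `x` in a chart algebra then `y` is integral over `ℚ[t]`. -/
theorem isIntegral_adjoin_rat_of_mul_eq {t x y : ↥(modularFunctionFieldFull N)}
    (hx : x ∈ chartAlg N ℓ {t}) (hxy : x = (ℓ : ↥(modularFunctionFieldFull N)) * y) :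
    IsIntegral (Algebra.adjoin ℚ ({t} : Set ↥(modularFunctionFieldFull N))) y := by
  have hℓ : (ℓ : ↥(modularFunctionFieldFull N)) ≠ 0 :=
    Nat.cast_ne_zero.mpr (Fact.out : ℓ.Prime).ne_zero
  have hy : y = algebraMap (Algebra.adjoin ℚ ({t} : Set ↥(modularFunctionFieldFull N)))
      ↥(modularFunctionFieldFull N)
      (algebraMap ℚ (Algebra.adjoin ℚ ({t} : Set ↥(modularFunctionFieldFull N))) ((ℓ : ℚ)⁻¹)) * x := by
    rw [← IsScalarTower.algebraMap_apply, hxy, map_inv₀, map_natCast, ← mul_assoc,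
      inv_mul_cancel₀ hℓ, one_mul]
  rw [hy]
  exact isIntegral_algebraMap.mul (isIntegral_adjoin_rat_of_mem_chartAlg N ℓ hx)

/-- **Integral descent, chart form.**  If `x ∈ chartAlg {t}`, `x = ℓ * y`, and `y` is a root of a
monic polynomial with coefficients in a valuation subring `V` of `ℚ(t)` with `V ∩ ℚ[t] ⊆ ℤ_(ℓ)[t]`,
then `y ∈ chartAlg {t}`. -/
theorem mem_chartAlg_of_mul_eq {t x y : ↥(modularFunctionFieldFull N)}
    (ht : Transcendental ℚ t) (V : ValuationSubring ℚ⟮t⟯)
    (hV : ∀ c : ℚ[X], Polynomial.aeval (AdjoinSimple.gen ℚ t) c ∈ V →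
      c ∈ Polynomial.lifts (algebraMap ↥(GaloisRep.ratLocalizedAt ℓ) ℚ))
    (hx : x ∈ chartAlg N ℓ {t}) (hxy : x = (ℓ : ↥(modularFunctionFieldFull N)) * y)
    (h2 : ∃ p : Polynomial ℚ⟮t⟯, p.Monic ∧ (∀ i, p.coeff i ∈ V) ∧ Polynomial.aeval y p = 0) :
    y ∈ chartAlg N ℓ {t} :=
  (mem_chartAlg_iff N ℓ).mpr
    (isIntegral_adjoin_of_isIntegral_of_isIntegral t ht V hV
      (isIntegral_adjoin_rat_of_mul_eq N ℓ hx hxy) h2)

end Chart

end Fermat.Agent.S28.IntegralDescent
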