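/-
S28 block D (row 125, D.jInst): integrality / reduction / transcendence facts for `jq` and `jq⁻¹`
with respect to helper23's `IntSub ℓ` / `redInt ℓ` (`Fermat.Agent.S28.IntLaurent`).
-/
import Mathlib
import Fermat.Prelude.Def_ModularCurve_X0ModL
import Fermat.Agent.S28.IntLaurent
import Fermat.Agent.S28.DescendIndep

set_option autoImplicit false

namespace Fermat.Agent.S28.JInst

open ModularCurve Fermat.Agent.S28.IntLaurent IntermediateField

variable (l : ℕ) [Fact l.Prime]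

/-- A Laurent series with integer coefficients is `ℓ`-integral. -/
theorem coeffMap_intCast_mem (f : LaurentSeries ℤ) :
    coeffMap (Int.castRingHom ℚ) f ∈ IntSub l := by
  rw [mem_IntSub_iff]
  intro k
  rw [coeffMap_coeff]
  exact Fermat.Agent.S28.ZlRes.intCast_mem (f.coeff k)

/-- Reduction of an integral Laurent series is the coefficientwise cast. -/
theorem redInt_coeffMap_intCast (f : LaurentSeries ℤ) :
    redInt l ⟨coeffMap (Int.castRingHom ℚ) f, coeffMap_intCast_mem l f⟩ =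
      coeffMap (Int.castRingHom (ZMod l)) f := by
  ext k
  rw [redInt_coeff, coeffMap_coeff]
  show (((coeffMap (Int.castRingHom ℚ) f).coeff k : ℚ) : ZMod l) = _
  rw [coeffMap_coeff]
  simp

theorem jq_eq_coeffMap : jq = coeffMap (Int.castRingHom ℚ) (jqModC ℤ) := by
  rw [coeffMap_jqModC]
  rfl

theorem jq_mem_IntSub : jq ∈ IntSub l := by
  rw [jq_eq_coeffMap]
  exact coeffMap_intCast_mem l _

theorem redInt_jq : redInt l ⟨jq, jq_mem_IntSub l⟩ = jqModC (ZMod l) := by
  have h : (⟨jq, jq_mem_IntSub l⟩ : ↥(IntSub l)) =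
      ⟨coeffMap (Int.castRingHom ℚ) (jqModC ℤ), coeffMap_intCast_mem l _⟩ :=
    Subtype.ext jq_eq_coeffMap
  rw [h, redInt_coeffMap_intCast, coeffMap_jqModC]

/-- The inverse of `jqModC ℤ` in `LaurentSeries ℤ`. -/
noncomputable def jqInvInt : LaurentSeries ℤ :=
  HahnSeries.single (1 : ℤ) 1 *
    HahnSeries.ofPowerSeries ℤ ℤ ((jNum.map (Int.castRingHom ℤ)).invOfUnit 1)

theorem jqModC_int_mul_jqInvInt : jqModC ℤ * jqInvInt = 1 := by
  have hc : PowerSeries.constantCoeff (jNum.map (Int.castRingHom ℤ)) = ((1 : ℤˣ) : ℤ) := by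
    rw [← PowerSeries.coeff_zero_eq_constantCoeff_apply, PowerSeries.coeff_map,
      PowerSeries.coeff_zero_eq_constantCoeff_apply, constantCoeff_jNum]
    simp
  have h1 : (jNum.map (Int.castRingHom ℤ)) * (jNum.map (Int.castRingHom ℤ)).invOfUnit 1 = 1 :=
    PowerSeries.mul_invOfUnit _ _ hc
  have h2 : HahnSeries.ofPowerSeries ℤ ℤ (jNum.map (Int.castRingHom ℤ)) *
      HahnSeries.ofPowerSeries ℤ ℤ ((jNum.map (Int.castRingHom ℤ)).invOfUnit 1) = 1 := by
    rw [← map_mul, h1, map_one]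
  have h3 : (HahnSeries.single (-1 : ℤ) (1 : ℤ)) * HahnSeries.single (1 : ℤ) (1 : ℤ) = 1 := by
    rw [HahnSeries.single_mul_single]
    simp
  unfold jqModC jqInvInt
  rw [mul_mul_mul_comm, h2, h3, mul_one]

theorem jq_mul_coeffMap_jqInvInt : jq * coeffMap (Int.castRingHom ℚ) jqInvInt = 1 := by
  rw [jq_eq_coeffMap, ← map_mul, jqModC_int_mul_jqInvInt, map_one]

theorem jq_inv_eq_coeffMap : jq⁻¹ = coeffMap (Int.castRingHom ℚ) jqInvInt :=
  inv_eq_of_mul_eq_one_right jq_mul_coeffMap_jqInvInt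

theorem jq_inv_mem_IntSub : jq⁻¹ ∈ IntSub l := by
  rw [jq_inv_eq_coeffMap]
  exact coeffMap_intCast_mem l _

theorem jq_ne_zero : jq ≠ 0 := by
  intro h
  have := jq_mul_coeffMap_jqInvInt
  rw [h, zero_mul] at this
  exact zero_ne_one this

theorem redInt_jq_inv :
    redInt l ⟨jq⁻¹, jq_inv_mem_IntSub l⟩ = (jqModC (ZMod l))⁻¹ := by
  have h1 : (⟨jq, jq_mem_IntSub l⟩ : ↥(IntSub l)) * ⟨jq⁻¹, jq_inv_mem_IntSub l⟩ = 1 :=
    Subtype.ext (mul_inv_cancel₀ jq_ne_zero)
  have h2 := congrArg (redInt l) h1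
  rw [map_mul, map_one, redInt_jq] at h2
  exact (inv_eq_of_mul_eq_one_right h2).symm

/-- `j̄` is transcendental over any field of constants. -/
theorem transcendental_jqModC (k : Type*) [Field k] : Transcendental k (jqModC k) := by
  rw [transcendental_iff]
  intro P hP
  rw [← Fermat.Agent.S28.DescendIndep.evalJ_eq_aeval] at hP
  exact Fermat.Agent.S28.DescendIndep.eq_zero_of_evalJ_eq_zero hP

theorem transcendental_jqModC_inv (k : Type*) [Field k] : Transcendental k (jqModC k)⁻¹ := by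
  intro h
  exact transcendental_jqModC k (IsAlgebraic.inv_iff.mp h)

theorem adjoin_inv_eq (k E : Type*) [Field k] [Field E] [Algebra k E] (a : E) :
    k⟮a⁻¹⟯ = k⟮a⟯ := by
  apply le_antisymm
  · rw [adjoin_simple_le_iff]
    exact inv_mem (mem_adjoin_simple_self k a)
  · rw [adjoin_simple_le_iff]
    have h : (a⁻¹)⁻¹ ∈ k⟮a⁻¹⟯ := inv_mem (mem_adjoin_simple_self k a⁻¹)
    rwa [inv_inv] at h

end Fermat.Agent.S28.JInst
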