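/-
S28 block D (helper23): the q-expansion principle for the three chart algebras, closed form
`ChartDomainOfMain.QExpMainStatement`.
-/
import Mathlib
import Fermat.Agent.S28.GaussVal
import Fermat.Agent.S28.IntegralDescent
import Fermat.Agent.S28.ChartSteps
import Fermat.Agent.S28.ChartDomainOfMain
import Fermat.Agent.S28.JInst
import Fermat.Agent.S28.DegreeQ

set_option autoImplicit false
set_option linter.unusedSectionVars false

namespace Fermat.Agent.S28.QExpPrinciple

open ModularCurve ModularCurve.IgusaScheme IntermediateField Polynomial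
open Fermat.Agent.S28.ZlRes Fermat.Agent.S28.IntLaurent Fermat.Agent.S28.GaussRing
  Fermat.Agent.S28.GaussVal Fermat.Agent.S28.ChartDomainOfMain

variable (N : ℕ) [NeZero N] (ℓ : ℕ) [hℓ : Fact ℓ.Prime]

/-- A chart algebra contained in the Gauss ring `O` and closed under division by `ℓ` inside `O`
carries a reduction homomorphism with kernel `ℓ · chartAlg`. -/
theorem hasRed_of_le (S : Set ↥(modularFunctionFieldFull N))
    (hle : ∀ x ∈ chartAlg N ℓ S, x ∈ O ℓ (modularFunctionFieldFull N))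
    (hdiv : ∀ x ∈ chartAlg N ℓ S, ∀ y ∈ O ℓ (modularFunctionFieldFull N),
      x = (ℓ : ↥(modularFunctionFieldFull N)) * y → y ∈ chartAlg N ℓ S) :
    HasRed N ℓ S := by
  let incl : ↥(chartAlg N ℓ S) →+* ↥(O ℓ (modularFunctionFieldFull N)) :=
    { toFun := fun x => ⟨x.1, hle x.1 x.2⟩
      map_one' := rfl
      map_mul' := fun _ _ => rfl
      map_zero' := rfl
      map_add' := fun _ _ => rfl }
  refine ⟨(redO ℓ (modularFunctionFieldFull N)).comp incl, ?_⟩
  intro x hx
  obtain ⟨y', hy'⟩ := (redO_eq_zero_iff (incl x)).mp hx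
  have hy'mem := hdiv x.1 x.2 y'.1 y'.2 hy'
  refine ⟨⟨y'.1, hy'mem⟩, ?_⟩
  apply Subtype.ext
  push_cast
  exact hy'

/-- constants of `ℤ_(ℓ)` lie in `O`. -/
lemma algebraMap_mem_O (a : ↥(GaloisRep.ratLocalizedAt ℓ)) :
    algebraMap ↥(GaloisRep.ratLocalizedAt ℓ) ↥(modularFunctionFieldFull N) a ∈
      O ℓ (modularFunctionFieldFull N) :=
  A_le_O (GaussPoly.algebraMap_mem_A a.2)

section OneChart

variable (t : ↥(A ℓ (modularFunctionFieldFull N)))
  (htr : Transcendental (ZMod ℓ) (redA ℓ (modularFunctionFieldFull N) t))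
  (htQ : Transcendental ℚ (t : ↥(modularFunctionFieldFull N)))
  {n : ℕ} (x : Fin n → ↥(modularFunctionFieldFull N))
  (hxA : ∀ i, x i ∈ A ℓ (modularFunctionFieldFull N))
  (hspan : Submodule.span ℚ⟮(t : ↥(modularFunctionFieldFull N))⟯ (Set.range x) = ⊤)
  (hind : ∀ r : Fin n → LaurentSeries (ZMod ℓ),
    (∀ i, r i ∈ (ZMod ℓ)⟮redA ℓ (modularFunctionFieldFull N) t⟯) →
      ∑ i, r i * redA ℓ (modularFunctionFieldFull N) ⟨x i, hxA i⟩ = 0 → ∀ i, r i = 0)

include htr hspan hind in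
/-- any chart algebra generated by elements of `O` lies in `O`. -/
theorem chartAlg_le_O (S : Set ↥(modularFunctionFieldFull N))
    (hS : ∀ s ∈ S, s ∈ O ℓ (modularFunctionFieldFull N)) :
    ∀ y ∈ chartAlg N ℓ S, y ∈ O ℓ (modularFunctionFieldFull N) :=
  ChartSteps.chartAlg_le_of_valuationSubring N ℓ (OV t htr x hxA hspan hind)
    (fun a => algebraMap_mem_O N ℓ a) S hS

include htr htQ hspan hind in
/-- the chart `{t}` is closed under division by `ℓ` inside `O`. -/
theorem div_mem_chartAlg :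
    ∀ x' ∈ chartAlg N ℓ {(t : ↥(modularFunctionFieldFull N))},
      ∀ y ∈ O ℓ (modularFunctionFieldFull N),
      x' = (ℓ : ↥(modularFunctionFieldFull N)) * y →
      y ∈ chartAlg N ℓ {(t : ↥(modularFunctionFieldFull N))} := by
  intro x' hx' y hy hxy
  exact IntegralDescent.mem_chartAlg_of_mul_eq N ℓ htQ (V t htr x hxA hspan hind)
    (hV t htr x hxA hspan hind) hx' hxy (exists_monic t htr x hxA hspan hind hy)

include htr htQ hspan hind in
theorem hasRed_singleton : HasRed N ℓ {(t : ↥(modularFunctionFieldFull N))} :=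
  hasRed_of_le N ℓ _
    (chartAlg_le_O N ℓ t htr x hxA hspan hind _ (fun s hs => by
      rw [Set.mem_singleton_iff.mp hs]; exact A_le_O t.2))
    (div_mem_chartAlg N ℓ t htr htQ x hxA hspan hind)

end OneChart

section Main

lemma span_top_congr {E : Type*} [Field E] [Algebra ℚ E] {K K' : IntermediateField ℚ E}
    (h : K = K') (s : Set E) (hs : Submodule.span ↥K s = ⊤) : Submodule.span ↥K' s = ⊤ := by
  subst h; exact hs

/-- **The q-expansion principle** for the three chart algebras. -/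
theorem main : QExpMainStatement := by
  intro N _ ℓ _ x hint hspan hind
  have hxA : ∀ i, x i ∈ A ℓ (modularFunctionFieldFull N) := hint
  -- elementary form of the independence hypothesis
  have hind' : ∀ r : Fin (dedekindPsi N) → LaurentSeries (ZMod ℓ),
      (∀ i, r i ∈ (ZMod ℓ)⟮jqModC (ZMod ℓ)⟯) →
      ∑ i, r i * redA ℓ (modularFunctionFieldFull N) ⟨x i, hxA i⟩ = 0 → ∀ i, r i = 0 := by
    intro r hr hsum i
    have h := Fintype.linearIndependent_iff.mp hind (fun i => ⟨r i, hr i⟩) (by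
      rw [← hsum]
      refine Finset.sum_congr rfl fun i _ => ?_
      rw [IntermediateField.smul_def, smul_eq_mul]
      rfl) i
    exact congrArg Subtype.val h
  -- the parameter `j`
  have hjA : jFull N ∈ A ℓ (modularFunctionFieldFull N) := HDPackage.jq_mem_IntSub ℓ
  have hredj : redA ℓ (modularFunctionFieldFull N) ⟨jFull N, hjA⟩ = jqModC (ZMod ℓ) :=
    HDPackage.redInt_jq ℓ
  have htrj : Transcendental (ZMod ℓ) (redA ℓ (modularFunctionFieldFull N) ⟨jFull N, hjA⟩) := by
    rw [hredj]; exact JInst.transcendental_jqModC _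
  have htQj : Transcendental ℚ (jFull N) := DegreeQ.transcendental_jFull N
  have hindj : ∀ r : Fin (dedekindPsi N) → LaurentSeries (ZMod ℓ),
      (∀ i, r i ∈ (ZMod ℓ)⟮redA ℓ (modularFunctionFieldFull N) ⟨jFull N, hjA⟩⟯) →
      ∑ i, r i * redA ℓ (modularFunctionFieldFull N) ⟨x i, hxA i⟩ = 0 → ∀ i, r i = 0 := by
    rw [hredj]; exact hind'
  -- the parameter `j⁻¹`
  have hjiA : (jFull N)⁻¹ ∈ A ℓ (modularFunctionFieldFull N) := JInst.jq_inv_mem_IntSub ℓ
  have hredji : redA ℓ (modularFunctionFieldFull N) ⟨(jFull N)⁻¹, hjiA⟩ =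
      (jqModC (ZMod ℓ))⁻¹ := JInst.redInt_jq_inv ℓ
  have htrji : Transcendental (ZMod ℓ)
      (redA ℓ (modularFunctionFieldFull N) ⟨(jFull N)⁻¹, hjiA⟩) := by
    rw [hredji]; exact JInst.transcendental_jqModC_inv _
  have htQji : Transcendental ℚ (jFull N)⁻¹ := fun h => htQj (IsAlgebraic.inv_iff.mp h)
  have hspani : Submodule.span ℚ⟮(jFull N)⁻¹⟯ (Set.range x) = ⊤ :=
    span_top_congr (JInst.adjoin_inv_eq ℚ _ (jFull N)).symm _ hspan
  have hindi : ∀ r : Fin (dedekindPsi N) → LaurentSeries (ZMod ℓ),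
      (∀ i, r i ∈ (ZMod ℓ)⟮redA ℓ (modularFunctionFieldFull N) ⟨(jFull N)⁻¹, hjiA⟩⟯) →
      ∑ i, r i * redA ℓ (modularFunctionFieldFull N) ⟨x i, hxA i⟩ = 0 → ∀ i, r i = 0 := by
    rw [hredji, JInst.adjoin_inv_eq]; exact hind'
  refine ⟨?_, ?_, ?_⟩
  · exact hasRed_singleton N ℓ ⟨jFull N, hjA⟩ htrj htQj x hxA hspan hindj
  · exact hasRed_singleton N ℓ ⟨(jFull N)⁻¹, hjiA⟩ htrji htQji x hxA hspani hindi
  · apply hasRed_of_le
    · refine chartAlg_le_O N ℓ ⟨jFull N, hjA⟩ htrj x hxA hspan hindj _ ?_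
      rintro s (rfl | rfl)
      · exact A_le_O hjA
      · exact A_le_O hjiA
    · exact ChartSteps.mid_of_fin N ℓ (O ℓ (modularFunctionFieldFull N)) (A_le_O hjA)
        (div_mem_chartAlg N ℓ ⟨jFull N, hjA⟩ htrj htQj x hxA hspan hindj)

end Main

end Fermat.Agent.S28.QExpPrinciple
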