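import Fermat.Agent.S28.Reduction
import Fermat.Agent.S28.Haupt2
import Fermat.Agent.S28.Haupt3.Main
import Fermat.Agent.S28.ModEqInst
import Fermat.Agent.S28.PrimeCase
import Fermat.Agent.S28.MonoConsumer
import Fermat.Agent.S28.DegreeQInst
import Fermat.Agent.S28.GlueInst

/-!
# S28 (Igusa): dry-run assembly

All landed blocks (H2, H3, A, B, C', Q, E) are plugged into `Reduction.igusa_of_blocks`;
the two blocks still open (C: `ModEq → PrimeCase → CoreDegree`, D: `CoreIndep → DegreeQ →
ChartDomain`) are hypotheses.  `Fermat/Agent/S28.lean` is this theorem with `hC`, `hD` replaced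
by the final block theorems.
-/

set_option autoImplicit false

open AlgebraicGeometry CategoryTheory CategoryTheory.Limits ModularCurve ModularCurve.IgusaScheme
open scoped TensorProduct

namespace Fermat.Agent.S28.Assembly

open Fermat.Agent.S28.Interfaces

/-- The landed part of the chain: `PrimeCaseStatement`, unconditionally. -/
theorem primeCase : PrimeCaseStatement :=
  Fermat.Agent.S28.PrimeCase.primeCase Fermat.Agent.S28.Haupt2.haupt2
    Fermat.Agent.S28.Haupt3.Main.haupt3 Fermat.Agent.S28.ModEqInst.modEq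

set_option maxHeartbeats 4000000 in
set_option synthInstance.maxHeartbeats 400000 in
/-- The frozen statement S28 from the two blocks that are still open. -/
theorem igusa_of_open_blocks
    (hC : ModEqStatement → PrimeCaseStatement → CoreDegreeStatement)
    (hD : CoreIndepStatement → DegreeQStatement → ChartDomainStatement)
    (N : ℕ) [NeZero N] (ℓ : ℕ) [Fact ℓ.Prime] (hℓN : ¬ ℓ ∣ N)
    (K : Type) [Field K] [CharP K ℓ] [Algebra ↥(GaloisRep.ratLocalizedAt ℓ) K] :
    IsIntegral ↑(pullback (igusaTo N ℓ)
      (Spec.map (CommRingCat.ofHom (algebraMap ↥(GaloisRep.ratLocalizedAt ℓ) K)))) :=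
  Fermat.Agent.S28.Reduction.igusa_of_blocks
    Fermat.Agent.S28.Haupt2.haupt2 Fermat.Agent.S28.Haupt3.Main.haupt3
    Fermat.Agent.S28.ModEqInst.modEq
    (fun h2 h3 hA => Fermat.Agent.S28.PrimeCase.primeCase h2 h3 hA)
    hC Fermat.Agent.S28.MonoConsumer.coreIndepStatement_of_relfinrank
    Fermat.Agent.S28.DegreeQInst.degreeQ hD Fermat.Agent.S28.GlueInst.glue N ℓ hℓN K

end Fermat.Agent.S28.Assembly
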