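/-
S28 / block C, end adapter: from a degree bound `ψ(N) ≤ [k(j(q^d) : d ∣ N) : k(j)]` (in several
shapes) to `ψ(N)` linearly independent monomials, i.e. the shape of
`Interfaces.CoreIndepStatement`.
-/
import Mathlib
import Fermat.Agent.S28.Interfaces

set_option autoImplicit false

namespace Fermat.Agent.S28.CoreIndepOfDegree

open Cardinal ModularCurve Fermat.Agent.S28.Interfaces

/-- **Monomial bases.**  If `g a` (`a : ι`, finite) are algebraic over `L` and the field
`L(g a : a)` contains `n` linearly independent elements, then `n` monomials in the `g a` are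
linearly independent over `L`. -/
theorem exists_linearIndependent_monomials {L E : Type*} [Field L] [Field E] [Algebra L E]
    {ι : Type*} [Fintype ι] (g : ι → E) (hg : ∀ a, IsAlgebraic L (g a)) (n : ℕ)
    (y : Fin n → E) (hy : ∀ i, y i ∈ IntermediateField.adjoin L (Set.range g))
    (hli : LinearIndependent L y) :
    ∃ e : Fin n → ι → ℕ, LinearIndependent L (fun i => ∏ a, g a ^ e i a) := by
  classical
  set t : Set E := ((Submonoid.closure (Set.range g) : Submonoid E) : Set E) with ht
  have hD : ∀ x, x ∈ IntermediateField.adjoin L (Set.range g) ↔ x ∈ Submodule.span L t := by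
    intro x
    have h1 : (IntermediateField.adjoin L (Set.range g)).toSubalgebra =
        Algebra.adjoin L (Set.range g) :=
      IntermediateField.adjoin_toSubalgebra_of_isAlgebraic (by
        rintro _ ⟨a, rfl⟩; exact hg a)
    have h2 := Algebra.adjoin_eq_span L (Set.range g)
    rw [← IntermediateField.mem_toSubalgebra, h1, ← Subalgebra.mem_toSubmodule, h2]
  obtain ⟨b, hbt, hspan, hbli⟩ := exists_linearIndependent L t
  have hyb : ∀ i, y i ∈ Submodule.span L b := by
    intro i
    rw [hspan, ← hD]
    exact hy i
  let y' : Fin n → Submodule.span L b := fun i => ⟨y i, hyb i⟩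
  have hy'li : LinearIndependent L y' := by
    apply LinearIndependent.of_comp (Submodule.span L b).subtype
    exact hli
  have hcard : (n : Cardinal) ≤ #b := by
    have h1 := hy'li.cardinal_lift_le_rank
    rw [rank_span_set hbli] at h1
    simpa using h1
  have hemb : Nonempty (Fin n ↪ b) := by
    have : Cardinal.lift.{u_2} #(Fin n) ≤ Cardinal.lift.{0} #b := by
      simpa using hcard
    exact Cardinal.lift_mk_le'.mp this
  obtain ⟨φ⟩ := hemb
  have hmono : ∀ i, ∃ e : ι → ℕ, ((φ i : b) : E) = ∏ a, g a ^ e a := by
    intro i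
    have : ((φ i : b) : E) ∈ t := hbt (φ i).2
    exact Submonoid.mem_closure_range_iff_of_fintype.mp this
  choose e he using hmono
  refine ⟨e, ?_⟩
  have h := hbli.comp φ φ.injective
  have heq : (fun i => ∏ a, g a ^ e i a) = (Subtype.val ∘ φ : Fin n → E) := by
    funext i
    exact (he i).symm
  rw [heq]
  exact h

/-- The set of generators `j(q ^ d)`, `d ∣ N`. -/
def gens (k : Type*) [Field k] (N : ℕ) : Set (LaurentSeries k) :=
  (fun d => jD k d) '' (N.divisors : Set ℕ)

theorem range_gens (k : Type*) [Field k] (N : ℕ) :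
    Set.range (fun d : N.divisors => jD k (d : ℕ)) = gens k N := by
  ext x
  constructor
  · rintro ⟨d, rfl⟩
    exact ⟨d, d.2, rfl⟩
  · rintro ⟨d, hd, rfl⟩
    exact ⟨⟨d, hd⟩, rfl⟩

/-- **End adapter, family form.** -/
theorem coreIndep_of_family (N : ℕ) (k : Type*) [Field k]
    (hint : ∀ d ∈ N.divisors, IsAlgebraic (kj k) (jD k d))
    (n : ℕ) (y : Fin n → LaurentSeries k)
    (hy : ∀ i, y i ∈ IntermediateField.adjoin (kj k) (gens k N))
    (hli : LinearIndependent (kj k) y) :
    ∃ e : Fin n → ℕ → ℕ, LinearIndependent (kj k) (fun i => mono k N (e i)) := by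
  classical
  obtain ⟨e, he⟩ := exists_linearIndependent_monomials (L := kj k) (E := LaurentSeries k)
    (fun d : N.divisors => jD k (d : ℕ)) (fun d => hint d d.2) n y
    (by rw [range_gens]; exact hy) hli
  refine ⟨fun i d => if h : d ∈ N.divisors then e i ⟨d, h⟩ else 0, ?_⟩
  have heq : (fun i => mono k N (fun d => if h : d ∈ N.divisors then e i ⟨d, h⟩ else 0)) =
      fun i => ∏ a : N.divisors, jD k (a : ℕ) ^ e i a := by
    funext i
    unfold mono
    rw [← Finset.prod_attach]
    apply Finset.prod_congr rfl
    intro d _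
    have hd : (if h : (d : ℕ) ∈ N.divisors then e i ⟨d, h⟩ else 0) = e i d := by
      rw [dif_pos d.2]
    show jD k (d : ℕ) ^ (if h : (d : ℕ) ∈ N.divisors then e i ⟨d, h⟩ else 0) = _
    rw [hd]
  rw [heq]
  exact he

/-- **End adapter, `finrank` form.** -/
theorem coreIndep_of_finrank (N : ℕ) (k : Type*) [Field k]
    (hint : ∀ d ∈ N.divisors, IsAlgebraic (kj k) (jD k d))
    (n : ℕ)
    (hdeg : n ≤ Module.finrank (kj k) ↥(IntermediateField.adjoin (kj k) (gens k N))) :
    ∃ e : Fin n → ℕ → ℕ, LinearIndependent (kj k) (fun i => mono k N (e i)) := by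
  classical
  set D := IntermediateField.adjoin (kj k) (gens k N) with hD
  obtain ⟨f, hf⟩ := exists_linearIndependent_of_le_finrank hdeg
  let y : Fin n → LaurentSeries k := fun i => ((f i : D) : LaurentSeries k)
  have hli : LinearIndependent (kj k) y := by
    have h2 := hf.map' D.val.toLinearMap (by
      rw [LinearMap.ker_eq_bot]
      exact D.val.injective)
    exact h2
  exact coreIndep_of_family N k hint n y (fun i => (f i).2) hli

end Fermat.Agent.S28.CoreIndepOfDegree
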