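import Mathlib

/-!
# S28, block C: abstract field-theoretic lemmas for the coprime step

* `mem_range_of_forall_algHom_eq`: an element of an algebraic extension `D/F`, root of a separable
  polynomial over `F`, on which all `F`-embeddings of `D` into an algebraically closed field agree,
  lies in `F`.
* `mem_or_irreducible`: the dichotomy `y ∈ D` or `g` irreducible over `D`, when
  `g = (X - y) * Q` with `Q` irreducible over a larger field.
* `algHom_root`: algebra homomorphisms carry roots of `Φ(X, x')` to roots of `Φ(X, τ x')`.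
* `exists_eq_of_eval_prod_eq_zero`: a root of `∏ (X - r i)` is one of the `r i`.
-/

set_option autoImplicit false

open Polynomial

namespace Fermat.Agent.S28.EmbStaysIn

section fixed

variable {F D Ω : Type*} [Field F] [Field D] [Field Ω] [Algebra F D] [Algebra F Ω]
  [IsAlgClosed Ω] [Algebra.IsAlgebraic F D]

/-- If all `F`-embeddings of `D` into the algebraically closed field `Ω` take the same value at
`y`, and `y` is a root of a separable polynomial over `F`, then `y ∈ F`. -/
theorem mem_range_of_forall_algHom_eq {y : D} {g : F[X]} (hg : g.Separable)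
    (hy : aeval y g = 0) (y₀ : Ω) (h : ∀ τ : D →ₐ[F] Ω, τ y = y₀) :
    y ∈ (algebraMap F D).range := by
  classical
  have hint : IsIntegral F y := Algebra.IsIntegral.isIntegral y
  have hdvd : minpoly F y ∣ g := minpoly.dvd F y hy
  have hsep : (minpoly F y).Separable := hg.of_dvd hdvd
  have hsplit : ((minpoly F y).map (algebraMap F Ω)).Splits := IsAlgClosed.splits _
  have hrange := Algebra.IsAlgebraic.range_eval_eq_rootSet_minpoly_of_splits (F := F) (K := D) Ω
    (fun x => IsAlgClosed.splits _) y
  have hsub : (minpoly F y).rootSet Ω ⊆ {y₀} := by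
    rw [← hrange]
    rintro _ ⟨τ, rfl⟩
    exact h τ
  have hcard := card_rootSet_eq_natDegree hsep hsplit
  have hle : Fintype.card ((minpoly F y).rootSet Ω) ≤ 1 := by
    rw [Fintype.card_le_one_iff]
    intro a b
    apply Subtype.ext
    rw [Set.mem_singleton_iff.mp (hsub a.2), Set.mem_singleton_iff.mp (hsub b.2)]
  rw [hcard] at hle
  have hpos : 0 < (minpoly F y).natDegree := minpoly.natDegree_pos hint
  exact minpoly.natDegree_eq_one_iff.mp (le_antisymm hle hpos)

end fixed

section dichotomy

variable {F L : Type*} [Field F] [Field L] [Algebra F L]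

/-- **Dichotomy.** If over `L` the monic polynomial `g ∈ F[X]` factors as `(X - y) * Q` with `Q`
irreducible, then for every intermediate field `D` either `y ∈ D` or `g` is irreducible over
`D`. -/
theorem mem_or_irreducible (D : IntermediateField F L) {g : F[X]} (hg : g.Monic) {y : L}
    {Q : L[X]} (hQ : Irreducible Q) (hfac : g.map (algebraMap F L) = (X - C y) * Q) :
    y ∈ D ∨ Irreducible (g.map (algebraMap F D)) := by
  by_cases hyD : y ∈ D
  · exact Or.inl hyD
  right
  have hgD : (g.map (algebraMap F D)).Monic := hg.map _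
  have hmapmap : (g.map (algebraMap F D)).map (algebraMap D L) = (X - C y) * Q := by
    rw [Polynomial.map_map, ← IsScalarTower.algebraMap_eq, hfac]
  rw [hgD.irreducible_iff_natDegree]
  refine ⟨?_, ?_⟩
  · intro h1
    have := congrArg (Polynomial.map (algebraMap D L)) h1
    rw [hmapmap, Polynomial.map_one] at this
    have hu : IsUnit Q := IsUnit.of_mul_eq_one _ (by rw [mul_comm]; exact this)
    exact hQ.not_isUnit hu
  · -- key: a monic factor `A` whose image is divisible by `X - y`
    have key : ∀ A B : D[X], A.Monic → B.Monic → A * B = g.map (algebraMap F D) →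
        (X - C y) ∣ A.map (algebraMap D L) → B.natDegree = 0 := by
      intro A B hA hB hAB hdiv
      obtain ⟨A', hA'⟩ := hdiv
      have h1 : (X - C y) * (A' * B.map (algebraMap D L)) = (X - C y) * Q := by
        rw [← hmapmap, ← hAB, Polynomial.map_mul, hA', mul_assoc]
      have h2 : A' * B.map (algebraMap D L) = Q :=
        mul_left_cancel₀ (X_sub_C_ne_zero y) h1
      rcases hQ.isUnit_or_isUnit h2.symm with hu | hu
      · -- `A'` is a unit: then `A` is linear with root `y`, so `y ∈ D`
        exfalso
        apply hyD
        have hdeg : (A.map (algebraMap D L)).natDegree = 1 := by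
          rw [hA', natDegree_mul (X_sub_C_ne_zero y) hu.ne_zero, natDegree_X_sub_C,
            natDegree_eq_zero_of_isUnit hu]
        rw [natDegree_map] at hdeg
        have hAeq : A = X + C (A.coeff 0) := by
          have := hA.eq_X_add_C hdeg  -- placeholder
          exact this
        have hroot : (A.map (algebraMap D L)).eval y = 0 := by
          rw [hA', eval_mul, eval_sub, eval_X, eval_C, sub_self, zero_mul]
        rw [hAeq, Polynomial.map_add, Polynomial.map_X, Polynomial.map_C, eval_add, eval_X,
          eval_C] at hroot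
        have : y = algebraMap D L (-(A.coeff 0)) := by
          rw [map_neg]
          exact eq_neg_of_add_eq_zero_left hroot
        rw [this]
        exact (-(A.coeff 0)).2
      · have := natDegree_eq_zero_of_isUnit hu
        rwa [natDegree_map] at this
    intro A B hA hB hAB
    have hprime : Prime (X - C y : L[X]) := prime_X_sub_C y
    have hdvd : (X - C y : L[X]) ∣ A.map (algebraMap D L) * B.map (algebraMap D L) := by
      rw [← Polynomial.map_mul, hAB, hmapmap]
      exact dvd_mul_right _ _
    rcases hprime.dvd_or_dvd hdvd with h | h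
    · exact Or.inr (key A B hA hB hAB h)
    · exact Or.inl (key B A hB hA (by rw [mul_comm]; exact hAB) h)

end dichotomy

section chain

variable {F D Ω : Type*} [Field F] [CommRing D] [CommRing Ω] [Algebra F D] [Algebra F Ω]

/-- Algebra homomorphisms carry roots of `Φ(X, x')` to roots of `Φ(X, τ x')`. -/
theorem algHom_root (Φ : F[X][X]) {x x' : D}
    (h : (Φ.map ((aeval x' : F[X] →ₐ[F] D) : F[X] →+* D)).eval x = 0) (τ : D →ₐ[F] Ω) :
    (Φ.map ((aeval (τ x') : F[X] →ₐ[F] Ω) : F[X] →+* Ω)).eval (τ x) = 0 := by
  have h1 : ((aeval (τ x') : F[X] →ₐ[F] Ω) : F[X] →+* Ω) =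
      (τ : D →+* Ω).comp ((aeval x' : F[X] →ₐ[F] D) : F[X] →+* D) := by
    ext a
    · simp
    · simp
  rw [h1, ← Polynomial.map_map, eval_map]
  have h2 := Polynomial.eval₂_at_apply (p := Φ.map ((aeval x' : F[X] →ₐ[F] D) : F[X] →+* D))
    (τ : D →+* Ω) x
  rw [RingHom.coe_coe] at h2
  rw [h2, h, map_zero]

end chain

/-- A root of `∏ (X - r i)` is one of the `r i`. -/
theorem exists_eq_of_eval_prod_eq_zero {R ι : Type*} [CommRing R] [IsDomain R] (s : Finset ι)
    (r : ι → R) {z : R} (h : (∏ i ∈ s, (X - C (r i))).eval z = 0) : ∃ i ∈ s, z = r i := by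
  rw [eval_prod, Finset.prod_eq_zero_iff] at h
  obtain ⟨i, hi, h0⟩ := h
  refine ⟨i, hi, ?_⟩
  rw [eval_sub, eval_X, eval_C] at h0
  exact sub_eq_zero.mp h0

end Fermat.Agent.S28.EmbStaysIn
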