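/-
S28 / block D: abstract core of the Gauss-valuation argument (accelerator for `D.valuation`).
Owner: helper62.  Mathlib only.

Setting: a field `F`, a nonzero `ℓ ∈ F`, a subring `O ⊆ F` containing `ℓ` with a ring hom
`red : O → R'` into a field whose kernel is `ℓ O` and such that elements with nonzero reduction
are units of `O`; a subfield `K₀ ⊆ F` containing `ℓ` in which every nonzero element is
`ℓ ^ e * u`, `u ∈ O ∩ K₀` with `red u ≠ 0`, `red u ∈ k₀` (`k₀` a subfield of `R'`); and a finite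
family `x i ∈ O` spanning `F` over `K₀` whose reductions are linearly independent over `k₀`.

Then: every nonzero `z ∈ F` is `ℓ ^ e * w` with `red w ≠ 0` (`scaling`); `O` is a valuation ring of
`F` (`mem_or_inv_mem_O`); the `K₀`-coordinates of `y ∈ O` lie in `O` (`coords`); every `y ∈ O` is
integral over `O ⊓ K₀` (`isIntegral_of_mem`).
-/
import Mathlib

set_option autoImplicit false

namespace Fermat.Agent.S28.GaussValAbs

open scoped BigOperators

variable {F R' : Type*} [Field F] [Field R'] {ℓ : F} {O : Subring F} {red : O →+* R'}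
  {K₀ : Subfield F} {k₀ : Subfield R'} {n : ℕ} {x : Fin n → O}

/-- `red ℓ = 0`. -/
theorem red_ell (hℓO : ℓ ∈ O) (hker : ∀ y : O, red y = 0 ↔ ∃ y' : O, (y : F) = ℓ * y') :
    red ⟨ℓ, hℓO⟩ = 0 :=
  (hker _).2 ⟨1, by simp⟩

/-- **Core**: a `K₀`-linear combination of the `x i` with not all coefficients zero can be written
as `ℓ ^ e` times a combination with coefficients in `O ∩ K₀` whose reduction is nonzero. -/
theorem exists_scaling_of_coeffs (hℓ0 : ℓ ≠ 0) (hℓO : ℓ ∈ O)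
    (hker : ∀ y : O, red y = 0 ↔ ∃ y' : O, (y : F) = ℓ * y') (hℓK : ℓ ∈ K₀)
    (hnorm : ∀ c ∈ K₀, c ≠ 0 → ∃ (e : ℤ) (u : O), (u : F) ∈ K₀ ∧ red u ≠ 0 ∧ red u ∈ k₀ ∧
      c = ℓ ^ e * (u : F))
    (hind : LinearIndependent k₀ (fun i => red (x i)))
    (c : Fin n → F) (hc : ∀ i, c i ∈ K₀) (hne : ∃ i, c i ≠ 0) :
    ∃ (e : ℤ) (c' : Fin n → O), (∀ i, (c' i : F) ∈ K₀) ∧ (∀ i, c i = ℓ ^ e * (c' i : F)) ∧
      red (∑ i, c' i * x i) ≠ 0 := by
  classical
  have hex : ∀ i, c i ≠ 0 → ∃ (e : ℤ) (u : O), (u : F) ∈ K₀ ∧ red u ≠ 0 ∧ red u ∈ k₀ ∧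
      c i = ℓ ^ e * (u : F) := fun i hi => hnorm (c i) (hc i) hi
  choose! e u hu using hex
  set I : Finset (Fin n) := Finset.univ.filter fun i => c i ≠ 0 with hI
  have hIne : I.Nonempty := by
    obtain ⟨i, hi⟩ := hne
    exact ⟨i, by simp [hI, hi]⟩
  set e₀ : ℤ := I.inf' hIne e with he₀
  obtain ⟨i₀, hi₀I, hi₀⟩ := Finset.exists_mem_eq_inf' hIne e
  have hmin : ∀ i, c i ≠ 0 → e₀ ≤ e i := fun i hi =>
    Finset.inf'_le e (by simp [hI, hi])
  let ℓO : O := ⟨ℓ, hℓO⟩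
  have hredℓ : red ℓO = 0 := red_ell hℓO hker
  set c' : Fin n → O := fun i => if c i = 0 then 0 else ℓO ^ (e i - e₀).toNat * u i with hc'
  have hc'K : ∀ i, (c' i : F) ∈ K₀ := by
    intro i
    simp only [hc']
    split_ifs with h
    · simp
    · push_cast
      exact K₀.mul_mem (K₀.pow_mem hℓK _) (hu i h).1
  have hcc' : ∀ i, c i = ℓ ^ e₀ * (c' i : F) := by
    intro i
    simp only [hc']
    split_ifs with h
    · simp [h]
    · have h1 : ((e i - e₀).toNat : ℤ) = e i - e₀ := Int.toNat_of_nonneg (by linarith [hmin i h])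
      push_cast
      rw [(hu i h).2.2.2, ← mul_assoc, ← zpow_natCast, h1, ← zpow_add₀ hℓ0]
      congr 2
      ring
  have hc'k : ∀ i, red (c' i) ∈ k₀ := by
    intro i
    simp only [hc']
    split_ifs with h
    · simp
    · rw [map_mul, map_pow]
      exact k₀.mul_mem (k₀.pow_mem (by rw [hredℓ]; exact k₀.zero_mem) _) (hu i h).2.2.1
  refine ⟨e₀, c', hc'K, hcc', ?_⟩
  intro hsum
  rw [map_sum] at hsum
  simp only [map_mul] at hsum
  have hlin := Fintype.linearIndependent_iff.1 hind (fun i => ⟨red (c' i), hc'k i⟩) (by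
    simpa [Subfield.smul_def] using hsum) i₀
  have hi₀ne : c i₀ ≠ 0 := by
    simpa [hI] using hi₀I
  have h2 : red (c' i₀) = red (u i₀) := by
    simp only [hc']
    rw [if_neg hi₀ne, ← hi₀, he₀, sub_self, Int.toNat_zero, pow_zero, one_mul]
  have h3 : red (c' i₀) = 0 := by
    have := congrArg Subtype.val hlin
    simpa using this
  exact (hu i₀ hi₀ne).2.1 (h2 ▸ h3)

section Main

variable (hℓ0 : ℓ ≠ 0) (hℓO : ℓ ∈ O)
  (hker : ∀ y : O, red y = 0 ↔ ∃ y' : O, (y : F) = ℓ * y')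
  (hinv : ∀ y : O, red y ≠ 0 → ((y : F))⁻¹ ∈ O) (hℓK : ℓ ∈ K₀)
  (hnorm : ∀ c ∈ K₀, c ≠ 0 → ∃ (e : ℤ) (u : O), (u : F) ∈ K₀ ∧ red u ≠ 0 ∧ red u ∈ k₀ ∧
    c = ℓ ^ e * (u : F))
  (hspan : ∀ z : F, ∃ c : Fin n → F, (∀ i, c i ∈ K₀) ∧ z = ∑ i, c i * (x i : F))
  (hind : LinearIndependent k₀ (fun i => red (x i)))

include hℓ0 hℓO hker hℓK hnorm hspan hind

/-- **Scaling lemma**: every nonzero `z ∈ F` is `ℓ ^ e * w` with `w ∈ O`, `red w ≠ 0`. -/
theorem scaling (z : F) (hz : z ≠ 0) : ∃ (e : ℤ) (w : O), red w ≠ 0 ∧ z = ℓ ^ e * (w : F) := by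
  obtain ⟨c, hc, hzc⟩ := hspan z
  have hne : ∃ i, c i ≠ 0 := by
    by_contra h
    have h : ∀ i, c i = 0 := fun i => by_contra fun hi => h ⟨i, hi⟩
    apply hz
    rw [hzc]
    exact Finset.sum_eq_zero fun i _ => by rw [h i, zero_mul]
  obtain ⟨e, c', -, hcc', hred⟩ :=
    exists_scaling_of_coeffs hℓ0 hℓO hker hℓK hnorm hind c hc hne
  refine ⟨e, ∑ i, c' i * x i, hred, ?_⟩
  rw [hzc]
  push_cast
  rw [Finset.mul_sum]
  exact Finset.sum_congr rfl fun i _ => by rw [hcc' i, mul_assoc]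

/-- **(F1)**: the `K₀`-coordinates of an element of `O` lie in `O ∩ K₀`. -/
theorem coords (y : F) (hy : y ∈ O) :
    ∃ c : Fin n → F, (∀ i, c i ∈ K₀ ∧ c i ∈ O) ∧ y = ∑ i, c i * (x i : F) := by
  obtain ⟨c, hc, hyc⟩ := hspan y
  by_cases hne : ∃ i, c i ≠ 0
  · obtain ⟨e, c', hc'K, hcc', hred⟩ :=
      exists_scaling_of_coeffs hℓ0 hℓO hker hℓK hnorm hind c hc hne
    have hyw : y = ℓ ^ e * ((∑ i, c' i * x i : O) : F) := by
      rw [hyc]
      push_cast
      rw [Finset.mul_sum]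
      exact Finset.sum_congr rfl fun i _ => by rw [hcc' i, mul_assoc]
    have he : 0 ≤ e := by
      by_contra hneg
      have hneg : e < 0 := not_le.1 hneg
      apply hred
      rw [hker]
      -- `w = ℓ * (ℓ ^ (-e-1) * y)`
      obtain ⟨m, hm⟩ : ∃ m : ℕ, -e = (m : ℤ) + 1 := ⟨(-e - 1).toNat, by
        rw [Int.toNat_of_nonneg (by linarith)]; ring⟩
      refine ⟨⟨ℓ, hℓO⟩ ^ m * ⟨y, hy⟩, ?_⟩
      have h1 : ((∑ i, c' i * x i : O) : F) = ℓ ^ (-e) * y := by
        rw [hyw, ← mul_assoc, ← zpow_add₀ hℓ0, neg_add_cancel, zpow_zero, one_mul]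
      rw [h1, hm, zpow_add₀ hℓ0, zpow_one, zpow_natCast]
      push_cast
      ring
    refine ⟨c, fun i => ⟨hc i, ?_⟩, hyc⟩
    rw [hcc' i]
    obtain ⟨m, rfl⟩ := Int.eq_ofNat_of_zero_le he
    rw [zpow_natCast]
    exact O.mul_mem (O.pow_mem hℓO m) (c' i).2
  · have hne : ∀ i, c i = 0 := fun i => by_contra fun hi => hne ⟨i, hi⟩
    exact ⟨c, fun i => ⟨hc i, by rw [hne i]; exact O.zero_mem⟩, hyc⟩

include hinv in
/-- `O` is a valuation ring of `F`. -/
theorem mem_or_inv_mem_O (z : F) : z ∈ O ∨ z⁻¹ ∈ O := by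
  by_cases hz : z = 0
  · left; rw [hz]; exact O.zero_mem
  obtain ⟨e, w, hw, hzw⟩ := scaling hℓ0 hℓO hker hℓK hnorm hspan hind z hz
  rcases le_or_gt 0 e with he | he
  · left
    obtain ⟨m, rfl⟩ := Int.eq_ofNat_of_zero_le he
    rw [hzw, zpow_natCast]
    exact O.mul_mem (O.pow_mem hℓO m) w.2
  · right
    obtain ⟨m, hm⟩ : ∃ m : ℕ, -e = (m : ℤ) := ⟨(-e).toNat, by
      rw [Int.toNat_of_nonneg (by linarith)]⟩
    rw [hzw, mul_inv, ← zpow_neg, hm, zpow_natCast]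
    exact O.mul_mem (O.pow_mem hℓO m) (hinv w hw)

/-- Every element of `O` is integral over `V = O ⊓ K₀`. -/
theorem isIntegral_of_mem (y : F) (hy : y ∈ O) : IsIntegral ↥(O ⊓ K₀.toSubring) y := by
  classical
  set V : Subring F := O ⊓ K₀.toSubring with hV
  let N : Submodule V F := Submodule.span V (Set.range fun i => (x i : F))
  have hNO : ∀ m ∈ N, m ∈ O := by
    intro m hm
    refine Submodule.span_induction (p := fun m _ => m ∈ O) ?_ O.zero_mem
      (fun a b _ _ ha hb => O.add_mem ha hb) (fun a b _ hb => ?_) hm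
    · rintro _ ⟨i, rfl⟩
      exact (x i).2
    · rw [Subring.smul_def, smul_eq_mul]
      exact O.mul_mem a.2.1 hb
  have hON : ∀ m ∈ O, m ∈ N := by
    intro m hm
    obtain ⟨c, hc, hmc⟩ := coords hℓ0 hℓO hker hℓK hnorm hspan hind m hm
    rw [hmc]
    refine Submodule.sum_mem _ fun i _ => ?_
    have h1 : c i * (x i : F) = (⟨c i, (hc i).2, (hc i).1⟩ : V) • (x i : F) := by
      rw [Subring.smul_def, smul_eq_mul]
    rw [h1]
    exact Submodule.smul_mem _ _ (Submodule.subset_span ⟨i, rfl⟩)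
  have hN0 : N ≠ ⊥ := by
    intro h
    have h1 : (1 : F) ∈ N := hON 1 O.one_mem
    rw [h, Submodule.mem_bot] at h1
    exact one_ne_zero h1
  have hNfg : N.FG := Submodule.fg_span (Set.finite_range _)
  refine isIntegral_of_smul_mem_submodule N hN0 hNfg y fun m hm => ?_
  rw [smul_eq_mul]
  exact hON _ (O.mul_mem hy (hNO m hm))

/-- Instance-free form of `isIntegral_of_mem`: a monic polynomial over `K₀` with coefficients in `O`
killing `y`. -/
theorem exists_monic_of_mem (y : F) (hy : y ∈ O) :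
    ∃ P : Polynomial K₀, P.Monic ∧ (∀ i, ((P.coeff i : K₀) : F) ∈ O) ∧
      Polynomial.eval₂ K₀.subtype y P = 0 := by
  obtain ⟨P, hPmonic, hPy⟩ := isIntegral_of_mem hℓ0 hℓO hker hℓK hnorm hspan hind y hy
  let ι : ↥(O ⊓ K₀.toSubring) →+* K₀ :=
    { toFun := fun c => ⟨(c : F), c.2.2⟩
      map_one' := rfl
      map_mul' := fun _ _ => rfl
      map_zero' := rfl
      map_add' := fun _ _ => rfl }
  refine ⟨P.map ι, hPmonic.map ι, fun i => ?_, ?_⟩
  · rw [Polynomial.coeff_map]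
    exact (P.coeff i).2.1
  · rw [Polynomial.eval₂_map]
    exact hPy

end Main

/-- A subring `O` of a field with `z ∈ O ∨ z⁻¹ ∈ O` as a `ValuationSubring`. -/
def toValuationSubring (O : Subring F) (h : ∀ z : F, z ∈ O ∨ z⁻¹ ∈ O) : ValuationSubring F :=
  { O with mem_or_inv_mem' := h }

@[simp]
theorem mem_toValuationSubring (O : Subring F) (h : ∀ z : F, z ∈ O ∨ z⁻¹ ∈ O) (z : F) :
    z ∈ toValuationSubring O h ↔ z ∈ O := Iff.rfl

end Fermat.Agent.S28.GaussValAbs
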