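/-
S28 / block D: instantiation of the abstract Gauss-valuation core (`GaussValAbs`) at the Gauss ring
`O ℓ F` of `GaussRing.lean`, with `K₀ = ℚ(t)`, `k₀ = 𝔽_ℓ(t̄)` for an `ℓ`-integral `t ∈ F` whose
reduction is transcendental over `𝔽_ℓ` (`t = j` or `t = 1/j`).
Owner: helper62.
-/
import Mathlib
import Fermat.Agent.S28.GaussRing
import Fermat.Agent.S28.GaussPoly
import Fermat.Agent.S28.GaussValAbs

set_option autoImplicit false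

namespace Fermat.Agent.S28.GaussValInst

open ModularCurve Fermat.Agent.S28.ZlRes Fermat.Agent.S28.IntLaurent Fermat.Agent.S28.GaussRing
open Fermat.Agent.S28.GaussPoly Polynomial IntermediateField

variable {ℓ : ℕ} [hℓ : Fact ℓ.Prime] {F : IntermediateField ℚ (LaurentSeries ℚ)}

/-- `ℓ ≠ 0` in `F`. -/
theorem ell_ne_zero : ((ℓ : ℕ) : ↥F) ≠ 0 := Nat.cast_ne_zero.mpr hℓ.out.ne_zero

/-- `ℓ ∈ O`. -/
theorem ell_mem_O : ((ℓ : ℕ) : ↥F) ∈ O ℓ F := _root_.natCast_mem (O ℓ F) ℓ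

/-- **Normal form of `ℚ(t)`** (hypothesis `hnorm` of `GaussValAbs`). -/
theorem hnorm_of_polyNorm (t : ↥(A ℓ F)) (htr : Transcendental (ZMod ℓ) (redA ℓ F t))
    (c : ↥F) (hcK : c ∈ (ℚ⟮(t : ↥F)⟯).toSubfield) (hc0 : c ≠ 0) :
    ∃ (e : ℤ) (u : ↥(O ℓ F)), ((u : ↥F)) ∈ (ℚ⟮(t : ↥F)⟯).toSubfield ∧ redO ℓ F u ≠ 0 ∧
      redO ℓ F u ∈ ((ZMod ℓ)⟮redA ℓ F t⟯).toSubfield ∧ c = ((ℓ : ℕ) : ↥F) ^ e * (u : ↥F) := by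
  have hcK' : c ∈ ℚ⟮(t : ↥F)⟯ := hcK
  obtain ⟨P, Q, hc⟩ := (IntermediateField.mem_adjoin_simple_iff ℚ c).1 hcK'
  have hP0' : aeval (t : ↥F) P ≠ 0 := by
    intro h; rw [h, zero_div] at hc; exact hc0 hc
  have hQ0' : aeval (t : ↥F) Q ≠ 0 := by
    intro h; rw [h, div_zero] at hc; exact hc0 hc
  have hP0 : P ≠ 0 := by rintro rfl; simp at hP0'
  have hQ0 : Q ≠ 0 := by rintro rfl; simp at hQ0'
  obtain ⟨eP, wP, hwP, hwPk, hPe, -⟩ := polyNorm t htr P hP0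
  obtain ⟨eQ, wQ, hwQ, hwQk, hQe, -⟩ := polyNorm t htr Q hQ0
  have hwQ0 : (wQ : ↥F) ≠ 0 := redA_ne_zero_imp_ne_zero hwQ
  have hℓ0 : ((ℓ : ℕ) : ↥F) ≠ 0 := ell_ne_zero
  have hmem : (wP : ↥F) / (wQ : ↥F) ∈ O ℓ F :=
    ⟨wP, wQ, hwQ, mul_div_cancel₀ _ hwQ0⟩
  have hmul : (wQ : ↥F) * ((wP : ↥F) / (wQ : ↥F)) = (wP : ↥F) := mul_div_cancel₀ _ hwQ0
  have hu : redO ℓ F ⟨(wP : ↥F) / (wQ : ↥F), hmem⟩ = redA ℓ F wP / redA ℓ F wQ :=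
    redO_eq (⟨(wP : ↥F) / (wQ : ↥F), hmem⟩ : ↥(O ℓ F)) (a := wP) (b := wQ) hwQ hmul
  refine ⟨eP - eQ, ⟨(wP : ↥F) / (wQ : ↥F), hmem⟩, ?_, ?_, ?_, ?_⟩
  · -- membership in `ℚ(t)`
    show (wP : ↥F) / (wQ : ↥F) ∈ ℚ⟮(t : ↥F)⟯
    have hℓK : ((ℓ : ℕ) : ↥F) ∈ ℚ⟮(t : ↥F)⟯ := _root_.natCast_mem _ ℓ
    have haP : aeval (t : ↥F) P ∈ ℚ⟮(t : ↥F)⟯ :=
      IntermediateField.algebra_adjoin_le_adjoin ℚ _ (Polynomial.aeval_mem_adjoin_singleton ℚ _)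
    have haQ : aeval (t : ↥F) Q ∈ ℚ⟮(t : ↥F)⟯ :=
      IntermediateField.algebra_adjoin_le_adjoin ℚ _ (Polynomial.aeval_mem_adjoin_singleton ℚ _)
    have h1 : (wP : ↥F) = (((ℓ : ℕ) : ↥F) ^ eP)⁻¹ * aeval (t : ↥F) P := by
      rw [hPe, ← mul_assoc, inv_mul_cancel₀ (zpow_ne_zero _ hℓ0), one_mul]
    have h2 : (wQ : ↥F) = (((ℓ : ℕ) : ↥F) ^ eQ)⁻¹ * aeval (t : ↥F) Q := by
      rw [hQe, ← mul_assoc, inv_mul_cancel₀ (zpow_ne_zero _ hℓ0), one_mul]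
    have hzP : (((ℓ : ℕ) : ↥F) ^ eP)⁻¹ ∈ ℚ⟮(t : ↥F)⟯ :=
      (ℚ⟮(t : ↥F)⟯).inv_mem (zpow_mem hℓK eP)
    have hzQ : (((ℓ : ℕ) : ↥F) ^ eQ)⁻¹ ∈ ℚ⟮(t : ↥F)⟯ :=
      (ℚ⟮(t : ↥F)⟯).inv_mem (zpow_mem hℓK eQ)
    have hwPK : (wP : ↥F) ∈ ℚ⟮(t : ↥F)⟯ := h1 ▸ (ℚ⟮(t : ↥F)⟯).mul_mem hzP haP
    have hwQK : (wQ : ↥F) ∈ ℚ⟮(t : ↥F)⟯ := h2 ▸ (ℚ⟮(t : ↥F)⟯).mul_mem hzQ haQ
    exact (ℚ⟮(t : ↥F)⟯).div_mem hwPK hwQK
  · rw [hu]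
    exact div_ne_zero hwP hwQ
  · rw [hu]
    show redA ℓ F wP / redA ℓ F wQ ∈ (ZMod ℓ)⟮redA ℓ F t⟯
    exact ((ZMod ℓ)⟮redA ℓ F t⟯).div_mem (IntermediateField.algebra_adjoin_le_adjoin _ _ hwPk)
      (IntermediateField.algebra_adjoin_le_adjoin _ _ hwQk)
  · show c = ((ℓ : ℕ) : ↥F) ^ (eP - eQ) * ((wP : ↥F) / (wQ : ↥F))
    rw [hc, hPe, hQe, zpow_sub₀ hℓ0]
    field_simp

section Core

variable {n : ℕ} (t : ↥(A ℓ F)) (htr : Transcendental (ZMod ℓ) (redA ℓ F t))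
  (Kt : IntermediateField ℚ ↥F) (hKt : Kt = ℚ⟮(t : ↥F)⟯)
  (kt : IntermediateField (ZMod ℓ) (LaurentSeries (ZMod ℓ))) (hkt : kt = (ZMod ℓ)⟮redA ℓ F t⟯)
  (x : Fin n → ↥F) (hint : ∀ i, x i ∈ A ℓ F)
  (hspan : Submodule.span Kt (Set.range x) = ⊤)
  (hind : LinearIndependent kt (fun i => redA ℓ F ⟨x i, hint i⟩))

include hspan in
/-- hypothesis `hspan` of `GaussValAbs`. -/
theorem hspan_abs : ∀ z : ↥F, ∃ c : Fin n → ↥F, (∀ i, c i ∈ Kt.toSubfield) ∧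
    z = ∑ i, c i * ((⟨x i, A_le_O (hint i)⟩ : ↥(O ℓ F)) : ↥F) := by
  intro z
  have hz : z ∈ Submodule.span Kt (Set.range x) := by rw [hspan]; trivial
  obtain ⟨c, hc⟩ := (Submodule.mem_span_range_iff_exists_fun Kt).1 hz
  refine ⟨fun i => (c i : ↥F), fun i => (c i).2, ?_⟩
  rw [← hc]
  rfl

include hind in
/-- hypothesis `hind` of `GaussValAbs`. -/
theorem hind_abs : LinearIndependent kt.toSubfield
    (fun i => redO ℓ F (⟨x i, A_le_O (hint i)⟩ : ↥(O ℓ F))) := by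
  rw [Fintype.linearIndependent_iff] at hind ⊢
  intro g hg i
  have h := hind (fun j => (⟨(g j : LaurentSeries (ZMod ℓ)), (g j).2⟩ : ↥kt)) (by
    rw [← hg]
    refine Finset.sum_congr rfl fun j _ => ?_
    rw [show redO ℓ F (⟨x j, A_le_O (hint j)⟩ : ↥(O ℓ F)) = redA ℓ F ⟨x j, hint j⟩ from
      redO_of_mem_A ⟨x j, hint j⟩]
    rfl) i
  apply Subtype.ext
  have := congrArg Subtype.val h
  exact this

include htr hKt hkt hspan hind in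
/-- **Core output for the Gauss ring**: `O` is a valuation ring of `F`, and every element of `O` is
killed by a monic polynomial over `ℚ(t)` with coefficients in `O`. -/
theorem gauss_core :
    (∀ y : ↥F, y ∈ O ℓ F ∨ y⁻¹ ∈ O ℓ F) ∧
    (∀ y ∈ O ℓ F, ∃ p : Polynomial ↥Kt, p.Monic ∧ (∀ i, ((p.coeff i : ↥Kt) : ↥F) ∈ O ℓ F) ∧
      Polynomial.aeval y p = 0) := by
  have hℓ0 : ((ℓ : ℕ) : ↥F) ≠ 0 := ell_ne_zero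
  have hℓO : ((ℓ : ℕ) : ↥F) ∈ O ℓ F := ell_mem_O
  have hker : ∀ y : ↥(O ℓ F), redO ℓ F y = 0 ↔ ∃ y' : ↥(O ℓ F), (y : ↥F) = ((ℓ : ℕ) : ↥F) * y' :=
    fun y => redO_eq_zero_iff y
  have hinv : ∀ y : ↥(O ℓ F), redO ℓ F y ≠ 0 → ((y : ↥F))⁻¹ ∈ O ℓ F := fun y hy => inv_mem_O hy
  have hℓK : ((ℓ : ℕ) : ↥F) ∈ Kt.toSubfield := _root_.natCast_mem Kt ℓ
  have hnorm : ∀ c ∈ Kt.toSubfield, c ≠ 0 → ∃ (e : ℤ) (u : ↥(O ℓ F)),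
      (u : ↥F) ∈ Kt.toSubfield ∧ redO ℓ F u ≠ 0 ∧ redO ℓ F u ∈ kt.toSubfield ∧
      c = ((ℓ : ℕ) : ↥F) ^ e * (u : ↥F) := by
    subst hKt hkt
    exact fun c hc hc0 => hnorm_of_polyNorm t htr c hc hc0
  have hsp := hspan_abs Kt x hint hspan
  have hin := hind_abs kt x hint hind
  refine ⟨fun y => GaussValAbs.mem_or_inv_mem_O hℓ0 hℓO hker hinv hℓK hnorm hsp hin y,
    fun y hy => ?_⟩
  obtain ⟨P, hPm, hPc, hPy⟩ :=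
    GaussValAbs.exists_monic_of_mem hℓ0 hℓO hker hℓK hnorm hsp hin y hy
  let ι : ↥Kt.toSubfield →+* ↥Kt :=
    { toFun := fun c => ⟨(c : ↥F), c.2⟩
      map_one' := rfl
      map_mul' := fun _ _ => rfl
      map_zero' := rfl
      map_add' := fun _ _ => rfl }
  refine ⟨P.map ι, hPm.map ι, fun i => ?_, ?_⟩
  · rw [Polynomial.coeff_map]
    exact hPc i
  · rw [Polynomial.aeval_def, Polynomial.eval₂_map]
    exact hPy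

end Core

end Fermat.Agent.S28.GaussValInst
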