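import Mathlib
import Fermat.Prelude.Def_ModularCurve_IgusaScheme

/-!
# S28, block E (scheme glue), second seat / independent backup

`IsIntegral` of the base change of the Prelude's Igusa model `X = XFin ∪ XInf` (glued along
`XMid`) to a field `K`, from `IsDomain` of the three chart tensor products
`chartAlg ⊗[ℤ_(ℓ)] K`.

* `isIntegral_of_openCover`: a scheme with an open cover by integral schemes, one member of
  which meets every member, is integral.
* `isIntegral_pullback_igusaTo`: the statement of S28 from the three `IsDomain` hypotheses.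
-/

set_option autoImplicit false

open AlgebraicGeometry CategoryTheory CategoryTheory.Limits ModularCurve ModularCurve.IgusaScheme
open scoped TensorProduct

noncomputable section

namespace Fermat.Agent.S28.SchemeGlueB

universe u

/-- A scheme with an open cover by integral schemes such that one member of the cover meets
every member is integral. -/
theorem isIntegral_of_openCover {Y : Scheme.{u}} (𝒱 : Y.OpenCover) [∀ i, IsIntegral (𝒱.X i)]
    (i₀ : 𝒱.I₀)
    (h : ∀ j, (Set.range (𝒱.f i₀).base ∩ Set.range (𝒱.f j).base).Nonempty) :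
    IsIntegral Y := by
  have hred : IsReduced Y := IsReduced.of_openCover Y 𝒱
  -- the members of the cover, as irreducible open subsets
  have hirr : ∀ j, IsIrreducible (Set.range (𝒱.f j).base) := by
    intro j
    have h1 : IsIrreducible (Set.univ : Set (𝒱.X j)) :=
      IrreducibleSpace.isIrreducible_univ _
    have h2 := h1.image (𝒱.f j).base (𝒱.f j).continuous.continuousOn
    rwa [Set.image_univ] at h2
  have hdense : closure (Set.range (𝒱.f i₀).base) = Set.univ := by
    rw [Set.eq_univ_iff_forall]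
    intro y
    obtain ⟨j, x, rfl⟩ := 𝒱.exists_eq y
    by_contra hy
    have hWopen : IsOpen (closure (Set.range (𝒱.f i₀).base))ᶜ := isClosed_closure.isOpen_compl
    have hU0open : IsOpen (Set.range (𝒱.f i₀).base) := (𝒱.f i₀).isOpenEmbedding.isOpen_range
    have h1 : (Set.range (𝒱.f j).base ∩ (closure (Set.range (𝒱.f i₀).base))ᶜ).Nonempty :=
      ⟨_, ⟨x, rfl⟩, hy⟩
    have h2 : (Set.range (𝒱.f j).base ∩ Set.range (𝒱.f i₀).base).Nonempty := by
      rw [Set.inter_comm]; exact h j
    obtain ⟨z, -, hz1, hz2⟩ := (hirr j).2 _ _ hWopen hU0open h1 h2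
    exact hz1 (subset_closure hz2)
  have hirrY : IrreducibleSpace Y := by
    have := (hirr i₀).closure
    rw [hdense] at this
    exact { toPreirreducibleSpace := ⟨this.2⟩, toNonempty := ⟨this.1.some⟩ }
  exact isIntegral_of_irreducibleSpace_of_isReduced Y

section Factor

variable {X Y Z : Scheme.{u}} (𝒰 : X.OpenCover) (f : X ⟶ Z) (g : Y ⟶ Z) (i j : 𝒰.I₀)
  (φ : 𝒰.X i ⟶ 𝒰.X j) (hφ : φ ≫ 𝒰.f j = 𝒰.f i)

/-- If the `i`-th member of a cover factors through the `j`-th one, so do the members of the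
pulled-back cover. -/
def factorMap : pullback (𝒰.f i ≫ f) g ⟶ pullback (𝒰.f j ≫ f) g :=
  pullback.map (𝒰.f i ≫ f) g (𝒰.f j ≫ f) g φ (𝟙 _) (𝟙 _)
    (by rw [Category.comp_id, ← Category.assoc, hφ]) (by simp)

theorem factorMap_isOpenImmersion [IsOpenImmersion φ] :
    IsOpenImmersion (factorMap 𝒰 f g i j φ hφ) := by
  unfold factorMap
  infer_instance

theorem factorMap_comp : factorMap 𝒰 f g i j φ hφ ≫ (Scheme.Pullback.openCoverOfLeft 𝒰 f g).f j =
    (Scheme.Pullback.openCoverOfLeft 𝒰 f g).f i := by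
  apply pullback.hom_ext
  · simp only [factorMap, Scheme.Pullback.openCoverOfLeft, pullback.map, Category.assoc,
      pullback.lift_fst, pullback.lift_fst_assoc, hφ]
  · simp only [factorMap, Scheme.Pullback.openCoverOfLeft, pullback.map, Category.assoc,
      pullback.lift_snd, Category.comp_id]

include hφ in
/-- In the pulled-back cover, a member of the original cover that factors through another one
has its range contained in the range of the other one. -/
theorem range_openCoverOfLeft_subset :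
    Set.range ((Scheme.Pullback.openCoverOfLeft 𝒰 f g).f i).base ⊆
      Set.range ((Scheme.Pullback.openCoverOfLeft 𝒰 f g).f j).base := by
  rintro _ ⟨x, rfl⟩
  exact ⟨(factorMap 𝒰 f g i j φ hφ).base x, by rw [← factorMap_comp 𝒰 f g i j φ hφ]; rfl⟩

include hφ in
/-- A nonempty member of the pulled-back cover which factors, by an open immersion, through an
integral member is integral. -/
theorem isIntegral_of_factor [IsOpenImmersion φ]
    (hj : IsIntegral ((Scheme.Pullback.openCoverOfLeft 𝒰 f g).X j))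
    (hi : Nonempty ((Scheme.Pullback.openCoverOfLeft 𝒰 f g).X i)) :
    IsIntegral ((Scheme.Pullback.openCoverOfLeft 𝒰 f g).X i) :=
  @isIntegral_of_isOpenImmersion _ _ (factorMap 𝒰 f g i j φ hφ)
    (factorMap_isOpenImmersion 𝒰 f g i j φ hφ) hj hi

end Factor

section Main

variable (N : ℕ) [NeZero N] (ℓ : ℕ) [Fact ℓ.Prime]

variable (K : Type) [Field K] [Algebra ↥(GaloisRep.ratLocalizedAt ℓ) K]

/-- The cover of the Igusa scheme by its three charts (`none ↦ XMid`, `left ↦ XFin`,
`right ↦ XInf`). -/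
def chartCover : (ModularCurve.IgusaScheme N ℓ).OpenCover :=
  Scheme.IsLocallyDirected.openCover (span (fFin N ℓ) (fInf N ℓ))

theorem chartCover_f_left : (chartCover N ℓ).f WalkingSpan.left = ιFin N ℓ := rfl

theorem chartCover_f_right : (chartCover N ℓ).f WalkingSpan.right = ιInf N ℓ := rfl

theorem chartCover_f_none : (chartCover N ℓ).f none = fFin N ℓ ≫ ιFin N ℓ :=
  (colimit.w (span (fFin N ℓ) (fInf N ℓ)) WalkingSpan.Hom.fst).symm

theorem chartCover_f_none' : (chartCover N ℓ).f none = fInf N ℓ ≫ ιInf N ℓ :=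
  (colimit.w (span (fFin N ℓ) (fInf N ℓ)) WalkingSpan.Hom.snd).symm

theorem chartCover_left_igusaTo :
    (chartCover N ℓ).f WalkingSpan.left ≫ igusaTo N ℓ =
      Spec.map (CommRingCat.ofHom (algebraMap ↥(GaloisRep.ratLocalizedAt ℓ) (chartAlgFin N ℓ))) :=
  ιFin_igusaTo N ℓ

theorem chartCover_right_igusaTo :
    (chartCover N ℓ).f WalkingSpan.right ≫ igusaTo N ℓ =
      Spec.map (CommRingCat.ofHom (algebraMap ↥(GaloisRep.ratLocalizedAt ℓ) (chartAlgInf N ℓ))) :=
  ιInf_igusaTo N ℓ

theorem mid_igusaTo :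
    (fFin N ℓ ≫ ιFin N ℓ) ≫ igusaTo N ℓ =
      Spec.map (CommRingCat.ofHom (algebraMap ↥(GaloisRep.ratLocalizedAt ℓ) (chartAlgMid N ℓ))) := by
  rw [Category.assoc, ιFin_igusaTo, ← Spec.map_comp, ← CommRingCat.ofHom_comp]
  congr 2

theorem chartCover_none_igusaTo :
    (chartCover N ℓ).f none ≫ igusaTo N ℓ =
      Spec.map (CommRingCat.ofHom (algebraMap ↥(GaloisRep.ratLocalizedAt ℓ) (chartAlgMid N ℓ))) :=
  (congrArg (· ≫ igusaTo N ℓ) (chartCover_f_none N ℓ)).trans (mid_igusaTo N ℓ)

omit [Fact ℓ.Prime] in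
variable {ℓ} in
/-- A chart of the base change is the spectrum of the tensor product. -/
theorem isIntegral_piece {A : Type} [CommRing A] [Algebra ↥(GaloisRep.ratLocalizedAt ℓ) A]
    (hA : IsDomain (A ⊗[↥(GaloisRep.ratLocalizedAt ℓ)] K))
    (φ : Spec (CommRingCat.of A) ⟶ Spec (CommRingCat.of ↥(GaloisRep.ratLocalizedAt ℓ)))
    (hφ : φ = Spec.map (CommRingCat.ofHom (algebraMap ↥(GaloisRep.ratLocalizedAt ℓ) A))) :
    IsIntegral (pullback φ
      (Spec.map (CommRingCat.ofHom (algebraMap ↥(GaloisRep.ratLocalizedAt ℓ) K)))) := by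
  subst hφ
  have : IsDomain (CommRingCat.of (A ⊗[↥(GaloisRep.ratLocalizedAt ℓ)] K)) := hA
  exact IsIntegral.of_isIso (pullbackSpecIso ↥(GaloisRep.ratLocalizedAt ℓ) A K).inv

/-- **Scheme glue for S28.**  The base change of the Igusa model to `K` is integral as soon as
the three chart algebras stay domains after `⊗ K`. -/
theorem isIntegral_pullback_igusaTo
    (hFin : IsDomain (chartAlgFin N ℓ ⊗[↥(GaloisRep.ratLocalizedAt ℓ)] K))
    (hInf : IsDomain (chartAlgInf N ℓ ⊗[↥(GaloisRep.ratLocalizedAt ℓ)] K))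
    (hMid : IsDomain (chartAlgMid N ℓ ⊗[↥(GaloisRep.ratLocalizedAt ℓ)] K)) :
    IsIntegral ↑(pullback (igusaTo N ℓ)
      (Spec.map (CommRingCat.ofHom (algebraMap ↥(GaloisRep.ratLocalizedAt ℓ) K)))) := by
  set g := Spec.map (CommRingCat.ofHom (algebraMap ↥(GaloisRep.ratLocalizedAt ℓ) K)) with hg
  let 𝒱 := Scheme.Pullback.openCoverOfLeft (chartCover N ℓ) (igusaTo N ℓ) g
  have hint : ∀ i, IsIntegral (𝒱.X i) := by
    intro i
    rcases i with (_ | _ | _)
    · exact isIntegral_piece K hMid _ (chartCover_none_igusaTo N ℓ)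
    · exact isIntegral_piece K hFin _ (chartCover_left_igusaTo N ℓ)
    · exact isIntegral_piece K hInf _ (chartCover_right_igusaTo N ℓ)
  refine isIntegral_of_openCover 𝒱 none ?_
  intro j
  obtain ⟨x⟩ : Nonempty (𝒱.X none) := (hint none).nonempty
  refine ⟨(𝒱.f none).base x, ⟨x, rfl⟩, ?_⟩
  rcases j with (_ | _ | _)
  · exact ⟨x, rfl⟩
  · exact range_openCoverOfLeft_subset (chartCover N ℓ) (igusaTo N ℓ) g none WalkingSpan.left
      (fFin N ℓ) (chartCover_f_none N ℓ).symm ⟨x, rfl⟩
  · exact range_openCoverOfLeft_subset (chartCover N ℓ) (igusaTo N ℓ) g none WalkingSpan.right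
      (fInf N ℓ) (chartCover_f_none' N ℓ).symm ⟨x, rfl⟩

omit [Fact ℓ.Prime] in
variable {ℓ} in
/-- A chart of the base change is nonempty as soon as the tensor product is nontrivial. -/
theorem nonempty_piece {A : Type} [CommRing A] [Algebra ↥(GaloisRep.ratLocalizedAt ℓ) A]
    (hA : Nontrivial (A ⊗[↥(GaloisRep.ratLocalizedAt ℓ)] K))
    (φ : Spec (CommRingCat.of A) ⟶ Spec (CommRingCat.of ↥(GaloisRep.ratLocalizedAt ℓ)))
    (hφ : φ = Spec.map (CommRingCat.ofHom (algebraMap ↥(GaloisRep.ratLocalizedAt ℓ) A))) :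
    Nonempty ↥(pullback φ
      (Spec.map (CommRingCat.ofHom (algebraMap ↥(GaloisRep.ratLocalizedAt ℓ) K)))) := by
  subst hφ
  have : Nontrivial (CommRingCat.of (A ⊗[↥(GaloisRep.ratLocalizedAt ℓ)] K)) := hA
  obtain ⟨x⟩ : Nonempty ↥(Spec (CommRingCat.of (A ⊗[↥(GaloisRep.ratLocalizedAt ℓ)] K))) :=
    inferInstance
  exact ⟨(pullbackSpecIso ↥(GaloisRep.ratLocalizedAt ℓ) A K).inv.base x⟩

/-- **Scheme glue for S28, weak form.**  For the overlap chart, `Nontrivial` suffices: it is an
open subscheme of the `Fin` chart of the base change. -/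
theorem isIntegral_pullback_igusaTo_of_nontrivial
    (hFin : IsDomain (chartAlgFin N ℓ ⊗[↥(GaloisRep.ratLocalizedAt ℓ)] K))
    (hInf : IsDomain (chartAlgInf N ℓ ⊗[↥(GaloisRep.ratLocalizedAt ℓ)] K))
    (hMid : Nontrivial (chartAlgMid N ℓ ⊗[↥(GaloisRep.ratLocalizedAt ℓ)] K)) :
    IsIntegral ↑(pullback (igusaTo N ℓ)
      (Spec.map (CommRingCat.ofHom (algebraMap ↥(GaloisRep.ratLocalizedAt ℓ) K)))) := by
  set g := Spec.map (CommRingCat.ofHom (algebraMap ↥(GaloisRep.ratLocalizedAt ℓ) K)) with hg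
  let 𝒱 := Scheme.Pullback.openCoverOfLeft (chartCover N ℓ) (igusaTo N ℓ) g
  have hL : IsIntegral (𝒱.X WalkingSpan.left) :=
    isIntegral_piece K hFin _ (chartCover_left_igusaTo N ℓ)
  have hR : IsIntegral (𝒱.X WalkingSpan.right) :=
    isIntegral_piece K hInf _ (chartCover_right_igusaTo N ℓ)
  have hne : Nonempty (𝒱.X none) := nonempty_piece K hMid _ (chartCover_none_igusaTo N ℓ)
  have hM : IsIntegral (𝒱.X none) :=
    @isIntegral_of_factor _ _ _ (chartCover N ℓ) (igusaTo N ℓ) g none WalkingSpan.left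
      (fFin N ℓ) (chartCover_f_none N ℓ).symm (isOpenImmersion_fFin N ℓ) hL hne
  have hint : ∀ i, IsIntegral (𝒱.X i) := by
    intro i
    rcases i with (_ | _ | _)
    · exact hM
    · exact hL
    · exact hR
  refine isIntegral_of_openCover 𝒱 none ?_
  intro j
  obtain ⟨x⟩ := hne
  refine ⟨(𝒱.f none).base x, ⟨x, rfl⟩, ?_⟩
  rcases j with (_ | _ | _)
  · exact ⟨x, rfl⟩
  · exact range_openCoverOfLeft_subset (chartCover N ℓ) (igusaTo N ℓ) g none WalkingSpan.left
      (fFin N ℓ) (chartCover_f_none N ℓ).symm ⟨x, rfl⟩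
  · exact range_openCoverOfLeft_subset (chartCover N ℓ) (igusaTo N ℓ) g none WalkingSpan.right
      (fInf N ℓ) (chartCover_f_none' N ℓ).symm ⟨x, rfl⟩

omit [NeZero N] [Fact ℓ.Prime] in
variable {ℓ} in
/-- Swap the factors of a tensor product in an `IsDomain` hypothesis. -/
theorem isDomain_comm {A : Type} [CommRing A] [Algebra ↥(GaloisRep.ratLocalizedAt ℓ) A]
    (h : IsDomain (K ⊗[↥(GaloisRep.ratLocalizedAt ℓ)] A)) :
    IsDomain (A ⊗[↥(GaloisRep.ratLocalizedAt ℓ)] K) :=
  (Algebra.TensorProduct.comm ↥(GaloisRep.ratLocalizedAt ℓ) A K).toMulEquiv.isDomain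

/-- The same with the field on the left of the tensor products. -/
theorem isIntegral_pullback_igusaTo'
    (hFin : IsDomain (K ⊗[↥(GaloisRep.ratLocalizedAt ℓ)] chartAlgFin N ℓ))
    (hInf : IsDomain (K ⊗[↥(GaloisRep.ratLocalizedAt ℓ)] chartAlgInf N ℓ))
    (hMid : IsDomain (K ⊗[↥(GaloisRep.ratLocalizedAt ℓ)] chartAlgMid N ℓ)) :
    IsIntegral ↑(pullback (igusaTo N ℓ)
      (Spec.map (CommRingCat.ofHom (algebraMap ↥(GaloisRep.ratLocalizedAt ℓ) K)))) :=
  isIntegral_pullback_igusaTo N ℓ K (isDomain_comm K hFin) (isDomain_comm K hInf)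
    (isDomain_comm K hMid)

end Main

end Fermat.Agent.S28.SchemeGlueB
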