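import Fermat.Agent.S28.Interfaces
import Fermat.Agent.S28.SchemeGlueB

/-!
# S28, block E, backup seat: the interface statement `GlueStatement`

`glueStatementB : Fermat.Agent.S28.Interfaces.GlueStatement` (Interfaces v3: the overlap chart is
only assumed `Nontrivial` after base change) from `SchemeGlueB`, independent of
`SchemeGlue`/`GlueInst`/`GlueProof`.
-/

set_option autoImplicit false

open AlgebraicGeometry CategoryTheory CategoryTheory.Limits ModularCurve ModularCurve.IgusaScheme
open scoped TensorProduct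

namespace Fermat.Agent.S28.GlueProofB

/-- The strong form of (E): for the overlap chart `Nontrivial` suffices. -/
theorem glueStatement_of_nontrivial
    (N : ℕ) [NeZero N] (ℓ : ℕ) [Fact ℓ.Prime]
    (K : Type) [Field K] [Algebra ↥(GaloisRep.ratLocalizedAt ℓ) K]
    (hFin : IsDomain (↥(chartAlgFin N ℓ) ⊗[↥(GaloisRep.ratLocalizedAt ℓ)] K))
    (hInf : IsDomain (↥(chartAlgInf N ℓ) ⊗[↥(GaloisRep.ratLocalizedAt ℓ)] K))
    (hMid : Nontrivial (↥(chartAlgMid N ℓ) ⊗[↥(GaloisRep.ratLocalizedAt ℓ)] K)) :
    IsIntegral (pullback (igusaTo N ℓ)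
      (Spec.map (CommRingCat.ofHom (algebraMap ↥(GaloisRep.ratLocalizedAt ℓ) K)))) :=
  Fermat.Agent.S28.SchemeGlueB.isIntegral_pullback_igusaTo_of_nontrivial N ℓ K hFin hInf hMid

/-- **(E)** the scheme glue, closed (backup of `GlueProof.glueStatement`). -/
theorem glueStatementB : Fermat.Agent.S28.Interfaces.GlueStatement :=
  fun N _ ℓ _ K _ _ hFin hInf hMid =>
    Fermat.Agent.S28.SchemeGlueB.isIntegral_pullback_igusaTo_of_nontrivial N ℓ K hFin hInf hMid

end Fermat.Agent.S28.GlueProofB
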