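/-
S28 / C.kummer (helper47): abstract Kummer-type degree bound and orbit dichotomy.
Pure field theory: `L`, `E` fields, `ι : L →+* E`, `τ : E →+* E` fixing `ι L` pointwise.
-/
import Mathlib

set_option autoImplicit false

open Polynomial IntermediateField

namespace Fermat.Agent.S28.Kummer

variable {L E : Type*} [Field L] [Field E]

/-- `τ` permutes the roots of a polynomial with coefficients in `ι L`. -/
theorem eval_map_apply_of_fixed (ι : L →+* E) (τ : E →+* E) (hτ : ∀ x : L, τ (ι x) = ι x)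
    (Q : Polynomial L) (g : E) :
    (Q.map ι).eval (τ g) = τ ((Q.map ι).eval g) := by
  have hcomp : τ.comp ι = ι := RingHom.ext fun x => hτ x
  rw [eval_map, eval_map, hom_eval₂, hcomp]

theorem eval_map_iterate_of_fixed (ι : L →+* E) (τ : E →+* E) (hτ : ∀ x : L, τ (ι x) = ι x)
    (Q : Polynomial L) (g : E) (hg : (Q.map ι).eval g = 0) (b : ℕ) :
    (Q.map ι).eval ((τ^[b]) g) = 0 := by
  induction b with
  | zero => simpa using hg
  | succ b ih =>
    rw [Function.iterate_succ_apply', eval_map_apply_of_fixed ι τ hτ, ih, map_zero]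

/-- **Kummer-type bound**: if `g` is a root of `Q` and the first `n` iterates of `τ` on `g` are
pairwise distinct, then `n ≤ deg Q`. -/
theorem le_natDegree_of_orbit (ι : L →+* E) (τ : E →+* E) (hτ : ∀ x : L, τ (ι x) = ι x)
    (Q : Polynomial L) (hQ : Q ≠ 0) (g : E) (hg : (Q.map ι).eval g = 0) (n : ℕ)
    (hinj : Set.InjOn (fun b : ℕ => (τ^[b]) g) (Finset.range n)) : n ≤ Q.natDegree := by
  classical
  have hQ' : Q.map ι ≠ 0 := Polynomial.map_ne_zero hQ
  have hcard : ((Finset.range n).image fun b : ℕ => (τ^[b]) g).card = n := by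
    rw [Finset.card_image_of_injOn hinj, Finset.card_range]
  have hsub : ((Finset.range n).image fun b : ℕ => (τ^[b]) g).val ⊆ (Q.map ι).roots := by
    intro x hx
    rw [Finset.mem_val, Finset.mem_image] at hx
    obtain ⟨b, -, rfl⟩ := hx
    rw [mem_roots hQ']
    exact eval_map_iterate_of_fixed ι τ hτ Q g hg b
  have := card_le_degree_of_subset_roots hsub
  rwa [hcard, natDegree_map] at this

omit [Field E] in
/-- The orbit of `τ^[b] θ` is again injective on `range p` when `τ^[p] θ = θ`. -/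
theorem injOn_iterate_shift (τ : E → E) (θ : E) (p : ℕ) (hclosed : (τ^[p]) θ = θ)
    (hinj : Set.InjOn (fun b : ℕ => (τ^[b]) θ) (Finset.range p)) (b : ℕ) :
    Set.InjOn (fun c : ℕ => (τ^[c]) ((τ^[b]) θ)) (Finset.range p) := by
  rcases Nat.eq_zero_or_pos p with rfl | hp
  · simp
  have hper : Function.IsPeriodicPt τ p θ := hclosed
  intro c hc c' hc' h
  simp only [Finset.coe_range, Set.mem_Iio] at hc hc'
  simp only [← Function.iterate_add_apply] at h
  rw [← hper.iterate_mod_apply (c + b), ← hper.iterate_mod_apply (c' + b)] at h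
  have h2 := hinj (by simpa using Nat.mod_lt _ hp) (by simpa using Nat.mod_lt _ hp) h
  -- `(c + b) % p = (c' + b) % p` with `c, c' < p` forces `c = c'`
  have h3 : c ≡ c' [MOD p] := Nat.ModEq.add_right_cancel' b h2
  rwa [Nat.ModEq, Nat.mod_eq_of_lt hc, Nat.mod_eq_of_lt hc'] at h3

/-- Key step: in a factorisation `P = A * B` over `L` with `y` a root of `A`, `B` is a unit. -/
theorem isUnit_of_factor (ι : L →+* E) (τ : E →+* E) (hτ : ∀ x : L, τ (ι x) = ι x)
    (P : Polynomial L) (y θ : E) (p : ℕ)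
    (hfac : P.map ι = (X - C y) * ∏ b ∈ Finset.range p, (X - C ((τ^[b]) θ)))
    (hclosed : (τ^[p]) θ = θ)
    (hinj : Set.InjOn (fun b : ℕ => (τ^[b]) θ) (Finset.range p))
    (hy : ∀ x : L, ι x ≠ y) (A B : Polynomial L) (hAB : P = A * B)
    (hAy : (A.map ι).eval y = 0) : IsUnit B := by
  have hmonic : (P.map ι).Monic := by
    rw [hfac]
    exact (monic_X_sub_C y).mul (monic_prod_of_monic _ _ fun b _ => monic_X_sub_C _)
  have hdegE : (P.map ι).natDegree = p + 1 := by
    rw [hfac, ((monic_X_sub_C y).natDegree_mul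
      (monic_prod_of_monic _ _ fun b _ => monic_X_sub_C _)),
      natDegree_prod_of_monic _ _ fun b _ => monic_X_sub_C _]
    simp [add_comm]
  have hP0 : P ≠ 0 := by
    intro h0
    rw [h0, Polynomial.map_zero] at hmonic
    exact hmonic.ne_zero rfl
  have hA0 : A ≠ 0 := fun h0 => hP0 (by rw [hAB, h0, zero_mul])
  have hB0 : B ≠ 0 := fun h0 => hP0 (by rw [hAB, h0, mul_zero])
  have hdeg : A.natDegree + B.natDegree = p + 1 := by
    rw [← natDegree_mul hA0 hB0, ← hAB, ← hdegE, natDegree_map]
  have hsplitP : (P.map ι).Splits := by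
    rw [hfac]
    exact (Splits.X_sub_C y).mul (Splits.prod fun b _ => Splits.X_sub_C _)
  have hBdvd : B.map ι ∣ P.map ι := by
    rw [hAB, Polynomial.map_mul]
    exact dvd_mul_left _ _
  have hsplitB : (B.map ι).Splits := hsplitP.of_dvd hmonic.ne_zero hBdvd
  -- it suffices to show that `B.map ι` has no root
  by_cases hroot : ∃ ρ : E, (B.map ι).eval ρ = 0
  · exfalso
    obtain ⟨ρ, hρ⟩ := hroot
    -- `ρ` is a root of `P.map ι`
    have hρP : (P.map ι).eval ρ = 0 := by
      rw [hAB, Polynomial.map_mul, eval_mul, hρ, mul_zero]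
    rw [hfac, eval_mul, eval_prod, mul_eq_zero, Finset.prod_eq_zero_iff] at hρP
    by_cases horb : ∃ b ∈ Finset.range p, ρ = (τ^[b]) θ
    · -- an orbit element is a root of `B`: then `deg B ≥ p`, `deg A ≤ 1`, `y ∈ ι L`
      obtain ⟨b, -, rfl⟩ := horb
      have hpB : p ≤ B.natDegree :=
        le_natDegree_of_orbit ι τ hτ B hB0 _ hρ p (injOn_iterate_shift τ θ p hclosed hinj b)
      have hA1 : A.natDegree ≤ 1 := by omega
      have hAeq : A = C (A.coeff 1) * X + C (A.coeff 0) := eq_X_add_C_of_natDegree_le_one hA1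
      have hc1 : A.coeff 1 ≠ 0 := by
        intro h1
        rw [h1, C_0, zero_mul, zero_add] at hAeq
        rw [hAeq, Polynomial.map_C, eval_C] at hAy
        have : A.coeff 0 = 0 := by
          rwa [map_eq_zero] at hAy
        rw [this, C_0] at hAeq
        exact hA0 hAeq
      rw [hAeq] at hAy
      simp only [Polynomial.map_add, Polynomial.map_mul, Polynomial.map_C, Polynomial.map_X,
        eval_add, eval_mul, eval_C, eval_X] at hAy
      apply hy (-(A.coeff 0) / A.coeff 1)
      have hι1 : ι (A.coeff 1) ≠ 0 := (map_ne_zero ι).mpr hc1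
      rw [map_div₀, map_neg]
      field_simp
      linear_combination -hAy
    · -- otherwise `ρ = y`, a double root of `P.map ι`, so `y` lies in the orbit: contradiction
      have hρy : ρ = y := by
        rcases hρP with h | ⟨b, hb, hb0⟩
        · simpa [sub_eq_zero] using h
        · exfalso
          apply horb
          refine ⟨b, hb, ?_⟩
          simpa [sub_eq_zero] using hb0
      subst hρy
      have h1 : (X - C ρ) ∣ A.map ι := dvd_iff_isRoot.mpr hAy
      have h2 : (X - C ρ) ∣ B.map ι := dvd_iff_isRoot.mpr hρ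
      have h3 : (X - C ρ) * (X - C ρ) ∣ P.map ι := by
        rw [hAB, Polynomial.map_mul]
        exact mul_dvd_mul h1 h2
      rw [hfac] at h3
      have h4 : (X - C ρ) ∣ ∏ b ∈ Finset.range p, (X - C ((τ^[b]) θ)) :=
        (mul_dvd_mul_iff_left (X_sub_C_ne_zero ρ)).mp h3
      have h5 := dvd_iff_isRoot.mp h4
      rw [IsRoot.def, eval_prod, Finset.prod_eq_zero_iff] at h5
      obtain ⟨b, hb, hb0⟩ := h5
      apply horb
      refine ⟨b, hb, ?_⟩
      simpa [sub_eq_zero] using hb0
  · -- no root and splits: degree zero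
    have hroots : (B.map ι).roots = 0 := by
      rw [Multiset.eq_zero_iff_forall_notMem]
      intro ρ hρ
      exact hroot ⟨ρ, (mem_roots (Polynomial.map_ne_zero hB0)).mp hρ⟩
    have hdeg0 : B.natDegree = 0 := by
      have := hsplitB.natDegree_eq_card_roots
      rwa [hroots, Multiset.card_zero, natDegree_map] at this
    rw [eq_C_of_natDegree_eq_zero hdeg0] at hB0 ⊢
    exact isUnit_C.mpr (isUnit_iff_ne_zero.mpr fun h => hB0 (by rw [h, C_0]))

set_option linter.unusedVariables false in
/-- **Orbit dichotomy**: if `P` splits over `E` as `(X - y) ∏_{b < p} (X - τ^b θ)` with the orbit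
of `θ` of exact size `p`, closed under `τ`, and `y ∉ ι L`, then `P` is irreducible over `L`. -/
theorem irreducible_of_orbit (ι : L →+* E) (τ : E →+* E) (hτ : ∀ x : L, τ (ι x) = ι x)
    (P : Polynomial L) (hP : P.Monic) (y θ : E) (p : ℕ)
    (hfac : P.map ι = (X - C y) * ∏ b ∈ Finset.range p, (X - C ((τ^[b]) θ)))
    (hclosed : (τ^[p]) θ = θ)
    (hinj : Set.InjOn (fun b : ℕ => (τ^[b]) θ) (Finset.range p))
    (hy : ∀ x : L, ι x ≠ y) : Irreducible P := by
  have hyroot : (P.map ι).eval y = 0 := by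
    rw [hfac, eval_mul, eval_sub, eval_X, eval_C, sub_self, zero_mul]
  refine ⟨?_, ?_⟩
  · -- `P` is not a unit: it has the root `y` after mapping
    intro hu
    have hu' : IsUnit (P.map ι) := hu.map (mapRingHom ι)
    obtain ⟨r, hr, hrP⟩ := Polynomial.isUnit_iff.mp hu'
    rw [← hrP, eval_C] at hyroot
    exact hr.ne_zero hyroot
  · intro A B hAB
    have h0 : (A.map ι).eval y * (B.map ι).eval y = 0 := by
      rw [← eval_mul, ← Polynomial.map_mul, ← hAB, hyroot]
    rcases mul_eq_zero.mp h0 with hA | hB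
    · exact Or.inr (isUnit_of_factor ι τ hτ P y θ p hfac hclosed hinj hy A B hAB hA)
    · exact Or.inl (isUnit_of_factor ι τ hτ P y θ p hfac hclosed hinj hy B A
        (by rw [hAB, mul_comm]) hB)

/-- `le_natDegree_of_orbit` for a ring automorphism `τ`. -/
theorem le_natDegree_of_orbit_equiv (ι : L →+* E) (τ : E ≃+* E) (hτ : ∀ x : L, τ (ι x) = ι x)
    (Q : Polynomial L) (hQ : Q ≠ 0) (g : E) (hg : (Q.map ι).eval g = 0) (n : ℕ)
    (hinj : Set.InjOn (fun b : ℕ => (τ^[b]) g) (Finset.range n)) : n ≤ Q.natDegree :=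
  le_natDegree_of_orbit ι (τ : E →+* E) hτ Q hQ g hg n hinj

/-- `irreducible_of_orbit` for a ring automorphism `τ`. -/
theorem irreducible_of_orbit_equiv (ι : L →+* E) (τ : E ≃+* E) (hτ : ∀ x : L, τ (ι x) = ι x)
    (P : Polynomial L) (hP : P.Monic) (y θ : E) (p : ℕ)
    (hfac : P.map ι = (X - C y) * ∏ b ∈ Finset.range p, (X - C ((τ^[b]) θ)))
    (hclosed : (τ^[p]) θ = θ)
    (hinj : Set.InjOn (fun b : ℕ => (τ^[b]) θ) (Finset.range p))
    (hy : ∀ x : L, ι x ≠ y) : Irreducible P :=
  irreducible_of_orbit ι (τ : E →+* E) hτ P hP y θ p hfac hclosed hinj hy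

/-- Degree of `P` in the situation of `irreducible_of_orbit`. -/
theorem natDegree_of_orbit (ι : L →+* E) (P : Polynomial L) (y : E) (f : ℕ → E) (p : ℕ)
    (hfac : P.map ι = (X - C y) * ∏ b ∈ Finset.range p, (X - C (f b))) :
    P.natDegree = p + 1 := by
  rw [← natDegree_map ι, hfac, ((monic_X_sub_C y).natDegree_mul
      (monic_prod_of_monic _ _ fun b _ => monic_X_sub_C _)),
      natDegree_prod_of_monic _ _ fun b _ => monic_X_sub_C _]
  simp [add_comm]

/-- **Corollary** (finrank form): every root `g : E` of `P` generates an extension of degree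
`p + 1` of `L`. -/
theorem finrank_adjoin_of_orbit [Algebra L E] (τ : E →+* E)
    (hτ : ∀ x : L, τ (algebraMap L E x) = algebraMap L E x)
    (P : Polynomial L) (hP : P.Monic) (y θ : E) (p : ℕ)
    (hfac : P.map (algebraMap L E) =
      (X - C y) * ∏ b ∈ Finset.range p, (X - C ((τ^[b]) θ)))
    (hclosed : (τ^[p]) θ = θ)
    (hinj : Set.InjOn (fun b : ℕ => (τ^[b]) θ) (Finset.range p))
    (hy : ∀ x : L, algebraMap L E x ≠ y) (g : E) (hg : aeval g P = 0) :
    Module.finrank L L⟮g⟯ = p + 1 := by
  have hirr := irreducible_of_orbit (algebraMap L E) τ hτ P hP y θ p hfac hclosed hinj hy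
  have hmin : P = minpoly L g := minpoly.eq_of_irreducible_of_monic hirr hg hP
  have hint : IsIntegral L g := ⟨P, hP, hg⟩
  rw [IntermediateField.adjoin.finrank hint, ← hmin,
    natDegree_of_orbit (algebraMap L E) P y (fun b => (τ^[b]) θ) p hfac]

end Fermat.Agent.S28.Kummer
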