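import Mathlib
import Fermat.Agent.S28.DegreeQ

/-!
# S28, block D bridge: linear independence lifts from the reduction mod `ℓ`

`F` a field of characteristic `0`, `O ⊆ F` a subring, `red : O →+* L̄` a ring homomorphism into
a `ZMod ℓ`-algebra (think: `ℓ`-integral `q`-expansions and their reduction).

* `linearIndependent_int_of_red`, `linearIndependent_rat_of_red`: a family in `O` whose reductions
  are `𝔽_ℓ`-linearly independent is `ℤ`- (hence `ℚ`-) linearly independent.
* `linearIndependent_of_red`: if `j ∈ O` has transcendental reduction `j̄` and the reductions of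
  the `xᵢ ∈ O` are linearly independent over `𝔽_ℓ(j̄)`, then the `xᵢ` are linearly independent
  over `ℚ(j)`.
-/

set_option autoImplicit false

open IntermediateField Polynomial

namespace Fermat.Agent.S28.LiftIndep

open scoped IntermediateField.algebraAdjoinAdjoin

variable (ℓ : ℕ) [Fact ℓ.Prime]
variable {F Lbar : Type*} [Field F] [CharZero F] [Field Lbar] [Algebra (ZMod ℓ) Lbar]

/-- A family in `O` with `𝔽_ℓ`-linearly independent reductions is `ℤ`-linearly independent. -/
theorem linearIndependent_int_of_red (O : Subring F) (red : ↥O →+* Lbar) {P : Type*}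
    (y : P → F) (hy : ∀ p, y p ∈ O)
    (h : LinearIndependent (ZMod ℓ) (fun p => red ⟨y p, hy p⟩)) :
    LinearIndependent ℤ y := by
  classical
  have hℓ : (ℓ : ℤ) ≠ 0 := by exact_mod_cast (Fact.out : ℓ.Prime).ne_zero
  have hℓF : (ℓ : F) ≠ 0 := by exact_mod_cast (Fact.out : ℓ.Prime).ne_zero
  rw [linearIndependent_iff']
  intro s g hg
  -- every relation has all its coefficients divisible by `ℓ`
  have hdvd : ∀ g : P → ℤ, ∑ p ∈ s, g p • y p = 0 → ∀ p ∈ s, (ℓ : ℤ) ∣ g p := by
    intro g hg p hp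
    have h1 : ∑ p ∈ s, g p • (⟨y p, hy p⟩ : ↥O) = 0 := by
      apply Subtype.ext
      rw [ZeroMemClass.coe_zero, ← hg, AddSubmonoidClass.coe_finsetSum]
      refine Finset.sum_congr rfl fun p _ => ?_
      rw [zsmul_eq_mul, zsmul_eq_mul, MulMemClass.coe_mul, SubringClass.coe_intCast]
    have h2 : ∑ p ∈ s, ((g p : ℤ) : ZMod ℓ) • red ⟨y p, hy p⟩ = 0 := by
      have := congrArg red h1
      rw [map_sum, map_zero] at this
      rw [← this]
      refine Finset.sum_congr rfl fun p _ => ?_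
      rw [map_zsmul, Int.cast_smul_eq_zsmul]
    have h3 := (linearIndependent_iff'.mp h) s (fun p => ((g p : ℤ) : ZMod ℓ)) h2 p hp
    exact (ZMod.intCast_zmod_eq_zero_iff_dvd (g p) ℓ).mp h3
  -- hence divisible by every power of `ℓ`
  have hpow : ∀ n : ℕ, ∀ g : P → ℤ, ∑ p ∈ s, g p • y p = 0 → ∀ p ∈ s, (ℓ : ℤ) ^ n ∣ g p := by
    intro n
    induction n with
    | zero => intro g _ p _; simp
    | succ n ih =>
      intro g hg p hp
      have hd := hdvd g hg
      have hg' : ∑ p ∈ s, (g p / (ℓ : ℤ)) • y p = 0 := by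
        have : (ℓ : F) * ∑ p ∈ s, (g p / (ℓ : ℤ)) • y p = 0 := by
          rw [← hg, Finset.mul_sum]
          refine Finset.sum_congr rfl fun p hp => ?_
          conv_rhs => rw [← Int.mul_ediv_cancel' (hd p hp)]
          rw [zsmul_eq_mul, zsmul_eq_mul]
          push_cast
          ring
        exact (mul_eq_zero.mp this).resolve_left hℓF
      obtain ⟨c, hc⟩ := ih _ hg' p hp
      refine ⟨c, ?_⟩
      rw [← Int.mul_ediv_cancel' (hd p hp), hc]
      ring
  intro p hp
  by_contra hne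
  -- an integer divisible by all powers of `ℓ` is zero
  have h2 : (ℓ : ℤ) ^ (g p).natAbs ∣ g p := hpow _ g hg p hp
  have h3 : ℓ ^ (g p).natAbs ∣ (g p).natAbs := by
    have := Int.natAbs_dvd_natAbs.mpr h2
    rwa [Int.natAbs_pow, Int.natAbs_natCast] at this
  have h4 : 0 < (g p).natAbs := Int.natAbs_pos.mpr hne
  have h5 := Nat.le_of_dvd h4 h3
  have h6 : (g p).natAbs < ℓ ^ (g p).natAbs :=
    Nat.lt_pow_self (Fact.out : ℓ.Prime).one_lt
  omega

/-- A family in `O` with `𝔽_ℓ`-linearly independent reductions is `ℚ`-linearly independent. -/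
theorem linearIndependent_rat_of_red [Algebra ℚ F] (O : Subring F) (red : ↥O →+* Lbar)
    {P : Type*} (y : P → F) (hy : ∀ p, y p ∈ O)
    (h : LinearIndependent (ZMod ℓ) (fun p => red ⟨y p, hy p⟩)) :
    LinearIndependent ℚ y :=
  (LinearIndependent.iff_fractionRing (R := ℤ) (K := ℚ)).mp
    (linearIndependent_int_of_red ℓ O red y hy h)

/-- **Independence lifts from the reduction.**  If `j ∈ O` reduces to an element `j̄`
transcendental over `𝔽_ℓ` and the reductions of the `xᵢ ∈ O` are linearly independent over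
`𝔽_ℓ(j̄)`, then the `xᵢ` are linearly independent over `ℚ(j)`. -/
theorem linearIndependent_of_red [Algebra ℚ F] (O : Subring F) (red : ↥O →+* Lbar)
    (j : F) (hj : j ∈ O) (htr : Transcendental (ZMod ℓ) (red ⟨j, hj⟩))
    {ι : Type*} (x : ι → F) (hx : ∀ i, x i ∈ O)
    (hind : LinearIndependent ↥((ZMod ℓ)⟮red ⟨j, hj⟩⟯) (fun i => red ⟨x i, hx i⟩)) :
    LinearIndependent ↥(ℚ⟮j⟯) x := by
  -- down to `𝔽_ℓ[j̄]`, then to the products `j̄ᵃ x̄ᵢ` over `𝔽_ℓ`
  have h1 : LinearIndependent (Algebra.adjoin (ZMod ℓ) {red ⟨j, hj⟩})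
      (fun i => red ⟨x i, hx i⟩) :=
    (LinearIndependent.iff_fractionRing (R := Algebra.adjoin (ZMod ℓ) {red ⟨j, hj⟩})
      (K := (ZMod ℓ)⟮red ⟨j, hj⟩⟯)).mpr hind
  have h2 := Fermat.Agent.S28.DegreeQ.linearIndependent_pow_mul_of_adjoin htr _ h1
  -- lift to `ℚ`
  have hy : ∀ p : ℕ × ι, j ^ p.1 * x p.2 ∈ O := fun p =>
    O.mul_mem (O.pow_mem hj p.1) (hx p.2)
  have h3 : LinearIndependent ℚ (fun p : ℕ × ι => j ^ p.1 * x p.2) := by
    apply linearIndependent_rat_of_red ℓ O red _ hy
    convert h2 using 2 with p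
    rw [← map_pow, ← map_mul]
    rfl
  -- up to `ℚ[j]` and then `ℚ(j)`
  have h4 := Fermat.Agent.S28.DegreeQ.linearIndependent_adjoin_of_pow_mul j x h3
  exact (LinearIndependent.iff_fractionRing (R := Algebra.adjoin ℚ {j}) (K := ℚ⟮j⟯)).mp h4

end Fermat.Agent.S28.LiftIndep
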