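import Mathlib
import Fermat.Prelude.Def_ModularCurve_X0ModL
import Fermat.Agent.S24.JQExpansion
import Fermat.Agent.S28.ScaleVar

/-!
# S28, block A, step (A1.c): from the pointwise modular equation to the formal one

* `IsConv f` : the Laurent series `f : LaurentSeries ℂ` is absolutely summable at every point of
  the punctured unit disc; `ev f v` its value at `v`.
* `convSubring`, `evHom v` : the subring of convergent series and the evaluation ring hom.
* `eq_zero_of_ev_eq_zero` : the identity principle.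
* `isConv_jq`, `ev_jq_qParam` : `jqModC ℂ` converges, with value `E₄ ^ 3 / Δ` at `𝕢 1 z`.
* `modEq_of_pointwise` : the transfer theorem.
-/

set_option autoImplicit false

open HahnSeries ModularCurve Polynomial UpperHalfPlane ModularForm
open Fermat.Agent.S28.ScaleVar

namespace Fermat.Agent.S28.ModPolyTransfer

/-! ### Convergent Laurent series -/

/-- The `n`-th term of the Laurent series `f` at the point `v`. -/
noncomputable def term (f : LaurentSeries ℂ) (v : ℂ) (n : ℤ) : ℂ := f.coeff n * v ^ n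

/-- `f` is absolutely summable at every point of the punctured unit disc. -/
def IsConv (f : LaurentSeries ℂ) : Prop :=
  ∀ v : ℂ, v ≠ 0 → ‖v‖ < 1 → Summable (fun n : ℤ => ‖term f v n‖)

/-- The value of the Laurent series `f` at `v`. -/
noncomputable def ev (f : LaurentSeries ℂ) (v : ℂ) : ℂ := ∑' n : ℤ, term f v n

theorem term_zero (v : ℂ) (n : ℤ) : term 0 v n = 0 := by simp [term]

theorem term_add (f g : LaurentSeries ℂ) (v : ℂ) (n : ℤ) :
    term (f + g) v n = term f v n + term g v n := by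
  simp [term, add_mul]

theorem term_neg (f : LaurentSeries ℂ) (v : ℂ) (n : ℤ) : term (-f) v n = -term f v n := by
  simp [term]

theorem term_single (k : ℤ) (c : ℂ) (v : ℂ) (n : ℤ) :
    term (single k c) v n = if n = k then c * v ^ k else 0 := by
  unfold term
  by_cases h : n = k
  · subst h; simp
  · simp [h, HahnSeries.coeff_single_of_ne h]

theorem isConv_zero : IsConv 0 := fun v _ _ => by
  simp only [term_zero, norm_zero]
  exact summable_zero

theorem hasSum_term_single (k : ℤ) (c : ℂ) (v : ℂ) :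
    HasSum (fun n : ℤ => term (single k c) v n) (c * v ^ k) := by
  have h := hasSum_single (f := fun n : ℤ => term (single k c) v n) k (fun n hn => by
    simp [term_single, hn])
  simpa [term_single] using h

theorem isConv_single (k : ℤ) (c : ℂ) : IsConv (single k c) := fun v _ _ => by
  refine summable_of_ne_finset_zero (s := {k}) fun n hn => ?_
  have : n ≠ k := by simpa using hn
  simp [term_single, this]

theorem ev_single (k : ℤ) (c : ℂ) (v : ℂ) : ev (single k c) v = c * v ^ k :=
  (hasSum_term_single k c v).tsum_eq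

theorem isConv_C (c : ℂ) : IsConv (HahnSeries.C c) := isConv_single 0 c

theorem ev_C (c : ℂ) (v : ℂ) : ev (HahnSeries.C c) v = c := by
  rw [HahnSeries.C_apply, ev_single]
  simp

theorem isConv_one : IsConv 1 := isConv_single 0 1

theorem ev_one (v : ℂ) : ev 1 v = 1 := by
  have : (1 : LaurentSeries ℂ) = single 0 1 := rfl
  rw [this, ev_single]
  simp

theorem IsConv.add {f g : LaurentSeries ℂ} (hf : IsConv f) (hg : IsConv g) : IsConv (f + g) :=
  fun v hv0 hv1 => by
    refine Summable.of_nonneg_of_le (fun _ => norm_nonneg _) (fun n => ?_)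
      ((hf v hv0 hv1).add (hg v hv0 hv1))
    rw [term_add]
    exact norm_add_le _ _

theorem IsConv.neg {f : LaurentSeries ℂ} (hf : IsConv f) : IsConv (-f) := fun v hv0 hv1 => by
  simpa only [term_neg, norm_neg] using hf v hv0 hv1

theorem IsConv.summable {f : LaurentSeries ℂ} (hf : IsConv f) {v : ℂ} (hv0 : v ≠ 0)
    (hv1 : ‖v‖ < 1) : Summable (fun n : ℤ => term f v n) :=
  (hf v hv0 hv1).of_norm

theorem IsConv.hasSum {f : LaurentSeries ℂ} (hf : IsConv f) {v : ℂ} (hv0 : v ≠ 0)
    (hv1 : ‖v‖ < 1) : HasSum (fun n : ℤ => term f v n) (ev f v) :=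
  (hf.summable hv0 hv1).hasSum

theorem ev_add {f g : LaurentSeries ℂ} (hf : IsConv f) (hg : IsConv g) {v : ℂ} (hv0 : v ≠ 0)
    (hv1 : ‖v‖ < 1) : ev (f + g) v = ev f v + ev g v := by
  have := (hf.hasSum hv0 hv1).add (hg.hasSum hv0 hv1)
  refine HasSum.tsum_eq ?_
  have he : term (f + g) v = fun n => term f v n + term g v n :=
    funext fun n => term_add f g v n
  rw [he]
  exact this

/-! ### The Cauchy product -/

/-- The coefficient of a product as a (finitely supported) sum over `ℤ`. -/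
theorem hasSum_coeff_mul (f g : LaurentSeries ℂ) (n : ℤ) :
    HasSum (fun i : ℤ => f.coeff i * g.coeff (n - i)) ((f * g).coeff n) := by
  classical
  rw [HahnSeries.coeff_mul]
  set A := Finset.antidiagonal f.isPWO_support g.isPWO_support n with hA
  have hinj : Set.InjOn Prod.fst (A : Set (ℤ × ℤ)) := by
    intro x hx y hy hxy
    have hx' := (Finset.mem_antidiagonal.mp hx).2.2
    have hy' := (Finset.mem_antidiagonal.mp hy).2.2
    ext
    · exact hxy
    · have h1 : x.2 = n - x.1 := by omega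
      have h2 : y.2 = n - y.1 := by omega
      rw [h1, h2]
      change x.1 = y.1 at hxy
      rw [hxy]
  have hsum : ∑ ij ∈ A, f.coeff ij.1 * g.coeff ij.2 =
      ∑ i ∈ A.image Prod.fst, f.coeff i * g.coeff (n - i) := by
    rw [Finset.sum_image hinj]
    refine Finset.sum_congr rfl fun x hx => ?_
    have hx' := (Finset.mem_antidiagonal.mp hx).2.2
    have h1 : x.2 = n - x.1 := by omega
    rw [h1]
  rw [hsum]
  refine hasSum_sum_of_ne_finset_zero fun i hi => ?_
  by_contra hne
  apply hi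
  have h1 : f.coeff i ≠ 0 := left_ne_zero_of_mul hne
  have h2 : g.coeff (n - i) ≠ 0 := right_ne_zero_of_mul hne
  refine Finset.mem_image.mpr ⟨(i, n - i), ?_, rfl⟩
  rw [hA, Finset.mem_antidiagonal]
  exact ⟨h1, h2, by simp⟩

/-- The reindexing `(n, i) ↦ (i, n - i)` of `ℤ × ℤ`. -/
def shear : ℤ × ℤ ≃ ℤ × ℤ where
  toFun x := (x.2, x.1 - x.2)
  invFun x := (x.1 + x.2, x.1)
  left_inv x := by ext <;> simp
  right_inv x := by ext <;> simp

theorem mul_aux {f g : LaurentSeries ℂ} {v : ℂ} (hv : v ≠ 0)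
    (hf : Summable (fun n : ℤ => ‖term f v n‖)) (hg : Summable (fun n : ℤ => ‖term g v n‖)) :
    Summable (fun n : ℤ => ‖term (f * g) v n‖) ∧
      (∑' n : ℤ, term (f * g) v n) = (∑' n : ℤ, term f v n) * (∑' n : ℤ, term g v n) := by
  set F : ℤ × ℤ → ℂ := fun x => term f v x.1 * term g v x.2 with hF
  have hFn : Summable (fun x => ‖F x‖) := Summable.mul_norm hf hg
  set G : ℤ × ℤ → ℂ := fun x => F (shear x) with hG
  have hGn : Summable (fun x => ‖G x‖) :=
    (shear.summable_iff (f := fun x => ‖F x‖)).mpr hFn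
  have hGs : Summable G := hGn.of_norm
  have hfib : ∀ n : ℤ, HasSum (fun i : ℤ => G (n, i)) (term (f * g) v n) := by
    intro n
    have h := (hasSum_coeff_mul f g n).mul_right (v ^ n)
    have he : (fun i : ℤ => G (n, i)) = fun i => f.coeff i * g.coeff (n - i) * v ^ n := by
      funext i
      have hvn : v ^ n = v ^ i * v ^ (n - i) := by
        rw [← zpow_add₀ hv]
        congr 1
        ring
      simp only [hG, hF, shear, Equiv.coe_fn_mk, term]
      rw [hvn]
      ring
    rw [he]
    exact h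
  have htot : HasSum G (∑' x, F x) := by
    have h1 : HasSum G (∑' x, G x) := hGs.hasSum
    have h2 : (∑' x, G x) = ∑' x, F x := shear.tsum_eq F
    rwa [h2] at h1
  have hprod : HasSum (fun n : ℤ => term (f * g) v n) (∑' x, F x) :=
    htot.prod_fiberwise hfib
  constructor
  · have hb : Summable (fun n : ℤ => ∑' i : ℤ, ‖G (n, i)‖) := hGn.prod
    refine Summable.of_nonneg_of_le (fun _ => norm_nonneg _) (fun n => ?_) hb
    rw [← (hfib n).tsum_eq]
    exact norm_tsum_le_tsum_norm (hGn.prod_factor n)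
  · rw [hprod.tsum_eq, tsum_mul_tsum_of_summable_norm hf hg]

theorem IsConv.mul {f g : LaurentSeries ℂ} (hf : IsConv f) (hg : IsConv g) : IsConv (f * g) :=
  fun v hv0 hv1 => (mul_aux hv0 (hf v hv0 hv1) (hg v hv0 hv1)).1

theorem ev_mul {f g : LaurentSeries ℂ} (hf : IsConv f) (hg : IsConv g) {v : ℂ} (hv0 : v ≠ 0)
    (hv1 : ‖v‖ < 1) : ev (f * g) v = ev f v * ev g v :=
  (mul_aux hv0 (hf v hv0 hv1) (hg v hv0 hv1)).2

/-! ### The subring of convergent series and the evaluation homomorphisms -/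

/-- The subring of convergent Laurent series. -/
def convSubring : Subring (LaurentSeries ℂ) where
  carrier := {f | IsConv f}
  mul_mem' := fun hf hg => hf.mul hg
  one_mem' := isConv_one
  add_mem' := fun hf hg => hf.add hg
  zero_mem' := isConv_zero
  neg_mem' := fun hf => hf.neg

theorem mem_convSubring {f : LaurentSeries ℂ} : f ∈ convSubring ↔ IsConv f := Iff.rfl

theorem ev_zero (v : ℂ) : ev 0 v = 0 := by
  simp [ev, term_zero]

/-- Evaluation at a point of the punctured unit disc. -/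
noncomputable def evHom (v : ℂ) (hv0 : v ≠ 0) (hv1 : ‖v‖ < 1) : convSubring →+* ℂ where
  toFun f := ev f.1 v
  map_one' := ev_one v
  map_mul' f g := ev_mul f.2 g.2 hv0 hv1
  map_zero' := ev_zero v
  map_add' f g := ev_add f.2 g.2 hv0 hv1

theorem evHom_apply (v : ℂ) (hv0 : v ≠ 0) (hv1 : ‖v‖ < 1) (f : convSubring) :
    evHom v hv0 hv1 f = ev f.1 v := rfl

/-! ### The identity principle -/

open Fermat.Agent.S24.JQExpansion in
theorem eq_zero_of_ev_eq_zero {f : LaurentSeries ℂ} (hf : IsConv f)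
    (h : ∀ v : ℂ, v ≠ 0 → ‖v‖ < 1 → ev f v = 0) : f = 0 := by
  by_contra hne
  set M : ℤ := 1 - f.order with hM
  have hlow : ∀ n : ℤ, n < -M → f.coeff n = 0 := fun n hn =>
    HahnSeries.coeff_eq_zero_of_lt_order (by omega)
  set c : ℕ → ℂ := fun m => f.coeff ((m : ℤ) - M) with hc
  have hc0 : c 0 = 0 := by
    simp only [hc]
    exact HahnSeries.coeff_eq_zero_of_lt_order (by omega)
  have hinj : Function.Injective (fun m : ℕ => (m : ℤ) - M) := fun a b hab => by
    simp only at hab
    omega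
  have hsum : ∀ q : ℂ, ‖q‖ < 1 → HasSum (fun m : ℕ => c m * q ^ m) ((fun _ : ℂ => (0 : ℂ)) q) := by
    intro q hq
    by_cases hq0 : q = 0
    · subst hq0
      have := hasSum_single (f := fun m : ℕ => c m * (0 : ℂ) ^ m) 0 (fun m hm => by
        simp [hm])
      simpa [hc0] using this
    · have h1 : HasSum (fun n : ℤ => term f q n) 0 := by
        have := hf.hasSum hq0 hq
        rwa [h q hq0 hq] at this
      have h2 : HasSum ((fun n : ℤ => term f q n) ∘ fun m : ℕ => (m : ℤ) - M) 0 := by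
        refine (hinj.hasSum_iff ?_).mpr h1
        intro n hn
        have : n < -M := by
          by_contra hlt
          apply hn
          refine ⟨(n + M).toNat, ?_⟩
          simp only
          omega
        simp [term, hlow n this]
      have h3 := h2.mul_right (q ^ M)
      rw [zero_mul] at h3
      have he : (fun m : ℕ => c m * q ^ m) = fun m : ℕ =>
          ((fun n : ℤ => term f q n) ∘ fun m : ℕ => (m : ℤ) - M) m * q ^ M := by
        funext m
        simp only [Function.comp, term, hc]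
        rw [mul_assoc, ← zpow_add₀ hq0, sub_add_cancel, zpow_natCast]
      rw [he]
      exact h3
  have htps := tps_eq_of_hasSum (G := fun _ => (0 : ℂ)) one_pos hsum
  have h0 : tps (fun _ : ℂ => (0 : ℂ)) = 0 := by
    have := tps_polynomial 0
    simpa using this
  have hcz : ∀ m, c m = 0 := fun m => by
    have := congrArg (PowerSeries.coeff m) htps
    rw [h0] at this
    simpa using this.symm
  apply hne
  ext n
  rw [HahnSeries.coeff_zero]
  by_cases hn : n < -M
  · exact hlow n hn
  · have := hcz (n + M).toNat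
    simp only [hc] at this
    rwa [show (((n + M).toNat : ℕ) : ℤ) - M = n by omega] at this

/-! ### `jqModC ℂ` converges to the `j`-function -/

theorem coeff_jqModC_sub_one (m : ℕ) :
    (jqModC ℂ).coeff ((m : ℤ) - 1) = ((jNum.coeff m : ℤ) : ℂ) := by
  rw [jqModC, sub_eq_add_neg, HahnSeries.coeff_single_mul_add, one_mul,
    HahnSeries.ofPowerSeries_apply_coeff, PowerSeries.coeff_map]
  simp

open Fermat.Agent.S24.JQExpansion in
theorem hasSum_term_jq {q : ℂ} (hq0 : q ≠ 0) (hq1 : ‖q‖ < 1) :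
    HasSum (fun n : ℤ => term (jqModC ℂ) q n) (jNumFun q / q) := by
  have hinj : Function.Injective (fun m : ℕ => (m : ℤ) - 1) := fun a b hab => by
    simp only at hab
    omega
  refine (hinj.hasSum_iff ?_).mp ?_
  · intro n hn
    have : n < -1 := by
      by_contra hlt
      apply hn
      refine ⟨(n + 1).toNat, ?_⟩
      simp only
      omega
    simp [term, coeff_jqModC_of_lt ℂ this]
  · have h := (hasSum_jNumFun hq1).div_const q
    have he : ((fun n : ℤ => term (jqModC ℂ) q n) ∘ fun m : ℕ => (m : ℤ) - 1) =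
        fun m : ℕ => ((jNum.coeff m : ℤ) : ℂ) * q ^ m / q := by
      funext m
      simp only [Function.comp, term, coeff_jqModC_sub_one]
      rw [zpow_sub₀ hq0, zpow_natCast, zpow_one, mul_div_assoc]
    rw [he]
    exact h

theorem isConv_jq : IsConv (jqModC ℂ) := fun _ hv0 hv1 =>
  summable_norm_iff.mpr (hasSum_term_jq hv0 hv1).summable

open Fermat.Agent.S24.JQExpansion in
theorem ev_jq {q : ℂ} (hq0 : q ≠ 0) (hq1 : ‖q‖ < 1) : ev (jqModC ℂ) q = jNumFun q / q :=
  (hasSum_term_jq hq0 hq1).tsum_eq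

open Fermat.Agent.S24.JQExpansion in
/-- The value of `jqModC ℂ` at `q = e ^ (2 π i z)` is `j(z) = E₄(z) ^ 3 / Δ(z)`. -/
theorem ev_jq_of_qParam {q : ℂ} (z : ℍ) (hq : Function.Periodic.qParam 1 (z : ℂ) = q) :
    ev (jqModC ℂ) q = E₄ z ^ 3 / ModularForm.discriminant z := by
  have hq0 : q ≠ 0 := hq ▸ Function.Periodic.qParam_ne_zero _
  have hq1 : ‖q‖ < 1 := by
    rw [← hq]
    exact_mod_cast UpperHalfPlane.norm_qParam_lt_one 1 z
  rw [ev_jq hq0 hq1, ← hq, jNumFun_qParam, hq]
  field_simp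

/-! ### Closure under `q ↦ q ^ d` -/

section QExpand

variable (d : ℕ) [NeZero d]

theorem term_qExpand_mul (f : LaurentSeries ℂ) (v : ℂ) (n : ℤ) :
    term (qExpand ℂ d f) v ((d : ℤ) * n) = term f (v ^ d) n := by
  unfold term
  rw [qExpand_coeff_mul, zpow_mul, zpow_natCast]

theorem term_qExpand_of_not_dvd (f : LaurentSeries ℂ) (v : ℂ) {n : ℤ} (hn : ¬ (d : ℤ) ∣ n) :
    term (qExpand ℂ d f) v n = 0 := by
  unfold term
  rw [qExpand_coeff_of_not_dvd d f hn, zero_mul]

theorem mulLeft_injective_int : Function.Injective (fun n : ℤ => (d : ℤ) * n) :=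
  mul_right_injective₀ (by exact_mod_cast NeZero.ne d)

theorem hasSum_term_qExpand_iff (f : LaurentSeries ℂ) (v : ℂ) (s : ℂ) :
    HasSum (fun n : ℤ => term (qExpand ℂ d f) v n) s ↔ HasSum (fun n : ℤ => term f (v ^ d) n) s := by
  rw [← (mulLeft_injective_int d).hasSum_iff (f := fun n : ℤ => term (qExpand ℂ d f) v n)]
  · have he : ((fun n : ℤ => term (qExpand ℂ d f) v n) ∘ fun n : ℤ => (d : ℤ) * n) =
        fun n : ℤ => term f (v ^ d) n := funext fun n => term_qExpand_mul d f v n
    rw [he]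
  · intro n hn
    refine term_qExpand_of_not_dvd d f v ?_
    rintro ⟨m, rfl⟩
    exact hn ⟨m, rfl⟩

theorem isConv_qExpand {f : LaurentSeries ℂ} (hf : IsConv f) : IsConv (qExpand ℂ d f) := by
  intro v hv0 hv1
  have hvd0 : v ^ d ≠ 0 := pow_ne_zero _ hv0
  have hvd1 : ‖v ^ d‖ < 1 := by
    rw [norm_pow]
    exact pow_lt_one₀ (norm_nonneg _) hv1 (NeZero.ne d)
  have h := hf (v ^ d) hvd0 hvd1
  rw [← (mulLeft_injective_int d).summable_iff
    (f := fun n : ℤ => ‖term (qExpand ℂ d f) v n‖)]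
  · have he : ((fun n : ℤ => ‖term (qExpand ℂ d f) v n‖) ∘ fun n : ℤ => (d : ℤ) * n) =
        fun n : ℤ => ‖term f (v ^ d) n‖ := funext fun n => by
      simp only [Function.comp, term_qExpand_mul]
    rw [he]
    exact h
  · intro n hn
    rw [term_qExpand_of_not_dvd d f v, norm_zero]
    rintro ⟨m, rfl⟩
    exact hn ⟨m, rfl⟩

theorem ev_qExpand (f : LaurentSeries ℂ) (v : ℂ) : ev (qExpand ℂ d f) v = ev f (v ^ d) := by
  unfold ev
  by_cases hs : Summable (fun n : ℤ => term f (v ^ d) n)
  · exact ((hasSum_term_qExpand_iff d f v _).mpr hs.hasSum).tsum_eq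
  · have hs' : ¬ Summable (fun n : ℤ => term (qExpand ℂ d f) v n) := fun h =>
      hs ((hasSum_term_qExpand_iff d f v _).mp h.hasSum).summable
    rw [tsum_eq_zero_of_not_summable hs, tsum_eq_zero_of_not_summable hs']

end QExpand

/-! ### Closure under `v ↦ ξ v`, `|ξ| = 1` -/

theorem term_scaleVar (ξ : ℂˣ) (f : LaurentSeries ℂ) (v : ℂ) (n : ℤ) :
    term (scaleVar ξ f) v n = term f ((ξ : ℂ) * v) n := by
  unfold term
  rw [scaleVar_coeff, mul_zpow, Units.val_zpow_eq_zpow_val]
  ring

theorem isConv_scaleVar {f : LaurentSeries ℂ} (hf : IsConv f) (ξ : ℂˣ) (hξ : ‖(ξ : ℂ)‖ = 1) :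
    IsConv (scaleVar ξ f) := by
  intro v hv0 hv1
  have h := hf ((ξ : ℂ) * v) (mul_ne_zero ξ.ne_zero hv0) (by rw [norm_mul, hξ, one_mul]; exact hv1)
  simpa only [term_scaleVar] using h

theorem ev_scaleVar (ξ : ℂˣ) (f : LaurentSeries ℂ) (v : ℂ) :
    ev (scaleVar ξ f) v = ev f ((ξ : ℂ) * v) := by
  unfold ev
  simp only [term_scaleVar]

/-! ### The root of unity `e ^ (2 π i / p)` -/

/-- `ζ = e ^ (2 π i / p)` as a unit of `ℂ`. -/
noncomputable def zetaC (p : ℕ) : ℂˣ :=
  Units.mk0 (Complex.exp (2 * Real.pi * Complex.I / p)) (Complex.exp_ne_zero _)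

theorem zetaC_val (p : ℕ) : (zetaC p : ℂ) = Complex.exp (2 * Real.pi * Complex.I / p) := rfl

theorem isPrimitiveRoot_zetaC (p : ℕ) (hp : p ≠ 0) : IsPrimitiveRoot (zetaC p : ℂ) p :=
  Complex.isPrimitiveRoot_exp p hp

theorem norm_zetaC (p : ℕ) : ‖(zetaC p : ℂ)‖ = 1 := by
  rw [zetaC_val, Complex.norm_exp]
  have : (2 * (Real.pi : ℂ) * Complex.I / (p : ℂ)).re = 0 := by
    have h : (2 * (Real.pi : ℂ) * Complex.I / (p : ℂ)) = ((2 * Real.pi / p : ℝ) : ℂ) * Complex.I := by
      push_cast
      ring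
    rw [h, Complex.re_ofReal_mul, Complex.I_re, mul_zero]
  rw [this, Real.exp_zero]

theorem norm_zetaC_pow (p b : ℕ) : ‖((zetaC p ^ b : ℂˣ) : ℂ)‖ = 1 := by
  rw [Units.val_pow_eq_pow_val, norm_pow, norm_zetaC, one_pow]

/-! ### Parametrising the punctured disc -/

open Fermat.Agent.S24.JQExpansion in
/-- Every point `v` of the punctured unit disc is `e ^ (2 π i z / p)`: the points `z`, `p z`,
`(z + b) / p` of the upper half plane have `q`-parameters `v ^ p`, `v ^ (p ^ 2)`, `ζ ^ b v`. -/
theorem exists_points (p : ℕ) [NeZero p] {v : ℂ} (hv0 : v ≠ 0) (hv1 : ‖v‖ < 1) :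
    ∃ (z w : ℍ) (wb : ℕ → ℍ), (w : ℂ) = p * z ∧ (∀ b, (wb b : ℂ) = ((z : ℂ) + b) / p) ∧
      Function.Periodic.qParam 1 (z : ℂ) = v ^ p ∧
      Function.Periodic.qParam 1 (w : ℂ) = v ^ (p ^ 2) ∧
      ∀ b : ℕ, Function.Periodic.qParam 1 (wb b : ℂ) = ((zetaC p ^ b : ℂˣ) : ℂ) * v := by
  have hp0 : (p : ℂ) ≠ 0 := by exact_mod_cast NeZero.ne p
  have hppos : (0 : ℝ) < p := by exact_mod_cast Nat.pos_of_ne_zero (NeZero.ne p)
  set z1 : ℂ := Function.Periodic.invQParam 1 v with hz1
  have him : 0 < z1.im := Function.Periodic.im_invQParam_pos_of_norm_lt_one one_pos hv1 hv0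
  have hq1 : Function.Periodic.qParam 1 z1 = v := Function.Periodic.qParam_right_inv one_ne_zero hv0
  have himmul : ∀ x : ℂ, ((p : ℂ) * x).im = (p : ℝ) * x.im := fun x => by simp
  have himz : 0 < ((p : ℂ) * z1).im := by
    rw [himmul]
    exact mul_pos hppos him
  have himw : 0 < ((p : ℂ) * ((p : ℂ) * z1)).im := by
    rw [himmul]
    exact mul_pos hppos himz
  have himb : ∀ b : ℕ, 0 < (z1 + (b : ℂ) / (p : ℂ)).im := by
    intro b
    have : ((b : ℂ) / (p : ℂ)).im = 0 := by
      have h : (b : ℂ) / (p : ℂ) = (((b : ℝ) / (p : ℝ) : ℝ) : ℂ) := by push_cast; ring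
      rw [h, Complex.ofReal_im]
    rw [Complex.add_im, this, add_zero]
    exact him
  refine ⟨⟨(p : ℂ) * z1, himz⟩, ⟨(p : ℂ) * ((p : ℂ) * z1), himw⟩,
    fun b => ⟨z1 + (b : ℂ) / (p : ℂ), himb b⟩, rfl, ?_, ?_, ?_, ?_⟩
  · intro b
    show z1 + (b : ℂ) / (p : ℂ) = ((p : ℂ) * z1 + b) / p
    field_simp
  · show Function.Periodic.qParam 1 ((p : ℂ) * z1) = v ^ p
    rw [qParam_natCast_mul, hq1]
  · show Function.Periodic.qParam 1 ((p : ℂ) * ((p : ℂ) * z1)) = v ^ (p ^ 2)
    rw [qParam_natCast_mul, qParam_natCast_mul, hq1, ← pow_mul, pow_two]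
  · intro b
    show Function.Periodic.qParam 1 (z1 + (b : ℂ) / (p : ℂ)) = ((zetaC p ^ b : ℂˣ) : ℂ) * v
    rw [Units.val_pow_eq_pow_val, zetaC_val, ← hq1, ← Complex.exp_nat_mul]
    simp only [Function.Periodic.qParam, Complex.ofReal_one, div_one]
    rw [← Complex.exp_add]
    congr 1
    ring

/-! ### The transfer theorem -/

/-- The constants, as a ring hom into the subring of convergent series. -/
noncomputable def constHom : ℂ →+* convSubring :=
  (HahnSeries.C : ℂ →+* LaurentSeries ℂ).codRestrict convSubring fun c => isConv_C c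

theorem constHom_val (c : ℂ) : ((constHom c : convSubring) : LaurentSeries ℂ) = HahnSeries.C c :=
  rfl

theorem algebraMap_eq_C' (a : ℂ) : algebraMap ℂ (LaurentSeries ℂ) a = HahnSeries.C a := by
  have h1 : algebraMap ℂ (PowerSeries ℂ) a = PowerSeries.C a := by simp
  rw [HahnSeries.algebraMap_apply', h1, HahnSeries.ofPowerSeries_C]

/-- Two polynomials over the ring of convergent series with the same values at every point of the
punctured unit disc are equal. -/
theorem poly_ext {P Q : Polynomial convSubring}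
    (h : ∀ (v : ℂ) (hv0 : v ≠ 0) (hv1 : ‖v‖ < 1), P.map (evHom v hv0 hv1) = Q.map (evHom v hv0 hv1)) :
    P = Q := by
  ext i : 1
  have hsub : IsConv ((P.coeff i - Q.coeff i : convSubring) : LaurentSeries ℂ) :=
    (P.coeff i - Q.coeff i).2
  have h0 : ((P.coeff i - Q.coeff i : convSubring) : LaurentSeries ℂ) = 0 := by
    refine eq_zero_of_ev_eq_zero hsub fun v hv0 hv1 => ?_
    have h1 := congrArg (fun R => R.coeff i) (h v hv0 hv1)
    simp only [Polynomial.coeff_map] at h1
    have h2 : evHom v hv0 hv1 (P.coeff i - Q.coeff i) = 0 := by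
      rw [map_sub, h1, sub_self]
    exact h2
  have h3 : P.coeff i - Q.coeff i = 0 := Subtype.ext h0
  exact sub_eq_zero.mp h3

/-- **Transfer.** If `Φ(X, j(z)) = (X - j(p z)) ∏_{b < p} (X - j((z + b) / p))` for all `z` in the
upper half plane, then `Φ(X, J(v ^ p)) = (X - J(v ^ (p ^ 2))) ∏_{b < p} (X - J(ζ ^ b v))` in
`ℂ((v))[X]`, where `J = jqModC ℂ` and `ζ = e ^ (2 π i / p)`. -/
theorem modEq_of_pointwise (p : ℕ) [NeZero p] (Φ : Polynomial (Polynomial ℂ))
    (h : ∀ (z w : ℍ) (wb : ℕ → ℍ), (w : ℂ) = p * z →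
        (∀ b < p, (wb b : ℂ) = ((z : ℂ) + b) / p) →
        Φ.map (Polynomial.evalRingHom (E₄ z ^ 3 / ModularForm.discriminant z)) =
          (X - Polynomial.C (E₄ w ^ 3 / ModularForm.discriminant w)) *
            ∏ b ∈ Finset.range p,
              (X - Polynomial.C (E₄ (wb b) ^ 3 / ModularForm.discriminant (wb b)))) :
    Φ.map ((aeval (qExpand ℂ p (jqModC ℂ)) : Polynomial ℂ →ₐ[ℂ] LaurentSeries ℂ) :
        Polynomial ℂ →+* LaurentSeries ℂ) =
      (X - Polynomial.C (qExpand ℂ (p ^ 2) (jqModC ℂ))) *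
        ∏ b ∈ Finset.range p, (X - Polynomial.C (scaleVar (zetaC p ^ b) (jqModC ℂ))) := by
  -- the roots, as elements of the subring of convergent series
  set J0 : convSubring := ⟨qExpand ℂ p (jqModC ℂ), isConv_qExpand p isConv_jq⟩ with hJ0
  set Jinf : convSubring := ⟨qExpand ℂ (p ^ 2) (jqModC ℂ), isConv_qExpand (p ^ 2) isConv_jq⟩
    with hJinf
  set Jb : ℕ → convSubring := fun b =>
    ⟨scaleVar (zetaC p ^ b) (jqModC ℂ), isConv_scaleVar isConv_jq _ (norm_zetaC_pow p b)⟩ with hJb
  set φ : Polynomial ℂ →+* convSubring := Polynomial.eval₂RingHom constHom J0 with hφ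
  set P : Polynomial convSubring := Φ.map φ with hP
  set Q : Polynomial convSubring := (X - Polynomial.C Jinf) * ∏ b ∈ Finset.range p, (X - Polynomial.C (Jb b)) with hQ
  have hPQ : P = Q := by
    refine poly_ext fun v hv0 hv1 => ?_
    obtain ⟨z, w, wb, hw, hwb, hqz, hqw, hqb⟩ := exists_points p hv0 hv1
    have hcomp : (evHom v hv0 hv1).comp φ =
        Polynomial.evalRingHom (E₄ z ^ 3 / ModularForm.discriminant z) := by
      apply Polynomial.ringHom_ext
      · intro c
        simp only [hφ, RingHom.comp_apply, Polynomial.coe_eval₂RingHom, Polynomial.eval₂_C,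
          Polynomial.coe_evalRingHom, Polynomial.eval_C]
        rw [evHom_apply, constHom_val, ev_C]
      · simp only [hφ, RingHom.comp_apply, Polynomial.coe_eval₂RingHom, Polynomial.eval₂_X,
          Polynomial.coe_evalRingHom, Polynomial.eval_X]
        rw [evHom_apply, hJ0]
        show ev (qExpand ℂ p (jqModC ℂ)) v = _
        rw [ev_qExpand, ev_jq_of_qParam z hqz]
    have hinf : evHom v hv0 hv1 Jinf = E₄ w ^ 3 / ModularForm.discriminant w := by
      rw [evHom_apply, hJinf]
      show ev (qExpand ℂ (p ^ 2) (jqModC ℂ)) v = _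
      rw [ev_qExpand, ev_jq_of_qParam w hqw]
    have hb : ∀ b, evHom v hv0 hv1 (Jb b) =
        E₄ (wb b) ^ 3 / ModularForm.discriminant (wb b) := by
      intro b
      rw [evHom_apply, hJb]
      show ev (scaleVar (zetaC p ^ b) (jqModC ℂ)) v = _
      rw [ev_scaleVar, ev_jq_of_qParam (wb b) (hqb b)]
    rw [hP, Polynomial.map_map, hcomp, h z w wb hw (fun b _ => hwb b), hQ, Polynomial.map_mul,
      Polynomial.map_sub, Polynomial.map_X, Polynomial.map_C, hinf, Polynomial.map_prod]
    congr 1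
    refine Finset.prod_congr rfl fun b _ => ?_
    rw [Polynomial.map_sub, Polynomial.map_X, Polynomial.map_C, hb]
  -- push the identity `P = Q` forward along the inclusion
  have hsubφ : convSubring.subtype.comp φ =
      ((aeval (qExpand ℂ p (jqModC ℂ)) : Polynomial ℂ →ₐ[ℂ] LaurentSeries ℂ) :
        Polynomial ℂ →+* LaurentSeries ℂ) := by
    apply Polynomial.ringHom_ext
    · intro c
      simp only [hφ, RingHom.comp_apply, Polynomial.coe_eval₂RingHom, Polynomial.eval₂_C,
        RingHom.coe_coe, Polynomial.aeval_C]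
      rw [algebraMap_eq_C']
      rfl
    · simp only [hφ, RingHom.comp_apply, Polynomial.coe_eval₂RingHom, Polynomial.eval₂_X,
        RingHom.coe_coe, Polynomial.aeval_X]
      rfl
  have h1 := congrArg (Polynomial.map convSubring.subtype) hPQ
  rw [hP, Polynomial.map_map, hsubφ, hQ, Polynomial.map_mul, Polynomial.map_sub, Polynomial.map_X,
    Polynomial.map_C, Polynomial.map_prod] at h1
  rw [h1]
  congr 1
  refine Finset.prod_congr rfl fun b _ => ?_
  rw [Polynomial.map_sub, Polynomial.map_X, Polynomial.map_C]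
  rfl

/-- Consumer form: the hypothesis `hC` of `ModPolyDescent.exists_modPoly_of_complex` (with
`ζC = zetaC p`, primitive by `isPrimitiveRoot_zetaC`) from the pointwise statement. -/
theorem exists_formal_of_pointwise (p : ℕ) [NeZero p]
    (hC : ∃ Φ : Polynomial (Polynomial ℂ), Φ.Monic ∧ Φ.natDegree = p + 1 ∧
      ∀ (z w : ℍ) (wb : ℕ → ℍ), (w : ℂ) = p * z →
        (∀ b < p, (wb b : ℂ) = ((z : ℂ) + b) / p) →
        Φ.map (Polynomial.evalRingHom (E₄ z ^ 3 / ModularForm.discriminant z)) =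
          (X - Polynomial.C (E₄ w ^ 3 / ModularForm.discriminant w)) *
            ∏ b ∈ Finset.range p,
              (X - Polynomial.C (E₄ (wb b) ^ 3 / ModularForm.discriminant (wb b)))) :
    ∃ Φ : Polynomial (Polynomial ℂ), Φ.Monic ∧ Φ.natDegree = p + 1 ∧
      Φ.map ((aeval (qExpand ℂ p (jqModC ℂ)) : Polynomial ℂ →ₐ[ℂ] LaurentSeries ℂ) :
          Polynomial ℂ →+* LaurentSeries ℂ) =
        (X - Polynomial.C (qExpand ℂ (p ^ 2) (jqModC ℂ))) *
          ∏ b ∈ Finset.range p, (X - Polynomial.C (scaleVar (zetaC p ^ b) (jqModC ℂ))) := by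
  obtain ⟨Φ, hm, hd, h⟩ := hC
  exact ⟨Φ, hm, hd, modEq_of_pointwise p Φ h⟩

end Fermat.Agent.S28.ModPolyTransfer
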