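import Mathlib
import Fermat.Agent.S28.Interfaces
import Fermat.Agent.S28.DescendIndep
import Fermat.Agent.S28.DegreeQ

/-!
# S28, block D bridge: the monomials of block C, from `k̄` down to `𝔽_ℓ` and up to `ℚ`

Block C (`CoreIndepStatement`) gives, over the algebraically closed field `k = 𝔽̄_ℓ`, `ψ(N)`
monomials `mono k N (e i)` in the `j(q ^ d)`, `d ∣ N`, linearly independent over `k(j̄)`.
Here:

* `coeffMap_jD`, `coeffMap_mono`: the monomials are compatible with every change of coefficients;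
* `mono_rat_mem`: `mono ℚ N e ∈ F = modularFunctionFieldFull N`; `monoF N e` is that element of `F`;
* `exists_indep_zmod`: the same exponents give `𝔽_ℓ(j̄)`-independent monomials over `𝔽_ℓ`
  (descent, helper29's `DescendIndep.linearIndependent_of_coeffMap`);
* `linearIndependent_monoF`: they are `ℚ(j)`-independent in `F` (lifting, helper29's
  `DescendIndep.linearIndependent_rat_of_zmod`);
* `span_monoF_eq_top`: hence they span `F` over `ℚ(j)` (`DegreeQ.span_eq_top_of_card`);
* `exists_monomials`: everything packaged for block D.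
-/

set_option autoImplicit false

open IntermediateField Polynomial ModularCurve

namespace Fermat.Agent.S28.MonoLift

open Fermat.Agent.S28.Interfaces Fermat.Agent.S28.DegreeQ

open scoped IntermediateField.algebraAdjoinAdjoin

/-! ### Change of coefficients -/

section CoeffMap

variable {R S : Type*} [CommRing R] [CommRing S] (f : R →+* S)

theorem coeffMap_jD (d : ℕ) : coeffMap f (jD R d) = jD S d := by
  by_cases h : d = 0
  · subst h
    simp [jD]
  · have : NeZero d := ⟨h⟩
    rw [jD_eq, jD_eq, coeffMap_qExpand, coeffMap_jqModC]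

theorem coeffMap_mono (N : ℕ) (e : ℕ → ℕ) : coeffMap f (mono R N e) = mono S N e := by
  unfold mono
  rw [map_prod]
  refine Finset.prod_congr rfl fun d _ => ?_
  rw [map_pow, coeffMap_jD]

end CoeffMap

/-! ### The monomials as elements of `F` -/

section InF

variable (N : ℕ) [NeZero N]

theorem jD_rat_mem {d : ℕ} (hd : d ∣ N) : jD ℚ d ∈ modularFunctionFieldFull N := by
  have : NeZero d := ⟨fun h => NeZero.ne N (by rw [h] at hd; exact Nat.eq_zero_of_zero_dvd hd)⟩
  rw [jD_eq, ← modularFunctionFieldFullC_rat]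
  exact jqModCd_mem_full ℚ N hd

theorem mono_rat_mem (e : ℕ → ℕ) : mono ℚ N e ∈ modularFunctionFieldFull N := by
  unfold mono
  exact prod_mem fun d hd => pow_mem (jD_rat_mem N (Nat.dvd_of_mem_divisors hd)) _

/-- The monomial `∏_{d ∣ N} j(q ^ d) ^ (e d)` as an element of `F`. -/
noncomputable def monoF (e : ℕ → ℕ) : FQ N := ⟨mono ℚ N e, mono_rat_mem N e⟩

@[simp] theorem coe_monoF (e : ℕ → ℕ) : (monoF N e : LaurentSeries ℚ) = mono ℚ N e := rfl

/-- The monomials have integer coefficients. -/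
theorem coe_monoF_eq (e : ℕ → ℕ) :
    (monoF N e : LaurentSeries ℚ) = coeffMap (Int.castRingHom ℚ) (mono ℤ N e) := by
  rw [coe_monoF, coeffMap_mono]

theorem coeff_monoF (e : ℕ → ℕ) (k : ℤ) :
    (monoF N e : LaurentSeries ℚ).coeff k = (((mono ℤ N e).coeff k : ℤ) : ℚ) := by
  rw [coe_monoF_eq, coeffMap_coeff]
  rfl

end InF

/-! ### Descent from `𝔽̄_ℓ` to `𝔽_ℓ` -/

theorem exists_indep_zmod (hC : CoreIndepStatement) (N : ℕ) [NeZero N] (ℓ : ℕ) [Fact ℓ.Prime]
    (hℓN : ¬ ℓ ∣ N) :
    ∃ e : Fin (dedekindPsi N) → ℕ → ℕ,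
      LinearIndependent (kj (ZMod ℓ)) (fun i => mono (ZMod ℓ) N (e i)) := by
  have hN : (N : AlgebraicClosure (ZMod ℓ)) ≠ 0 := by
    intro h
    exact hℓN ((CharP.cast_eq_zero_iff (AlgebraicClosure (ZMod ℓ)) ℓ N).mp h)
  obtain ⟨e, he⟩ := hC N (AlgebraicClosure (ZMod ℓ)) hN
  refine ⟨e, ?_⟩
  apply DescendIndep.linearIndependent_of_coeffMap
    (algebraMap (ZMod ℓ) (AlgebraicClosure (ZMod ℓ)))
  have : (fun i => coeffMap (algebraMap (ZMod ℓ) (AlgebraicClosure (ZMod ℓ)))
      (mono (ZMod ℓ) N (e i))) = fun i => mono (AlgebraicClosure (ZMod ℓ)) N (e i) := by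
    funext i
    rw [coeffMap_mono]
  rw [this]
  exact he

/-! ### Lifting to `ℚ` -/

section Lift

variable (N : ℕ) [NeZero N] (ℓ : ℕ) [Fact ℓ.Prime]

/-- From `ℚ(j)`-independence inside `ℚ((q))` to `ℚ(j)`-independence inside `F`. -/
theorem linearIndependent_of_coe {ι : Type*} (x : ι → FQ N)
    (h : LinearIndependent ↥(ℚ⟮jqModC ℚ⟯) (fun i => (x i : LaurentSeries ℚ))) :
    LinearIndependent ℚ⟮IgusaScheme.jFull N⟯ x := by
  -- down to `ℚ[j]`, then to the products `jᵃ xᵢ` over `ℚ`, inside `ℚ((q))`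
  have h1 : LinearIndependent (Algebra.adjoin ℚ {jqModC ℚ})
      (fun i => (x i : LaurentSeries ℚ)) :=
    (LinearIndependent.iff_fractionRing (R := Algebra.adjoin ℚ {jqModC ℚ})
      (K := ℚ⟮jqModC ℚ⟯)).mpr h
  have h2 := linearIndependent_pow_mul_of_adjoin
    (show Transcendental ℚ (jqModC ℚ) from transcendental_jq) _ h1
  -- into `F`
  have h3 : LinearIndependent ℚ (fun p : ℕ × ι => IgusaScheme.jFull N ^ p.1 * x p.2) := by
    have h2' : LinearIndependent ℚ
        (fun p : ℕ × ι => jqModC ℚ ^ p.1 * (x p.2 : LaurentSeries ℚ)) := by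
      have hmod : (Algebra.toModule : Module ℚ (LaurentSeries ℚ)) = HahnSeries.instModule :=
        Subsingleton.elim _ _
      rw [← hmod]
      exact h2
    exact LinearIndependent.of_comp (valQ N) h2'
  -- up to `ℚ[j]` and then `ℚ(j)`
  have h4 := linearIndependent_adjoin_of_pow_mul (IgusaScheme.jFull N) x h3
  exact (LinearIndependent.iff_fractionRing (R := Algebra.adjoin ℚ {IgusaScheme.jFull N})
    (K := ℚ⟮IgusaScheme.jFull N⟯)).mp h4

/-- Monomials whose reductions are `𝔽_ℓ(j̄)`-independent are `ℚ(j)`-independent in `F`. -/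
theorem linearIndependent_monoF {ι : Type*} (e : ι → ℕ → ℕ)
    (h : LinearIndependent (kj (ZMod ℓ)) (fun i => mono (ZMod ℓ) N (e i))) :
    LinearIndependent ℚ⟮IgusaScheme.jFull N⟯ (fun i => monoF N (e i)) := by
  apply linearIndependent_of_coe
  have h1 := DescendIndep.linearIndependent_rat_of_zmod ℓ (fun i => mono ℤ N (e i)) (by
    have : (fun i => coeffMap (Int.castRingHom (ZMod ℓ)) (mono ℤ N (e i)))
        = fun i => mono (ZMod ℓ) N (e i) := by
      funext i
      rw [coeffMap_mono]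
    rw [this]
    exact h)
  have : (fun i => ((monoF N (e i) : FQ N) : LaurentSeries ℚ))
      = fun i => coeffMap (Int.castRingHom ℚ) (mono ℤ N (e i)) := by
    funext i
    rw [coe_monoF_eq]
  rw [this]
  exact h1

/-- `ψ(N)` monomials whose reductions are `𝔽_ℓ(j̄)`-independent span `F` over `ℚ(j)`. -/
theorem span_monoF_eq_top (e : Fin (dedekindPsi N) → ℕ → ℕ)
    (h : LinearIndependent (kj (ZMod ℓ)) (fun i => mono (ZMod ℓ) N (e i))) :
    Submodule.span ℚ⟮IgusaScheme.jFull N⟯ (Set.range fun i => monoF N (e i)) = ⊤ :=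
  span_eq_top_of_card N _ (linearIndependent_monoF N ℓ e h) (Fintype.card_fin _)

end Lift

/-- **Block C, consumer form for block D.**  For `ℓ ∤ N` there are `ψ(N)` monomials in the
`j(q ^ d)`, `d ∣ N`, with integer coefficients, whose reductions mod `ℓ` are linearly independent
over `𝔽_ℓ(j̄)` and which span `F` over `ℚ(j)`. -/
theorem exists_monomials (hC : CoreIndepStatement) (N : ℕ) [NeZero N] (ℓ : ℕ) [Fact ℓ.Prime]
    (hℓN : ¬ ℓ ∣ N) :
    ∃ e : Fin (dedekindPsi N) → ℕ → ℕ,
      LinearIndependent (kj (ZMod ℓ)) (fun i => mono (ZMod ℓ) N (e i)) ∧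
      Submodule.span ℚ⟮IgusaScheme.jFull N⟯ (Set.range fun i => monoF N (e i)) = ⊤ := by
  obtain ⟨e, he⟩ := exists_indep_zmod hC N ℓ hℓN
  exact ⟨e, he, span_monoF_eq_top N ℓ e he⟩

end Fermat.Agent.S28.MonoLift
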