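/-
S28 / block C: the leaf `NotMemStatement` of `CoreDegree.lean` (helper97).
-/
import Mathlib
import Fermat.Agent.S28.CoreDegree
import Fermat.Agent.S28.CoprimeNotMem

set_option autoImplicit false

open ModularCurve Fermat.Agent.S28.Interfaces

namespace Fermat.Agent.S28.NotMemInst

/-- **(NM)**, literally the statement consumed by `CoreDegree.coreDegree_of`. -/
theorem notMem : Fermat.Agent.S28.CoreDegree.NotMemStatement :=
  fun _ _ _ p M hp hM hpM hk hA hB =>
    Fermat.Agent.S28.CoprimeNotMem.jD_not_mem_fullC p M hp hpM hM hk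
      (fun p' hp' _ ζ hζ => hA p' hp' ζ hζ) hB

end Fermat.Agent.S28.NotMemInst
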