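/-
S28 / block (C) inputs in the shapes requested by the C owner (report 1120), obtained from the
orbit degree bound of block (B):

* `kummer` (K): `L` fixed by `rot ζ` (ζ a primitive `p`-th root), `j̄` integral over `L`
  ⇒ `p ≤ deg minpoly_L(j̄)`.
* `dich` (Di): `HasModEq k p ζ`, `j̄ ∈ L`, `j̄(q^p) ∉ L` ⇒ `p + 1 ≤ deg minpoly_L(j̄(q^p))`.
-/
import Mathlib
import Fermat.Prelude.Def_ModularCurve_X0ModL
import Fermat.Prelude.Thm_ModularCurve_coeff_jqModC_neg_one
import Fermat.Agent.S20.LaurentTools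
import Fermat.Agent.S28.Interfaces
import Fermat.Agent.S28.PrimeCaseOrbit
import Fermat.Agent.S28.PrimeCaseHM

set_option autoImplicit false

namespace Fermat.Agent.S28.PrimeCaseDich

open Polynomial ModularCurve IntermediateField
open Fermat.Agent.S20.LaurentTools Fermat.Agent.S28.Interfaces
open Fermat.Agent.S28.PrimeCaseOrbit Fermat.Agent.S28.PrimeCaseHM

variable {k : Type*} [Field k]

theorem coeff_rot_jqModC (ζ : kˣ) (b : ℕ) :
    (rot (ζ ^ b) (jqModC k)).coeff (-1) = (((ζ ^ b)⁻¹ : kˣ) : k) := by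
  rw [coeff_rot, coeff_jqModC_neg_one, mul_one, zpow_neg_one]

/-- The conjugates `j̄(ζ^b q)`, `b < p`, are pairwise distinct. -/
theorem rot_jqModC_injOn (p : ℕ) (ζ : kˣ) (hζ : IsPrimitiveRoot (ζ : k) p) :
    ∀ b ∈ Finset.range p, ∀ b' ∈ Finset.range p,
      rot (ζ ^ b) (jqModC k) = rot (ζ ^ b') (jqModC k) → b = b' := by
  intro b hb b' hb' heq
  have := congrArg (fun x => HahnSeries.coeff x (-1)) heq
  simp only [coeff_rot_jqModC] at this
  have h3 : ζ ^ b = ζ ^ b' := inv_injective (Units.ext this)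
  have h4 : (ζ : k) ^ b = (ζ : k) ^ b' := by
    rw [← Units.val_pow_eq_pow_val, ← Units.val_pow_eq_pow_val, h3]
  exact hζ.pow_inj (Finset.mem_range.mp hb) (Finset.mem_range.mp hb') h4

theorem pow_eq_one_of_isPrimitiveRoot (p : ℕ) (ζ : kˣ) (hζ : IsPrimitiveRoot (ζ : k) p) :
    ζ ^ p = 1 := by
  apply Units.ext
  rw [Units.val_pow_eq_pow_val, Units.val_one]
  exact hζ.pow_eq_one

/-- The modular equation as a monic polynomial over any `L ∋ j̄`. -/
theorem modEq_over (p : ℕ) [NeZero p] (ζ : kˣ) (h : HasModEq k p ζ)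
    (L : IntermediateField k (LaurentSeries k)) (hJ : jqModC k ∈ L) :
    ∃ Ψ : (↥L)[X], Ψ.Monic ∧ Ψ.natDegree = p + 1 ∧
      (Ψ.map (algebraMap ↥L (LaurentSeries k))).map (qExpand k p) =
        (X - C (qExpand k p (qExpand k p (jqModC k)))) *
          ∏ b ∈ Finset.range p, (X - C (rot (ζ ^ b) (jqModC k))) := by
  obtain ⟨Φ, hm, hd, hfac⟩ := h
  set Jd : ↥L := ⟨jqModC k, hJ⟩ with hJd
  set φ : k[X] →+* ↥L := ((aeval Jd : k[X] →ₐ[k] ↥L) : k[X] →+* ↥L) with hφ
  refine ⟨Φ.map φ, hm.map φ, ?_, ?_⟩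
  · rw [hm.natDegree_map φ, hd]
  · have hp2 : jD k (p ^ 2) = qExpand k p (qExpand k p (jqModC k)) := by
      have : NeZero (p ^ 2) := ⟨pow_ne_zero 2 (NeZero.ne p)⟩
      rw [jD_eq, qExpand_qExpand]
      exact qExpand_congr (sq p) _
    rw [hp2] at hfac
    rw [Polynomial.map_map, Polynomial.map_map, ← hfac]
    congr 1
    refine RingHom.ext fun r => ?_
    have h1 : algebraMap ↥L (LaurentSeries k) (aeval Jd r) = aeval (jqModC k) r :=
      (Polynomial.aeval_algebraMap_apply (LaurentSeries k) Jd r).symm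
    show qExpand k p (algebraMap ↥L (LaurentSeries k) (aeval Jd r)) = aeval (jD k p) r
    rw [h1, qExpand_aeval, jD_eq]

/-- **(Di)** in the shape of report 1120. -/
theorem dich (k : Type) [Field k] (p : ℕ) (hp : p.Prime) (z : kˣ) (hz : IsPrimitiveRoot (z : k) p)
    (hmod : HasModEq k p z) (L : IntermediateField k (LaurentSeries k)) (hJ : jqModC k ∈ L)
    (hn : jD k p ∉ L) : p + 1 ≤ (minpoly ↥L (jD k p)).natDegree := by
  have : NeZero p := ⟨hp.ne_zero⟩
  rw [jD_eq] at hn ⊢
  obtain ⟨Ψ, hΨm, -, hfac⟩ := modEq_over p z hmod L hJ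
  have hx₀y : ∀ b ∈ Finset.range p,
      qExpand k p (qExpand k p (jqModC k)) ≠ rot (z ^ b) (jqModC k) := by
    intro b _ heq
    have := congrArg (fun x => HahnSeries.coeff x (-1)) heq
    simp only [coeff_rot_jqModC] at this
    rw [qExpand_coeff_of_not_dvd p _ (k := -1)] at this
    · exact (Units.ne_zero _) this.symm
    · intro hd
      have hp' : (2 : ℤ) ≤ p := by exact_mod_cast hp.two_le
      have := Int.le_of_dvd (by norm_num) ((dvd_neg (a := (p : ℤ)) (b := 1)).mp hd)
      omega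
  exact (natDegree_minpoly_ge p z (pow_eq_one_of_isPrimitiveRoot p z hz) L
    (qExpand k p (jqModC k)) (jqModC k) Ψ hΨm hfac (rot_jqModC_injOn p z hz) hx₀y hn).2

/-- **(K)** in the shape of report 1120. -/
theorem kummer (k : Type) [Field k] (p : ℕ) (_hp : p.Prime) (z : kˣ)
    (hz : IsPrimitiveRoot (z : k) p) (L : IntermediateField k (LaurentSeries k))
    (hL : ∀ f ∈ L, rot z f = f) (hint : IsIntegral ↥L (jqModC k)) :
    p ≤ (minpoly ↥L (jqModC k)).natDegree := by
  classical
  set J : LaurentSeries k := jqModC k with hJ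
  set ι : ↥L →+* LaurentSeries k := algebraMap ↥L (LaurentSeries k) with hι
  have hιinj : Function.Injective ι := (algebraMap ↥L (LaurentSeries k)).injective
  set P : (↥L)[X] := minpoly ↥L J with hP
  set P' : (LaurentSeries k)[X] := P.map ι with hP'
  have hP'deg : P'.natDegree = P.natDegree := natDegree_map_eq_of_injective hιinj P
  have hP'ne : P' ≠ 0 := by
    rw [hP', Ne, Polynomial.map_eq_zero_iff hιinj]
    exact minpoly.ne_zero hint
  have hr0 : P'.IsRoot J := by
    have : aeval J P = 0 := minpoly.aeval ↥L J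
    rw [IsRoot.def, hP', eval_map]
    exact this
  have hinv : ∀ c : ℕ, P'.map ((rot (z ^ c) : LaurentSeries k ≃ₐ[k] LaurentSeries k) :
      LaurentSeries k →+* LaurentSeries k) = P' := by
    intro c
    rw [hP', Polynomial.map_map]
    congr 1
    refine RingHom.ext fun d => ?_
    show rot (z ^ c) (d : LaurentSeries k) = d
    induction c with
    | zero => rw [pow_zero, rot_one]
    | succ c ih => rw [pow_succ, ← rot_rot, hL _ d.2, ih]
  have hroots : ∀ b ∈ Finset.range p, P'.IsRoot (rot (z ^ b) J) := by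
    intro b _
    have h1 := hr0.map (f := ((rot (z ^ b) : LaurentSeries k ≃ₐ[k] LaurentSeries k) :
      LaurentSeries k →+* LaurentSeries k))
    rw [hinv] at h1
    exact h1
  set Z : Finset (LaurentSeries k) := (Finset.range p).image fun b => rot (z ^ b) J with hZ
  have hZcard : Z.card = p := by
    rw [hZ, Finset.card_image_of_injOn, Finset.card_range]
    intro b hb b' hb' h
    exact rot_jqModC_injOn p z hz b hb b' hb' h
  have hZsub : Z.val ⊆ P'.roots := by
    intro x hx
    rw [Finset.mem_val, hZ, Finset.mem_image] at hx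
    rw [mem_roots hP'ne]
    obtain ⟨b, hb, rfl⟩ := hx
    exact hroots b hb
  have := card_le_degree_of_subset_roots hZsub
  rw [hZcard, hP'deg] at this
  exact this

end Fermat.Agent.S28.PrimeCaseDich
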