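import Mathlib
import Fermat.Agent.S28.GaussRing
import Fermat.Agent.S28.IntegralDescent
import Fermat.Agent.S28.ChartSteps

/-!
# S28, block D (hedge, helper7): assembly of the q-expansion principle from an abstract core

For `F = modularFunctionFieldFull N` and the Gauss ring `O = GaussRing.O ℓ F` (landed), the three
facts

* `hval`  : `O` is a valuation ring of `F`;
* `hcont` : `P(t) ∈ O → P ∈ ℤ_(ℓ)[X]` for `P ∈ ℚ[X]` (Gauss content);
* `hintg` : every `y ∈ O` is a root of a monic polynomial over `ℚ(t)` with coefficients in `O`;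

give, for the chart `{t}`, a reduction homomorphism `chartAlg {t} → 𝔽_ℓ((q))` with kernel inside
`ℓ · chartAlg {t}`; the Mid chart follows from the Fin chart.
-/

set_option autoImplicit false

open ModularCurve ModularCurve.IgusaScheme IntermediateField Polynomial

namespace Fermat.Agent.S28.QExpHedgeAsm

open Fermat.Agent.S28.ZlRes Fermat.Agent.S28.IntLaurent Fermat.Agent.S28.GaussRing

variable (N : ℕ) [NeZero N] (ℓ : ℕ) [Fact ℓ.Prime]

/-- The conclusion for one chart `S` (same as `ChartDomainOfMain.HasRed`, restated here to keep the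
import closure of this file small). -/
def HasRed' (S : Set ↥(modularFunctionFieldFull N)) : Prop :=
  ∃ red : ↥(chartAlg N ℓ S) →+* LaurentSeries (ZMod ℓ),
    ∀ x, red x = 0 → ∃ y : ↥(chartAlg N ℓ S), x = (ℓ : ↥(chartAlg N ℓ S)) * y

/-- constants of `ℤ_(ℓ)` lie in `A ⊆ O`. -/
theorem algebraMap_mem_O (a : ↥(GaloisRep.ratLocalizedAt ℓ)) :
    algebraMap ↥(GaloisRep.ratLocalizedAt ℓ) ↥(modularFunctionFieldFull N) a ∈
      O ℓ (modularFunctionFieldFull N) := by
  apply A_le_O
  rw [mem_A_iff, mem_IntSub_iff]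
  intro k
  have h1 : ((algebraMap ↥(GaloisRep.ratLocalizedAt ℓ) ↥(modularFunctionFieldFull N) a :
      ↥(modularFunctionFieldFull N)) : LaurentSeries ℚ) = HahnSeries.C ((a : ℚ)) := by
    rw [IsScalarTower.algebraMap_apply ↥(GaloisRep.ratLocalizedAt ℓ) ℚ
      ↥(modularFunctionFieldFull N)]
    rfl
  rw [h1, HahnSeries.C_apply, HahnSeries.coeff_single]
  split_ifs
  · exact a.2
  · exact (GaloisRep.ratLocalizedAt ℓ).zero_mem

/-- The valuation subring with carrier `O`. -/
noncomputable def OV (hval : ∀ y : ↥(modularFunctionFieldFull N),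
      y ∈ O ℓ (modularFunctionFieldFull N) ∨ y⁻¹ ∈ O ℓ (modularFunctionFieldFull N)) :
    ValuationSubring ↥(modularFunctionFieldFull N) :=
  { O ℓ (modularFunctionFieldFull N) with mem_or_inv_mem' := hval }

theorem mem_OV (hval : ∀ y : ↥(modularFunctionFieldFull N),
      y ∈ O ℓ (modularFunctionFieldFull N) ∨ y⁻¹ ∈ O ℓ (modularFunctionFieldFull N))
    (y : ↥(modularFunctionFieldFull N)) :
    y ∈ OV N ℓ hval ↔ y ∈ O ℓ (modularFunctionFieldFull N) := Iff.rfl

section Chart

variable (hval : ∀ y : ↥(modularFunctionFieldFull N),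
      y ∈ O ℓ (modularFunctionFieldFull N) ∨ y⁻¹ ∈ O ℓ (modularFunctionFieldFull N))

include hval in
/-- a chart algebra generated by elements of `O` lies in `O`. -/
theorem chartAlg_le_O (S : Set ↥(modularFunctionFieldFull N))
    (hS : ∀ s ∈ S, s ∈ O ℓ (modularFunctionFieldFull N)) :
    ∀ x ∈ chartAlg N ℓ S, x ∈ O ℓ (modularFunctionFieldFull N) :=
  Fermat.Agent.S28.ChartSteps.chartAlg_le_of_valuationSubring N ℓ (OV N ℓ hval)
    (fun a => algebraMap_mem_O N ℓ a) S hS

include hval in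
/-- **Closure under division by `ℓ`, one-generator chart.** -/
theorem closure_single (t : ↥(modularFunctionFieldFull N))
    (htr : Transcendental ℚ t)
    (hcont : ∀ c : ℚ[X], Polynomial.aeval t c ∈ O ℓ (modularFunctionFieldFull N) →
      c ∈ Polynomial.lifts (algebraMap ↥(GaloisRep.ratLocalizedAt ℓ) ℚ))
    (hintg : ∀ y ∈ O ℓ (modularFunctionFieldFull N), ∃ p : Polynomial ↥(ℚ⟮t⟯), p.Monic ∧
      (∀ i, ((p.coeff i : ↥(ℚ⟮t⟯)) : ↥(modularFunctionFieldFull N)) ∈
        O ℓ (modularFunctionFieldFull N)) ∧ Polynomial.aeval y p = 0) :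
    ∀ x ∈ chartAlg N ℓ {t}, ∀ y ∈ O ℓ (modularFunctionFieldFull N),
      x = (ℓ : ↥(modularFunctionFieldFull N)) * y → y ∈ chartAlg N ℓ {t} := by
  intro x hx y hy hxy
  let V : ValuationSubring ↥(ℚ⟮t⟯) :=
    (OV N ℓ hval).comap (algebraMap ↥(ℚ⟮t⟯) ↥(modularFunctionFieldFull N))
  have hV : ∀ c : ℚ[X], Polynomial.aeval (AdjoinSimple.gen ℚ t) c ∈ V →
      c ∈ Polynomial.lifts (algebraMap ↥(GaloisRep.ratLocalizedAt ℓ) ℚ) := by
    intro c hc
    apply hcont c
    have h1 : algebraMap ↥(ℚ⟮t⟯) ↥(modularFunctionFieldFull N)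
        (Polynomial.aeval (AdjoinSimple.gen ℚ t) c) = Polynomial.aeval t c := by
      rw [← Polynomial.aeval_algebraMap_apply, AdjoinSimple.algebraMap_gen]
    rw [← h1]
    exact hc
  obtain ⟨p, hp1, hp2, hp3⟩ := hintg y hy
  exact Fermat.Agent.S28.IntegralDescent.mem_chartAlg_of_mul_eq N ℓ htr V hV hx hxy
    ⟨p, hp1, fun i => hp2 i, hp3⟩

include hval in
/-- `HasRed'` from closure under division by `ℓ`. -/
theorem hasRed_of_closure (S : Set ↥(modularFunctionFieldFull N))
    (hS : ∀ s ∈ S, s ∈ O ℓ (modularFunctionFieldFull N))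
    (hcl : ∀ x ∈ chartAlg N ℓ S, ∀ y ∈ O ℓ (modularFunctionFieldFull N),
      x = (ℓ : ↥(modularFunctionFieldFull N)) * y → y ∈ chartAlg N ℓ S) :
    HasRed' N ℓ S := by
  have hle := chartAlg_le_O N ℓ hval S hS
  let incl : ↥(chartAlg N ℓ S) →+* ↥(O ℓ (modularFunctionFieldFull N)) :=
    { toFun := fun x => ⟨x.1, hle x.1 x.2⟩
      map_one' := rfl
      map_mul' := fun _ _ => rfl
      map_zero' := rfl
      map_add' := fun _ _ => rfl }
  refine ⟨(redO ℓ (modularFunctionFieldFull N)).comp incl, ?_⟩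
  intro x hx
  have hx' : redO ℓ (modularFunctionFieldFull N) (incl x) = 0 := hx
  obtain ⟨y', hy'⟩ := (redO_eq_zero_iff (incl x)).mp hx'
  have hy'' : (y' : ↥(modularFunctionFieldFull N)) ∈ chartAlg N ℓ S :=
    hcl x.1 x.2 y'.1 y'.2 hy'
  refine ⟨⟨y'.1, hy''⟩, ?_⟩
  apply Subtype.ext
  rw [Subalgebra.coe_mul]
  exact hy'

/-- The abstract core package for one generator `t`. -/
structure CoreFor (t : ↥(modularFunctionFieldFull N)) : Prop where
  mem : t ∈ O ℓ (modularFunctionFieldFull N)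
  tr : Transcendental ℚ t
  cont : ∀ c : ℚ[X], Polynomial.aeval t c ∈ O ℓ (modularFunctionFieldFull N) →
      c ∈ Polynomial.lifts (algebraMap ↥(GaloisRep.ratLocalizedAt ℓ) ℚ)
  intg : ∀ y ∈ O ℓ (modularFunctionFieldFull N), ∃ p : Polynomial ↥(ℚ⟮t⟯), p.Monic ∧
      (∀ i, ((p.coeff i : ↥(ℚ⟮t⟯)) : ↥(modularFunctionFieldFull N)) ∈
        O ℓ (modularFunctionFieldFull N)) ∧ Polynomial.aeval y p = 0

include hval in
/-- **Assembly.**  The three charts from the abstract core for `t = j` and `t = j⁻¹`. -/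
theorem hasRed_three (hFin : CoreFor N ℓ (jFull N)) (hInf : CoreFor N ℓ (jFull N)⁻¹) :
    HasRed' N ℓ {jFull N} ∧ HasRed' N ℓ {(jFull N)⁻¹} ∧
      HasRed' N ℓ {jFull N, (jFull N)⁻¹} := by
  have hclFin := closure_single N ℓ hval (jFull N) hFin.tr hFin.cont hFin.intg
  have hclInf := closure_single N ℓ hval (jFull N)⁻¹ hInf.tr hInf.cont hInf.intg
  refine ⟨hasRed_of_closure N ℓ hval _ ?_ hclFin, hasRed_of_closure N ℓ hval _ ?_ hclInf,
    hasRed_of_closure N ℓ hval _ ?_ ?_⟩
  · intro s hs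
    rw [Set.mem_singleton_iff] at hs
    rw [hs]; exact hFin.mem
  · intro s hs
    rw [Set.mem_singleton_iff] at hs
    rw [hs]; exact hInf.mem
  · intro s hs
    rcases hs with rfl | hs
    · exact hFin.mem
    · rw [Set.mem_singleton_iff] at hs
      rw [hs]; exact hInf.mem
  · exact Fermat.Agent.S28.ChartSteps.mid_of_fin N ℓ (O ℓ (modularFunctionFieldFull N))
      hFin.mem hclFin

end Chart

end Fermat.Agent.S28.QExpHedgeAsm
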