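import Mathlib
import Fermat.Agent.S28.GaussValAbs
import Fermat.Agent.S28.GaussPoly
import Fermat.Agent.S28.QExpHedgeAsm
import Fermat.Agent.S28.ChartDomainOfMain
import Fermat.Agent.S28.DegreeQ

/-!
# S28, block D (hedge, helper7): the q-expansion principle `QExpMainStatement`

Instantiation of helper62's abstract Gauss-valuation core (`GaussValAbs`) with helper23's Gauss
ring `O` (`GaussRing`), helper68's content normal form (`GaussPoly.polyNorm`), and the assembly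
`QExpHedgeAsm.hasRed_three`.
-/

set_option autoImplicit false

open ModularCurve ModularCurve.IgusaScheme IntermediateField Polynomial

namespace Fermat.Agent.S28.QExpHedgeInst

open Fermat.Agent.S28.ZlRes Fermat.Agent.S28.IntLaurent Fermat.Agent.S28.GaussRing
open Fermat.Agent.S28.QExpHedgeAsm

variable (N : ℕ) [NeZero N] (ℓ : ℕ) [Fact ℓ.Prime]

/-! ### `j` as an element of `A` -/

theorem jFull_mem_A : jFull N ∈ A ℓ (modularFunctionFieldFull N) := by
  rw [mem_A_iff]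
  exact Fermat.Agent.S28.HDPackage.jq_mem_IntSub ℓ

/-- `j` as an element of `A`. -/
noncomputable def jA : ↥(A ℓ (modularFunctionFieldFull N)) := ⟨jFull N, jFull_mem_A N ℓ⟩

theorem redA_jA : redA ℓ (modularFunctionFieldFull N) (jA N ℓ) = jqModC (ZMod ℓ) := by
  rw [redA_apply]
  exact Fermat.Agent.S28.HDPackage.redInt_jq ℓ

theorem transcendental_redA_jA :
    Transcendental (ZMod ℓ) (redA ℓ (modularFunctionFieldFull N) (jA N ℓ)) := by
  rw [redA_jA]
  intro halg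
  obtain ⟨P, hP0, hP⟩ := halg
  apply hP0
  apply Fermat.Agent.S28.DescendIndep.eq_zero_of_evalJ_eq_zero
  rw [Fermat.Agent.S28.DescendIndep.evalJ_eq_aeval]
  exact hP

theorem jFull_mem_O : jFull N ∈ O ℓ (modularFunctionFieldFull N) :=
  A_le_O (jFull_mem_A N ℓ)

theorem redO_jFull :
    redO ℓ (modularFunctionFieldFull N) ⟨jFull N, jFull_mem_O N ℓ⟩ = jqModC (ZMod ℓ) := by
  rw [← redA_jA N ℓ]
  exact redO_of_mem_A (jA N ℓ)

theorem jFull_inv_mem_O : (jFull N)⁻¹ ∈ O ℓ (modularFunctionFieldFull N) := by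
  refine inv_mem_O (y := ⟨jFull N, jFull_mem_O N ℓ⟩) ?_
  rw [redO_jFull]
  exact jqModC_ne_zero_of_nontrivial (ZMod ℓ)

/-! ### The two subfields -/

/-- `K₀ = ℚ(j)` as a subfield of `F`. -/
noncomputable abbrev K0 : Subfield ↥(modularFunctionFieldFull N) := (ℚ⟮jFull N⟯).toSubfield

/-- `k₀ = 𝔽_ℓ(j̄)` as a subfield of `𝔽_ℓ((q))`. -/
noncomputable abbrev k0 : Subfield (LaurentSeries (ZMod ℓ)) :=
  ((ZMod ℓ)⟮jqModC (ZMod ℓ)⟯).toSubfield

theorem aeval_jFull_mem_K0 (P : ℚ[X]) : Polynomial.aeval (jFull N) P ∈ K0 N := by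
  show Polynomial.aeval (jFull N) P ∈ ℚ⟮jFull N⟯
  exact IntermediateField.algebra_adjoin_le_adjoin ℚ _
    (Polynomial.aeval_mem_adjoin_singleton ℚ (jFull N))

theorem natCast_mem_K0 : (ℓ : ↥(modularFunctionFieldFull N)) ∈ K0 N :=
  natCast_mem (K0 N) ℓ

theorem adjoin_le_k0 : ∀ z ∈ Algebra.adjoin (ZMod ℓ)
    {redA ℓ (modularFunctionFieldFull N) (jA N ℓ)}, z ∈ k0 ℓ := by
  intro z hz
  show z ∈ (ZMod ℓ)⟮jqModC (ZMod ℓ)⟯
  rw [redA_jA] at hz
  exact IntermediateField.algebra_adjoin_le_adjoin (ZMod ℓ) _ hz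

/-- **Normal form in `ℚ(j)`**: every nonzero `c ∈ ℚ(j)` is `ℓ ^ e * u`, `u ∈ O ∩ ℚ(j)`,
`ū ≠ 0`, `ū ∈ 𝔽_ℓ(j̄)`. -/
theorem hnorm_j : ∀ c ∈ K0 N, c ≠ 0 → ∃ (e : ℤ) (u : ↥(O ℓ (modularFunctionFieldFull N))),
    (u : ↥(modularFunctionFieldFull N)) ∈ K0 N ∧
    redO ℓ (modularFunctionFieldFull N) u ≠ 0 ∧
    redO ℓ (modularFunctionFieldFull N) u ∈ k0 ℓ ∧
    c = (ℓ : ↥(modularFunctionFieldFull N)) ^ e * (u : ↥(modularFunctionFieldFull N)) := by
  intro c hc hc0
  have hℓ0 : (ℓ : ↥(modularFunctionFieldFull N)) ≠ 0 :=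
    Nat.cast_ne_zero.mpr (Fact.out : ℓ.Prime).ne_zero
  obtain ⟨r, s, hrs⟩ := (IntermediateField.mem_adjoin_simple_iff ℚ c).mp hc
  have hs0 : Polynomial.aeval (jFull N) s ≠ 0 := by
    intro h; apply hc0; rw [hrs, h, div_zero]
  have hr0 : Polynomial.aeval (jFull N) r ≠ 0 := by
    intro h; apply hc0; rw [hrs, h, zero_div]
  have hs : s ≠ 0 := by rintro rfl; exact hs0 (map_zero _)
  have hr : r ≠ 0 := by rintro rfl; exact hr0 (map_zero _)
  obtain ⟨e1, w1, hw1, hw1k, hrw, -⟩ :=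
    Fermat.Agent.S28.GaussPoly.polyNorm (jA N ℓ) (transcendental_redA_jA N ℓ) r hr
  obtain ⟨e2, w2, hw2, hw2k, hsw, -⟩ :=
    Fermat.Agent.S28.GaussPoly.polyNorm (jA N ℓ) (transcendental_redA_jA N ℓ) s hs
  have hrw' : Polynomial.aeval (jFull N) r =
      (ℓ : ↥(modularFunctionFieldFull N)) ^ e1 * (w1 : ↥(modularFunctionFieldFull N)) := hrw
  have hsw' : Polynomial.aeval (jFull N) s =
      (ℓ : ↥(modularFunctionFieldFull N)) ^ e2 * (w2 : ↥(modularFunctionFieldFull N)) := hsw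
  have hw20 : (w2 : ↥(modularFunctionFieldFull N)) ≠ 0 := redA_ne_zero_imp_ne_zero hw2
  -- the two units of `O`
  let W1 : ↥(O ℓ (modularFunctionFieldFull N)) := ⟨w1, A_le_O w1.2⟩
  let W2 : ↥(O ℓ (modularFunctionFieldFull N)) := ⟨w2, A_le_O w2.2⟩
  have hW1 : redO ℓ (modularFunctionFieldFull N) W1 = redA ℓ (modularFunctionFieldFull N) w1 :=
    redO_of_mem_A w1
  have hW2 : redO ℓ (modularFunctionFieldFull N) W2 = redA ℓ (modularFunctionFieldFull N) w2 :=
    redO_of_mem_A w2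
  have hW2inv : ((w2 : ↥(modularFunctionFieldFull N)))⁻¹ ∈ O ℓ (modularFunctionFieldFull N) :=
    inv_mem_O (y := W2) (by rw [hW2]; exact hw2)
  let u : ↥(O ℓ (modularFunctionFieldFull N)) := W1 * ⟨_, hW2inv⟩
  have hu : (u : ↥(modularFunctionFieldFull N)) =
      (w1 : ↥(modularFunctionFieldFull N)) * ((w2 : ↥(modularFunctionFieldFull N)))⁻¹ := rfl
  have hmul : u * W2 = W1 := by
    apply Subtype.ext
    show (w1 : ↥(modularFunctionFieldFull N)) * ((w2 : ↥(modularFunctionFieldFull N)))⁻¹ *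
      (w2 : ↥(modularFunctionFieldFull N)) = (w1 : ↥(modularFunctionFieldFull N))
    rw [mul_assoc, inv_mul_cancel₀ hw20, mul_one]
  have hred : redO ℓ (modularFunctionFieldFull N) u =
      redA ℓ (modularFunctionFieldFull N) w1 / redA ℓ (modularFunctionFieldFull N) w2 := by
    rw [eq_div_iff hw2, ← hW2, ← map_mul, hmul, hW1]
  have hw1K : (w1 : ↥(modularFunctionFieldFull N)) ∈ K0 N := by
    have : (w1 : ↥(modularFunctionFieldFull N)) =
        ((ℓ : ↥(modularFunctionFieldFull N)) ^ e1)⁻¹ * Polynomial.aeval (jFull N) r := by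
      rw [hrw', inv_mul_cancel_left₀ (zpow_ne_zero _ hℓ0)]
    rw [this]
    exact (K0 N).mul_mem ((K0 N).inv_mem ((K0 N).zpow_mem (natCast_mem_K0 N ℓ) e1))
      (aeval_jFull_mem_K0 N r)
  have hw2K : (w2 : ↥(modularFunctionFieldFull N)) ∈ K0 N := by
    have : (w2 : ↥(modularFunctionFieldFull N)) =
        ((ℓ : ↥(modularFunctionFieldFull N)) ^ e2)⁻¹ * Polynomial.aeval (jFull N) s := by
      rw [hsw', inv_mul_cancel_left₀ (zpow_ne_zero _ hℓ0)]
    rw [this]
    exact (K0 N).mul_mem ((K0 N).inv_mem ((K0 N).zpow_mem (natCast_mem_K0 N ℓ) e2))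
      (aeval_jFull_mem_K0 N s)
  refine ⟨e1 - e2, u, ?_, ?_, ?_, ?_⟩
  · rw [hu]
    exact (K0 N).mul_mem hw1K ((K0 N).inv_mem hw2K)
  · rw [hred]
    exact div_ne_zero hw1 hw2
  · rw [hred]
    exact (k0 ℓ).div_mem (adjoin_le_k0 N ℓ _ hw1k) (adjoin_le_k0 N ℓ _ hw2k)
  · rw [hrs, hrw', hsw', hu, zpow_sub₀ hℓ0]
    field_simp

/-! ### Instantiating the abstract core -/

section Inst

variable {N ℓ}
variable {n : ℕ} (x : Fin n → ↥(modularFunctionFieldFull N))
  (hint : ∀ i, ((x i : ↥(modularFunctionFieldFull N)) : LaurentSeries ℚ) ∈ IntSub ℓ)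
  (hspan : Submodule.span ↥(ℚ⟮jFull N⟯) (Set.range x) = ⊤)
  (hind : LinearIndependent ↥((ZMod ℓ)⟮jqModC (ZMod ℓ)⟯)
      (fun i => redInt ℓ ⟨((x i : ↥(modularFunctionFieldFull N)) : LaurentSeries ℚ), hint i⟩))

/-- the family `x` inside `O`. -/
noncomputable def xO (i : Fin n) : ↥(O ℓ (modularFunctionFieldFull N)) :=
  ⟨x i, A_le_O (hint i)⟩

theorem redO_xO (i : Fin n) : redO ℓ (modularFunctionFieldFull N) (xO x hint i) =
    redInt ℓ ⟨((x i : ↥(modularFunctionFieldFull N)) : LaurentSeries ℚ), hint i⟩ :=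
  redO_of_mem_A (⟨x i, hint i⟩ : ↥(A ℓ (modularFunctionFieldFull N)))

include hspan in
theorem hspan' : ∀ z : ↥(modularFunctionFieldFull N), ∃ c : Fin n → ↥(modularFunctionFieldFull N),
    (∀ i, c i ∈ K0 N) ∧ z = ∑ i, c i * ((xO x hint i : ↥(O ℓ (modularFunctionFieldFull N))) :
      ↥(modularFunctionFieldFull N)) := by
  intro z
  have hz : z ∈ Submodule.span ↥(ℚ⟮jFull N⟯) (Set.range x) := by rw [hspan]; trivial
  obtain ⟨c, hc⟩ := (Submodule.mem_span_range_iff_exists_fun _).mp hz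
  refine ⟨fun i => (c i : ↥(modularFunctionFieldFull N)), fun i => (c i).2, ?_⟩
  rw [← hc]
  refine Finset.sum_congr rfl fun i _ => ?_
  rw [IntermediateField.smul_def, smul_eq_mul]
  rfl

include hind in
theorem hind' : LinearIndependent ↥(k0 ℓ)
    (fun i => redO ℓ (modularFunctionFieldFull N) (xO x hint i)) := by
  have h1 : (fun i => redO ℓ (modularFunctionFieldFull N) (xO x hint i)) =
      (fun i => redInt ℓ ⟨((x i : ↥(modularFunctionFieldFull N)) : LaurentSeries ℚ), hint i⟩) :=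
    funext fun i => redO_xO x hint i
  rw [h1]
  rw [Fintype.linearIndependent_iff] at hind ⊢
  intro g hg i
  have h2 := hind (fun i => (⟨(g i : LaurentSeries (ZMod ℓ)), (g i).2⟩ :
    ↥((ZMod ℓ)⟮jqModC (ZMod ℓ)⟯))) (by
      rw [← hg]
      refine Finset.sum_congr rfl fun i _ => ?_
      rw [IntermediateField.smul_def, Subfield.smul_def]) i
  exact Subtype.ext (congrArg Subtype.val h2)

end Inst

section Inst2

variable {N ℓ}
variable {n : ℕ} (x : Fin n → ↥(modularFunctionFieldFull N))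
  (hint : ∀ i, ((x i : ↥(modularFunctionFieldFull N)) : LaurentSeries ℚ) ∈ IntSub ℓ)
  (hspan : Submodule.span ↥(ℚ⟮jFull N⟯) (Set.range x) = ⊤)
  (hind : LinearIndependent ↥((ZMod ℓ)⟮jqModC (ZMod ℓ)⟯)
      (fun i => redInt ℓ ⟨((x i : ↥(modularFunctionFieldFull N)) : LaurentSeries ℚ), hint i⟩))

theorem ell_ne_zero : (ℓ : ↥(modularFunctionFieldFull N)) ≠ 0 :=
  Nat.cast_ne_zero.mpr (Fact.out : ℓ.Prime).ne_zero

theorem ell_mem_O : (ℓ : ↥(modularFunctionFieldFull N)) ∈ O ℓ (modularFunctionFieldFull N) :=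
  natCast_mem (O ℓ (modularFunctionFieldFull N)) ℓ

include hspan hind in
/-- `O` is a valuation ring of `F`. -/
theorem hval (y : ↥(modularFunctionFieldFull N)) :
    y ∈ O ℓ (modularFunctionFieldFull N) ∨ y⁻¹ ∈ O ℓ (modularFunctionFieldFull N) :=
  Fermat.Agent.S28.GaussValAbs.mem_or_inv_mem_O (k₀ := k0 ℓ) (x := xO x hint)
    ell_ne_zero ell_mem_O (fun y => redO_eq_zero_iff y) (fun y hy => inv_mem_O hy)
    (natCast_mem_K0 N ℓ) (hnorm_j N ℓ) (hspan' x hint hspan) (hind' x hint hind) y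

include hspan hind in
/-- every element of `O` is a root of a monic polynomial over `ℚ(j)` with coefficients in `O`. -/
theorem exists_monic (y : ↥(modularFunctionFieldFull N))
    (hy : y ∈ O ℓ (modularFunctionFieldFull N)) :
    ∃ P : Polynomial ↥(K0 N), P.Monic ∧
      (∀ i, ((P.coeff i : ↥(K0 N)) : ↥(modularFunctionFieldFull N)) ∈
        O ℓ (modularFunctionFieldFull N)) ∧
      Polynomial.eval₂ (K0 N).subtype y P = 0 :=
  Fermat.Agent.S28.GaussValAbs.exists_monic_of_mem (k₀ := k0 ℓ) (x := xO x hint)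
    ell_ne_zero ell_mem_O (fun y => redO_eq_zero_iff y)
    (natCast_mem_K0 N ℓ) (hnorm_j N ℓ) (hspan' x hint hspan) (hind' x hint hind) y hy

include hspan hind in
/-- the integrality clause of `CoreFor t` for any `t` with `ℚ(j) ≤ ℚ(t)`. -/
theorem intg_of_le (t : ↥(modularFunctionFieldFull N)) (hle : ℚ⟮jFull N⟯ ≤ ℚ⟮t⟯) :
    ∀ y ∈ O ℓ (modularFunctionFieldFull N), ∃ p : Polynomial ↥(ℚ⟮t⟯), p.Monic ∧
      (∀ i, ((p.coeff i : ↥(ℚ⟮t⟯)) : ↥(modularFunctionFieldFull N)) ∈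
        O ℓ (modularFunctionFieldFull N)) ∧ Polynomial.aeval y p = 0 := by
  intro y hy
  obtain ⟨P, hP1, hP2, hP3⟩ := exists_monic x hint hspan hind y hy
  let ι : ↥(K0 N) →+* ↥(ℚ⟮t⟯) :=
    { toFun := fun c => ⟨(c : ↥(modularFunctionFieldFull N)), hle c.2⟩
      map_one' := rfl
      map_mul' := fun _ _ => rfl
      map_zero' := rfl
      map_add' := fun _ _ => rfl }
  refine ⟨P.map ι, hP1.map ι, fun i => ?_, ?_⟩
  · rw [Polynomial.coeff_map]
    exact hP2 i
  · rw [Polynomial.aeval_def, Polynomial.eval₂_map]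
    exact hP3

/-- Gauss content for `t = j`. -/
theorem cont_j : ∀ c : ℚ[X], Polynomial.aeval (jFull N) c ∈ O ℓ (modularFunctionFieldFull N) →
    c ∈ Polynomial.lifts (algebraMap ↥(GaloisRep.ratLocalizedAt ℓ) ℚ) := by
  intro c hc
  by_cases hc0 : c = 0
  · rw [hc0]; exact (Polynomial.lifts _).zero_mem
  obtain ⟨e, w, hw, -, hcw, hlift⟩ :=
    Fermat.Agent.S28.GaussPoly.polyNorm (jA N ℓ) (transcendental_redA_jA N ℓ) c hc0
  have hcw' : Polynomial.aeval (jFull N) c =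
      (ℓ : ↥(modularFunctionFieldFull N)) ^ e * (w : ↥(modularFunctionFieldFull N)) := hcw
  apply hlift
  by_contra hneg
  have hneg : e < 0 := not_le.1 hneg
  apply hw
  obtain ⟨m, hm⟩ : ∃ m : ℕ, -e = (m : ℤ) + 1 := ⟨(-e - 1).toNat, by
    rw [Int.toNat_of_nonneg (by linarith)]; ring⟩
  have hℓ0 : (ℓ : ↥(modularFunctionFieldFull N)) ≠ 0 := ell_ne_zero
  have h1 : (w : ↥(modularFunctionFieldFull N)) =
      (ℓ : ↥(modularFunctionFieldFull N)) *
        ((ℓ : ↥(modularFunctionFieldFull N)) ^ m * Polynomial.aeval (jFull N) c) := by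
    have h2 : (w : ↥(modularFunctionFieldFull N)) =
        (ℓ : ↥(modularFunctionFieldFull N)) ^ (-e) * Polynomial.aeval (jFull N) c := by
      rw [hcw', ← mul_assoc, ← zpow_add₀ hℓ0, neg_add_cancel, zpow_zero, one_mul]
    rw [h2, hm, zpow_add₀ hℓ0, zpow_one, zpow_natCast]
    ring
  have h3 : redO ℓ (modularFunctionFieldFull N) ⟨w, A_le_O w.2⟩ = 0 := by
    rw [redO_eq_zero_iff]
    exact ⟨⟨_, (O ℓ (modularFunctionFieldFull N)).mul_mem
      ((O ℓ (modularFunctionFieldFull N)).pow_mem ell_mem_O m) hc⟩, h1⟩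
  rw [← redO_of_mem_A w]
  exact h3

end Inst2

section Inv

variable {N ℓ}

theorem lifts_reflect {R S : Type*} [Semiring R] [Semiring S] (f : R →+* S) (d : ℕ) {p : S[X]}
    (hp : p ∈ Polynomial.lifts f) : p.reflect d ∈ Polynomial.lifts f := by
  rw [Polynomial.lifts_iff_coeff_lifts] at hp ⊢
  intro i
  rw [Polynomial.coeff_reflect]
  exact hp _

theorem reflect_reflect {R : Type*} [Semiring R] (d : ℕ) (p : R[X]) :
    (p.reflect d).reflect d = p := by
  ext i
  rw [Polynomial.coeff_reflect, Polynomial.coeff_reflect, Polynomial.revAt_invol]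

/-- Gauss content for `t = j⁻¹`. -/
theorem cont_jinv : ∀ c : ℚ[X],
    Polynomial.aeval (jFull N)⁻¹ c ∈ O ℓ (modularFunctionFieldFull N) →
    c ∈ Polynomial.lifts (algebraMap ↥(GaloisRep.ratLocalizedAt ℓ) ℚ) := by
  intro c hc
  have hj0 : jFull N ≠ 0 := jFull_ne_zero N
  letI : Invertible (jFull N)⁻¹ := invertibleOfNonzero (inv_ne_zero hj0)
  have hinv : ⅟((jFull N)⁻¹) = jFull N := by
    rw [invOf_eq_inv, inv_inv]
  have h1 := Polynomial.eval₂_reflect_mul_pow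
    (algebraMap ℚ ↥(modularFunctionFieldFull N)) ((jFull N)⁻¹) c.natDegree c le_rfl
  rw [hinv] at h1
  -- `(reflect c)(j) = j ^ d * c(j⁻¹)`
  have h2 : Polynomial.aeval (jFull N) (c.reflect c.natDegree) =
      jFull N ^ c.natDegree * Polynomial.aeval (jFull N)⁻¹ c := by
    rw [Polynomial.aeval_def, Polynomial.aeval_def, ← h1, inv_pow]
    field_simp
  have h3 : Polynomial.aeval (jFull N) (c.reflect c.natDegree) ∈
      O ℓ (modularFunctionFieldFull N) := by
    rw [h2]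
    exact (O ℓ (modularFunctionFieldFull N)).mul_mem
      ((O ℓ (modularFunctionFieldFull N)).pow_mem (jFull_mem_O N ℓ) _) hc
  have h4 := lifts_reflect (algebraMap ↥(GaloisRep.ratLocalizedAt ℓ) ℚ) c.natDegree
    (cont_j (N := N) (ℓ := ℓ) _ h3)
  rwa [reflect_reflect] at h4

theorem transcendental_jFull_inv : Transcendental ℚ (jFull N)⁻¹ := by
  intro h
  exact Fermat.Agent.S28.DegreeQ.transcendental_jFull N (by simpa using h.inv)

theorem adjoin_j_le_adjoin_jinv : ℚ⟮jFull N⟯ ≤ ℚ⟮(jFull N)⁻¹⟯ := by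
  rw [IntermediateField.adjoin_simple_le_iff]
  have h : (jFull N)⁻¹ ∈ ℚ⟮(jFull N)⁻¹⟯ := IntermediateField.mem_adjoin_simple_self ℚ _
  simpa using (ℚ⟮(jFull N)⁻¹⟯).inv_mem h

end Inv

/-- **The q-expansion principle** (block D.valuation), hedge version. -/
theorem qExpMain : Fermat.Agent.S28.ChartDomainOfMain.QExpMainStatement := by
  intro N _ ℓ _ x hint hspan hind
  have hv := hval x hint hspan hind
  have hFin : CoreFor N ℓ (jFull N) :=
    { mem := jFull_mem_O N ℓ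
      tr := Fermat.Agent.S28.DegreeQ.transcendental_jFull N
      cont := cont_j
      intg := intg_of_le x hint hspan hind (jFull N) le_rfl }
  have hInf : CoreFor N ℓ (jFull N)⁻¹ :=
    { mem := jFull_inv_mem_O N ℓ
      tr := transcendental_jFull_inv
      cont := cont_jinv
      intg := intg_of_le x hint hspan hind (jFull N)⁻¹ adjoin_j_le_adjoin_jinv }
  exact hasRed_three N ℓ hv hFin hInf

end Fermat.Agent.S28.QExpHedgeInst
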