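/-
S28 block D (helper11): the q-expansion principle, closed form `QExpMainStatement`,
by instantiating helper23's `GaussVal` (Gauss ring is a valuation ring, integrality over `V`,
Gauss content) at `t = j` and `t = j⁻¹` and feeding helper7's chart assembly `QExpHedgeAsm`.
-/
import Mathlib
import Fermat.Agent.S28.ChartDomainOfMain
import Fermat.Agent.S28.GaussVal
import Fermat.Agent.S28.QExpHedgeAsm

set_option autoImplicit false

open IntermediateField ModularCurve ModularCurve.IgusaScheme Polynomial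

namespace Fermat.Agent.S28.QExpMainB

open Fermat.Agent.S28.ZlRes Fermat.Agent.S28.IntLaurent Fermat.Agent.S28.GaussRing

/-! ### facts about `j` and `j⁻¹` -/

section JFacts

variable (ℓ : ℕ) [hℓ : Fact ℓ.Prime]

/-- `jqModC ℤ` is a unit of `LaurentSeries ℤ`. -/
lemma isUnit_jqModC_int : IsUnit (jqModC ℤ) := by
  unfold jqModC
  refine IsUnit.mul ?_ ?_
  · refine ⟨⟨HahnSeries.single (-1 : ℤ) (1:ℤ), HahnSeries.single (1 : ℤ) (1:ℤ), ?_, ?_⟩, rfl⟩
    · rw [HahnSeries.single_mul_single]; simp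
    · rw [HahnSeries.single_mul_single]; simp
  · apply IsUnit.map (HahnSeries.ofPowerSeries ℤ ℤ)
    rw [PowerSeries.isUnit_iff_constantCoeff, ← PowerSeries.coeff_zero_eq_constantCoeff,
      PowerSeries.coeff_map, PowerSeries.coeff_zero_eq_constantCoeff, constantCoeff_jNum]
    simp

/-- the inverse of `jqModC K` (for a field `K`) is the image of the inverse of `jqModC ℤ`. -/
lemma jqModC_inv_eq (K : Type*) [Field K] (u : (LaurentSeries ℤ)ˣ)
    (hu : (u : LaurentSeries ℤ) = jqModC ℤ) :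
    (jqModC K)⁻¹ =
      coeffMap (Int.castRingHom K) ((u⁻¹ : (LaurentSeries ℤ)ˣ) : LaurentSeries ℤ) := by
  have h1 : coeffMap (Int.castRingHom K) (u : LaurentSeries ℤ) = jqModC K := by
    rw [hu, coeffMap_jqModC]
  have h2 : jqModC K *
      coeffMap (Int.castRingHom K) ((u⁻¹ : (LaurentSeries ℤ)ˣ) : LaurentSeries ℤ) = 1 := by
    rw [← h1, ← map_mul, Units.mul_inv, map_one]
  exact inv_eq_of_mul_eq_one_right h2

lemma jq_inv_mem_IntSub : ((jqModC ℚ)⁻¹ : LaurentSeries ℚ) ∈ IntSub ℓ := by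
  obtain ⟨u, hu⟩ := isUnit_jqModC_int
  rw [jqModC_inv_eq ℚ u hu]
  exact Fermat.Agent.S28.HDPackage.coeffMap_int_mem_IntSub ℓ _

lemma redInt_jq_inv :
    redInt ℓ ⟨((jqModC ℚ)⁻¹ : LaurentSeries ℚ), jq_inv_mem_IntSub ℓ⟩ = (jqModC (ZMod ℓ))⁻¹ := by
  obtain ⟨u, hu⟩ := isUnit_jqModC_int
  have h : (⟨((jqModC ℚ)⁻¹ : LaurentSeries ℚ), jq_inv_mem_IntSub ℓ⟩ : ↥(IntSub ℓ))
      = ⟨coeffMap (Int.castRingHom ℚ) ((u⁻¹ : (LaurentSeries ℤ)ˣ) : LaurentSeries ℤ),
          Fermat.Agent.S28.HDPackage.coeffMap_int_mem_IntSub ℓ _⟩ := by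
    apply Subtype.ext
    exact jqModC_inv_eq ℚ u hu
  rw [h, Fermat.Agent.S28.HDPackage.redInt_coeffMap_int, ← jqModC_inv_eq (ZMod ℓ) u hu]

lemma transcendental_jqModC' (k : Type*) [Field k] : Transcendental k (jqModC k) := by
  rw [transcendental_iff]
  intro p hp
  apply Fermat.Agent.S28.DescendIndep.eq_zero_of_evalJ_eq_zero
  rw [Fermat.Agent.S28.DescendIndep.evalJ_eq_aeval]
  exact hp

lemma transcendental_inv' {k E : Type*} [Field k] [Field E] [Algebra k E] {a : E}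
    (ha : Transcendental k a) : Transcendental k a⁻¹ := by
  intro h
  apply ha
  have := h.inv
  rwa [inv_inv] at this

lemma adjoin_inv_eq' {k E : Type*} [Field k] [Field E] [Algebra k E] (a : E) :
    k⟮a⁻¹⟯ = k⟮a⟯ := by
  apply le_antisymm
  · rw [IntermediateField.adjoin_simple_le_iff]
    exact inv_mem (IntermediateField.mem_adjoin_simple_self k a)
  · rw [IntermediateField.adjoin_simple_le_iff]
    have := inv_mem (IntermediateField.mem_adjoin_simple_self k a⁻¹)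
    rwa [inv_inv] at this

end JFacts

/-! ### the two parameters as elements of `A` -/

section Params

variable (N : ℕ) [NeZero N] (ℓ : ℕ) [hℓ : Fact ℓ.Prime]

lemma jFull_mem_A : jFull N ∈ A ℓ (modularFunctionFieldFull N) := by
  rw [mem_A_iff]
  exact Fermat.Agent.S28.HDPackage.jq_mem_IntSub ℓ

lemma jFull_inv_mem_A : (jFull N)⁻¹ ∈ A ℓ (modularFunctionFieldFull N) := by
  rw [mem_A_iff]
  have : (((jFull N)⁻¹ : ↥(modularFunctionFieldFull N)) : LaurentSeries ℚ) = (jqModC ℚ)⁻¹ := rfl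
  rw [this]
  exact jq_inv_mem_IntSub ℓ

/-- `t = j` -/
noncomputable def tJ : ↥(A ℓ (modularFunctionFieldFull N)) := ⟨jFull N, jFull_mem_A N ℓ⟩

/-- `t = j⁻¹` -/
noncomputable def tI : ↥(A ℓ (modularFunctionFieldFull N)) := ⟨(jFull N)⁻¹, jFull_inv_mem_A N ℓ⟩

lemma redA_tJ : redA ℓ (modularFunctionFieldFull N) (tJ N ℓ) = jqModC (ZMod ℓ) :=
  Fermat.Agent.S28.HDPackage.redInt_jq ℓ

lemma redA_tI : redA ℓ (modularFunctionFieldFull N) (tI N ℓ) = (jqModC (ZMod ℓ))⁻¹ :=
  redInt_jq_inv ℓ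

lemma htr_tJ : Transcendental (ZMod ℓ) (redA ℓ (modularFunctionFieldFull N) (tJ N ℓ)) := by
  rw [redA_tJ]; exact transcendental_jqModC' _

lemma htr_tI : Transcendental (ZMod ℓ) (redA ℓ (modularFunctionFieldFull N) (tI N ℓ)) := by
  rw [redA_tI]; exact transcendental_inv' (transcendental_jqModC' _)

end Params

/-! ### transports of the hypotheses `HD` -/

section Transport

lemma span_transport {K E : Type*} [Field K] [Field E] [Algebra K E] {ι : Type*} (x : ι → E)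
    (L L' : IntermediateField K E) (h : L = L')
    (hspan : Submodule.span ↥L (Set.range x) = ⊤) :
    Submodule.span ↥L' (Set.range x) = ⊤ := by
  subst h; exact hspan

lemma hind_elementwise {k E : Type*} [Field k] [Field E] [Algebra k E] {n : ℕ}
    (L : IntermediateField k E) (v : Fin n → E) (h : LinearIndependent ↥L v)
    (r : Fin n → E) (hr : ∀ i, r i ∈ L) (hsum : ∑ i, r i * v i = 0) : ∀ i, r i = 0 := by
  rw [Fintype.linearIndependent_iff] at h
  have := h (fun i => ⟨r i, hr i⟩) (by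
    rw [← hsum]
    exact Finset.sum_congr rfl fun i _ => rfl)
  intro i
  exact congrArg Subtype.val (this i)

end Transport

/-! ### the main statement -/

theorem qExpMain : Fermat.Agent.S28.ChartDomainOfMain.QExpMainStatement := by
  intro N _ ℓ _ x hint hspan hind
  have hxA : ∀ i, x i ∈ A ℓ (modularFunctionFieldFull N) := hint
  -- `t = j`
  have hspanJ : Submodule.span
      ↥ℚ⟮((tJ N ℓ : ↥(A ℓ (modularFunctionFieldFull N))) : ↥(modularFunctionFieldFull N))⟯
      (Set.range x) = ⊤ := hspan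
  have hindJ : ∀ r : Fin (dedekindPsi N) → LaurentSeries (ZMod ℓ),
      (∀ i, r i ∈ (ZMod ℓ)⟮redA ℓ (modularFunctionFieldFull N) (tJ N ℓ)⟯) →
      ∑ i, r i * redA ℓ (modularFunctionFieldFull N) ⟨x i, hxA i⟩ = 0 → ∀ i, r i = 0 := by
    intro r hr hsum
    rw [redA_tJ] at hr
    exact hind_elementwise _ _ hind r hr hsum
  -- `t = j⁻¹`
  have hspanI : Submodule.span
      ↥ℚ⟮((tI N ℓ : ↥(A ℓ (modularFunctionFieldFull N))) : ↥(modularFunctionFieldFull N))⟯
      (Set.range x) = ⊤ :=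
    span_transport x _ _ (adjoin_inv_eq' (k := ℚ) (jFull N)).symm hspan
  have hindI : ∀ r : Fin (dedekindPsi N) → LaurentSeries (ZMod ℓ),
      (∀ i, r i ∈ (ZMod ℓ)⟮redA ℓ (modularFunctionFieldFull N) (tI N ℓ)⟯) →
      ∑ i, r i * redA ℓ (modularFunctionFieldFull N) ⟨x i, hxA i⟩ = 0 → ∀ i, r i = 0 := by
    intro r hr hsum
    rw [redA_tI, adjoin_inv_eq'] at hr
    exact hind_elementwise _ _ hind r hr hsum
  have hval := Fermat.Agent.S28.GaussVal.mem_or_inv_mem (tJ N ℓ) (htr_tJ N ℓ) x hxA hspanJ hindJ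
  have hFin : Fermat.Agent.S28.QExpHedgeAsm.CoreFor N ℓ (jFull N) :=
    ⟨A_le_O (tJ N ℓ).2, Fermat.Agent.S28.DegreeQ.transcendental_jFull N,
      Fermat.Agent.S28.GaussVal.lifts_of_mem (tJ N ℓ) (htr_tJ N ℓ),
      fun y hy => Fermat.Agent.S28.GaussVal.exists_monic (tJ N ℓ) (htr_tJ N ℓ) x hxA hspanJ hindJ hy⟩
  have hInf : Fermat.Agent.S28.QExpHedgeAsm.CoreFor N ℓ (jFull N)⁻¹ :=
    ⟨A_le_O (tI N ℓ).2, transcendental_inv' (Fermat.Agent.S28.DegreeQ.transcendental_jFull N),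
      Fermat.Agent.S28.GaussVal.lifts_of_mem (tI N ℓ) (htr_tI N ℓ),
      fun y hy => Fermat.Agent.S28.GaussVal.exists_monic (tI N ℓ) (htr_tI N ℓ) x hxA hspanI hindI hy⟩
  exact Fermat.Agent.S28.QExpHedgeAsm.hasRed_three N ℓ hval hFin hInf

end Fermat.Agent.S28.QExpMainB
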