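import Mathlib
import Fermat.Agent.S28.GaussVal
import Fermat.Agent.S28.JInst
import Fermat.Agent.S28.QExpHedgeAsm
import Fermat.Agent.S28.ChartDomainOfMain

/-!
# S28, block D: the q-expansion principle `QExpMainStatement`

Glue of the landed pieces: `GaussVal` (helper23: `O` valuation ring, content, integrality over
`V = O ∩ ℚ(t)`), `JInst` (helper76: `j`, `j⁻¹` are `ℓ`-integral with transcendental reductions),
`QExpHedgeAsm` (helper7: the three charts from the core package for `t = j` and `t = j⁻¹`).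
-/

set_option autoImplicit false

open IntermediateField ModularCurve ModularCurve.IgusaScheme Polynomial

namespace Fermat.Agent.S28.QExpMainC

open Fermat.Agent.S28.IntLaurent Fermat.Agent.S28.GaussRing Fermat.Agent.S28.GaussVal
  Fermat.Agent.S28.QExpHedgeAsm Fermat.Agent.S28.ChartDomainOfMain

variable (N : ℕ) [NeZero N] (ℓ : ℕ) [Fact ℓ.Prime]

/-- `j` as an element of `A` (the `ℓ`-integral elements of `F`). -/
noncomputable def tJ : ↥(A ℓ (modularFunctionFieldFull N)) :=
  ⟨jFull N, Fermat.Agent.S28.JInst.jq_mem_IntSub ℓ⟩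

/-- `j⁻¹` as an element of `A`. -/
noncomputable def tJinv : ↥(A ℓ (modularFunctionFieldFull N)) :=
  ⟨(jFull N)⁻¹, Fermat.Agent.S28.JInst.jq_inv_mem_IntSub ℓ⟩

theorem redA_tJ : redA ℓ (modularFunctionFieldFull N) (tJ N ℓ) = jqModC (ZMod ℓ) :=
  Fermat.Agent.S28.JInst.redInt_jq ℓ

theorem redA_tJinv : redA ℓ (modularFunctionFieldFull N) (tJinv N ℓ) = (jqModC (ZMod ℓ))⁻¹ :=
  Fermat.Agent.S28.JInst.redInt_jq_inv ℓ

theorem transcendental_jFull_inv : Transcendental ℚ (jFull N)⁻¹ := fun h =>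
  Fermat.Agent.S28.DegreeQ.transcendental_jFull N (IsAlgebraic.inv_iff.mp h)

/-- Transport of a spanning statement along an equality of coefficient fields. -/
theorem span_top_congr {E : Type*} [Field E] [Algebra ℚ E] {K₁ K₂ : IntermediateField ℚ E}
    (h : K₁ = K₂) (s : Set E) (hs : Submodule.span ↥K₁ s = ⊤) : Submodule.span ↥K₂ s = ⊤ := by
  subst h
  exact hs

section Core

variable {N ℓ}
variable (t : ↥(A ℓ (modularFunctionFieldFull N)))
  (hK : (ZMod ℓ)⟮redA ℓ (modularFunctionFieldFull N) t⟯ = (ZMod ℓ)⟮jqModC (ZMod ℓ)⟯)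
  {n : ℕ} (x : Fin n → ↥(modularFunctionFieldFull N))
  (hint : ∀ i, ((x i : ↥(modularFunctionFieldFull N)) : LaurentSeries ℚ) ∈ IntSub ℓ)
  (hind : LinearIndependent ↥((ZMod ℓ)⟮jqModC (ZMod ℓ)⟯)
    (fun i => redInt ℓ ⟨((x i : ↥(modularFunctionFieldFull N)) : LaurentSeries ℚ), hint i⟩))

omit [NeZero N] in
include hK hind in
/-- The independence hypothesis in the form used by `GaussVal`. -/
theorem hind_conv (r : Fin n → LaurentSeries (ZMod ℓ))
    (hr : ∀ i, r i ∈ (ZMod ℓ)⟮redA ℓ (modularFunctionFieldFull N) t⟯)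
    (hsum : ∑ i, r i * redA ℓ (modularFunctionFieldFull N) ⟨x i, hint i⟩ = 0) :
    ∀ i, r i = 0 := by
  intro i
  rw [linearIndependent_iff'] at hind
  have hr' : ∀ i, r i ∈ (ZMod ℓ)⟮jqModC (ZMod ℓ)⟯ := fun i => hK ▸ hr i
  have h := hind Finset.univ (fun i => ⟨r i, hr' i⟩) (by
    rw [← hsum]
    refine Finset.sum_congr rfl fun i _ => ?_
    rw [IntermediateField.smul_def, smul_eq_mul]
    rfl) i (Finset.mem_univ i)
  exact congrArg Subtype.val h

end Core

/-- **The q-expansion principle** (block D.valuation, closed form). -/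
theorem qExpMain : QExpMainStatement := by
  intro N _ ℓ _ x hint hspan hind
  -- the two generators
  have htrJ : Transcendental (ZMod ℓ) (redA ℓ (modularFunctionFieldFull N) (tJ N ℓ)) := by
    rw [redA_tJ]
    exact Fermat.Agent.S28.JInst.transcendental_jqModC (ZMod ℓ)
  have htrJinv : Transcendental (ZMod ℓ) (redA ℓ (modularFunctionFieldFull N) (tJinv N ℓ)) := by
    rw [redA_tJinv]
    exact Fermat.Agent.S28.JInst.transcendental_jqModC_inv (ZMod ℓ)
  have hKJ : (ZMod ℓ)⟮redA ℓ (modularFunctionFieldFull N) (tJ N ℓ)⟯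
      = (ZMod ℓ)⟮jqModC (ZMod ℓ)⟯ := by rw [redA_tJ]
  have hKJinv : (ZMod ℓ)⟮redA ℓ (modularFunctionFieldFull N) (tJinv N ℓ)⟯
      = (ZMod ℓ)⟮jqModC (ZMod ℓ)⟯ := by
    rw [redA_tJinv]
    exact Fermat.Agent.S28.JInst.adjoin_inv_eq _ _ _
  have hindJ := hind_conv (tJ N ℓ) hKJ x hint hind
  have hindJinv := hind_conv (tJinv N ℓ) hKJinv x hint hind
  have hspanJ : Submodule.span ℚ⟮((tJ N ℓ : ↥(A ℓ (modularFunctionFieldFull N))) :
      ↥(modularFunctionFieldFull N))⟯ (Set.range x) = ⊤ := hspan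
  have hspanJinv : Submodule.span ℚ⟮((tJinv N ℓ : ↥(A ℓ (modularFunctionFieldFull N))) :
      ↥(modularFunctionFieldFull N))⟯ (Set.range x) = ⊤ :=
    span_top_congr (Fermat.Agent.S28.JInst.adjoin_inv_eq ℚ _ (jFull N)).symm _ hspan
  -- `O` is a valuation ring
  have hval := mem_or_inv_mem (tJ N ℓ) htrJ x hint hspanJ hindJ
  -- the two core packages
  have hFin : CoreFor N ℓ (jFull N) :=
    { mem := A_le_O (tJ N ℓ).2
      tr := Fermat.Agent.S28.DegreeQ.transcendental_jFull N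
      cont := lifts_of_mem (tJ N ℓ) htrJ
      intg := fun y hy => exists_monic (tJ N ℓ) htrJ x hint hspanJ hindJ hy }
  have hInf : CoreFor N ℓ (jFull N)⁻¹ :=
    { mem := A_le_O (tJinv N ℓ).2
      tr := transcendental_jFull_inv N
      cont := lifts_of_mem (tJinv N ℓ) htrJinv
      intg := fun y hy => exists_monic (tJinv N ℓ) htrJinv x hint hspanJinv hindJinv hy }
  exact hasRed_three N ℓ hval hFin hInf

end Fermat.Agent.S28.QExpMainC
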