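/-
S28 block D hedge (helper11): normal form of `ℚ(t)` inside the Gauss ring and Gauss content,
generic in `F ⊂ ℚ((q))` and in an `ℓ`-integral `t` with transcendental reduction.
-/
import Mathlib
import Fermat.Agent.S28.GaussPoly

set_option autoImplicit false

open IntermediateField ModularCurve Polynomial

namespace Fermat.Agent.S28.QExpNormB

open Fermat.Agent.S28.ZlRes Fermat.Agent.S28.IntLaurent Fermat.Agent.S28.GaussRing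

section Norm

variable {ℓ : ℕ} [hℓ : Fact ℓ.Prime] {F : IntermediateField ℚ (LaurentSeries ℚ)}

lemma natCast_mem_O (n : ℕ) : (n : ↥F) ∈ O ℓ F := _root_.natCast_mem _ n

lemma redO_natCast_self : redO ℓ F ⟨(ℓ : ↥F), natCast_mem_O ℓ⟩ = 0 := by
  rw [redO_eq_zero_iff]
  exact ⟨1, by simp⟩

/-- an element `ℓ ^ k * y` (`k ≥ 1`, `y ∈ O`) has zero reduction -/
lemma redO_eq_zero_of_eq_pow_mul {w : ↥(O ℓ F)} {k : ℕ} (hk : 0 < k) {y : ↥F} (hy : y ∈ O ℓ F)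
    (h : (w : ↥F) = (ℓ : ↥F) ^ k * y) : redO ℓ F w = 0 := by
  rw [redO_eq_zero_iff]
  refine ⟨⟨(ℓ : ↥F) ^ (k - 1) * y, (O ℓ F).mul_mem ((O ℓ F).pow_mem (natCast_mem_O ℓ) _) hy⟩, ?_⟩
  rw [h]
  show (ℓ : ↥F) ^ k * y = (ℓ : ↥F) * ((ℓ : ↥F) ^ (k - 1) * y)
  rw [← mul_assoc, ← pow_succ']
  congr 2
  omega

lemma natCast_ne_zero' : (ℓ : ↥F) ≠ 0 := by
  exact_mod_cast hℓ.out.ne_zero

/-- **(d)** Gauss content: a polynomial `c ∈ ℚ[X]` with `c(t) ∈ O` has `ℓ`-integral coefficients. -/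
theorem lifts_of_aeval_mem_O (t : ↥(A ℓ F)) (htr : Transcendental (ZMod ℓ) (redA ℓ F t))
    (c : ℚ[X]) (h : Polynomial.aeval (t : ↥F) c ∈ O ℓ F) :
    c ∈ Polynomial.lifts (algebraMap ↥(GaloisRep.ratLocalizedAt ℓ) ℚ) := by
  by_cases hc : c = 0
  · rw [hc]; exact Subsemiring.zero_mem _
  obtain ⟨e, w, hw, -, heq, hlift⟩ := Fermat.Agent.S28.GaussPoly.polyNorm t htr c hc
  apply hlift
  by_contra hneg
  push Not at hneg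
  apply hw
  have hℓ0 : (ℓ : ↥F) ≠ 0 := natCast_ne_zero'
  have hk : 0 < (-e).toNat := by omega
  have hw' : (w : ↥F) = (ℓ : ↥F) ^ (-e).toNat * Polynomial.aeval (t : ↥F) c := by
    rw [heq, ← mul_assoc, ← zpow_natCast, ← zpow_add₀ hℓ0, Int.toNat_of_nonneg (by omega)]
    simp
  have := redO_eq_zero_of_eq_pow_mul (w := ⟨(w : ↥F), A_le_O w.2⟩) hk h hw'
  rw [← redO_of_mem_A w]
  exact this

/-- **(b)** normal form of a nonzero element of `ℚ(t)`. -/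
theorem ratNorm (t : ↥(A ℓ F)) (htr : Transcendental (ZMod ℓ) (redA ℓ F t)) (c : ↥F)
    (hc : c ∈ ℚ⟮(t : ↥F)⟯) (hc0 : c ≠ 0) :
    ∃ (e : ℤ) (u : ↥(O ℓ F)), (u : ↥F) ∈ ℚ⟮(t : ↥F)⟯ ∧ redO ℓ F u ≠ 0 ∧
      redO ℓ F u ∈ (ZMod ℓ)⟮redA ℓ F t⟯ ∧ c = (ℓ : ↥F) ^ e * (u : ↥F) := by
  rw [IntermediateField.mem_adjoin_simple_iff] at hc
  obtain ⟨r, s, hrs⟩ := hc
  have hr : r ≠ 0 := by
    rintro rfl
    apply hc0
    rw [hrs]; simp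
  have hs : s ≠ 0 := by
    rintro rfl
    apply hc0
    rw [hrs]; simp
  obtain ⟨e1, w1, hw1, hw1a, heq1, -⟩ := Fermat.Agent.S28.GaussPoly.polyNorm t htr r hr
  obtain ⟨e2, w2, hw2, hw2a, heq2, -⟩ := Fermat.Agent.S28.GaussPoly.polyNorm t htr s hs
  have hℓ0 : (ℓ : ↥F) ≠ 0 := natCast_ne_zero'
  have hw20 : (w2 : ↥F) ≠ 0 := redA_ne_zero_imp_ne_zero hw2
  have huO : (w1 : ↥F) / (w2 : ↥F) ∈ O ℓ F := ⟨w1, w2, hw2, by field_simp⟩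
  have hred : redO ℓ F ⟨_, huO⟩ = redA ℓ F w1 / redA ℓ F w2 :=
    redO_eq ⟨_, huO⟩ (a := w1) (b := w2) hw2 (by field_simp)
  have hle : Algebra.adjoin (ZMod ℓ) {redA ℓ F t} ≤ ((ZMod ℓ)⟮redA ℓ F t⟯).toSubalgebra :=
    IntermediateField.algebra_adjoin_le_adjoin _ _
  refine ⟨e1 - e2, ⟨_, huO⟩, ?_, ?_, ?_, ?_⟩
  · -- membership in ℚ(t)
    show (w1 : ↥F) / (w2 : ↥F) ∈ ℚ⟮(t : ↥F)⟯
    have h1 : (w1 : ↥F) = ((ℓ : ↥F) ^ e1)⁻¹ * Polynomial.aeval (t : ↥F) r := by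
      rw [heq1, ← mul_assoc, inv_mul_cancel₀ (zpow_ne_zero _ hℓ0), one_mul]
    have h2 : (w2 : ↥F) = ((ℓ : ↥F) ^ e2)⁻¹ * Polynomial.aeval (t : ↥F) s := by
      rw [heq2, ← mul_assoc, inv_mul_cancel₀ (zpow_ne_zero _ hℓ0), one_mul]
    have hℓm : (ℓ : ↥F) ∈ ℚ⟮(t : ↥F)⟯ := _root_.natCast_mem _ ℓ
    have hav : ∀ p : ℚ[X], Polynomial.aeval (t : ↥F) p ∈ ℚ⟮(t : ↥F)⟯ := fun p =>
      IntermediateField.algebra_adjoin_le_adjoin ℚ _ (Polynomial.aeval_mem_adjoin_singleton ℚ _)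
    rw [h1, h2]
    exact div_mem (mul_mem (inv_mem (zpow_mem hℓm _)) (hav r))
      (mul_mem (inv_mem (zpow_mem hℓm _)) (hav s))
  · rw [hred]
    exact div_ne_zero hw1 hw2
  · rw [hred]
    exact div_mem (hle hw1a) (hle hw2a)
  · show c = (ℓ : ↥F) ^ (e1 - e2) * ((w1 : ↥F) / (w2 : ↥F))
    rw [hrs, heq1, heq2, zpow_sub₀ hℓ0]
    field_simp

end Norm

end Fermat.Agent.S28.QExpNormB
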