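import Fermat.Agent.S28.Interfaces

/-!
# S28 (Igusa): the frozen statement from the block interfaces

`igusa_of_chartDomain_glue` : (D) + (E) ⟹ frozen S28.
`igusa_of_blocks` : the whole chain.
-/

set_option autoImplicit false

open AlgebraicGeometry CategoryTheory CategoryTheory.Limits ModularCurve ModularCurve.IgusaScheme
open scoped TensorProduct

namespace Fermat.Agent.S28.Reduction

open Fermat.Agent.S28.Interfaces

set_option maxHeartbeats 4000000 in
set_option synthInstance.maxHeartbeats 400000 in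
/-- (D) + (E) ⟹ the frozen statement S28. -/
theorem igusa_of_chartDomain_glue (hD : ChartDomainStatement) (hE : GlueStatement)
    (N : ℕ) [NeZero N] (ℓ : ℕ) [Fact ℓ.Prime] (hℓN : ¬ ℓ ∣ N)
    (K : Type) [Field K] [CharP K ℓ] [Algebra ↥(GaloisRep.ratLocalizedAt ℓ) K] :
    IsIntegral ↑(pullback (igusaTo N ℓ)
      (Spec.map (CommRingCat.ofHom (algebraMap ↥(GaloisRep.ratLocalizedAt ℓ) K)))) := by
  obtain ⟨h1, h2, h3⟩ := hD N ℓ hℓN K
  exact hE N ℓ K h1 h2 (inferInstanceAs (Nontrivial _))

set_option maxHeartbeats 4000000 in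
set_option synthInstance.maxHeartbeats 400000 in
/-- The whole chain of the elementary route. -/
theorem igusa_of_blocks
    (hH2 : Haupt2Statement) (hH3 : Haupt3Statement) (hA : ModEqStatement)
    (hB : Haupt2Statement → Haupt3Statement → ModEqStatement → PrimeCaseStatement)
    (hC : ModEqStatement → PrimeCaseStatement → CoreDegreeStatement)
    (hC' : CoreDegreeStatement → CoreIndepStatement)
    (hQ : DegreeQStatement)
    (hD : CoreIndepStatement → DegreeQStatement → ChartDomainStatement)
    (hE : GlueStatement)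
    (N : ℕ) [NeZero N] (ℓ : ℕ) [Fact ℓ.Prime] (hℓN : ¬ ℓ ∣ N)
    (K : Type) [Field K] [CharP K ℓ] [Algebra ↥(GaloisRep.ratLocalizedAt ℓ) K] :
    IsIntegral ↑(pullback (igusaTo N ℓ)
      (Spec.map (CommRingCat.ofHom (algebraMap ↥(GaloisRep.ratLocalizedAt ℓ) K)))) :=
  igusa_of_chartDomain_glue (hD (hC' (hC hA (hB hH2 hH3 hA))) hQ) hE N ℓ hℓN K

end Fermat.Agent.S28.Reduction
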