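/-
S28, block (C) (tower), file 2: the orbit lemma.  A monic polynomial with `τ`-fixed coefficients
dividing `∏ (X - r b)`, where `τ` permutes the distinct roots `r b` cyclically, is `1` or the whole
product.  Owner: helper94.
-/
import Mathlib

set_option autoImplicit false

open Polynomial

namespace Fermat.Agent.S28.TowerOrbit

variable {E : Type*} [Field E]

/-- The orbit polynomial `∏_{b < p} (X - r b)`. -/
noncomputable def orbitPoly (p : ℕ) (r : ℕ → E) : E[X] :=
  ∏ b ∈ Finset.range p, (X - C (r b))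

theorem orbitPoly_monic (p : ℕ) (r : ℕ → E) : (orbitPoly p r).Monic :=
  monic_prod_of_monic _ _ fun b _ => monic_X_sub_C (r b)

theorem natDegree_orbitPoly (p : ℕ) (r : ℕ → E) : (orbitPoly p r).natDegree = p := by
  rw [orbitPoly, natDegree_prod_of_monic _ _ fun b _ => monic_X_sub_C (r b)]
  simp

theorem eval_orbitPoly_eq_zero {p : ℕ} (r : ℕ → E) {b : ℕ} (hb : b < p) :
    (orbitPoly p r).eval (r b) = 0 := by
  rw [orbitPoly, eval_prod]
  exact Finset.prod_eq_zero (Finset.mem_range.mpr hb) (by simp)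

theorem eval_orbitPoly_eq_zero_iff {p : ℕ} (r : ℕ → E) (x : E) :
    (orbitPoly p r).eval x = 0 ↔ ∃ b < p, x = r b := by
  rw [orbitPoly, eval_prod, Finset.prod_eq_zero_iff]
  constructor
  · rintro ⟨b, hb, h⟩
    refine ⟨b, Finset.mem_range.mp hb, ?_⟩
    rw [eval_sub, eval_X, eval_C, sub_eq_zero] at h
    exact h
  · rintro ⟨b, hb, rfl⟩
    exact ⟨b, Finset.mem_range.mpr hb, by simp⟩

/-- `τ`-fixed polynomials vanish on all of a cyclic `τ`-orbit or on none of it. -/
theorem all_or_none (τ : E →+* E) {p : ℕ} (r : ℕ → E)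
    (hτ : ∀ b < p, τ (r b) = r ((b + 1) % p)) (q : E[X]) (hq : q.map τ = q) :
    (∀ b < p, q.eval (r b) = 0) ∨ (∀ b < p, q.eval (r b) ≠ 0) := by
  by_cases h : ∃ b0 < p, q.eval (r b0) = 0
  · left
    obtain ⟨b0, hb0, h0⟩ := h
    have hp : 0 < p := lt_of_le_of_lt (Nat.zero_le _) hb0
    have key : ∀ n : ℕ, q.eval (r ((b0 + n) % p)) = 0 := by
      intro n
      induction n with
      | zero => rwa [add_zero, Nat.mod_eq_of_lt hb0]
      | succ n ih =>
        have h1 : τ (r ((b0 + n) % p)) = r ((b0 + (n + 1)) % p) := by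
          rw [hτ _ (Nat.mod_lt _ hp), Nat.add_mod ((b0 + n) % p) 1 p, Nat.mod_mod,
            ← Nat.add_mod, add_assoc]
        rw [← h1, ← hq, eval_map, eval₂_at_apply, ih, map_zero]
    intro b hb
    have : (b0 + (b + p - b0)) % p = b := by
      have : b0 + (b + p - b0) = b + p := by omega
      rw [this, Nat.add_mod_right, Nat.mod_eq_of_lt hb]
    rw [← this]
    exact key _
  · right
    intro b hb h0
    exact h ⟨b, hb, h0⟩

theorem orbitPoly_dvd {p : ℕ} (r : ℕ → E) (hinj : ∀ b < p, ∀ b' < p, r b = r b' → b = b')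
    {q : E[X]} (hall : ∀ b < p, q.eval (r b) = 0) : orbitPoly p r ∣ q := by
  refine Finset.prod_dvd_of_coprime ?_ ?_
  · intro b hb b' hb' hne
    refine isCoprime_X_sub_C_of_isUnit_sub ?_
    refine IsUnit.mk0 _ (sub_ne_zero.mpr fun h => hne ?_)
    exact hinj b (Finset.mem_range.mp hb) b' (Finset.mem_range.mp hb') h
  · intro b hb
    exact dvd_iff_isRoot.mpr (hall b (Finset.mem_range.mp hb))

theorem isCoprime_orbitPoly {p : ℕ} (r : ℕ → E) {q : E[X]}
    (hnone : ∀ b < p, q.eval (r b) ≠ 0) : IsCoprime q (orbitPoly p r) := by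
  refine IsCoprime.prod_right fun b hb => ?_
  refine IsCoprime.symm ?_
  refine (irreducible_X_sub_C (r b)).coprime_iff_not_dvd.mpr fun h => ?_
  exact hnone b (Finset.mem_range.mp hb) (dvd_iff_isRoot.mp h)

/-- **Orbit lemma.** -/
theorem eq_one_or_eq_orbitPoly (τ : E →+* E) {p : ℕ} (r : ℕ → E)
    (hinj : ∀ b < p, ∀ b' < p, r b = r b' → b = b')
    (hτ : ∀ b < p, τ (r b) = r ((b + 1) % p)) {q : E[X]} (hmonic : q.Monic)
    (hdvd : q ∣ orbitPoly p r) (hq : q.map τ = q) : q = 1 ∨ q = orbitPoly p r := by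
  rcases all_or_none τ r hτ q hq with hall | hnone
  · right
    exact eq_of_monic_of_associated hmonic (orbitPoly_monic p r)
      (associated_of_dvd_dvd hdvd (orbitPoly_dvd r hinj hall))
  · left
    have h1 : IsUnit q := (isCoprime_orbitPoly r hnone).isUnit_of_dvd' dvd_rfl hdvd
    exact hmonic.eq_one_of_isUnit h1

/-- **Orbit lemma with one extra fixed root.** -/
theorem eq_X_sub_C_of_dvd_mul (τ : E →+* E) {p : ℕ} (r : ℕ → E) (c0 : E)
    (hinj : ∀ b < p, ∀ b' < p, r b = r b' → b = b')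
    (hτ : ∀ b < p, τ (r b) = r ((b + 1) % p)) {q : E[X]} (hmonic : q.Monic)
    (hdvd : q ∣ (X - C c0) * orbitPoly p r) (hq : q.map τ = q)
    (hpos : 0 < q.natDegree) (hlt : q.natDegree < p) : q = X - C c0 := by
  rcases all_or_none τ r hτ q hq with hall | hnone
  · exfalso
    have h1 := natDegree_le_of_dvd (orbitPoly_dvd r hinj hall) hmonic.ne_zero
    rw [natDegree_orbitPoly] at h1
    omega
  · have h1 : q ∣ X - C c0 := (isCoprime_orbitPoly r hnone).dvd_of_dvd_mul_right hdvd
    have h2 : q.natDegree ≤ 1 := by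
      have := natDegree_le_of_dvd h1 (X_sub_C_ne_zero c0)
      rwa [natDegree_X_sub_C] at this
    have h3 : q.natDegree = (X - C c0).natDegree := by
      rw [natDegree_X_sub_C]; omega
    exact (eq_of_monic_of_dvd_of_natDegree_le hmonic (monic_X_sub_C c0) h1 (le_of_eq h3.symm)).symm

end Fermat.Agent.S28.TowerOrbit
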